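import Mathlib

/-!
# S55 / abstract layer: the Sylow dévissage principle

Let `G` be a group, `N ≤ U ≤ G` subgroups with `N` normal, `U` of finite index prime to `p`
and `U / N` a `p`-group (every element of `U` has a `p`-power power in `N`).  Let `P` be a
property of `𝔽_p`-representations of `G` which is

* closed under retracts (`h_ret`),
* closed under extensions (`h_ext`, elementary form: injective / surjective / exact in the middle),

both only required among finite modules on which `N` acts trivially (`Level p N`), and which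
holds for the base module `coind_U^G 𝔽_p` (functions on `U \ G`).  Then `P M` holds for every
finite `M` on which `N` acts trivially (`devissage`).

Proof: `M` is a retract of `coind_U^G res_U M` (unit, then normalised trace; the composite is
the index of `U`, a unit of `𝔽_p`); a `p`-group fixes a nonzero vector of a nonzero finite
`𝔽_p`-module, so `res_U M` is an iterated extension of trivial modules, and `coind_U^G` is exact.

`exists_sylow_level` produces such a `U` for every normal `N` of finite index.
-/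

set_option autoImplicit false

open CategoryTheory

namespace Fermat.Agent.S55.Abs.Devissage

variable {p : ℕ} [Fact p.Prime]

/-- A group acting linearly on a finite nonzero `𝔽_p`-vector space through a `p`-group
fixes a nonzero vector. -/
theorem exists_fixed_ne_zero {H V : Type*} [Group H] [AddCommGroup V] [Module (ZMod p) V]
    [Finite V] [Nontrivial V] (ρ : Representation (ZMod p) H V)
    (hρ : ∀ h : H, ∃ r : ℕ, ρ (h ^ p ^ r) = 1) :
    ∃ v : V, v ≠ 0 ∧ ∀ h : H, ρ h v = v := by
  classical
  let R : Subgroup (Module.End (ZMod p) V)ˣ := ρ.asGroupHom.range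
  have hR : IsPGroup p R := by
    rintro ⟨g, h, rfl⟩
    obtain ⟨r, hr⟩ := hρ h
    refine ⟨r, ?_⟩
    apply Subtype.ext
    apply Units.ext
    simp only [SubgroupClass.coe_pow, Units.val_pow_eq_pow_val, Subgroup.coe_one, Units.val_one]
    rw [← hr, map_pow]
    rfl
  have hdvd : p ∣ Nat.card V := by
    obtain ⟨v, hv⟩ := exists_ne (0 : V)
    have h1 : addOrderOf v = p := by
      apply addOrderOf_eq_prime
      · have : (p : ZMod p) • v = 0 := by simp
        rw [← this, Nat.cast_smul_eq_nsmul]
      · exact hv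
    rw [← h1]
    exact addOrderOf_dvd_natCard v
  have h0 : (0 : V) ∈ MulAction.fixedPoints R V := by
    intro g
    exact smul_zero g
  obtain ⟨b, hb, hb0⟩ := hR.exists_fixed_point_of_prime_dvd_card_of_fixed_point V hdvd h0
  refine ⟨b, fun h => hb0 h.symm, fun h => ?_⟩
  have := hb ⟨ρ.asGroupHom h, h, rfl⟩
  exact this

/-- Existence of the Sylow level: for `N` normal of finite index there is `U ≥ N` with
`U / N` a `p`-group and `[G : U]` prime to `p`. -/
theorem exists_sylow_level {G : Type*} [Group G] (N : Subgroup G) [N.Normal] [N.FiniteIndex] :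
    ∃ U : Subgroup G, N ≤ U ∧ U.FiniteIndex ∧ (∀ u ∈ U, ∃ r : ℕ, u ^ p ^ r ∈ N) ∧
      ¬ p ∣ U.index := by
  classical
  haveI : Finite (G ⧸ N) := Subgroup.finite_quotient_of_finiteIndex
  obtain ⟨P⟩ : Nonempty (Sylow p (G ⧸ N)) := inferInstance
  refine ⟨(P : Subgroup (G ⧸ N)).comap (QuotientGroup.mk' N), ?_, ?_, ?_, ?_⟩
  · intro n hn
    rw [Subgroup.mem_comap]
    have : QuotientGroup.mk' N n = 1 := (QuotientGroup.eq_one_iff n).2 hn
    rw [this]
    exact one_mem _
  · exact Subgroup.finiteIndex_of_le (H := N) (fun n hn => by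
      rw [Subgroup.mem_comap]
      have : QuotientGroup.mk' N n = 1 := (QuotientGroup.eq_one_iff n).2 hn
      rw [this]
      exact one_mem _)
  · intro u hu
    rw [Subgroup.mem_comap] at hu
    obtain ⟨r, hr⟩ := P.isPGroup' ⟨_, hu⟩
    refine ⟨r, ?_⟩
    have h2 : (QuotientGroup.mk' N u) ^ p ^ r = 1 := by
      have := congrArg Subtype.val hr
      simpa using this
    rw [← map_pow] at h2
    exact (QuotientGroup.eq_one_iff _).1 h2
  · rw [Subgroup.index_comap_of_surjective _ (QuotientGroup.mk'_surjective N)]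
    exact P.not_dvd_index

variable {G : Type} [Group G]

/-- `A` is finite over `𝔽_p` and the subgroup `N` acts trivially on it. -/
def Level (p : ℕ) [Fact p.Prime] (N : Subgroup G) (A : Rep.{0} (ZMod p) G) : Prop :=
  Module.Finite (ZMod p) A ∧ ∀ n ∈ N, A.ρ n = LinearMap.id

section Coind

variable (U : Subgroup G) (A : Rep.{0} (ZMod p) U)

lemma coind_ρ_apply (g : G) (f : Rep.coind U.subtype A) (h : G) :
    ((Rep.coind U.subtype A).ρ g f).1 h = f.1 (h * g) := rfl

lemma coind_mem (f : Rep.coind U.subtype A) (u : U) (h : G) :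
    f.1 ((u : G) * h) = A.ρ u (f.1 h) := f.2 u h

lemma coind_ext {f f' : Rep.coind U.subtype A} (h : ∀ g : G, f.1 g = f'.1 g) : f = f' :=
  Subtype.ext (funext h)

/-- evaluation at inverses of coset representatives -/
noncomputable def evalReps : (Rep.coind U.subtype A) →ₗ[ZMod p] (G ⧸ U → A) where
  toFun f := fun x => f.1 (Quotient.out x)⁻¹
  map_add' _ _ := rfl
  map_smul' _ _ := rfl

lemma evalReps_injective : Function.Injective (evalReps U A) := by
  intro f f' hff
  apply coind_ext
  intro g
  have h1 : ((Quotient.out (QuotientGroup.mk g⁻¹ : G ⧸ U)) : G)⁻¹ * g⁻¹ ∈ U :=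
    QuotientGroup.leftRel_apply.1 (Quotient.exact' (Quotient.out_eq' (QuotientGroup.mk g⁻¹ : G ⧸ U)))
  have h2 : g = ((⟨_, inv_mem h1⟩ : U) : G) * (Quotient.out (QuotientGroup.mk g⁻¹ : G ⧸ U))⁻¹ := by
    simp
  have h3 := congrFun hff (QuotientGroup.mk g⁻¹ : G ⧸ U)
  simp only [evalReps, LinearMap.coe_mk, AddHom.coe_mk] at h3
  rw [h2, coind_mem, coind_mem, h3]

lemma coind_finite [U.FiniteIndex] [Module.Finite (ZMod p) A] :
    Module.Finite (ZMod p) (Rep.coind U.subtype A) := by
  haveI : Finite (G ⧸ U) := Subgroup.finite_quotient_of_finiteIndex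
  exact Module.Finite.of_injective (evalReps U A) (evalReps_injective U A)

lemma coind_level [U.FiniteIndex] [Module.Finite (ZMod p) A] (N : Subgroup G) [N.Normal]
    (hNU : N ≤ U) (hA : ∀ u : U, (u : G) ∈ N → A.ρ u = LinearMap.id) :
    Level p N (Rep.coind U.subtype A) := by
  refine ⟨coind_finite U A, fun n hn => ?_⟩
  apply LinearMap.ext
  intro f
  apply coind_ext
  intro h
  rw [coind_ρ_apply]
  have h1 : h * n * h⁻¹ ∈ N := Subgroup.Normal.conj_mem inferInstance n hn h
  have h2 : h * n = ((⟨h * n * h⁻¹, hNU h1⟩ : U) : G) * h := by simp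
  rw [h2, coind_mem, hA _ h1]
  rfl

end Coind

section Retract

variable (U : Subgroup G) (M : Rep.{0} (ZMod p) G)

/-- The unit `M ⟶ coind_U^G res_U M`, `m ↦ (h ↦ ρ(h) m)`. -/
noncomputable def unitLin : M →ₗ[ZMod p] (Rep.coind U.subtype (Rep.res U.subtype M)) where
  toFun m := ⟨fun h => M.ρ h m, fun u h => by
    show M.ρ ((u : G) * h) m = M.ρ (u : G) (M.ρ h m)
    rw [map_mul]; rfl⟩
  map_add' m m' := by
    apply Subtype.ext
    funext h
    exact map_add (M.ρ h) m m'
  map_smul' c m := by
    apply Subtype.ext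
    funext h
    exact map_smul (M.ρ h) c m

lemma unitLin_apply (m : M) (h : G) : (unitLin U M m).1 h = M.ρ h m := rfl

noncomputable def unitHom : M ⟶ Rep.coind U.subtype (Rep.res U.subtype M) :=
  Rep.ofHom (LinearMap.intertwiningMap_of_isIntertwiningMap M.ρ
    (Rep.coind U.subtype (Rep.res U.subtype M)).ρ (unitLin U M) (fun g m => by
      apply Subtype.ext
      funext h
      show M.ρ h (M.ρ g m) = M.ρ (h * g) m
      rw [map_mul]; rfl))

lemma unitHom_apply (m : M) (h : G) : ((unitHom U M).hom m).1 h = M.ρ h m := rfl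

/-- the summand of the trace at the coset `gU`: `ρ(g) f(g⁻¹)` -/
noncomputable def traceTerm (f : Rep.coind U.subtype (Rep.res U.subtype M)) : G ⧸ U → M :=
  fun x => Quotient.liftOn' x (fun g => M.ρ g (f.1 g⁻¹)) (fun a b hab => by
    have h1 : a⁻¹ * b ∈ U := QuotientGroup.leftRel_apply.1 hab
    have h2 : a⁻¹ = ((⟨a⁻¹ * b, h1⟩ : U) : G) * b⁻¹ := by simp
    show M.ρ a (f.1 a⁻¹) = M.ρ b (f.1 b⁻¹)
    rw [h2, coind_mem]
    show M.ρ a (M.ρ (a⁻¹ * b) (f.1 b⁻¹)) = M.ρ b (f.1 b⁻¹)
    rw [← Module.End.mul_apply, ← map_mul]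
    simp)

lemma traceTerm_mk (f : Rep.coind U.subtype (Rep.res U.subtype M)) (g : G) :
    traceTerm U M f (QuotientGroup.mk g) = M.ρ g (f.1 g⁻¹) := rfl

variable [U.FiniteIndex]

noncomputable local instance fintypeQuot : Fintype (G ⧸ U) := Subgroup.fintypeQuotientOfFiniteIndex

/-- The trace `coind_U^G res_U M → M`, `f ↦ ∑_{gU} ρ(g) f(g⁻¹)`. -/
noncomputable def traceLin : (Rep.coind U.subtype (Rep.res U.subtype M)) →ₗ[ZMod p] M where
  toFun f := ∑ x : G ⧸ U, traceTerm U M f x
  map_add' f f' := by
    rw [← Finset.sum_add_distrib]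
    refine Finset.sum_congr rfl fun x _ => ?_
    induction x using QuotientGroup.induction_on with
    | H g =>
      rw [traceTerm_mk, traceTerm_mk, traceTerm_mk]
      exact map_add (M.ρ g) _ _
  map_smul' c f := by
    rw [RingHom.id_apply, Finset.smul_sum]
    refine Finset.sum_congr rfl fun x _ => ?_
    induction x using QuotientGroup.induction_on with
    | H g =>
      rw [traceTerm_mk, traceTerm_mk]
      exact map_smul (M.ρ g) c _

lemma traceLin_apply (f : Rep.coind U.subtype (Rep.res U.subtype M)) :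
    traceLin U M f = ∑ x : G ⧸ U, traceTerm U M f x := rfl

lemma traceLin_ρ (a : G) (f : Rep.coind U.subtype (Rep.res U.subtype M)) :
    traceLin U M ((Rep.coind U.subtype (Rep.res U.subtype M)).ρ a f) = M.ρ a (traceLin U M f) := by
  rw [traceLin_apply, traceLin_apply, map_sum]
  rw [← Equiv.sum_comp (MulAction.toPerm a⁻¹ : G ⧸ U ≃ G ⧸ U)
    (fun x => M.ρ a (traceTerm U M f x))]
  refine Finset.sum_congr rfl fun x _ => ?_
  induction x using QuotientGroup.induction_on with
  | H g =>
    show _ = M.ρ a (traceTerm U M f (a⁻¹ • (QuotientGroup.mk g : G ⧸ U)))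
    rw [MulAction.Quotient.smul_coe, traceTerm_mk, traceTerm_mk, coind_ρ_apply, smul_eq_mul,
      ← Module.End.mul_apply, ← map_mul]
    simp [mul_assoc]

lemma traceLin_unitLin (m : M) : traceLin U M (unitLin U M m) = (U.index : ZMod p) • m := by
  rw [traceLin_apply]
  have : ∀ x : G ⧸ U, traceTerm U M (unitLin U M m) x = m := by
    intro x
    induction x using QuotientGroup.induction_on with
    | H g =>
      rw [traceTerm_mk, unitLin_apply, ← Module.End.mul_apply, ← map_mul]
      simp
  rw [Finset.sum_congr rfl (fun x _ => this x), Finset.sum_const, Finset.card_univ,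
    Subgroup.index_eq_card, Nat.card_eq_fintype_card, Nat.cast_smul_eq_nsmul]

/-- The normalised trace `coind_U^G res_U M ⟶ M`. -/
noncomputable def retrHom : Rep.coind U.subtype (Rep.res U.subtype M) ⟶ M :=
  Rep.ofHom (LinearMap.intertwiningMap_of_isIntertwiningMap
    (Rep.coind U.subtype (Rep.res U.subtype M)).ρ M.ρ
    (((U.index : ZMod p))⁻¹ • traceLin U M) (fun g f => by
      show ((U.index : ZMod p))⁻¹ • traceLin U M _ = M.ρ g (((U.index : ZMod p))⁻¹ • traceLin U M f)
      rw [traceLin_ρ, map_smul]))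

lemma unitHom_retrHom (hU : ¬ p ∣ U.index) : unitHom U M ≫ retrHom U M = 𝟙 M := by
  have hne : (U.index : ZMod p) ≠ 0 := by
    rwa [Ne, ZMod.natCast_eq_zero_iff]
  apply Rep.hom_ext
  apply Representation.IntertwiningMap.ext
  apply LinearMap.ext
  intro m
  show ((U.index : ZMod p))⁻¹ • traceLin U M (unitLin U M m) = m
  rw [traceLin_unitLin, smul_smul, inv_mul_cancel₀ hne, one_smul]

end Retract

section Step

variable {U : Subgroup G} (A : Rep.{0} (ZMod p) U) (v : A)

/-- the line spanned by a fixed vector, as a map from the trivial module -/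
noncomputable def lineHom (hv : ∀ u : U, A.ρ u v = v) : Rep.trivial (ZMod p) U (ZMod p) ⟶ A :=
  Rep.ofHom (LinearMap.intertwiningMap_of_isIntertwiningMap
    (Representation.trivial (ZMod p) U (ZMod p)) A.ρ (LinearMap.toSpanSingleton (ZMod p) A v)
    (fun u c => by
      show c • v = A.ρ u (c • v)
      rw [map_smul, hv u]))

lemma lineHom_apply (hv : ∀ u : U, A.ρ u v = v) (c : ZMod p) : (lineHom A v hv).hom c = c • v := rfl

lemma span_le_comap (hv : ∀ u : U, A.ρ u v = v) (u : U) :
    Submodule.span (ZMod p) {v} ≤ (Submodule.span (ZMod p) {v}).comap (A.ρ u) := by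
  rw [Submodule.span_le]
  rintro x hx
  rw [Set.mem_singleton_iff] at hx
  subst hx
  show A.ρ u x ∈ Submodule.span (ZMod p) {x}
  rw [hv u]
  exact Submodule.mem_span_singleton_self x

/-- the quotient by the line spanned by a fixed vector -/
noncomputable def quotRep (hv : ∀ u : U, A.ρ u v = v) : Rep.{0} (ZMod p) U :=
  Rep.of (A.ρ.quotient (Submodule.span (ZMod p) {v}) (span_le_comap A v hv))

noncomputable def quotHom (hv : ∀ u : U, A.ρ u v = v) : A ⟶ quotRep A v hv :=
  Rep.ofHom (LinearMap.intertwiningMap_of_isIntertwiningMap A.ρ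
    (A.ρ.quotient (Submodule.span (ZMod p) {v}) (span_le_comap A v hv))
    (Submodule.mkQ (Submodule.span (ZMod p) {v})) (fun u a => rfl))

lemma quotHom_apply (hv : ∀ u : U, A.ρ u v = v) (a : A) :
    (quotHom A v hv).hom a = Submodule.Quotient.mk a := rfl

lemma quotHom_surjective (hv : ∀ u : U, A.ρ u v = v) : Function.Surjective (quotHom A v hv).hom :=
  Submodule.mkQ_surjective _

lemma coindMap_apply {A B : Rep.{0} (ZMod p) U} (f : A ⟶ B) (x : Rep.coind U.subtype A) (h : G) :
    ((Rep.coindMap U.subtype f).hom x).1 h = f.hom (x.1 h) := rfl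

lemma coindMap_quotHom_surjective (hv : ∀ u : U, A.ρ u v = v) :
    Function.Surjective (Rep.coindMap U.subtype (quotHom A v hv)).hom := by
  haveI : Epi (quotHom A v hv) := (Rep.epi_iff_surjective _).2 (quotHom_surjective A v hv)
  have : Epi ((Rep.coindFunctor (ZMod p) U.subtype).map (quotHom A v hv)) := inferInstance
  exact (Rep.epi_iff_surjective _).1 this

lemma coindMap_lineHom_injective (hv : ∀ u : U, A.ρ u v = v) (hv0 : v ≠ 0) :
    Function.Injective (Rep.coindMap U.subtype (lineHom A v hv)).hom := by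
  intro x y hxy
  apply coind_ext
  intro h
  have h1 := congrArg (fun z : Rep.coind U.subtype A => z.1 h) hxy
  simp only [coindMap_apply, lineHom_apply] at h1
  exact smul_left_injective (ZMod p) hv0 h1

lemma coindMap_exact (hv : ∀ u : U, A.ρ u v = v) (hv0 : v ≠ 0) (x : Rep.coind U.subtype A) :
    (Rep.coindMap U.subtype (quotHom A v hv)).hom x = 0 ↔
      ∃ y, (Rep.coindMap U.subtype (lineHom A v hv)).hom y = x := by
  constructor
  · intro hx
    have h1 : ∀ h : G, ∃ c : ZMod p, c • v = x.1 h := by
      intro h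
      have h2 := congrArg (fun z : Rep.coind U.subtype (quotRep A v hv) => z.1 h) hx
      simp only [coindMap_apply, quotHom_apply] at h2
      have h3 : x.1 h ∈ Submodule.span (ZMod p) {v} :=
        (Submodule.Quotient.mk_eq_zero _).1 h2
      exact Submodule.mem_span_singleton.1 h3
    choose c hc using h1
    refine ⟨⟨c, fun u h => ?_⟩, ?_⟩
    · show c ((u : G) * h) = c h
      apply smul_left_injective (ZMod p) hv0
      show c ((u : G) * h) • v = c h • v
      rw [hc, hc, coind_mem, ← hc h, map_smul, hv u]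
    · apply coind_ext
      intro h
      rw [coindMap_apply, lineHom_apply]
      exact hc h
  · rintro ⟨y, rfl⟩
    apply coind_ext
    intro h
    rw [coindMap_apply, coindMap_apply, lineHom_apply, quotHom_apply]
    exact (Submodule.Quotient.mk_eq_zero _).2
      (Submodule.smul_mem _ _ (Submodule.mem_span_singleton_self v))

end Step

section Main

variable (N U : Subgroup G) [N.Normal] [U.FiniteIndex]

/-- The induction: every finite `N`-trivial `U`-module `A` has `P (coind_U^G A)`. -/
theorem coind_induction (hNU : N ≤ U) (hU : ∀ u ∈ U, ∃ r : ℕ, u ^ p ^ r ∈ N)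
    (P : Rep.{0} (ZMod p) G → Prop)
    (h_ret : ∀ (A B : Rep.{0} (ZMod p) G) (i : A ⟶ B) (r : B ⟶ A), i ≫ r = 𝟙 A →
      Level p N A → Level p N B → P B → P A)
    (h_ext : ∀ (A B C : Rep.{0} (ZMod p) G) (f : A ⟶ B) (g : B ⟶ C),
      Function.Injective f.hom → Function.Surjective g.hom →
      (∀ b, g.hom b = 0 ↔ ∃ a, f.hom a = b) →
      Level p N A → Level p N B → Level p N C → P A → P C → P B)
    (h_base : P (Rep.coind U.subtype (Rep.trivial (ZMod p) U (ZMod p)))) :
    ∀ (d : ℕ) (A : Rep.{0} (ZMod p) U) [Module.Finite (ZMod p) A],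
      Module.finrank (ZMod p) A = d → (∀ u : U, (u : G) ∈ N → A.ρ u = LinearMap.id) →
      P (Rep.coind U.subtype A) := by
  have hbase_level : Level p N (Rep.coind U.subtype (Rep.trivial (ZMod p) U (ZMod p))) :=
    coind_level U _ N hNU (fun u _ => rfl)
  intro d
  induction d with
  | zero =>
    intro A _ hd hA
    have hsub : ∀ x : A, x = 0 := finrank_zero_iff_forall_zero.1 hd
    have hsub' : ∀ f : Rep.coind U.subtype A, f = 0 := fun f =>
      coind_ext U A (fun g => (hsub _).trans (hsub _).symm)
    refine h_ret _ _ 0 0 ?_ (coind_level U A N hNU hA) hbase_level h_base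
    apply Rep.hom_ext
    apply Representation.IntertwiningMap.ext
    apply LinearMap.ext
    intro f
    exact (hsub' _).trans (hsub' _).symm
  | succ d ih =>
    intro A _ hd hA
    haveI : Finite A := Module.finite_of_finite (ZMod p)
    haveI : Nontrivial A := by
      apply Module.nontrivial_of_finrank_pos (R := ZMod p)
      rw [hd]; exact Nat.succ_pos d
    obtain ⟨v, hv0, hv⟩ := exists_fixed_ne_zero (p := p) A.ρ (fun u => by
      obtain ⟨r, hr⟩ := hU u u.2
      refine ⟨r, ?_⟩
      have := hA (u ^ p ^ r) (by simpa using hr)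
      rw [this]; rfl)
    have hC : ∀ u : U, (u : G) ∈ N → (quotRep A v hv).ρ u = LinearMap.id := by
      intro u hu
      apply LinearMap.ext
      intro x
      induction x using Submodule.Quotient.induction_on with
      | H a =>
        show Submodule.Quotient.mk (A.ρ u a) = Submodule.Quotient.mk a
        rw [hA u hu]; rfl
    haveI : Module.Finite (ZMod p) (quotRep A v hv) :=
      inferInstanceAs (Module.Finite (ZMod p) (A ⧸ Submodule.span (ZMod p) {v}))
    have hdC : Module.finrank (ZMod p) (quotRep A v hv) = d := by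
      have h1 := Submodule.finrank_quotient_add_finrank (Submodule.span (ZMod p) {v})
      rw [finrank_span_singleton hv0, hd] at h1
      exact Nat.succ_injective h1
    exact h_ext _ _ _ (Rep.coindMap U.subtype (lineHom A v hv))
      (Rep.coindMap U.subtype (quotHom A v hv))
      (coindMap_lineHom_injective A v hv hv0) (coindMap_quotHom_surjective A v hv)
      (coindMap_exact A v hv hv0) hbase_level (coind_level U A N hNU hA)
      (coind_level U _ N hNU hC) h_base (ih (quotRep A v hv) hdC hC)

end Main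

section Final

variable (N U : Subgroup G) [N.Normal] [U.FiniteIndex]

/-- **Sylow dévissage principle.** -/
theorem devissage (hNU : N ≤ U) (hU : ∀ u ∈ U, ∃ r : ℕ, u ^ p ^ r ∈ N) (hGU : ¬ p ∣ U.index)
    (P : Rep.{0} (ZMod p) G → Prop)
    (h_ret : ∀ (A B : Rep.{0} (ZMod p) G) (i : A ⟶ B) (r : B ⟶ A), i ≫ r = 𝟙 A →
      Level p N A → Level p N B → P B → P A)
    (h_ext : ∀ (A B C : Rep.{0} (ZMod p) G) (f : A ⟶ B) (g : B ⟶ C),
      Function.Injective f.hom → Function.Surjective g.hom →
      (∀ b, g.hom b = 0 ↔ ∃ a, f.hom a = b) →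
      Level p N A → Level p N B → Level p N C → P A → P C → P B)
    (h_base : P (Rep.coind U.subtype (Rep.trivial (ZMod p) U (ZMod p))))
    (M : Rep.{0} (ZMod p) G) [Module.Finite (ZMod p) M] (hM : ∀ n ∈ N, M.ρ n = LinearMap.id) :
    P M := by
  haveI : Module.Finite (ZMod p) (Rep.res U.subtype M) := ‹Module.Finite (ZMod p) M›
  have hres : ∀ u : U, (u : G) ∈ N → (Rep.res U.subtype M).ρ u = LinearMap.id :=
    fun u hu => hM u hu
  exact h_ret M _ (unitHom U M) (retrHom U M) (unitHom_retrHom U M hGU) ⟨inferInstance, hM⟩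
    (coind_level U _ N hNU hres)
    (coind_induction N U hNU hU P h_ret h_ext h_base _ (Rep.res U.subtype M) rfl hres)

/-- Variant quantifying over all Sylow levels `U` of `N` (one exists by `exists_sylow_level`). -/
theorem devissage_sylow (N : Subgroup G) [N.Normal] [N.FiniteIndex]
    (P : Rep.{0} (ZMod p) G → Prop)
    (h_ret : ∀ (A B : Rep.{0} (ZMod p) G) (i : A ⟶ B) (r : B ⟶ A), i ≫ r = 𝟙 A →
      Level p N A → Level p N B → P B → P A)
    (h_ext : ∀ (A B C : Rep.{0} (ZMod p) G) (f : A ⟶ B) (g : B ⟶ C),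
      Function.Injective f.hom → Function.Surjective g.hom →
      (∀ b, g.hom b = 0 ↔ ∃ a, f.hom a = b) →
      Level p N A → Level p N B → Level p N C → P A → P C → P B)
    (h_base : ∀ U : Subgroup G, N ≤ U → U.FiniteIndex → (∀ u ∈ U, ∃ r : ℕ, u ^ p ^ r ∈ N) →
      ¬ p ∣ U.index → P (Rep.coind U.subtype (Rep.trivial (ZMod p) U (ZMod p))))
    (M : Rep.{0} (ZMod p) G) [Module.Finite (ZMod p) M] (hM : ∀ n ∈ N, M.ρ n = LinearMap.id) :
    P M := by
  obtain ⟨U, hNU, hfin, hU, hGU⟩ := exists_sylow_level (p := p) N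
  exact devissage N U hNU hU hGU P h_ret h_ext (h_base U hNU hfin hU hGU) M hM

end Final

end Fermat.Agent.S55.Abs.Devissage
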