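import Mathlib
import Fermat.Prelude.Def_GroupCohomology_ContinuousUnramified
import Fermat.Agent.S55.Glue.DualTwist
import Fermat.Agent.S55.Abs.Devissage

/-!
# S55 / abstract layer: the dévissage principle for `Gal(ℚ̄/ℚ)`

`devissage_GQ`: let `P` be a property of `𝔽_p`-representations of `Gq = Gal(ℚ̄/ℚ)` which is
closed under retracts and under extensions among finite modules trivial on `Fix(F)`
(for every finite Galois `F/ℚ` unramified outside `S`), and which holds for the base modules
`coind_{Fix K}^{Gq} 𝔽_p` for every finite `K/ℚ`, unramified outside `S`, containing `μ_p`.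
Then `P M` for every `M` satisfying the literal hypotheses `hsm`, `hMur` of S55.
-/

set_option autoImplicit false

open CategoryTheory groupCohomology IntermediateField ExtCitation

namespace Fermat.Agent.S55.Abs.Devissage

local notation "Qb" => AlgebraicClosure ℚ
local notation "Gq" => (AlgebraicClosure ℚ ≃ₐ[ℚ] AlgebraicClosure ℚ)

open Fermat.Agent.S55.Glue

theorem isGalois_Qb' : IsGalois ℚ Qb :=
  haveI : IsAlgClosure ℚ Qb := AlgebraicClosure.instIsAlgClosure ℚ
  IsAlgClosure.isGalois ℚ Qb

attribute [local instance] isGalois_Qb'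

/-- An element with trivial mod `p` cyclotomic character fixes the `p`-th roots of unity. -/
theorem mem_fixingSubgroup_cycloField_of_cycloChar (p : ℕ) [Fact p.Prime] {s : Gq}
    (hs : cycloChar p s = 1) : s ∈ (cycloField p).fixingSubgroup := by
  have : NeZero p := ⟨(Fact.out : p.Prime).ne_zero⟩
  rw [mem_fixingSubgroup_cycloField_iff]
  intro x hx
  have hx0 : x ≠ 0 := by
    rintro rfl
    rw [zero_pow (Fact.out : p.Prime).ne_zero] at hx
    exact zero_ne_one hx
  have ht : (Units.mk0 x hx0) ∈ rootsOfUnity p Qb := by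
    rw [mem_rootsOfUnity]
    apply Units.ext
    rw [Units.val_pow_eq_pow_val, Units.val_mk0, hx, Units.val_one]
  have h1 := modularCyclotomicCharacter.spec Qb (card_rootsOfUnity_eq_self p)
    (s : Qb ≃+* Qb) ht
  have h2' : modularCyclotomicCharacter Qb (card_rootsOfUnity_eq_self p)
      (s : Qb ≃+* Qb) = 1 := hs
  have h2 : (modularCyclotomicCharacter Qb (card_rootsOfUnity_eq_self p)
      (s : Qb ≃+* Qb) : ZMod p) = 1 := by
    rw [h2', Units.val_one]
  rw [h2, ZMod.val_one, pow_one] at h1
  exact h1

/-- A subgroup containing the fixing subgroup of a finite extension is the fixing subgroup of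
its fixed field. -/
theorem fixingSubgroup_fixedField_of_le {F : IntermediateField ℚ Qb} [FiniteDimensional ℚ F]
    {U : Subgroup Gq} (hFU : F.fixingSubgroup ≤ U) :
    (IntermediateField.fixedField U).fixingSubgroup = U := by
  have hopen : IsOpen (U : Set Gq) :=
    Subgroup.isOpen_mono hFU (IntermediateField.fixingSubgroup_isOpen F)
  have hclosed : IsClosed (U : Set Gq) := Subgroup.isClosed_of_isOpen U hopen
  exact InfiniteGalois.fixingSubgroup_fixedField ⟨U, hclosed⟩

theorem fixedField_le_of_le {F : IntermediateField ℚ Qb}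
    {U : Subgroup Gq} (hFU : F.fixingSubgroup ≤ U) :
    IntermediateField.fixedField U ≤ F := by
  have h1 : IntermediateField.fixedField U ≤ IntermediateField.fixedField F.fixingSubgroup :=
    IntermediateField.fixedField_antitone hFU
  rwa [InfiniteGalois.fixedField_fixingSubgroup] at h1

variable {S : Finset Nat.Primes}

/-- **Dévissage principle for `Gal(ℚ̄/ℚ)`** (literal S55 hypotheses on `M`). -/
theorem devissage_GQ (p : ℕ) [Fact p.Prime] (hpS : pPrime p ∈ S)
    (P : Rep.{0} (ZMod p) Gq → Prop)
    (h_ret : ∀ F : IntermediateField ℚ Qb, F.IsUnramifiedOutside S → Normal ℚ F →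
      cycloField p ≤ F →
      ∀ (A B : Rep.{0} (ZMod p) Gq) (i : A ⟶ B) (r : B ⟶ A), i ≫ r = 𝟙 A →
      Level p F.fixingSubgroup A → Level p F.fixingSubgroup B → P B → P A)
    (h_ext : ∀ F : IntermediateField ℚ Qb, F.IsUnramifiedOutside S → Normal ℚ F →
      cycloField p ≤ F →
      ∀ (A B C : Rep.{0} (ZMod p) Gq) (f : A ⟶ B) (g : B ⟶ C),
      Function.Injective f.hom → Function.Surjective g.hom →
      (∀ b, g.hom b = 0 ↔ ∃ a, f.hom a = b) →
      Level p F.fixingSubgroup A → Level p F.fixingSubgroup B → Level p F.fixingSubgroup C →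
      P A → P C → P B)
    (h_base : ∀ K : IntermediateField ℚ Qb, K.IsUnramifiedOutside S → cycloField p ≤ K →
      P (Rep.coind K.fixingSubgroup.subtype
        (Rep.trivial (ZMod p) K.fixingSubgroup (ZMod p))))
    (M : Rep.{0} (ZMod p) Gq) [FiniteDimensional (ZMod p) M]
    (hsm : ∀ m : M, ∃ F : IntermediateField ℚ Qb, FiniteDimensional ℚ F ∧
      ∀ s ∈ F.fixingSubgroup, M.ρ s m = m)
    (hMur : ∀ q : Nat.Primes, q ∉ S → ∀ A : ValuationSubring Qb,
      A.LiesOverPrime (q : ℕ) → ∀ g ∈ A.inertiaSubgroupIn ℚ, M.ρ g = 1) :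
    P M := by
  obtain ⟨F₁, hF₁, hn, hc, hM, hχ, -⟩ := exists_common_level p hpS M hsm hMur
  haveI := hn
  haveI : FiniteDimensional ℚ F₁ := hF₁.1
  haveI hnormal : (F₁.fixingSubgroup).Normal := by
    rw [fixingSubgroup_eq_ker]
    exact MonoidHom.normal_ker _
  haveI hfin : (F₁.fixingSubgroup).FiniteIndex := by
    rw [fixingSubgroup_eq_ker]
    infer_instance
  refine devissage_sylow (p := p) F₁.fixingSubgroup P (h_ret F₁ hF₁ hn hc) (h_ext F₁ hF₁ hn hc)
    (fun U hNU _ hU _ => ?_) M (fun n hn => hM n hn)
  have hUfix : (IntermediateField.fixedField U).fixingSubgroup = U :=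
    fixingSubgroup_fixedField_of_le hNU
  have hK : (IntermediateField.fixedField U).IsUnramifiedOutside S :=
    hF₁.of_le (fixedField_le_of_le hNU)
  have hcyc : cycloField p ≤ IntermediateField.fixedField U := by
    have h1 : U ≤ (cycloField p).fixingSubgroup := by
      intro u hu
      apply mem_fixingSubgroup_cycloField_of_cycloChar
      obtain ⟨r, hr⟩ := hU u hu
      have h2 : cycloChar p u ^ p ^ r = 1 := by
        rw [← map_pow]; exact hχ _ hr
      have h3 : (cycloChar p u : ZMod p) ^ p ^ r = (cycloChar p u : ZMod p) := ZMod.pow_card_pow _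
      apply Units.ext
      rw [← h3, ← Units.val_pow_eq_pow_val, h2]
    have h4 := IntermediateField.fixedField_antitone h1
    rwa [InfiniteGalois.fixedField_fixingSubgroup] at h4
  have := h_base _ hK hcyc
  rw [hUfix] at this
  exact this

end Fermat.Agent.S55.Abs.Devissage
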