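/-
S55 / PROGRAM CFT, abstract layer (helper235).

Pure linear algebra: the two "four lemmas" for bilinear pairings that drive the devissage,
plus closure under retracts and binary biproducts.  No finiteness hypotheses:
* `PairEpi P`  : every linear functional on the right factor is represented by the left factor;
* `PairMono P` : the left kernel of `P` is zero.
-/
import Mathlib

set_option autoImplicit false

namespace Fermat.Agent.S55.Abs

variable {k : Type*} [Field k]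

section Defs

variable {X T : Type*} [AddCommGroup X] [Module k X] [AddCommGroup T] [Module k T]

/-- Every functional on `T` is of the form `P x`. -/
def PairEpi (P : X →ₗ[k] T →ₗ[k] k) : Prop :=
  ∀ φ : T →ₗ[k] k, ∃ x : X, ∀ t, φ t = P x t

/-- The left kernel of `P` is trivial. -/
def PairMono (P : X →ₗ[k] T →ₗ[k] k) : Prop :=
  ∀ x : X, (∀ t, P x t = 0) → x = 0

end Defs

/-- A functional vanishing on `ker f` factors through `f` (vector spaces). -/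
theorem exists_factor_of_ker_le {T T' : Type*} [AddCommGroup T] [Module k T]
    [AddCommGroup T'] [Module k T'] (f : T →ₗ[k] T') (θ : T →ₗ[k] k)
    (h : ∀ t, f t = 0 → θ t = 0) : ∃ ψ : T' →ₗ[k] k, ∀ t, θ t = ψ (f t) := by
  have hmem : θ ∈ (LinearMap.ker f).dualAnnihilator := by
    rw [Submodule.mem_dualAnnihilator]
    intro t ht
    exact h t (LinearMap.mem_ker.1 ht)
  rw [← LinearMap.range_dualMap_eq_dualAnnihilator_ker] at hmem
  obtain ⟨ψ, hψ⟩ := hmem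
  refine ⟨ψ, fun t => ?_⟩
  rw [← hψ]
  rfl

section FourLemmas

variable {X1 X2 X3 X4 T1 T2 T3 T4 : Type*}
  [AddCommGroup X1] [Module k X1] [AddCommGroup X2] [Module k X2]
  [AddCommGroup X3] [Module k X3] [AddCommGroup X4] [Module k X4]
  [AddCommGroup T1] [Module k T1] [AddCommGroup T2] [Module k T2]
  [AddCommGroup T3] [Module k T3] [AddCommGroup T4] [Module k T4]

/-- **Four lemma, epi form.**
Rows `X1 -f-> X2 -g-> X3 -h-> X4` and `T4 -h'-> T3 -g'-> T2 -f'-> T1`, pairings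
`P_i : X_i × T_i → k`, adjoint up to nonzero constants.  If `P1`, `P3` are epi and `P4` is mono,
the `X`-row is exact at `X3`, the `T`-row is exact at `T2` and a complex at `T3`,
then `P2` is epi. -/
theorem pairEpi_four
    (f : X1 →ₗ[k] X2) (g : X2 →ₗ[k] X3) (h : X3 →ₗ[k] X4)
    (f' : T2 →ₗ[k] T1) (g' : T3 →ₗ[k] T2) (h' : T4 →ₗ[k] T3)
    (P1 : X1 →ₗ[k] T1 →ₗ[k] k) (P2 : X2 →ₗ[k] T2 →ₗ[k] k)
    (P3 : X3 →ₗ[k] T3 →ₗ[k] k) (P4 : X4 →ₗ[k] T4 →ₗ[k] k)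
    (c1 c2 c3 : k) (hc1 : c1 ≠ 0)
    (adj1 : ∀ x t, P2 (f x) t = c1 * P1 x (f' t))
    (adj2 : ∀ x t, P3 (g x) t = c2 * P2 x (g' t))
    (adj3 : ∀ x t, P4 (h x) t = c3 * P3 x (h' t))
    (exX3 : ∀ x, h x = 0 → ∃ y, g y = x)
    (exT2 : ∀ t, f' t = 0 → ∃ s, g' s = t)
    (cpxT3 : ∀ t, g' (h' t) = 0)
    (e1 : PairEpi P1) (e3 : PairEpi P3) (m4 : PairMono P4) : PairEpi P2 := by
  intro φ
  obtain ⟨β, hβ⟩ := e3 (φ ∘ₗ g')
  have hβ0 : h β = 0 := by
    apply m4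
    intro t
    rw [adj3, ← hβ]
    simp [cpxT3]
  obtain ⟨m, rfl⟩ := exX3 β hβ0
  -- θ := φ - c2 • P2 m vanishes on range g', hence on ker f'
  obtain ⟨ψ, hψ⟩ := exists_factor_of_ker_le f' (φ - c2 • P2 m) (by
    intro t ht
    obtain ⟨s, rfl⟩ := exT2 t ht
    have := hβ s
    simp only [LinearMap.comp_apply] at this
    simp [this, adj2])
  obtain ⟨α, hα⟩ := e1 ψ
  refine ⟨c2 • m + c1⁻¹ • f α, fun t => ?_⟩
  have h1 := hψ t
  simp only [LinearMap.sub_apply, LinearMap.smul_apply, smul_eq_mul] at h1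
  simp only [map_add, map_smul, LinearMap.add_apply, LinearMap.smul_apply, smul_eq_mul, adj1,
    ← hα]
  rw [← mul_assoc, inv_mul_cancel₀ hc1, one_mul, ← h1]
  ring

/-- **Four lemma, mono form.**
Rows `X1 -f-> X2 -g-> X3 -h-> X4` and `T4 -h'-> T3 -g'-> T2 -f'-> T1`.
If `P1` is epi, `P2` and `P4` are mono, the `X`-row is exact at `X3` and a complex at `X2`,
the `T`-row is exact at `T2`, then `P3` is mono. -/
theorem pairMono_four
    (f : X1 →ₗ[k] X2) (g : X2 →ₗ[k] X3) (h : X3 →ₗ[k] X4)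
    (f' : T2 →ₗ[k] T1) (g' : T3 →ₗ[k] T2) (h' : T4 →ₗ[k] T3)
    (P1 : X1 →ₗ[k] T1 →ₗ[k] k) (P2 : X2 →ₗ[k] T2 →ₗ[k] k)
    (P3 : X3 →ₗ[k] T3 →ₗ[k] k) (P4 : X4 →ₗ[k] T4 →ₗ[k] k)
    (c1 c2 c3 : k) (hc1 : c1 ≠ 0) (hc2 : c2 ≠ 0)
    (adj1 : ∀ x t, P2 (f x) t = c1 * P1 x (f' t))
    (adj2 : ∀ x t, P3 (g x) t = c2 * P2 x (g' t))
    (adj3 : ∀ x t, P4 (h x) t = c3 * P3 x (h' t))
    (exX3 : ∀ x, h x = 0 → ∃ y, g y = x)
    (cpxX2 : ∀ x, g (f x) = 0)
    (exT2 : ∀ t, f' t = 0 → ∃ s, g' s = t)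
    (e1 : PairEpi P1) (m2 : PairMono P2) (m4 : PairMono P4) : PairMono P3 := by
  intro x hx
  have hx0 : h x = 0 := by
    apply m4
    intro t
    rw [adj3, hx, mul_zero]
  obtain ⟨α, rfl⟩ := exX3 x hx0
  obtain ⟨ψ, hψ⟩ := exists_factor_of_ker_le f' (P2 α) (by
    intro t ht
    obtain ⟨s, rfl⟩ := exT2 t ht
    have := hx s
    rw [adj2] at this
    exact (mul_eq_zero.1 this).resolve_left hc2)
  obtain ⟨β, hβ⟩ := e1 ψ
  have hα : f β - c1 • α = 0 := by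
    apply m2
    intro t
    simp only [map_sub, map_smul, LinearMap.sub_apply, LinearMap.smul_apply, smul_eq_mul, adj1,
      ← hβ, hψ t, sub_self]
  have hα' : α = c1⁻¹ • f β := by
    rw [sub_eq_zero] at hα
    rw [hα, smul_smul, inv_mul_cancel₀ hc1, one_smul]
  rw [hα', map_smul, cpxX2, smul_zero]

end FourLemmas

section Retract

variable {X Y T W : Type*}
  [AddCommGroup X] [Module k X] [AddCommGroup Y] [Module k Y]
  [AddCommGroup T] [Module k T] [AddCommGroup W] [Module k W]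

/-- `PairEpi` passes to retracts: `X -i-> Y -r-> X`, `T -r'-> W -i'-> T` with `i' ∘ r' = id`. -/
theorem pairEpi_retract (r : Y →ₗ[k] X) (r' : T →ₗ[k] W) (i' : W →ₗ[k] T)
    (P : X →ₗ[k] T →ₗ[k] k) (Q : Y →ₗ[k] W →ₗ[k] k)
    (hi' : ∀ t, i' (r' t) = t)
    (adj : ∀ y t, P (r y) t = Q y (r' t))
    (e : PairEpi Q) : PairEpi P := by
  intro φ
  obtain ⟨y, hy⟩ := e (φ ∘ₗ i')
  refine ⟨r y, fun t => ?_⟩
  rw [adj, ← hy]
  simp [hi']

/-- `PairMono` passes to retracts: `X -i-> Y -r-> X` with `r ∘ i = id`. -/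
theorem pairMono_retract (i : X →ₗ[k] Y) (r : Y →ₗ[k] X) (i' : W →ₗ[k] T)
    (P : X →ₗ[k] T →ₗ[k] k) (Q : Y →ₗ[k] W →ₗ[k] k)
    (hi : ∀ x, r (i x) = x)
    (adj : ∀ x w, Q (i x) w = P x (i' w))
    (m : PairMono Q) : PairMono P := by
  intro x hx
  have : i x = 0 := m _ fun w => by rw [adj, hx]
  rw [← hi x, this, map_zero]

end Retract

section Biprod

variable {X XA XB T TA TB : Type*}
  [AddCommGroup X] [Module k X] [AddCommGroup XA] [Module k XA] [AddCommGroup XB] [Module k XB]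
  [AddCommGroup T] [Module k T] [AddCommGroup TA] [Module k TA] [AddCommGroup TB] [Module k TB]

/-- `PairEpi` for a biproduct: `X ⊇ XA, XB` via `iA, iB`; `T` decomposes via
`T -pA-> TA -jA-> T`, `T -pB-> TB -jB-> T` with `jA ∘ pA + jB ∘ pB = id`. -/
theorem pairEpi_biprod (iA : XA →ₗ[k] X) (iB : XB →ₗ[k] X)
    (pA : T →ₗ[k] TA) (pB : T →ₗ[k] TB) (jA : TA →ₗ[k] T) (jB : TB →ₗ[k] T)
    (P : X →ₗ[k] T →ₗ[k] k) (PA : XA →ₗ[k] TA →ₗ[k] k) (PB : XB →ₗ[k] TB →ₗ[k] k)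
    (hsum : ∀ t, jA (pA t) + jB (pB t) = t)
    (adjA : ∀ x t, P (iA x) t = PA x (pA t))
    (adjB : ∀ x t, P (iB x) t = PB x (pB t))
    (eA : PairEpi PA) (eB : PairEpi PB) : PairEpi P := by
  intro φ
  obtain ⟨a, ha⟩ := eA (φ ∘ₗ jA)
  obtain ⟨b, hb⟩ := eB (φ ∘ₗ jB)
  refine ⟨iA a + iB b, fun t => ?_⟩
  rw [map_add, LinearMap.add_apply, adjA, adjB, ← ha, ← hb]
  simp only [LinearMap.comp_apply]
  rw [← map_add, hsum]

end Biprod

end Fermat.Agent.S55.Abs
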