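/-
S55 / PROGRAM CFT, abstract layer (helper235).

Level families on a group ("abstract profinite structure"), level-constant cochains in degrees
1, 2, 3, the low-degree level cohomology spaces `H1 𝒰 M`, `H2 𝒰 M` and their functoriality.

The Prelude predicates `IsLevelConstantS₁ S`, `IsLevelConstant₁ r`, ... are instances
(see `Abs/Bridge.lean`).
-/
import Mathlib
import Fermat.Agent.S55.Abs.FourLemma

set_option autoImplicit false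

open CategoryTheory groupCohomology

namespace Fermat.Agent.S55.Abs

/-- A family of "open" subgroups: nonempty, directed downwards, with cofinal normal members,
all of finite index. -/
structure LevelFamily (G : Type) [Group G] where
  sets : Set (Subgroup G)
  nonempty : sets.Nonempty
  inter : ∀ U ∈ sets, ∀ V ∈ sets, ∃ W ∈ sets, W ≤ U ⊓ V
  normal : ∀ U ∈ sets, ∃ W ∈ sets, W ≤ U ∧ W.Normal
  finiteIndex : ∀ U ∈ sets, U.FiniteIndex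

variable {G : Type} [Group G] (𝒰 : LevelFamily G)

/-- `f : G → X` is right-invariant under some member of the family. -/
def IsLev₁ {X : Type*} (f : G → X) : Prop :=
  ∃ U ∈ 𝒰.sets, ∀ g s, s ∈ U → f (g * s) = f g

def IsLev₂ {X : Type*} (f : G × G → X) : Prop :=
  ∃ U ∈ 𝒰.sets, ∀ g g' s s', s ∈ U → s' ∈ U → f (g * s, g' * s') = f (g, g')

def IsLev₃ {X : Type*} (f : G × G × G → X) : Prop :=
  ∃ U ∈ 𝒰.sets, ∀ g g' g'' s s' s'', s ∈ U → s' ∈ U → s'' ∈ U →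
    f (g * s, g' * s', g'' * s'') = f (g, g', g'')

variable {𝒰}

lemma IsLev₁.add {X : Type*} [Add X] {f f' : G → X} (hf : IsLev₁ 𝒰 f) (hf' : IsLev₁ 𝒰 f') :
    IsLev₁ 𝒰 (f + f') := by
  obtain ⟨U, hU, h⟩ := hf
  obtain ⟨U', hU', h'⟩ := hf'
  obtain ⟨W, hW, hle⟩ := 𝒰.inter U hU U' hU'
  exact ⟨W, hW, fun g s hs => by
    simp only [Pi.add_apply]; rw [h g s (hle hs).1, h' g s (hle hs).2]⟩

lemma IsLev₂.add {X : Type*} [Add X] {f f' : G × G → X} (hf : IsLev₂ 𝒰 f) (hf' : IsLev₂ 𝒰 f') :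
    IsLev₂ 𝒰 (f + f') := by
  obtain ⟨U, hU, h⟩ := hf
  obtain ⟨U', hU', h'⟩ := hf'
  obtain ⟨W, hW, hle⟩ := 𝒰.inter U hU U' hU'
  exact ⟨W, hW, fun g g' s s' hs hs' => by
    simp only [Pi.add_apply]
    rw [h g g' s s' (hle hs).1 (hle hs').1, h' g g' s s' (hle hs).2 (hle hs').2]⟩

lemma IsLev₃.add {X : Type*} [Add X] {f f' : G × G × G → X} (hf : IsLev₃ 𝒰 f)
    (hf' : IsLev₃ 𝒰 f') : IsLev₃ 𝒰 (f + f') := by
  obtain ⟨U, hU, h⟩ := hf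
  obtain ⟨U', hU', h'⟩ := hf'
  obtain ⟨W, hW, hle⟩ := 𝒰.inter U hU U' hU'
  exact ⟨W, hW, fun g g' g'' s s' s'' hs hs' hs'' => by
    simp only [Pi.add_apply]
    rw [h g g' g'' s s' s'' (hle hs).1 (hle hs').1 (hle hs'').1,
      h' g g' g'' s s' s'' (hle hs).2 (hle hs').2 (hle hs'').2]⟩

lemma IsLev₁.comp {X Y : Type*} {f : G → X} (hf : IsLev₁ 𝒰 f) (φ : X → Y) :
    IsLev₁ 𝒰 (φ ∘ f) := by
  obtain ⟨U, hU, h⟩ := hf
  exact ⟨U, hU, fun g s hs => by simp only [Function.comp_apply, h g s hs]⟩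

lemma IsLev₂.comp {X Y : Type*} {f : G × G → X} (hf : IsLev₂ 𝒰 f) (φ : X → Y) :
    IsLev₂ 𝒰 (φ ∘ f) := by
  obtain ⟨U, hU, h⟩ := hf
  exact ⟨U, hU, fun g g' s s' hs hs' => by simp only [Function.comp_apply, h g g' s s' hs hs']⟩

lemma IsLev₃.comp {X Y : Type*} {f : G × G × G → X} (hf : IsLev₃ 𝒰 f) (φ : X → Y) :
    IsLev₃ 𝒰 (φ ∘ f) := by
  obtain ⟨U, hU, h⟩ := hf
  exact ⟨U, hU, fun g g' g'' s s' s'' hs hs' hs'' => by
    simp only [Function.comp_apply, h g g' g'' s s' s'' hs hs' hs'']⟩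

variable (𝒰)

lemma isLev₁_const {X : Type*} (x : X) : IsLev₁ 𝒰 (fun _ : G => x) := by
  obtain ⟨U, hU⟩ := 𝒰.nonempty
  exact ⟨U, hU, fun _ _ _ => rfl⟩

lemma isLev₂_const {X : Type*} (x : X) : IsLev₂ 𝒰 (fun _ : G × G => x) := by
  obtain ⟨U, hU⟩ := 𝒰.nonempty
  exact ⟨U, hU, fun _ _ _ _ _ _ => rfl⟩

lemma isLev₃_const {X : Type*} (x : X) : IsLev₃ 𝒰 (fun _ : G × G × G => x) := by
  obtain ⟨U, hU⟩ := 𝒰.nonempty
  exact ⟨U, hU, fun _ _ _ _ _ _ _ _ _ => rfl⟩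

variable {k : Type} [Field k] (M : Rep.{0} k G)

/-- Level 1-cochains. -/
def C1 : Submodule k (G → M) where
  carrier := {f | IsLev₁ 𝒰 f}
  add_mem' hf hf' := hf.add hf'
  zero_mem' := isLev₁_const 𝒰 (0 : M)
  smul_mem' c _ hf := hf.comp (c • ·)

/-- Level 2-cochains. -/
def C2 : Submodule k (G × G → M) where
  carrier := {f | IsLev₂ 𝒰 f}
  add_mem' hf hf' := hf.add hf'
  zero_mem' := isLev₂_const 𝒰 (0 : M)
  smul_mem' c _ hf := hf.comp (c • ·)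

/-- Level 3-cochains. -/
def C3 : Submodule k (G × G × G → M) where
  carrier := {f | IsLev₃ 𝒰 f}
  add_mem' hf hf' := hf.add hf'
  zero_mem' := isLev₃_const 𝒰 (0 : M)
  smul_mem' c _ hf := hf.comp (c • ·)

lemma mem_C1_iff (f : G → M) : f ∈ C1 𝒰 M ↔ IsLev₁ 𝒰 f := Iff.rfl
lemma mem_C2_iff (f : G × G → M) : f ∈ C2 𝒰 M ↔ IsLev₂ 𝒰 f := Iff.rfl
lemma mem_C3_iff (f : G × G × G → M) : f ∈ C3 𝒰 M ↔ IsLev₃ 𝒰 f := Iff.rfl

/-- Level 1-cocycles. -/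
def Z1 : Submodule k (G → M) := C1 𝒰 M ⊓ cocycles₁ M

/-- Level 2-cocycles. -/
def Z2 : Submodule k (G × G → M) := C2 𝒰 M ⊓ cocycles₂ M

/-- Level 2-coboundaries: `d` of level 1-cochains. -/
def B2 : Submodule k (G × G → M) := (C1 𝒰 M).map (d₁₂ M).hom

/-- Level 3-coboundaries: `d` of level 2-cochains. -/
def B3 : Submodule k (G × G × G → M) := (C2 𝒰 M).map (d₂₃ M).hom

/-- `H¹` of level cochains (cocycles modulo all coboundaries `g ↦ g m - m`). -/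
abbrev H1 : Type := ↥(Z1 𝒰 M) ⧸ (coboundaries₁ M).comap (Z1 𝒰 M).subtype

/-- `H²` of level cochains. -/
abbrev H2 : Type := ↥(Z2 𝒰 M) ⧸ (B2 𝒰 M).comap (Z2 𝒰 M).subtype

/-- The module is discrete: some member of the family acts trivially. -/
def IsDisc : Prop := ∃ U ∈ 𝒰.sets, ∀ s ∈ U, ∀ m : M, M.ρ s m = m

variable {𝒰} {M}

/-! ### Functoriality in the coefficients -/

variable {N : Rep.{0} k G}

/-- Push-forward of 1-cochains along a morphism of representations. -/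
def cmap₁ (φ : M ⟶ N) : (G → M) →ₗ[k] (G → N) := φ.hom.toLinearMap.compLeft G

/-- Push-forward of 2-cochains. -/
def cmap₂ (φ : M ⟶ N) : (G × G → M) →ₗ[k] (G × G → N) := φ.hom.toLinearMap.compLeft (G × G)

/-- Push-forward of 3-cochains. -/
def cmap₃ (φ : M ⟶ N) : (G × G × G → M) →ₗ[k] (G × G × G → N) :=
  φ.hom.toLinearMap.compLeft (G × G × G)

@[simp] lemma cmap₁_apply (φ : M ⟶ N) (f : G → M) (g : G) : cmap₁ φ f g = φ.hom (f g) := rfl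
@[simp] lemma cmap₂_apply (φ : M ⟶ N) (f : G × G → M) (g : G × G) :
    cmap₂ φ f g = φ.hom (f g) := rfl
@[simp] lemma cmap₃_apply (φ : M ⟶ N) (f : G × G × G → M) (g : G × G × G) :
    cmap₃ φ f g = φ.hom (f g) := rfl

lemma cmap₁_mem_Z1 (φ : M ⟶ N) {f : G → M} (hf : f ∈ Z1 𝒰 M) : cmap₁ φ f ∈ Z1 𝒰 N := by
  refine ⟨hf.1.comp _, ?_⟩
  have h2 := (mem_cocycles₁_iff f).1 hf.2
  refine (mem_cocycles₁_iff _).2 fun g h => ?_
  simp only [cmap₁_apply, h2 g h, map_add, Rep.hom_comm_apply]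

lemma cmap₁_mem_coboundaries₁ (φ : M ⟶ N) {f : G → M} (hf : f ∈ coboundaries₁ M) :
    cmap₁ φ f ∈ coboundaries₁ N := by
  obtain ⟨m, rfl⟩ := hf
  refine ⟨φ.hom m, ?_⟩
  ext g
  simp [d₀₁_hom_apply, Rep.hom_comm_apply]

lemma cmap₂_d₁₂ (φ : M ⟶ N) (f : G → M) :
    cmap₂ φ ((d₁₂ M).hom f) = (d₁₂ N).hom (cmap₁ φ f) := by
  ext ⟨g, h⟩
  simp [d₁₂_hom_apply, Rep.hom_comm_apply]

lemma cmap₃_d₂₃ (φ : M ⟶ N) (f : G × G → M) :
    cmap₃ φ ((d₂₃ M).hom f) = (d₂₃ N).hom (cmap₂ φ f) := by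
  ext ⟨g, h, j⟩
  simp [d₂₃_hom_apply, Rep.hom_comm_apply]

lemma cmap₂_mem_Z2 (φ : M ⟶ N) {f : G × G → M} (hf : f ∈ Z2 𝒰 M) : cmap₂ φ f ∈ Z2 𝒰 N := by
  refine ⟨hf.1.comp _, ?_⟩
  have h2 : (d₂₃ M).hom f = 0 := hf.2
  show (d₂₃ N).hom (cmap₂ φ f) = 0
  rw [← cmap₃_d₂₃, h2, map_zero]

lemma cmap₂_mem_B2 (φ : M ⟶ N) {f : G × G → M} (hf : f ∈ B2 𝒰 M) : cmap₂ φ f ∈ B2 𝒰 N := by
  obtain ⟨c, hc, rfl⟩ := hf
  exact ⟨cmap₁ φ c, hc.comp _, (cmap₂_d₁₂ φ c).symm⟩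

variable (𝒰) in
/-- `H¹(φ)`. -/
def H1map (φ : M ⟶ N) : H1 𝒰 M →ₗ[k] H1 𝒰 N :=
  Submodule.mapQ _ _ ((cmap₁ φ).restrict fun _ hf => cmap₁_mem_Z1 φ hf) fun _ hf =>
    cmap₁_mem_coboundaries₁ φ hf

variable (𝒰) in
/-- `H²(φ)`. -/
def H2map (φ : M ⟶ N) : H2 𝒰 M →ₗ[k] H2 𝒰 N :=
  Submodule.mapQ _ _ ((cmap₂ φ).restrict fun _ hf => cmap₂_mem_Z2 φ hf) fun _ hf =>
    cmap₂_mem_B2 φ hf

/-! ### Restriction along a level-continuous homomorphism -/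

variable {H : Type} [Group H]

/-- `r : H → G` is continuous for the level families. -/
def IsLevelMap (𝒱 : LevelFamily H) (𝒰 : LevelFamily G) (r : H →* G) : Prop :=
  ∀ U ∈ 𝒰.sets, ∃ V ∈ 𝒱.sets, V ≤ U.comap r

lemma IsLev₁.precomp {𝒱 : LevelFamily H} {r : H →* G} (hr : IsLevelMap 𝒱 𝒰 r) {X : Type*}
    {f : G → X} (hf : IsLev₁ 𝒰 f) : IsLev₁ 𝒱 (f ∘ r) := by
  obtain ⟨U, hU, h⟩ := hf
  obtain ⟨V, hV, hle⟩ := hr U hU
  exact ⟨V, hV, fun g s hs => by simp only [Function.comp_apply, map_mul]; exact h _ _ (hle hs)⟩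

lemma IsLev₂.precomp {𝒱 : LevelFamily H} {r : H →* G} (hr : IsLevelMap 𝒱 𝒰 r) {X : Type*}
    {f : G × G → X} (hf : IsLev₂ 𝒰 f) : IsLev₂ 𝒱 (f ∘ Prod.map r r) := by
  obtain ⟨U, hU, h⟩ := hf
  obtain ⟨V, hV, hle⟩ := hr U hU
  exact ⟨V, hV, fun g g' s s' hs hs' => by
    simp only [Function.comp_apply, Prod.map_apply, map_mul]; exact h _ _ _ _ (hle hs) (hle hs')⟩

lemma IsLev₃.precomp {𝒱 : LevelFamily H} {r : H →* G} (hr : IsLevelMap 𝒱 𝒰 r) {X : Type*}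
    {f : G × G × G → X} (hf : IsLev₃ 𝒰 f) :
    IsLev₃ 𝒱 (f ∘ Prod.map r (Prod.map r r)) := by
  obtain ⟨U, hU, h⟩ := hf
  obtain ⟨V, hV, hle⟩ := hr U hU
  exact ⟨V, hV, fun g g' g'' s s' s'' hs hs' hs'' => by
    simp only [Function.comp_apply, Prod.map_apply, map_mul]
    exact h _ _ _ _ _ _ (hle hs) (hle hs') (hle hs'')⟩

/-! ### Descending a bilinear map to subquotients -/

section Descend

variable {E F W : Type*} [AddCommGroup E] [Module k E] [AddCommGroup F] [Module k F]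
  [AddCommGroup W] [Module k W]

/-- A bilinear map `β : E × F → W` with `β(ZE, ZF) ⊆ ZW`, `β(BE ∩ ZE, ZF) ⊆ BW`,
`β(ZE, BF ∩ ZF) ⊆ BW` descends to `ZE/BE × ZF/BF → ZW/BW`. -/
noncomputable def descend₂ (β : E →ₗ[k] F →ₗ[k] W)
    (ZE BE : Submodule k E) (ZF BF : Submodule k F) (ZW BW : Submodule k W)
    (hZ : ∀ e ∈ ZE, ∀ f ∈ ZF, β e f ∈ ZW)
    (hBE : ∀ e ∈ ZE, e ∈ BE → ∀ f ∈ ZF, β e f ∈ BW)
    (hBF : ∀ e ∈ ZE, ∀ f ∈ ZF, f ∈ BF → β e f ∈ BW) :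
    (↥ZE ⧸ BE.comap ZE.subtype) →ₗ[k] (↥ZF ⧸ BF.comap ZF.subtype) →ₗ[k]
      (↥ZW ⧸ BW.comap ZW.subtype) :=
  Submodule.liftQ _
    { toFun := fun (e : ↥ZE) => Submodule.liftQ _
        ((Submodule.mkQ _) ∘ₗ ((β e.1).domRestrict ZF).codRestrict ZW
          (fun f => hZ e.1 e.2 f.1 f.2))
        (fun f hf => by
          rw [LinearMap.mem_ker, LinearMap.comp_apply, Submodule.mkQ_apply,
            Submodule.Quotient.mk_eq_zero]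
          exact hBF e.1 e.2 f.1 f.2 hf)
      map_add' := fun e e' => by
        apply Submodule.linearMap_qext; ext f
        show (Submodule.Quotient.mk (⟨β (e + e').1 f.1, hZ _ (e + e').2 _ f.2⟩ : ↥ZW) :
            ↥ZW ⧸ BW.comap ZW.subtype) =
          Submodule.Quotient.mk (⟨β e.1 f.1, hZ _ e.2 _ f.2⟩ : ↥ZW) +
            Submodule.Quotient.mk (⟨β e'.1 f.1, hZ _ e'.2 _ f.2⟩ : ↥ZW)
        rw [← Submodule.Quotient.mk_add]
        congr 1; ext; simp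
      map_smul' := fun c e => by
        apply Submodule.linearMap_qext; ext f
        show (Submodule.Quotient.mk (⟨β (c • e).1 f.1, hZ _ (c • e).2 _ f.2⟩ : ↥ZW) :
            ↥ZW ⧸ BW.comap ZW.subtype) =
          c • Submodule.Quotient.mk (⟨β e.1 f.1, hZ _ e.2 _ f.2⟩ : ↥ZW)
        rw [← Submodule.Quotient.mk_smul]
        congr 1; ext; simp }
    (fun e he => by
      rw [LinearMap.mem_ker]
      apply Submodule.linearMap_qext; ext f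
      show (Submodule.Quotient.mk (⟨β e.1 f.1, hZ _ e.2 _ f.2⟩ : ↥ZW) :
          ↥ZW ⧸ BW.comap ZW.subtype) = 0
      rw [Submodule.Quotient.mk_eq_zero]
      exact hBE e.1 e.2 he f.1 f.2)

@[simp] lemma descend₂_mk (β : E →ₗ[k] F →ₗ[k] W)
    (ZE BE : Submodule k E) (ZF BF : Submodule k F) (ZW BW : Submodule k W)
    (hZ : ∀ e ∈ ZE, ∀ f ∈ ZF, β e f ∈ ZW)
    (hBE : ∀ e ∈ ZE, e ∈ BE → ∀ f ∈ ZF, β e f ∈ BW)
    (hBF : ∀ e ∈ ZE, ∀ f ∈ ZF, f ∈ BF → β e f ∈ BW) (e : ↥ZE) (f : ↥ZF) :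
    descend₂ β ZE BE ZF BF ZW BW hZ hBE hBF (Submodule.Quotient.mk e) (Submodule.Quotient.mk f)
      = Submodule.Quotient.mk ⟨β e.1 f.1, hZ e.1 e.2 f.1 f.2⟩ := rfl

end Descend

end Fermat.Agent.S55.Abs
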