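/-
S55 / PROGRAM CFT, abstract layer (helper235).

Cup products of inhomogeneous cochains in low degrees with respect to an equivariant pairing
`β : A × B → C`, and the Leibniz identities needed for the Poitou–Tate pairings.
Convention: `(a ∪ b)(g₁..g_{p+q}) = β (a (g₁..g_p)) ((g₁⋯g_p) • b (g_{p+1}..))`.
-/
import Fermat.Agent.S55.Abs.Level
import Fermat.Prelude.Def_GroupCohomology_Selmer

set_option autoImplicit false

open CategoryTheory groupCohomology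

namespace Fermat.Agent.S55.Abs

variable {k G : Type} [Field k] [Group G]

/-- A `G`-equivariant bilinear pairing `A × B → C`. -/
structure EqPairing (A B C : Rep.{0} k G) where
  toFun : A →ₗ[k] B →ₗ[k] C
  equivariant : ∀ (g : G) (a : A) (b : B), toFun (A.ρ g a) (B.ρ g b) = C.ρ g (toFun a b)

/-- Restriction of an equivariant pairing along a homomorphism. -/
def EqPairing.res {A B C : Rep.{0} k G} (β : EqPairing A B C) {H : Type} [Group H] (r : H →* G) :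
    EqPairing (Rep.res r A) (Rep.res r B) (Rep.res r C) where
  toFun := β.toFun
  equivariant h a b := β.equivariant (r h) a b

/-- `k` with `G` acting through the character `χ` (the module `μ`). -/
noncomputable abbrev muRep (χ : G →* kˣ) : Rep.{0} k G :=
  Rep.of ((Representation.trivial k G k).twist χ)

lemma muRep_ρ_apply (χ : G →* kˣ) (g : G) (x : k) : (muRep χ).ρ g x = (χ g : k) * x := rfl

/-- The evaluation pairing `M × M^*(χ) → μ`. -/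
noncomputable def evPairing (χ : G →* kˣ) (M : Rep.{0} k G) :
    EqPairing M (M.dualTwist χ) (muRep χ) where
  toFun := LinearMap.mk₂ k (fun (m : M) (f : Module.Dual k M) => f m)
    (fun _ _ f => map_add f _ _) (fun c _ f => map_smul f c _)
    (fun _ _ _ => rfl) (fun _ _ _ => rfl)
  equivariant g a b := by
    show ((M.dualTwist χ).ρ g b) (M.ρ g a) = (muRep χ).ρ g _
    rw [Rep.dualTwist_ρ_apply, muRep_ρ_apply]
    simp [LinearMap.mk₂_apply, ← Module.End.mul_apply, ← map_mul]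

@[simp] lemma evPairing_apply (χ : G →* kˣ) (M : Rep.{0} k G) (m : M) (f : Module.Dual k M) :
    (evPairing χ M).toFun m f = f m := rfl

section Cups

variable {A B C : Rep.{0} k G} (β : EqPairing A B C)

/-- `C⁰ × C¹ → C¹`. -/
def cup01 : A →ₗ[k] (G → B) →ₗ[k] (G → C) :=
  LinearMap.mk₂ k (fun a y g => β.toFun a (y g))
    (fun _ _ _ => by ext; simp) (fun _ _ _ => by ext; simp)
    (fun _ _ _ => by ext; simp) (fun _ _ _ => by ext; simp)

/-- `C⁰ × C² → C²`. -/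
def cup02 : A →ₗ[k] (G × G → B) →ₗ[k] (G × G → C) :=
  LinearMap.mk₂ k (fun a y p => β.toFun a (y p))
    (fun _ _ _ => by ext; simp) (fun _ _ _ => by ext; simp)
    (fun _ _ _ => by ext; simp) (fun _ _ _ => by ext; simp)

/-- `C¹ × C⁰ → C¹`. -/
def cup10 : (G → A) →ₗ[k] B →ₗ[k] (G → C) :=
  LinearMap.mk₂ k (fun a t g => β.toFun (a g) (B.ρ g t))
    (fun _ _ _ => by ext; simp) (fun _ _ _ => by ext; simp)
    (fun _ _ _ => by ext; simp) (fun _ _ _ => by ext; simp)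

/-- `C² × C⁰ → C²`. -/
def cup20 : (G × G → A) →ₗ[k] B →ₗ[k] (G × G → C) :=
  LinearMap.mk₂ k (fun a t p => β.toFun (a p) (B.ρ (p.1 * p.2) t))
    (fun _ _ _ => by ext; simp) (fun _ _ _ => by ext; simp)
    (fun _ _ _ => by ext; simp) (fun _ _ _ => by ext; simp)

/-- `C¹ × C¹ → C²`. -/
def cup11 : (G → A) →ₗ[k] (G → B) →ₗ[k] (G × G → C) :=
  LinearMap.mk₂ k (fun a y p => β.toFun (a p.1) (B.ρ p.1 (y p.2)))
    (fun _ _ _ => by ext; simp) (fun _ _ _ => by ext; simp)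
    (fun _ _ _ => by ext; simp) (fun _ _ _ => by ext; simp)

/-- `C² × C¹ → C³`. -/
def cup21 : (G × G → A) →ₗ[k] (G → B) →ₗ[k] (G × G × G → C) :=
  LinearMap.mk₂ k (fun a y p => β.toFun (a (p.1, p.2.1)) (B.ρ (p.1 * p.2.1) (y p.2.2)))
    (fun _ _ _ => by ext; simp) (fun _ _ _ => by ext; simp)
    (fun _ _ _ => by ext; simp) (fun _ _ _ => by ext; simp)

/-- `C¹ × C² → C³`. -/
def cup12 : (G → A) →ₗ[k] (G × G → B) →ₗ[k] (G × G × G → C) :=
  LinearMap.mk₂ k (fun a y p => β.toFun (a p.1) (B.ρ p.1 (y (p.2.1, p.2.2))))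
    (fun _ _ _ => by ext; simp) (fun _ _ _ => by ext; simp)
    (fun _ _ _ => by ext; simp) (fun _ _ _ => by ext; simp)

@[simp] lemma cup01_apply (a : A) (y : G → B) (g : G) : cup01 β a y g = β.toFun a (y g) := rfl
@[simp] lemma cup02_apply (a : A) (y : G × G → B) (p : G × G) :
    cup02 β a y p = β.toFun a (y p) := rfl
@[simp] lemma cup10_apply (a : G → A) (t : B) (g : G) :
    cup10 β a t g = β.toFun (a g) (B.ρ g t) := rfl
@[simp] lemma cup20_apply (a : G × G → A) (t : B) (p : G × G) :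
    cup20 β a t p = β.toFun (a p) (B.ρ (p.1 * p.2) t) := rfl
@[simp] lemma cup11_apply (a : G → A) (y : G → B) (p : G × G) :
    cup11 β a y p = β.toFun (a p.1) (B.ρ p.1 (y p.2)) := rfl
@[simp] lemma cup21_apply (a : G × G → A) (y : G → B) (p : G × G × G) :
    cup21 β a y p = β.toFun (a (p.1, p.2.1)) (B.ρ (p.1 * p.2.1) (y p.2.2)) := rfl
@[simp] lemma cup12_apply (a : G → A) (y : G × G → B) (p : G × G × G) :
    cup12 β a y p = β.toFun (a p.1) (B.ρ p.1 (y (p.2.1, p.2.2))) := rfl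

/-! ### Leibniz identities (paper-checked; see the header of `Abs/Pairing.lean` for their use) -/

/-- (L-A) `d(b ∪ y) = db ∪ y - b ∪ dy` for `b, y` of degree 1. -/
theorem d₂₃_cup11 (b : G → A) (y : G → B) :
    (d₂₃ C).hom (cup11 β b y) = cup21 β ((d₁₂ A).hom b) y - cup12 β b ((d₁₂ B).hom y) := by
  funext ⟨g, h, j⟩
  simp only [d₂₃_hom_apply, d₁₂_hom_apply, cup11_apply, cup21_apply, cup12_apply, Pi.sub_apply,
    ← β.equivariant, map_sub, map_add, LinearMap.sub_apply, LinearMap.add_apply, map_mul,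
    Module.End.mul_apply]
  abel

/-- (L-B) `d(f ∪ y) = df ∪ y + f ∪ dy` for `f` of degree 0, `y` of degree 1. -/
theorem d₁₂_cup01 (f : A) (y : G → B) :
    (d₁₂ C).hom (cup01 β f y) = cup11 β ((d₀₁ A).hom f) y + cup02 β f ((d₁₂ B).hom y) := by
  funext ⟨g, h⟩
  simp only [d₁₂_hom_apply, d₀₁_hom_apply, cup01_apply, cup11_apply, cup02_apply, Pi.add_apply,
    ← β.equivariant, map_sub, map_add, LinearMap.sub_apply]
  abel

/-- (L-C) `d(a ∪ t) = a ∪ dt` for a 2-cocycle `a` and `t` of degree 0. -/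
theorem d₂₃_cup20 (a : G × G → A) (ha : a ∈ cocycles₂ A) (t : B) :
    (d₂₃ C).hom (cup20 β a t) = cup21 β a ((d₀₁ B).hom t) := by
  funext ⟨g, h, j⟩
  have hc := (mem_cocycles₂_iff a).1 ha g h j
  have hc' : A.ρ g (a (h, j)) = a (g * h, j) + a (g, h) - a (g, h * j) := by
    rw [hc]; abel
  simp only [d₂₃_hom_apply, d₀₁_hom_apply, cup20_apply, cup21_apply,
    ← β.equivariant, hc', map_sub, map_add, LinearMap.sub_apply, LinearMap.add_apply, map_mul,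
    Module.End.mul_apply, mul_assoc]
  abel

/-- (L-D) `d(b ∪ t) = db ∪ t - b ∪ dt` for `b` of degree 1, `t` of degree 0. -/
theorem d₁₂_cup10 (b : G → A) (t : B) :
    (d₁₂ C).hom (cup10 β b t) = cup20 β ((d₁₂ A).hom b) t - cup11 β b ((d₀₁ B).hom t) := by
  funext ⟨g, h⟩
  simp only [d₁₂_hom_apply, d₀₁_hom_apply, cup10_apply, cup20_apply, cup11_apply, Pi.sub_apply,
    ← β.equivariant, map_sub, map_add, LinearMap.sub_apply, LinearMap.add_apply, map_mul,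
    Module.End.mul_apply]
  abel

/-- (L-E) `d(b ∪ y) = db ∪ y` for `b` of degree 0 and a 2-cocycle `y`. -/
theorem d₂₃_cup02 (b : A) (y : G × G → B) (hy : y ∈ cocycles₂ B) :
    (d₂₃ C).hom (cup02 β b y) = cup12 β ((d₀₁ A).hom b) y := by
  funext ⟨g, h, j⟩
  have hc := (mem_cocycles₂_iff y).1 hy g h j
  have hc' : B.ρ g (y (h, j)) = y (g * h, j) + y (g, h) - y (g, h * j) := by
    rw [hc]; abel
  simp only [d₂₃_hom_apply, d₀₁_hom_apply, cup02_apply, cup12_apply,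
    ← β.equivariant, hc', map_sub, map_add, LinearMap.sub_apply]
  abel

/-! ### Cup products preserve level cochains -/

variable (𝒰 : LevelFamily G)

theorem cup01_mem_C1 (a : A) {y : G → B} (hy : y ∈ C1 𝒰 B) : cup01 β a y ∈ C1 𝒰 C :=
  hy.comp (β.toFun a)

theorem cup02_mem_C2 (a : A) {y : G × G → B} (hy : y ∈ C2 𝒰 B) : cup02 β a y ∈ C2 𝒰 C :=
  hy.comp (β.toFun a)

theorem cup10_mem_C1 (hB : IsDisc 𝒰 B) {a : G → A} (ha : a ∈ C1 𝒰 A) (t : B) :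
    cup10 β a t ∈ C1 𝒰 C := by
  obtain ⟨U, hU, h⟩ := ha
  obtain ⟨V, hV, hV'⟩ := hB
  obtain ⟨W, hW, hle⟩ := 𝒰.inter U hU V hV
  refine ⟨W, hW, fun g s hs => ?_⟩
  simp only [cup10_apply]
  rw [h g s (hle hs).1, map_mul, Module.End.mul_apply, hV' s (hle hs).2]

theorem cup20_mem_C2 (hB : IsDisc 𝒰 B) {a : G × G → A} (ha : a ∈ C2 𝒰 A) (t : B) :
    cup20 β a t ∈ C2 𝒰 C := by
  obtain ⟨U, hU, h⟩ := ha
  obtain ⟨V, hV, hV'⟩ := hB
  obtain ⟨W, hW, hle⟩ := 𝒰.inter U hU V hV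
  refine ⟨W, hW, fun g g' s s' hs hs' => ?_⟩
  simp only [cup20_apply]
  rw [h g g' s s' (hle hs).1 (hle hs').1]
  simp only [map_mul, Module.End.mul_apply, hV' s (hle hs).2, hV' s' (hle hs').2]

theorem cup11_mem_C2 (hB : IsDisc 𝒰 B) {a : G → A} (ha : a ∈ C1 𝒰 A) {y : G → B}
    (hy : y ∈ C1 𝒰 B) : cup11 β a y ∈ C2 𝒰 C := by
  obtain ⟨U, hU, h⟩ := ha
  obtain ⟨U', hU', h'⟩ := hy
  obtain ⟨V, hV, hV'⟩ := hB
  obtain ⟨W₀, hW₀, hle₀⟩ := 𝒰.inter U hU U' hU'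
  obtain ⟨W, hW, hle⟩ := 𝒰.inter W₀ hW₀ V hV
  refine ⟨W, hW, fun g g' s s' hs hs' => ?_⟩
  simp only [cup11_apply]
  rw [h g s (hle₀ (hle hs).1).1, h' g' s' (hle₀ (hle hs').1).2, map_mul, Module.End.mul_apply,
    hV' s (hle hs).2]

theorem cup21_mem_C3 (hB : IsDisc 𝒰 B) {a : G × G → A} (ha : a ∈ C2 𝒰 A) {y : G → B}
    (hy : y ∈ C1 𝒰 B) : cup21 β a y ∈ C3 𝒰 C := by
  obtain ⟨U, hU, h⟩ := ha
  obtain ⟨U', hU', h'⟩ := hy
  obtain ⟨V, hV, hV'⟩ := hB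
  obtain ⟨W₀, hW₀, hle₀⟩ := 𝒰.inter U hU U' hU'
  obtain ⟨W, hW, hle⟩ := 𝒰.inter W₀ hW₀ V hV
  refine ⟨W, hW, fun g g' g'' s s' s'' hs hs' hs'' => ?_⟩
  simp only [cup21_apply]
  rw [h g g' s s' (hle₀ (hle hs).1).1 (hle₀ (hle hs').1).1, h' g'' s'' (hle₀ (hle hs'').1).2]
  simp only [map_mul, Module.End.mul_apply, hV' s (hle hs).2, hV' s' (hle hs').2]

theorem cup12_mem_C3 (hB : IsDisc 𝒰 B) {a : G → A} (ha : a ∈ C1 𝒰 A) {y : G × G → B}
    (hy : y ∈ C2 𝒰 B) : cup12 β a y ∈ C3 𝒰 C := by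
  obtain ⟨U, hU, h⟩ := ha
  obtain ⟨U', hU', h'⟩ := hy
  obtain ⟨V, hV, hV'⟩ := hB
  obtain ⟨W₀, hW₀, hle₀⟩ := 𝒰.inter U hU U' hU'
  obtain ⟨W, hW, hle⟩ := 𝒰.inter W₀ hW₀ V hV
  refine ⟨W, hW, fun g g' g'' s s' s'' hs hs' hs'' => ?_⟩
  simp only [cup12_apply]
  rw [h g s (hle₀ (hle hs).1).1, h' g' g'' s' s'' (hle₀ (hle hs').1).2 (hle₀ (hle hs'').1).2,
    map_mul, Module.End.mul_apply, hV' s (hle hs).2]

/-- `d` preserves level cochains of a discrete module. -/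
theorem d₁₂_mem_C2 {M : Rep.{0} k G} (hM : IsDisc 𝒰 M) {c : G → M} (hc : c ∈ C1 𝒰 M) :
    (d₁₂ M).hom c ∈ C2 𝒰 M := by
  obtain ⟨U, hU, h⟩ := hc
  obtain ⟨V, hV, hV'⟩ := hM
  obtain ⟨W₀, hW₀, hle₀⟩ := 𝒰.inter U hU V hV
  obtain ⟨W, hW, hle, hWn⟩ := 𝒰.normal W₀ hW₀
  refine ⟨W, hW, fun g g' s s' hs hs' => ?_⟩
  have hsU : ∀ x ∈ W, x ∈ U := fun x hx => (hle₀ (hle hx)).1
  have hsV : ∀ x ∈ W, x ∈ V := fun x hx => (hle₀ (hle hx)).2
  have hconj : g'⁻¹ * s * g' * s' ∈ W :=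
    W.mul_mem (by simpa using hWn.conj_mem s hs g'⁻¹) hs'
  have key : g * s * (g' * s') = g * g' * (g'⁻¹ * s * g' * s') := by group
  simp only [d₁₂_hom_apply]
  rw [h g s (hsU s hs), h g' s' (hsU s' hs'), key, h _ _ (hsU _ hconj), map_mul,
    Module.End.mul_apply, hV' s (hsV s hs)]

theorem d₂₃_mem_C3 {M : Rep.{0} k G} (hM : IsDisc 𝒰 M) {c : G × G → M} (hc : c ∈ C2 𝒰 M) :
    (d₂₃ M).hom c ∈ C3 𝒰 M := by
  obtain ⟨U, hU, h⟩ := hc
  obtain ⟨V, hV, hV'⟩ := hM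
  obtain ⟨W₀, hW₀, hle₀⟩ := 𝒰.inter U hU V hV
  obtain ⟨W, hW, hle, hWn⟩ := 𝒰.normal W₀ hW₀
  refine ⟨W, hW, fun g g' g'' s s' s'' hs hs' hs'' => ?_⟩
  have hsU : ∀ x ∈ W, x ∈ U := fun x hx => (hle₀ (hle hx)).1
  have hsV : ∀ x ∈ W, x ∈ V := fun x hx => (hle₀ (hle hx)).2
  have hconj : g'⁻¹ * s * g' * s' ∈ W :=
    W.mul_mem (by simpa using hWn.conj_mem s hs g'⁻¹) hs'
  have hconj' : g''⁻¹ * s' * g'' * s'' ∈ W :=
    W.mul_mem (by simpa using hWn.conj_mem s' hs' g''⁻¹) hs''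
  have key : g * s * (g' * s') = g * g' * (g'⁻¹ * s * g' * s') := by group
  have key' : g' * s' * (g'' * s'') = g' * g'' * (g''⁻¹ * s' * g'' * s'') := by group
  simp only [d₂₃_hom_apply]
  rw [h g' g'' s' s'' (hsU s' hs') (hsU s'' hs''), key, h (g * g') g'' _ s'' (hsU _ hconj)
    (hsU s'' hs''), key', h g (g' * g'') s _ (hsU s hs) (hsU _ hconj'),
    h g g' s s' (hsU s hs) (hsU s' hs'), map_mul, Module.End.mul_apply, hV' s (hsV s hs)]

theorem d₀₁_mem_C1 {M : Rep.{0} k G} (hM : IsDisc 𝒰 M) (m : M) : (d₀₁ M).hom m ∈ C1 𝒰 M := by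
  obtain ⟨V, hV, hV'⟩ := hM
  refine ⟨V, hV, fun g s hs => ?_⟩
  simp only [d₀₁_hom_apply]
  rw [map_mul, Module.End.mul_apply, hV' s hs]

end Cups

end Fermat.Agent.S55.Abs
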