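/-
S55 / PROGRAM CFT, abstract layer (helper235).

Compactly supported cohomology in degrees 1, 2 (and the degree-3 quotient `Qc3`) as the
cohomology of the cone of `C(G) → ∏_v C(G_v)`, on explicit low-degree cochains.

Conventions: a cone cochain is a pair `(a, b)`, `a` a global level cochain of degree `n`,
`b v` a local level cochain of degree `n - 1`; the differential is `d(a, b) = (da, res a - db)`.
So `(a, b)` is a cocycle iff `da = 0` and `res_v a = d (b v)` for all `v`.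
-/
import Fermat.Agent.S55.Abs.Cup

set_option autoImplicit false

open CategoryTheory groupCohomology

namespace Fermat.Agent.S55.Abs

variable {k G : Type} [Field k] [Group G] (𝒰 : LevelFamily G)
  {ι : Type} {Gv : ι → Type} [∀ v, Group (Gv v)]
  (loc : ∀ v, Gv v →* G) (𝒰v : ∀ v, LevelFamily (Gv v))

/-- Restriction of cochains to the local group at `v`. -/
def res₁ (M : Rep.{0} k G) (v : ι) : (G → M) →ₗ[k] (Gv v → Rep.res (loc v) M) :=
  LinearMap.funLeft k M (loc v)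

def res₂ (M : Rep.{0} k G) (v : ι) : (G × G → M) →ₗ[k] (Gv v × Gv v → Rep.res (loc v) M) :=
  LinearMap.funLeft k M (Prod.map (loc v) (loc v))

def res₃ (M : Rep.{0} k G) (v : ι) :
    (G × G × G → M) →ₗ[k] (Gv v × Gv v × Gv v → Rep.res (loc v) M) :=
  LinearMap.funLeft k M (Prod.map (loc v) (Prod.map (loc v) (loc v)))

@[simp] lemma res₁_apply (M : Rep.{0} k G) (v : ι) (f : G → M) (g : Gv v) :
    res₁ loc M v f g = f (loc v g) := rfl
@[simp] lemma res₂_apply (M : Rep.{0} k G) (v : ι) (f : G × G → M) (g : Gv v × Gv v) :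
    res₂ loc M v f g = f (loc v g.1, loc v g.2) := rfl
@[simp] lemma res₃_apply (M : Rep.{0} k G) (v : ι) (f : G × G × G → M)
    (g : Gv v × Gv v × Gv v) :
    res₃ loc M v f g = f (loc v g.1, loc v g.2.1, loc v g.2.2) := rfl

variable (M : Rep.{0} k G)

/-! ### Degree 1 -/

/-- Compactly supported 1-cocycles: `a ∈ Z¹(G, M)` level, `b v ∈ M` with `res_v a = d (b v)`. -/
def Zc1 : Submodule k ((G → M) × (ι → M)) where
  carrier := {x | x.1 ∈ Z1 𝒰 M ∧ ∀ v, res₁ loc M v x.1 = (d₀₁ (Rep.res (loc v) M)).hom (x.2 v)}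
  add_mem' {x y} hx hy := ⟨add_mem hx.1 hy.1, fun v => by
    rw [Prod.fst_add, Prod.snd_add, map_add, hx.2 v, hy.2 v, Pi.add_apply, map_add]⟩
  zero_mem' := ⟨zero_mem _, fun v => by simp⟩
  smul_mem' c {x} hx := ⟨Submodule.smul_mem _ c hx.1, fun v => by
    rw [Prod.smul_fst, Prod.smul_snd, map_smul, hx.2 v, Pi.smul_apply, map_smul]⟩

/-- The coboundary map `M → C¹_c`, `m ↦ (dm, (m)_v)`. -/
def bdry1 : M →ₗ[k] (G → M) × (ι → M) :=
  LinearMap.prod (d₀₁ M).hom (LinearMap.pi fun _ => LinearMap.id)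

/-- Compactly supported 1-coboundaries. -/
def Bc1 : Submodule k ((G → M) × (ι → M)) := LinearMap.range (bdry1 (ι := ι) M)

/-- `H¹_c(M)`. -/
abbrev Hc1 : Type := ↥(Zc1 𝒰 loc M) ⧸ (Bc1 (ι := ι) M).comap (Zc1 𝒰 loc M).subtype

/-! ### Degree 2 -/

/-- Compactly supported 2-cocycles: `a ∈ Z²(G, M)` level, `b v` a level 1-cochain on `G_v` with
`res_v a = d (b v)`. -/
def Zc2 : Submodule k ((G × G → M) × (∀ v, Gv v → M)) where
  carrier := {x | x.1 ∈ Z2 𝒰 M ∧ ∀ v, x.2 v ∈ C1 (𝒰v v) (Rep.res (loc v) M) ∧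
    res₂ loc M v x.1 = (d₁₂ (Rep.res (loc v) M)).hom (x.2 v)}
  add_mem' {x y} hx hy := ⟨add_mem hx.1 hy.1, fun v => ⟨add_mem (hx.2 v).1 (hy.2 v).1, by
    rw [Prod.fst_add, Prod.snd_add, map_add, (hx.2 v).2, (hy.2 v).2, Pi.add_apply, map_add]⟩⟩
  zero_mem' := ⟨zero_mem _, fun v => ⟨zero_mem _, by simp⟩⟩
  smul_mem' c {x} hx := ⟨Submodule.smul_mem _ c hx.1, fun v =>
    ⟨Submodule.smul_mem _ c (hx.2 v).1, by
      rw [Prod.smul_fst, Prod.smul_snd, map_smul, (hx.2 v).2, Pi.smul_apply, map_smul]⟩⟩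

/-- The coboundary map `C¹_c → C²_c`, `(c, f) ↦ (dc, (res_v c - d (f v))_v)`. -/
def bdry2 : (G → M) × (ι → M) →ₗ[k] (G × G → M) × (∀ v, Gv v → M) :=
  LinearMap.prod ((d₁₂ M).hom ∘ₗ LinearMap.fst k _ _)
    (LinearMap.pi fun v => res₁ loc M v ∘ₗ LinearMap.fst k _ _
      - (d₀₁ (Rep.res (loc v) M)).hom ∘ₗ LinearMap.proj v ∘ₗ LinearMap.snd k _ _)

/-- Compactly supported 2-coboundaries: `d` of `(c, f)` with `c` a global level 1-cochain. -/
def Bc2 : Submodule k ((G × G → M) × (∀ v, Gv v → M)) :=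
  ((C1 𝒰 M).prod ⊤).map (bdry2 loc M)

/-- `H²_c(M)`. -/
abbrev Hc2 : Type := ↥(Zc2 𝒰 loc 𝒰v M) ⧸ (Bc2 𝒰 loc M).comap (Zc2 𝒰 loc 𝒰v M).subtype

/-! ### Degree 3 (no cocycle condition on the global component: not needed) -/

/-- Degree-3 cone cochains `(a, b)` with `a` a global level 3-cochain, `b v` level 2-cochains
on `G_v` and `res_v a = d (b v)`. -/
def Cc3 : Submodule k ((G × G × G → M) × (∀ v, Gv v × Gv v → M)) where
  carrier := {x | x.1 ∈ C3 𝒰 M ∧ ∀ v, x.2 v ∈ C2 (𝒰v v) (Rep.res (loc v) M) ∧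
    res₃ loc M v x.1 = (d₂₃ (Rep.res (loc v) M)).hom (x.2 v)}
  add_mem' {x y} hx hy := ⟨add_mem hx.1 hy.1, fun v => ⟨add_mem (hx.2 v).1 (hy.2 v).1, by
    rw [Prod.fst_add, Prod.snd_add, map_add, (hx.2 v).2, (hy.2 v).2, Pi.add_apply, map_add]⟩⟩
  zero_mem' := ⟨zero_mem _, fun v => ⟨zero_mem _, by simp⟩⟩
  smul_mem' c {x} hx := ⟨Submodule.smul_mem _ c hx.1, fun v =>
    ⟨Submodule.smul_mem _ c (hx.2 v).1, by
      rw [Prod.smul_fst, Prod.smul_snd, map_smul, (hx.2 v).2, Pi.smul_apply, map_smul]⟩⟩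

/-- The coboundary map `C²_c → C³_c`, `(e, f) ↦ (de, (res_v e - d (f v))_v)`. -/
def bdry3 : (G × G → M) × (∀ v, Gv v → M) →ₗ[k] (G × G × G → M) × (∀ v, Gv v × Gv v → M) :=
  LinearMap.prod ((d₂₃ M).hom ∘ₗ LinearMap.fst k _ _)
    (LinearMap.pi fun v => res₂ loc M v ∘ₗ LinearMap.fst k _ _
      - (d₁₂ (Rep.res (loc v) M)).hom ∘ₗ LinearMap.proj v ∘ₗ LinearMap.snd k _ _)

/-- Degree-3 coboundaries: `d` of `(e, f)`, `e` a global level 2-cochain, `f v` local level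
1-cochains. -/
def Bc3 : Submodule k ((G × G × G → M) × (∀ v, Gv v × Gv v → M)) :=
  ((C2 𝒰 M).prod (Submodule.pi Set.univ fun v => C1 (𝒰v v) (Rep.res (loc v) M))).map
    (bdry3 loc M)

/-- `C³_c(M) / B³_c(M)`; contains `H³_c(M)`. The pairings take values here (for `M = μ`). -/
abbrev Qc3 : Type := ↥(Cc3 𝒰 loc 𝒰v M) ⧸ (Bc3 𝒰 loc 𝒰v M).comap (Cc3 𝒰 loc 𝒰v M).subtype

end Fermat.Agent.S55.Abs
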