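/-
S55 / PROGRAM CFT, abstract layer (helper235).

Single leveled group: short exact sequences of representations with a chosen linear splitting,
their twisted duals, the connecting maps `δ⁰ : H⁰(B) → H¹(A)`, `δ¹ : H¹(B) → H²(A)` on level
cohomology, and the (statements of the) low-degree exactness facts used by the devissage.
-/
import Fermat.Agent.S55.Abs.Cup

set_option autoImplicit false

open CategoryTheory groupCohomology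

namespace Fermat.Agent.S55.Abs

variable {k G : Type} [Field k] [Group G]

/-- Induced map on subquotients `ZE/BE → ZF/BF`. -/
def subquotMap {E F : Type*} [AddCommGroup E] [Module k E] [AddCommGroup F] [Module k F]
    (φ : E →ₗ[k] F) (ZE BE : Submodule k E) (ZF BF : Submodule k F)
    (hZ : ∀ e ∈ ZE, φ e ∈ ZF) (hB : ∀ e ∈ ZE, e ∈ BE → φ e ∈ BF) :
    (↥ZE ⧸ BE.comap ZE.subtype) →ₗ[k] (↥ZF ⧸ BF.comap ZF.subtype) :=
  Submodule.mapQ _ _ (φ.restrict hZ) fun e he => hB e.1 e.2 he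

@[simp] lemma subquotMap_mk {E F : Type*} [AddCommGroup E] [Module k E] [AddCommGroup F]
    [Module k F] (φ : E →ₗ[k] F) (ZE BE : Submodule k E) (ZF BF : Submodule k F)
    (hZ : ∀ e ∈ ZE, φ e ∈ ZF) (hB : ∀ e ∈ ZE, e ∈ BE → φ e ∈ BF) (e : ↥ZE) :
    subquotMap φ ZE BE ZF BF hZ hB (Submodule.Quotient.mk e)
      = Submodule.Quotient.mk ⟨φ e.1, hZ e.1 e.2⟩ := rfl

/-- A short exact sequence `0 → A → M → B → 0` of representations together with a `k`-linear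
(not equivariant) splitting `M = i(A) ⊕ s(B)`. -/
structure SplitSES (A M B : Rep.{0} k G) where
  i : A ⟶ M
  π : M ⟶ B
  s : B →ₗ[k] M
  r : M →ₗ[k] A
  r_i : ∀ a, r (i.hom a) = a
  π_s : ∀ b, π.hom (s b) = b
  π_i : ∀ a, π.hom (i.hom a) = 0
  i_r : ∀ m, i.hom (r m) + s (π.hom m) = m

/-- Every short exact sequence of representations over a field admits a linear splitting. -/
theorem SplitSES.exists_of_exact {A M B : Rep.{0} k G} (i : A ⟶ M) (π : M ⟶ B)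
    (hi : Function.Injective i.hom) (hπ : Function.Surjective π.hom)
    (hex : ∀ m, π.hom m = 0 ↔ ∃ a, i.hom a = m) :
    ∃ E : SplitSES A M B, E.i = i ∧ E.π = π := by
  obtain ⟨s, hs⟩ := LinearMap.exists_rightInverse_of_surjective π.hom.toLinearMap
    (LinearMap.range_eq_top.mpr hπ)
  obtain ⟨r₀, hr₀⟩ := LinearMap.exists_leftInverse_of_injective i.hom.toLinearMap
    (LinearMap.ker_eq_bot.mpr hi)
  have hπs : ∀ b, π.hom (s b) = b := fun b => LinearMap.congr_fun hs b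
  have hr₀i : ∀ a, r₀ (i.hom a) = a := fun a => LinearMap.congr_fun hr₀ a
  have hπi : ∀ a, π.hom (i.hom a) = 0 := fun a => (hex _).2 ⟨a, rfl⟩
  refine ⟨{ i := i, π := π, s := s, r := r₀ ∘ₗ (LinearMap.id - s ∘ₗ π.hom.toLinearMap),
            r_i := ?_, π_s := hπs, π_i := hπi, i_r := ?_ }, rfl, rfl⟩
  · intro a
    show r₀ (i.hom a - s (π.hom (i.hom a))) = a
    rw [hπi, map_zero, sub_zero, hr₀i]
  · intro m
    show i.hom (r₀ (m - s (π.hom m))) + s (π.hom m) = m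
    have h0 : π.hom (m - s (π.hom m)) = 0 := by rw [map_sub, hπs, sub_self]
    obtain ⟨a, ha⟩ := (hex _).1 h0
    rw [← ha, hr₀i, ha, sub_add_cancel]

/-- The twisted dual of a morphism: `f ↦ f ∘ φ`. -/
noncomputable def dualTwistMap (χ : G →* kˣ) {A M : Rep.{0} k G} (φ : A ⟶ M) :
    M.dualTwist χ ⟶ A.dualTwist χ :=
  Rep.ofHom (LinearMap.intertwiningMap_of_isIntertwiningMap _ _
    (φ.hom.toLinearMap.dualMap : Module.Dual k M →ₗ[k] Module.Dual k A) (by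
      intro g f
      show ((M.dualTwist χ).ρ g f) ∘ₗ φ.hom.toLinearMap = (A.dualTwist χ).ρ g (f ∘ₗ φ.hom.toLinearMap)
      rw [Rep.dualTwist_ρ_apply, Rep.dualTwist_ρ_apply]
      ext a
      simp [Rep.hom_comm_apply]))

@[simp] lemma dualTwistMap_apply (χ : G →* kˣ) {A M : Rep.{0} k G} (φ : A ⟶ M)
    (f : Module.Dual k M) (a : A) :
    ((dualTwistMap χ φ).hom f : Module.Dual k A) a = f (φ.hom a) := rfl

/-- The twisted dual sequence `0 → B' → M' → A' → 0` with the dual splitting. -/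
noncomputable def SplitSES.dual (χ : G →* kˣ) {A M B : Rep.{0} k G} (E : SplitSES A M B) :
    SplitSES (B.dualTwist χ) (M.dualTwist χ) (A.dualTwist χ) where
  i := dualTwistMap χ E.π
  π := dualTwistMap χ E.i
  s := (E.r.dualMap : Module.Dual k A →ₗ[k] Module.Dual k M)
  r := (E.s.dualMap : Module.Dual k M →ₗ[k] Module.Dual k B)
  r_i f := by
    apply LinearMap.ext; intro b
    show f (E.π.hom (E.s b)) = f b
    rw [E.π_s]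
  π_s f := by
    apply LinearMap.ext; intro a
    show f (E.r (E.i.hom a)) = f a
    rw [E.r_i]
  π_i f := by
    apply LinearMap.ext; intro a
    show f (E.π.hom (E.i.hom a)) = 0
    rw [E.π_i, map_zero]
  i_r f := by
    apply LinearMap.ext; intro m
    show f (E.s (E.π.hom m)) + f (E.i.hom (E.r m)) = f m
    rw [← map_add, add_comm, E.i_r]

/-- Restriction of a split sequence along a homomorphism. -/
noncomputable def SplitSES.res {A M B : Rep.{0} k G} (E : SplitSES A M B) {H : Type} [Group H]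
    (r : H →* G) : SplitSES (Rep.res r A) (Rep.res r M) (Rep.res r B) where
  i := Rep.resMap r E.i
  π := Rep.resMap r E.π
  s := E.s
  r := E.r
  r_i := E.r_i
  π_s := E.π_s
  π_i := E.π_i
  i_r := E.i_r

/-! ### Helper lemmas for the cochain chases (helper287) -/

section LESHelpers

variable {A M B : Rep.{0} k G} (E : SplitSES A M B)

theorem LES_i_injective : Function.Injective E.i.hom := by
  intro a a' h
  have h1 := congrArg E.r h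
  rwa [E.r_i, E.r_i] at h1

theorem LES_i_r_of_π {m : M} (h : E.π.hom m = 0) : E.i.hom (E.r m) = m := by
  have h1 := E.i_r m
  rwa [h, map_zero, add_zero] at h1

theorem LES_cmap₁_i_r (f : G → M) (h : cmap₁ E.π f = 0) :
    cmap₁ E.i (E.r.compLeft G f) = f := by
  ext g
  exact LES_i_r_of_π E (congrFun h g)

theorem LES_cmap₂_i_r (f : G × G → M) (h : cmap₂ E.π f = 0) :
    cmap₂ E.i (E.r.compLeft (G × G) f) = f := by
  ext g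
  exact LES_i_r_of_π E (congrFun h g)

theorem LES_cmap₁_π_s (z : G → B) : cmap₁ E.π (E.s.compLeft G z) = z := by
  ext g
  exact E.π_s (z g)

theorem LES_cmap₁_π_i (f : G → A) : cmap₁ E.π (cmap₁ E.i f) = 0 := by
  ext g
  exact E.π_i (f g)

theorem LES_cmap₂_π_i (f : G × G → A) : cmap₂ E.π (cmap₂ E.i f) = 0 := by
  ext g
  exact E.π_i (f g)

theorem LES_cmap₁_d₀₁ {M N : Rep.{0} k G} (φ : M ⟶ N) (m : M) :
    cmap₁ φ ((d₀₁ M).hom m) = (d₀₁ N).hom (φ.hom m) := by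
  ext g
  simp [d₀₁_hom_apply, Rep.hom_comm_apply]

theorem LES_d₁₂_d₀₁ (M : Rep.{0} k G) (m : M) : (d₁₂ M).hom ((d₀₁ M).hom m) = 0 := by
  simp

theorem LES_d₂₃_d₁₂ (M : Rep.{0} k G) (f : G → M) : (d₂₃ M).hom ((d₁₂ M).hom f) = 0 := by
  simp

theorem LES_mem_cocycles₁_of_cmap₁ {M N : Rep.{0} k G} (φ : M ⟶ N)
    (hφ : Function.Injective φ.hom) {f : G → M} (h : cmap₁ φ f ∈ cocycles₁ N) :
    f ∈ cocycles₁ M := by
  have h1 : (d₁₂ N).hom (cmap₁ φ f) = 0 := h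
  rw [← cmap₂_d₁₂] at h1
  show (d₁₂ M).hom f = 0
  ext p
  apply hφ
  have h2 := congrFun h1 p
  show φ.hom ((d₁₂ M).hom f p) = φ.hom 0
  rw [map_zero]
  exact h2

theorem LES_mem_cocycles₂_of_cmap₂ {M N : Rep.{0} k G} (φ : M ⟶ N)
    (hφ : Function.Injective φ.hom) {f : G × G → M} (h : cmap₂ φ f ∈ cocycles₂ N) :
    f ∈ cocycles₂ M := by
  have h1 : (d₂₃ N).hom (cmap₂ φ f) = 0 := h
  rw [← cmap₃_d₂₃] at h1
  show (d₂₃ M).hom f = 0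
  ext p
  apply hφ
  have h2 := congrFun h1 p
  show φ.hom ((d₂₃ M).hom f p) = φ.hom 0
  rw [map_zero]
  exact h2

theorem LES_cmap₁_i_dlt₀ {t : B} (ht : t ∈ B.ρ.invariants) :
    cmap₁ E.i (E.r.compLeft G ((d₀₁ M).hom (E.s t))) = (d₀₁ M).hom (E.s t) := by
  apply LES_cmap₁_i_r
  rw [LES_cmap₁_d₀₁, E.π_s]
  ext g
  simp only [d₀₁_hom_apply, Pi.zero_apply]
  exact sub_eq_zero.mpr (ht g)

theorem LES_cmap₂_i_dlt₁ {z : G → B} (hz : z ∈ cocycles₁ B) :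
    cmap₂ E.i (E.r.compLeft (G × G) ((d₁₂ M).hom (E.s.compLeft G z))) =
      (d₁₂ M).hom (E.s.compLeft G z) := by
  apply LES_cmap₂_i_r
  rw [cmap₂_d₁₂, LES_cmap₁_π_s]
  exact hz

theorem LES_H1map_mk (𝒰 : LevelFamily G) {M N : Rep.{0} k G} (φ : M ⟶ N) (f : ↥(Z1 𝒰 M)) :
    H1map 𝒰 φ (Submodule.Quotient.mk f) =
      Submodule.Quotient.mk ⟨cmap₁ φ f.1, cmap₁_mem_Z1 φ f.2⟩ := rfl

theorem LES_H2map_mk (𝒰 : LevelFamily G) {M N : Rep.{0} k G} (φ : M ⟶ N) (f : ↥(Z2 𝒰 M)) :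
    H2map 𝒰 φ (Submodule.Quotient.mk f) =
      Submodule.Quotient.mk ⟨cmap₂ φ f.1, cmap₂_mem_Z2 φ f.2⟩ := rfl

end LESHelpers

section Connecting

variable (𝒰 : LevelFamily G) {A M B : Rep.{0} k G} (E : SplitSES A M B)

/-- `H⁰`: the invariants (no level condition needed in degree 0). -/
abbrev H0 (M : Rep.{0} k G) : Type := ↥(M.ρ.invariants)

/-- `H⁰(φ)`. -/
noncomputable def H0map {M N : Rep.{0} k G} (φ : M ⟶ N) : H0 M →ₗ[k] H0 N :=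
  φ.hom.toLinearMap.restrict fun m hm g => by
    show N.ρ g (φ.hom m) = φ.hom m
    rw [← Rep.hom_comm_apply, hm g]

/-- Cochain-level connecting map in degree 0: `t ↦ r ∘ d(s t)`. -/
def dlt₀ : B →ₗ[k] (G → A) := E.r.compLeft G ∘ₗ (d₀₁ M).hom ∘ₗ E.s

/-- Cochain-level connecting map in degree 1: `z ↦ r ∘ d(s ∘ z)`. -/
def dlt₁ : (G → B) →ₗ[k] (G × G → A) :=
  E.r.compLeft (G × G) ∘ₗ (d₁₂ M).hom ∘ₗ E.s.compLeft G

theorem dlt₀_mem_Z1 (hM : IsDisc 𝒰 M) {t : B} (ht : t ∈ B.ρ.invariants) :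
    dlt₀ E t ∈ Z1 𝒰 A := by
  refine ⟨(d₀₁_mem_C1 𝒰 hM (E.s t)).comp E.r, ?_⟩
  apply LES_mem_cocycles₁_of_cmap₁ E.i (LES_i_injective E)
  show cmap₁ E.i (E.r.compLeft G ((d₀₁ M).hom (E.s t))) ∈ cocycles₁ M
  rw [LES_cmap₁_i_dlt₀ E ht]
  exact LES_d₁₂_d₀₁ M _

theorem dlt₁_mem_Z2 (hM : IsDisc 𝒰 M) {z : G → B} (hz : z ∈ Z1 𝒰 B) :
    dlt₁ E z ∈ Z2 𝒰 A := by
  refine ⟨(d₁₂_mem_C2 𝒰 hM (c := E.s.compLeft G z) (hz.1.comp E.s)).comp E.r, ?_⟩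
  apply LES_mem_cocycles₂_of_cmap₂ E.i (LES_i_injective E)
  show cmap₂ E.i (E.r.compLeft (G × G) ((d₁₂ M).hom (E.s.compLeft G z))) ∈ cocycles₂ M
  rw [LES_cmap₂_i_dlt₁ E hz.2]
  exact LES_d₂₃_d₁₂ M _

theorem dlt₁_mem_B2 (hM : IsDisc 𝒰 M) {z : G → B} (hz : z ∈ Z1 𝒰 B)
    (hz' : z ∈ coboundaries₁ B) : dlt₁ E z ∈ B2 𝒰 A := by
  obtain ⟨b, rfl⟩ := hz'
  have hc1 : E.s.compLeft G ((d₀₁ B).hom b) - (d₀₁ M).hom (E.s b) ∈ C1 𝒰 M :=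
    (C1 𝒰 M).sub_mem (hz.1.comp E.s) (d₀₁_mem_C1 𝒰 hM (E.s b))
  have hπ : cmap₁ E.π (E.s.compLeft G ((d₀₁ B).hom b) - (d₀₁ M).hom (E.s b)) = 0 := by
    rw [map_sub, LES_cmap₁_π_s, LES_cmap₁_d₀₁, E.π_s, sub_self]
  have h3 : (d₁₂ M).hom (E.s.compLeft G ((d₀₁ B).hom b) - (d₀₁ M).hom (E.s b)) =
      (d₁₂ M).hom (E.s.compLeft G ((d₀₁ B).hom b)) := by
    rw [map_sub, LES_d₁₂_d₀₁, sub_zero]
  have key : cmap₂ E.i ((d₁₂ A).hom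
      (E.r.compLeft G (E.s.compLeft G ((d₀₁ B).hom b) - (d₀₁ M).hom (E.s b)))) =
      cmap₂ E.i (dlt₁ E ((d₀₁ B).hom b)) := by
    rw [cmap₂_d₁₂, LES_cmap₁_i_r E _ hπ, h3]
    exact (LES_cmap₂_i_dlt₁ E hz.2).symm
  refine ⟨E.r.compLeft G (E.s.compLeft G ((d₀₁ B).hom b) - (d₀₁ M).hom (E.s b)),
    hc1.comp E.r, ?_⟩
  ext p
  apply LES_i_injective E
  exact congrFun key p

/-- `δ⁰ : H⁰(B) → H¹(A)`. -/
noncomputable def Hδ₀ (hM : IsDisc 𝒰 M) : H0 B →ₗ[k] H1 𝒰 A :=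
  Submodule.mkQ _ ∘ₗ (dlt₀ E).restrict fun _ ht => dlt₀_mem_Z1 𝒰 E hM ht

/-- `δ¹ : H¹(B) → H²(A)`. -/
noncomputable def Hδ₁ (hM : IsDisc 𝒰 M) : H1 𝒰 B →ₗ[k] H2 𝒰 A :=
  subquotMap (dlt₁ E) (Z1 𝒰 B) (coboundaries₁ B) (Z2 𝒰 A) (B2 𝒰 A)
    (fun _ hz => dlt₁_mem_Z2 𝒰 E hM hz) (fun _ hz hz' => dlt₁_mem_B2 𝒰 E hM hz hz')

theorem LES_Hδ₀_apply (hM : IsDisc 𝒰 M) (t : H0 B) :
    Hδ₀ 𝒰 E hM t = Submodule.Quotient.mk ⟨dlt₀ E t.1, dlt₀_mem_Z1 𝒰 E hM t.2⟩ := rfl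

theorem LES_Hδ₁_mk (hM : IsDisc 𝒰 M) (z : ↥(Z1 𝒰 B)) :
    Hδ₁ 𝒰 E hM (Submodule.Quotient.mk z) =
      Submodule.Quotient.mk ⟨dlt₁ E z.1, dlt₁_mem_Z2 𝒰 E hM z.2⟩ := rfl

/-! ### Low-degree exactness (statements; `hM : IsDisc 𝒰 M`) -/

/-- exact at `H⁰(B)`: `ker δ⁰ ⊆ im H⁰(π)`. -/
theorem exact_H0_right (hM : IsDisc 𝒰 M) (t : H0 B) (ht : Hδ₀ 𝒰 E hM t = 0) :
    ∃ m : H0 M, H0map E.π m = t := by
  rw [LES_Hδ₀_apply, Submodule.Quotient.mk_eq_zero] at ht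
  obtain ⟨a, ha⟩ := ht
  have ha' : (d₀₁ A).hom a = E.r.compLeft G ((d₀₁ M).hom (E.s t.1)) := ha
  have hd : (d₀₁ M).hom (E.s t.1 - E.i.hom a) = 0 := by
    rw [map_sub, ← LES_cmap₁_d₀₁, ha', LES_cmap₁_i_dlt₀ E t.2, sub_self]
  have hinv : E.s t.1 - E.i.hom a ∈ M.ρ.invariants := by
    intro g
    have h1 := congrFun hd g
    simp only [d₀₁_hom_apply] at h1
    exact sub_eq_zero.mp h1
  refine ⟨⟨E.s t.1 - E.i.hom a, hinv⟩, ?_⟩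
  apply Subtype.ext
  show E.π.hom (E.s t.1 - E.i.hom a) = t.1
  rw [map_sub, E.π_s, E.π_i, sub_zero]

/-- complex at `H¹(A)`: `H¹(i) ∘ δ⁰ = 0`. -/
theorem H1map_Hδ₀ (hM : IsDisc 𝒰 M) (t : H0 B) : H1map 𝒰 E.i (Hδ₀ 𝒰 E hM t) = 0 := by
  rw [LES_Hδ₀_apply, LES_H1map_mk, Submodule.Quotient.mk_eq_zero]
  exact ⟨E.s t.1, (LES_cmap₁_i_dlt₀ E t.2).symm⟩

/-- exact at `H¹(M)`: `ker H¹(π) ⊆ im H¹(i)`. -/
theorem exact_H1_mid (hM : IsDisc 𝒰 M) (x : H1 𝒰 M) (hx : H1map 𝒰 E.π x = 0) :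
    ∃ a : H1 𝒰 A, H1map 𝒰 E.i a = x := by
  obtain ⟨⟨f, hf⟩, rfl⟩ := Submodule.Quotient.mk_surjective _ x
  rw [LES_H1map_mk, Submodule.Quotient.mk_eq_zero] at hx
  obtain ⟨b, hb⟩ := hx
  have hb' : (d₀₁ B).hom b = cmap₁ E.π f := hb
  have hf' : f - (d₀₁ M).hom (E.s b) ∈ Z1 𝒰 M :=
    (Z1 𝒰 M).sub_mem hf ⟨d₀₁_mem_C1 𝒰 hM (E.s b), LES_d₁₂_d₀₁ M _⟩
  have hπ : cmap₁ E.π (f - (d₀₁ M).hom (E.s b)) = 0 := by
    rw [map_sub, LES_cmap₁_d₀₁, E.π_s, hb', sub_self]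
  have hia := LES_cmap₁_i_r E _ hπ
  have ha : E.r.compLeft G (f - (d₀₁ M).hom (E.s b)) ∈ Z1 𝒰 A :=
    ⟨hf'.1.comp E.r, LES_mem_cocycles₁_of_cmap₁ E.i (LES_i_injective E) (by rw [hia]; exact hf'.2)⟩
  refine ⟨Submodule.Quotient.mk ⟨_, ha⟩, ?_⟩
  rw [LES_H1map_mk, Submodule.Quotient.eq]
  show cmap₁ E.i (E.r.compLeft G (f - (d₀₁ M).hom (E.s b))) - f ∈ coboundaries₁ M
  rw [hia, sub_sub_cancel_left]
  exact (coboundaries₁ M).neg_mem ⟨E.s b, rfl⟩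

/-- exact at `H¹(B)`: `ker δ¹ ⊆ im H¹(π)`. -/
theorem exact_H1_right (hM : IsDisc 𝒰 M) (z : H1 𝒰 B) (hz : Hδ₁ 𝒰 E hM z = 0) :
    ∃ m : H1 𝒰 M, H1map 𝒰 E.π m = z := by
  obtain ⟨⟨z, hz'⟩, rfl⟩ := Submodule.Quotient.mk_surjective _ z
  rw [LES_Hδ₁_mk, Submodule.Quotient.mk_eq_zero] at hz
  obtain ⟨c, hc, hdc⟩ := hz
  have hdc' : (d₁₂ A).hom c = E.r.compLeft (G × G) ((d₁₂ M).hom (E.s.compLeft G z)) := hdc
  have hm : E.s.compLeft G z - cmap₁ E.i c ∈ Z1 𝒰 M := by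
    refine ⟨(C1 𝒰 M).sub_mem (hz'.1.comp E.s) (hc.comp E.i.hom), ?_⟩
    show (d₁₂ M).hom (E.s.compLeft G z - cmap₁ E.i c) = 0
    rw [map_sub, ← cmap₂_d₁₂, hdc', LES_cmap₂_i_dlt₁ E hz'.2, sub_self]
  refine ⟨Submodule.Quotient.mk ⟨_, hm⟩, ?_⟩
  rw [LES_H1map_mk]
  congr 1
  apply Subtype.ext
  show cmap₁ E.π (E.s.compLeft G z - cmap₁ E.i c) = z
  rw [map_sub, LES_cmap₁_π_s, LES_cmap₁_π_i, sub_zero]

/-- complex at `H²(A)`: `H²(i) ∘ δ¹ = 0`. -/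
theorem H2map_Hδ₁ (hM : IsDisc 𝒰 M) (z : H1 𝒰 B) : H2map 𝒰 E.i (Hδ₁ 𝒰 E hM z) = 0 := by
  obtain ⟨⟨z, hz⟩, rfl⟩ := Submodule.Quotient.mk_surjective _ z
  rw [LES_Hδ₁_mk, LES_H2map_mk, Submodule.Quotient.mk_eq_zero]
  exact ⟨E.s.compLeft G z, hz.1.comp E.s, (LES_cmap₂_i_dlt₁ E hz.2).symm⟩

/-- exact at `H²(M)`: `ker H²(π) ⊆ im H²(i)`. -/
theorem exact_H2_mid (hM : IsDisc 𝒰 M) (x : H2 𝒰 M) (hx : H2map 𝒰 E.π x = 0) :
    ∃ a : H2 𝒰 A, H2map 𝒰 E.i a = x := by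
  obtain ⟨⟨f, hf⟩, rfl⟩ := Submodule.Quotient.mk_surjective _ x
  rw [LES_H2map_mk, Submodule.Quotient.mk_eq_zero] at hx
  obtain ⟨c, hc, hdc⟩ := hx
  have hdc' : (d₁₂ B).hom c = cmap₂ E.π f := hdc
  have hsc : E.s.compLeft G c ∈ C1 𝒰 M := hc.comp E.s
  have hf' : f - (d₁₂ M).hom (E.s.compLeft G c) ∈ Z2 𝒰 M :=
    (Z2 𝒰 M).sub_mem hf ⟨d₁₂_mem_C2 𝒰 hM hsc, LES_d₂₃_d₁₂ M _⟩
  have hπ : cmap₂ E.π (f - (d₁₂ M).hom (E.s.compLeft G c)) = 0 := by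
    rw [map_sub, cmap₂_d₁₂, LES_cmap₁_π_s, hdc', sub_self]
  have hia := LES_cmap₂_i_r E _ hπ
  have ha : E.r.compLeft (G × G) (f - (d₁₂ M).hom (E.s.compLeft G c)) ∈ Z2 𝒰 A :=
    ⟨hf'.1.comp E.r, LES_mem_cocycles₂_of_cmap₂ E.i (LES_i_injective E) (by rw [hia]; exact hf'.2)⟩
  refine ⟨Submodule.Quotient.mk ⟨_, ha⟩, ?_⟩
  rw [LES_H2map_mk, Submodule.Quotient.eq]
  show cmap₂ E.i (E.r.compLeft (G × G) (f - (d₁₂ M).hom (E.s.compLeft G c))) - f ∈ B2 𝒰 M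
  rw [hia, sub_sub_cancel_left]
  exact (B2 𝒰 M).neg_mem ⟨_, hsc, rfl⟩

/-- functoriality: `H¹(π) ∘ H¹(i) = 0`, `H²(π) ∘ H²(i) = 0`, `H⁰(π) ∘ H⁰(i) = 0`. -/
theorem H0map_π_i (a : H0 A) : H0map E.π (H0map E.i a) = 0 := by
  apply Subtype.ext
  exact E.π_i a.1

theorem H1map_π_i (a : H1 𝒰 A) : H1map 𝒰 E.π (H1map 𝒰 E.i a) = 0 := by
  obtain ⟨⟨f, hf⟩, rfl⟩ := Submodule.Quotient.mk_surjective _ a
  rw [LES_H1map_mk, LES_H1map_mk, Submodule.Quotient.mk_eq_zero]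
  show cmap₁ E.π (cmap₁ E.i f) ∈ coboundaries₁ B
  rw [LES_cmap₁_π_i]
  exact (coboundaries₁ B).zero_mem

theorem H2map_π_i (a : H2 𝒰 A) : H2map 𝒰 E.π (H2map 𝒰 E.i a) = 0 := by
  obtain ⟨⟨f, hf⟩, rfl⟩ := Submodule.Quotient.mk_surjective _ a
  rw [LES_H2map_mk, LES_H2map_mk, Submodule.Quotient.mk_eq_zero]
  show cmap₂ E.π (cmap₂ E.i f) ∈ B2 𝒰 B
  rw [LES_cmap₂_π_i]
  exact (B2 𝒰 B).zero_mem

end Connecting

/-! ### Discreteness of duals -/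

theorem isDisc_dualTwist (𝒰 : LevelFamily G) (χ : G →* kˣ) (hμ : IsDisc 𝒰 (muRep χ))
    {M : Rep.{0} k G} (hM : IsDisc 𝒰 M) : IsDisc 𝒰 (M.dualTwist χ) := by
  obtain ⟨U, hU, h⟩ := hμ
  obtain ⟨U', hU', h'⟩ := hM
  obtain ⟨W, hW, hle⟩ := 𝒰.inter U hU U' hU'
  refine ⟨W, hW, fun s hs f => ?_⟩
  have hχ : (χ s : k) = 1 := by
    have h1 := h s (hle hs).1 (1 : k)
    rwa [muRep_ρ_apply, mul_one] at h1
  rw [Rep.dualTwist_ρ_apply, hχ, one_smul]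
  apply LinearMap.ext
  intro m
  show f (M.ρ s⁻¹ m) = f m
  rw [h' s⁻¹ (U'.inv_mem (hle hs).2) m]

theorem isDisc_res (𝒰 : LevelFamily G) {H : Type} [Group H] (𝒱 : LevelFamily H) (r : H →* G)
    (hr : IsLevelMap 𝒱 𝒰 r) {M : Rep.{0} k G} (hM : IsDisc 𝒰 M) : IsDisc 𝒱 (Rep.res r M) := by
  obtain ⟨U, hU, h⟩ := hM
  obtain ⟨V, hV, hle⟩ := hr U hU
  exact ⟨V, hV, fun s hs m => h (r s) (hle hs) m⟩

end Fermat.Agent.S55.Abs
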