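/-
S55 / PROGRAM CFT, abstract layer (helper235).

Functoriality of `H¹_c`, `H²_c`, the connecting map `∂ : H¹_c(B) → H²_c(A)` of a split short
exact sequence, and the (statements of the) exactness facts used by the devissage.
-/
import Fermat.Agent.S55.Abs.Compact
import Fermat.Agent.S55.Abs.LES

set_option autoImplicit false

open CategoryTheory groupCohomology

namespace Fermat.Agent.S55.Abs

variable {k G : Type} [Field k] [Group G] (𝒰 : LevelFamily G)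
  {ι : Type} {Gv : ι → Type} [∀ v, Group (Gv v)]
  (loc : ∀ v, Gv v →* G) (𝒰v : ∀ v, LevelFamily (Gv v))


/-! ### Auxiliary lemmas for the cone long exact sequence (ABS-CLES, helper26) -/

section CLESAux

theorem CLES_i_injective {A M B : Rep.{0} k G} (E : SplitSES A M B) :
    Function.Injective E.i.hom := by
  intro a a' h
  have h' := congrArg E.r h
  rwa [E.r_i, E.r_i] at h'

theorem CLES_i_r {A M B : Rep.{0} k G} (E : SplitSES A M B) {m : M} (h : E.π.hom m = 0) :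
    E.i.hom (E.r m) = m := by
  have h' := E.i_r m
  rwa [h, map_zero, add_zero] at h'

theorem CLES_isDisc_quot {A M B : Rep.{0} k G} (E : SplitSES A M B) (hM : IsDisc 𝒰 M) :
    IsDisc 𝒰 B := by
  obtain ⟨U, hU, h⟩ := hM
  refine ⟨U, hU, fun s hs b => ?_⟩
  rw [← E.π_s b, ← Rep.hom_comm_apply, h s hs]

/-- `π` kills `d(s ∘ a)` for a 1-cocycle `a` of the quotient. -/
theorem CLES_π_d₁₂_s {A M B : Rep.{0} k G} (E : SplitSES A M B) {a : G → B}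
    (ha : a ∈ cocycles₁ B) (g h : G) :
    E.π.hom (M.ρ g (E.s (a h)) - E.s (a (g * h)) + E.s (a g)) = 0 := by
  have h1 := (mem_cocycles₁_def a).1 ha g h
  rw [map_add, map_sub, Rep.hom_comm_apply, E.π_s, E.π_s, E.π_s]
  exact h1

theorem CLES_d₁₂_apply (M : Rep.{0} k G) (c : G → M) (g h : G) :
    (d₁₂ M).hom c (g, h) = M.ρ g (c h) - c (g * h) + c g := rfl

theorem CLES_d₀₁_apply (M : Rep.{0} k G) (m : M) (g : G) :
    (d₀₁ M).hom m g = M.ρ g m - m := rfl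

theorem CLES_d₂₃_apply (M : Rep.{0} k G) (c : G × G → M) (g h j : G) :
    (d₂₃ M).hom c (g, h, j) = M.ρ g (c (h, j)) - c (g * h, j) + c (g, h * j) - c (g, h) := rfl

theorem CLES_d₁₂_res_apply (M : Rep.{0} k G) (v : ι) (c : Gv v → M) (g h : Gv v) :
    (d₁₂ (Rep.res (loc v) M)).hom c (g, h) = M.ρ (loc v g) (c h) - c (g * h) + c g := rfl

theorem CLES_d₀₁_res_apply (M : Rep.{0} k G) (v : ι) (m : M) (g : Gv v) :
    (d₀₁ (Rep.res (loc v) M)).hom m g = M.ρ (loc v g) m - m := rfl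

theorem CLES_res_d₁₂ (M : Rep.{0} k G) (v : ι) (c : G → M) :
    res₂ loc M v ((d₁₂ M).hom c) = (d₁₂ (Rep.res (loc v) M)).hom (res₁ loc M v c) := by
  funext ⟨g, h⟩
  show (d₁₂ M).hom c (loc v g, loc v h) = M.ρ (loc v g) (c (loc v h)) - c (loc v (g * h))
    + c (loc v g)
  rw [CLES_d₁₂_apply, map_mul]

theorem CLES_d₁₂_d₀₁_res (M : Rep.{0} k G) (v : ι) (m : M) :
    (d₁₂ (Rep.res (loc v) M)).hom ((d₀₁ (Rep.res (loc v) M)).hom m) = 0 := by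
  have h := d₀₁_comp_d₁₂ (Rep.res (loc v) M)
  have h2 := congrArg (fun f => f.hom m) h
  exact h2

/-- Cone coboundaries of level cochains are cone cocycles. -/
theorem CLES_bdry2_mem_Zc2 (hloc : ∀ v, IsLevelMap (𝒰v v) 𝒰 (loc v)) {M : Rep.{0} k G}
    (hM : IsDisc 𝒰 M) {c : G → M} (hc : c ∈ C1 𝒰 M) (f : ι → M) :
    bdry2 loc M (c, f) ∈ Zc2 𝒰 loc 𝒰v M := by
  refine ⟨⟨d₁₂_mem_C2 𝒰 hM hc, coboundaries₂_le_cocycles₂ M ⟨c, rfl⟩⟩, fun v => ⟨?_, ?_⟩⟩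
  · have h1 : (fun g : Gv v => c (loc v g)) ∈ C1 (𝒰v v) (Rep.res (loc v) M) :=
      IsLev₁.precomp (hloc v) hc
    have h2 : (fun g : Gv v => M.ρ (loc v g) (f v) - f v) ∈ C1 (𝒰v v) (Rep.res (loc v) M) :=
      IsLev₁.precomp (hloc v) (d₀₁_mem_C1 𝒰 hM (f v))
    exact Submodule.sub_mem _ h1 h2
  · show res₂ loc M v ((d₁₂ M).hom c)
      = (d₁₂ (Rep.res (loc v) M)).hom (res₁ loc M v c - (d₀₁ (Rep.res (loc v) M)).hom (f v))
    rw [map_sub, CLES_d₁₂_d₀₁_res, sub_zero, CLES_res_d₁₂]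

end CLESAux

section Functoriality

variable {M N : Rep.{0} k G} (φ : M ⟶ N)

/-- Push-forward of degree-1 cone cochains. -/
def cmapc1 : (G → M) × (ι → M) →ₗ[k] (G → N) × (ι → N) :=
  LinearMap.prodMap (cmap₁ φ) (φ.hom.toLinearMap.compLeft ι)

/-- Push-forward of degree-2 cone cochains. -/
def cmapc2 : (G × G → M) × (∀ v, Gv v → M) →ₗ[k] (G × G → N) × (∀ v, Gv v → N) :=
  LinearMap.prodMap (cmap₂ φ)
    (LinearMap.pi fun v => φ.hom.toLinearMap.compLeft (Gv v) ∘ₗ LinearMap.proj v)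

theorem cmapc1_mem_Zc1 {x : (G → M) × (ι → M)} (hx : x ∈ Zc1 𝒰 loc M) :
    cmapc1 φ x ∈ Zc1 𝒰 loc N := by
  obtain ⟨h1, h2⟩ := hx
  refine ⟨cmap₁_mem_Z1 φ h1, fun v => ?_⟩
  funext g
  have h : x.1 (loc v g) = M.ρ (loc v g) (x.2 v) - x.2 v := congrFun (h2 v) g
  show φ.hom (x.1 (loc v g)) = N.ρ (loc v g) (φ.hom (x.2 v)) - φ.hom (x.2 v)
  rw [h, map_sub, Rep.hom_comm_apply]

theorem cmapc1_mem_Bc1 {x : (G → M) × (ι → M)} (hx : x ∈ Bc1 (ι := ι) M) :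
    cmapc1 φ x ∈ Bc1 (ι := ι) N := by
  obtain ⟨m, rfl⟩ := hx
  refine ⟨φ.hom m, ?_⟩
  refine Prod.ext ?_ ?_
  · funext g
    show N.ρ g (φ.hom m) - φ.hom m = φ.hom (M.ρ g m - m)
    rw [map_sub, Rep.hom_comm_apply]
  · rfl

theorem cmapc2_mem_Zc2 {x : (G × G → M) × (∀ v, Gv v → M)} (hx : x ∈ Zc2 𝒰 loc 𝒰v M) :
    cmapc2 φ x ∈ Zc2 𝒰 loc 𝒰v N := by
  obtain ⟨h1, h2⟩ := hx
  refine ⟨cmap₂_mem_Z2 φ h1, fun v => ⟨?_, ?_⟩⟩
  · exact IsLev₁.comp (h2 v).1 φ.hom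
  · funext ⟨g, h⟩
    have e : x.1 (loc v g, loc v h) = M.ρ (loc v g) (x.2 v h) - x.2 v (g * h) + x.2 v g :=
      congrFun (h2 v).2 (g, h)
    show φ.hom (x.1 (loc v g, loc v h))
      = N.ρ (loc v g) (φ.hom (x.2 v h)) - φ.hom (x.2 v (g * h)) + φ.hom (x.2 v g)
    rw [e, map_add, map_sub, Rep.hom_comm_apply]

theorem cmapc2_mem_Bc2 {x : (G × G → M) × (∀ v, Gv v → M)} (hx : x ∈ Bc2 𝒰 loc M) :
    cmapc2 φ x ∈ Bc2 𝒰 loc N := by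
  obtain ⟨y, hy, rfl⟩ := hx
  refine ⟨(cmap₁ φ y.1, fun v => φ.hom (y.2 v)), ⟨IsLev₁.comp hy.1 φ.hom, trivial⟩, ?_⟩
  refine Prod.ext ?_ ?_
  · exact (cmap₂_d₁₂ φ y.1).symm
  · funext v g
    show φ.hom (y.1 (loc v g)) - (N.ρ (loc v g) (φ.hom (y.2 v)) - φ.hom (y.2 v))
      = φ.hom (y.1 (loc v g) - (M.ρ (loc v g) (y.2 v) - y.2 v))
    rw [map_sub, map_sub, Rep.hom_comm_apply]

/-- `H¹_c(φ)`. -/
def Hc1map : Hc1 𝒰 loc M →ₗ[k] Hc1 𝒰 loc N :=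
  subquotMap (cmapc1 φ) (Zc1 𝒰 loc M) (Bc1 M) (Zc1 𝒰 loc N) (Bc1 N)
    (fun _ hx => cmapc1_mem_Zc1 𝒰 loc φ hx) (fun _ _ hx => cmapc1_mem_Bc1 φ hx)

/-- `H²_c(φ)`. -/
def Hc2map : Hc2 𝒰 loc 𝒰v M →ₗ[k] Hc2 𝒰 loc 𝒰v N :=
  subquotMap (cmapc2 φ) (Zc2 𝒰 loc 𝒰v M) (Bc2 𝒰 loc M) (Zc2 𝒰 loc 𝒰v N) (Bc2 𝒰 loc N)
    (fun _ hx => cmapc2_mem_Zc2 𝒰 loc 𝒰v φ hx) (fun _ _ hx => cmapc2_mem_Bc2 𝒰 loc φ hx)

end Functoriality

section Connecting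

variable {A M B : Rep.{0} k G} (E : SplitSES A M B)

/-- Cochain-level connecting map `C¹_c(B) → C²_c(A)`:
`(a, b) ↦ (r ∘ d(s ∘ a), (r ∘ (res_v (s ∘ a) - d (s (b v))))_v)`. -/
def dltc : (G → B) × (ι → B) →ₗ[k] (G × G → A) × (∀ v, Gv v → A) :=
  LinearMap.prod (dlt₁ E ∘ₗ LinearMap.fst k _ _)
    (LinearMap.pi fun v => E.r.compLeft (Gv v) ∘ₗ
      (res₁ loc M v ∘ₗ E.s.compLeft G ∘ₗ LinearMap.fst k _ _
        - (d₀₁ (Rep.res (loc v) M)).hom ∘ₗ E.s ∘ₗ LinearMap.proj v ∘ₗ LinearMap.snd k _ _))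

variable (hloc : ∀ v, IsLevelMap (𝒰v v) 𝒰 (loc v)) (hM : IsDisc 𝒰 M)

theorem dltc_mem_Zc2 {x : (G → B) × (ι → B)} (hx : x ∈ Zc1 𝒰 loc B)
    (hloc : ∀ v, IsLevelMap (𝒰v v) 𝒰 (loc v)) (hM : IsDisc 𝒰 M) :
    dltc loc E x ∈ Zc2 𝒰 loc 𝒰v A := by
  obtain ⟨h1, h2⟩ := hx
  have hπe : ∀ (v : ι) (g : Gv v), E.π.hom (E.s (x.1 (loc v g))
      - (M.ρ (loc v g) (E.s (x.2 v)) - E.s (x.2 v))) = 0 := by
    intro v g
    have h : x.1 (loc v g) = B.ρ (loc v g) (x.2 v) - x.2 v := congrFun (h2 v) g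
    rw [map_sub, map_sub, Rep.hom_comm_apply, E.π_s, E.π_s, h, sub_self]
  refine ⟨dlt₁_mem_Z2 𝒰 E hM h1, fun v => ⟨?_, ?_⟩⟩
  · have k1 : (fun g : Gv v => E.s (x.1 (loc v g))) ∈ C1 (𝒰v v) (Rep.res (loc v) M) :=
      IsLev₁.precomp (hloc v) (IsLev₁.comp h1.1 E.s)
    have k2 : (fun g : Gv v => M.ρ (loc v g) (E.s (x.2 v)) - E.s (x.2 v))
        ∈ C1 (𝒰v v) (Rep.res (loc v) M) :=
      IsLev₁.precomp (hloc v) (d₀₁_mem_C1 𝒰 hM (E.s (x.2 v)))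
    have k3 := Submodule.sub_mem _ k1 k2
    exact IsLev₁.comp k3 E.r
  · funext ⟨g, h⟩
    apply CLES_i_injective E
    show E.i.hom (E.r (M.ρ (loc v g) (E.s (x.1 (loc v h))) - E.s (x.1 (loc v g * loc v h))
        + E.s (x.1 (loc v g))))
      = E.i.hom (A.ρ (loc v g) (E.r (E.s (x.1 (loc v h))
          - (M.ρ (loc v h) (E.s (x.2 v)) - E.s (x.2 v))))
        - E.r (E.s (x.1 (loc v (g * h))) - (M.ρ (loc v (g * h)) (E.s (x.2 v)) - E.s (x.2 v)))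
        + E.r (E.s (x.1 (loc v g)) - (M.ρ (loc v g) (E.s (x.2 v)) - E.s (x.2 v))))
    rw [CLES_i_r E (CLES_π_d₁₂_s E h1.2 _ _), map_add, map_sub, Rep.hom_comm_apply,
      CLES_i_r E (hπe v h), CLES_i_r E (hπe v (g * h)), CLES_i_r E (hπe v g)]
    simp only [map_mul, map_sub, Module.End.mul_apply]
    abel

theorem dltc_mem_Bc2 {x : (G → B) × (ι → B)} (hx : x ∈ Zc1 𝒰 loc B) (hx' : x ∈ Bc1 (ι := ι) B)
    (hloc : ∀ v, IsLevelMap (𝒰v v) 𝒰 (loc v)) (hM : IsDisc 𝒰 M) :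
    dltc loc E x ∈ Bc2 𝒰 loc A := by
  obtain ⟨t, rfl⟩ := hx'
  have hB : IsDisc 𝒰 B := CLES_isDisc_quot 𝒰 E hM
  have hπc : ∀ g : G, E.π.hom (E.s (B.ρ g t - t) - (M.ρ g (E.s t) - E.s t)) = 0 := by
    intro g
    simp only [map_sub, Rep.hom_comm_apply, E.π_s, sub_self]
  have hcoc : (d₀₁ B).hom t ∈ cocycles₁ B := coboundaries₁_le_cocycles₁ B ⟨t, rfl⟩
  refine ⟨(fun g => E.r (E.s (B.ρ g t - t) - (M.ρ g (E.s t) - E.s t)), 0), ⟨?_, trivial⟩, ?_⟩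
  · have k1 : (fun g : G => E.s (B.ρ g t - t)) ∈ C1 𝒰 M :=
      IsLev₁.comp (d₀₁_mem_C1 𝒰 hB t) E.s
    have k2 : (fun g : G => M.ρ g (E.s t) - E.s t) ∈ C1 𝒰 M := d₀₁_mem_C1 𝒰 hM (E.s t)
    have k3 := Submodule.sub_mem _ k1 k2
    exact IsLev₁.comp k3 E.r
  · refine Prod.ext ?_ ?_
    · funext ⟨g, h⟩
      apply CLES_i_injective E
      show E.i.hom (A.ρ g (E.r (E.s (B.ρ h t - t) - (M.ρ h (E.s t) - E.s t)))
          - E.r (E.s (B.ρ (g * h) t - t) - (M.ρ (g * h) (E.s t) - E.s t))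
          + E.r (E.s (B.ρ g t - t) - (M.ρ g (E.s t) - E.s t)))
        = E.i.hom (E.r (M.ρ g (E.s (B.ρ h t - t)) - E.s (B.ρ (g * h) t - t)
          + E.s (B.ρ g t - t)))
      have hd : E.π.hom (M.ρ g (E.s (B.ρ h t - t)) - E.s (B.ρ (g * h) t - t)
          + E.s (B.ρ g t - t)) = 0 := CLES_π_d₁₂_s E hcoc g h
      rw [CLES_i_r E hd, map_add, map_sub, Rep.hom_comm_apply, CLES_i_r E (hπc h),
        CLES_i_r E (hπc (g * h)), CLES_i_r E (hπc g)]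
      simp only [map_mul, map_sub, Module.End.mul_apply]
      abel
    · funext v g
      show E.r (E.s (B.ρ (loc v g) t - t) - (M.ρ (loc v g) (E.s t) - E.s t))
          - (A.ρ (loc v g) 0 - 0)
        = E.r (E.s (B.ρ (loc v g) t - t) - (M.ρ (loc v g) (E.s t) - E.s t))
      rw [map_zero, sub_zero, sub_zero]

/-- `∂ : H¹_c(B) → H²_c(A)`. -/
def Hcδ : Hc1 𝒰 loc B →ₗ[k] Hc2 𝒰 loc 𝒰v A :=
  subquotMap (dltc loc E) (Zc1 𝒰 loc B) (Bc1 B) (Zc2 𝒰 loc 𝒰v A) (Bc2 𝒰 loc A)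
    (fun _ hx => dltc_mem_Zc2 𝒰 loc 𝒰v E hx hloc hM)
    (fun _ hx hx' => dltc_mem_Bc2 𝒰 loc 𝒰v E hx hx' hloc hM)

/-- exact at `H¹_c(B)`: `ker ∂ ⊆ im H¹_c(π)`. -/
theorem exact_Hc1_right (x : Hc1 𝒰 loc B) (hx : Hcδ 𝒰 loc 𝒰v E hloc hM x = 0) :
    ∃ m : Hc1 𝒰 loc M, Hc1map 𝒰 loc E.π m = x := by
  obtain ⟨⟨y, hy⟩, rfl⟩ := Submodule.Quotient.mk_surjective _ x
  have hx' : dltc loc E y ∈ Bc2 𝒰 loc A := by
    have h0 : (Submodule.Quotient.mk (⟨dltc loc E y, dltc_mem_Zc2 𝒰 loc 𝒰v E hy hloc hM⟩ :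
        ↥(Zc2 𝒰 loc 𝒰v A)) : Hc2 𝒰 loc 𝒰v A) = 0 := hx
    rw [Submodule.Quotient.mk_eq_zero] at h0
    exact h0
  obtain ⟨⟨c, f⟩, ⟨hc, -⟩, hcf⟩ := hx'
  have hc : c ∈ C1 𝒰 A := hc
  have hy1 : y.1 ∈ Z1 𝒰 B := hy.1
  have e1 : ∀ g h : G, A.ρ g (c h) - c (g * h) + c g
      = E.r (M.ρ g (E.s (y.1 h)) - E.s (y.1 (g * h)) + E.s (y.1 g)) := fun g h =>
    congrFun (congrArg Prod.fst hcf) (g, h)
  have e2 : ∀ (v : ι) (g : Gv v), c (loc v g) - (A.ρ (loc v g) (f v) - f v)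
      = E.r (E.s (y.1 (loc v g)) - (M.ρ (loc v g) (E.s (y.2 v)) - E.s (y.2 v))) := fun v g =>
    congrFun (congrFun (congrArg Prod.snd hcf) v) g
  have hπe : ∀ (v : ι) (g : Gv v), E.π.hom (E.s (y.1 (loc v g))
      - (M.ρ (loc v g) (E.s (y.2 v)) - E.s (y.2 v))) = 0 := by
    intro v g
    have h : y.1 (loc v g) = B.ρ (loc v g) (y.2 v) - y.2 v := congrFun (hy.2 v) g
    rw [map_sub, map_sub, Rep.hom_comm_apply, E.π_s, E.π_s, h, sub_self]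
  have hmem : ((fun g => E.s (y.1 g) - E.i.hom (c g), fun v => E.s (y.2 v) - E.i.hom (f v)) :
      (G → M) × (ι → M)) ∈ Zc1 𝒰 loc M := by
    refine ⟨⟨?_, ?_⟩, fun v => ?_⟩
    · have k1 : (fun g : G => E.s (y.1 g)) ∈ C1 𝒰 M := IsLev₁.comp hy1.1 E.s
      have k2 : (fun g : G => E.i.hom (c g)) ∈ C1 𝒰 M := IsLev₁.comp hc E.i.hom
      exact Submodule.sub_mem _ k1 k2
    · refine (mem_cocycles₁_def _).2 fun g h => ?_
      show M.ρ g (E.s (y.1 h) - E.i.hom (c h)) - (E.s (y.1 (g * h)) - E.i.hom (c (g * h)))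
        + (E.s (y.1 g) - E.i.hom (c g)) = 0
      have k := congrArg E.i.hom (e1 g h)
      rw [CLES_i_r E (CLES_π_d₁₂_s E hy1.2 g h), map_add, map_sub, Rep.hom_comm_apply] at k
      rw [map_sub]
      refine Eq.trans ?_ (sub_eq_zero.2 k.symm)
      abel
    · funext g
      show E.s (y.1 (loc v g)) - E.i.hom (c (loc v g))
        = M.ρ (loc v g) (E.s (y.2 v) - E.i.hom (f v)) - (E.s (y.2 v) - E.i.hom (f v))
      have k := congrArg E.i.hom (e2 v g)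
      rw [CLES_i_r E (hπe v g), map_sub, map_sub, Rep.hom_comm_apply] at k
      rw [map_sub, ← sub_eq_zero]
      refine Eq.trans ?_ (sub_eq_zero.2 k.symm)
      abel
  refine ⟨Submodule.Quotient.mk ⟨_, hmem⟩, ?_⟩
  show (Submodule.Quotient.mk (⟨cmapc1 E.π _, _⟩ : ↥(Zc1 𝒰 loc B)) : Hc1 𝒰 loc B)
    = Submodule.Quotient.mk ⟨y, hy⟩
  congr 1
  apply Subtype.ext
  refine Prod.ext ?_ ?_
  · funext g
    show E.π.hom (E.s (y.1 g) - E.i.hom (c g)) = y.1 g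
    rw [map_sub, E.π_s, E.π_i, sub_zero]
  · funext v
    show E.π.hom (E.s (y.2 v) - E.i.hom (f v)) = y.2 v
    rw [map_sub, E.π_s, E.π_i, sub_zero]

/-- complex at `H²_c(A)`: `H²_c(i) ∘ ∂ = 0`. -/
theorem Hc2map_Hcδ (x : Hc1 𝒰 loc B) :
    Hc2map 𝒰 loc 𝒰v E.i (Hcδ 𝒰 loc 𝒰v E hloc hM x) = 0 := by
  obtain ⟨⟨y, hy⟩, rfl⟩ := Submodule.Quotient.mk_surjective _ x
  have hy1 : y.1 ∈ Z1 𝒰 B := hy.1
  have hπe : ∀ (v : ι) (g : Gv v), E.π.hom (E.s (y.1 (loc v g))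
      - (M.ρ (loc v g) (E.s (y.2 v)) - E.s (y.2 v))) = 0 := by
    intro v g
    have h : y.1 (loc v g) = B.ρ (loc v g) (y.2 v) - y.2 v := congrFun (hy.2 v) g
    rw [map_sub, map_sub, Rep.hom_comm_apply, E.π_s, E.π_s, h, sub_self]
  show (Submodule.Quotient.mk (⟨cmapc2 E.i (dltc loc E y), _⟩ : ↥(Zc2 𝒰 loc 𝒰v M)) :
    Hc2 𝒰 loc 𝒰v M) = 0
  rw [Submodule.Quotient.mk_eq_zero]
  show cmapc2 E.i (dltc loc E y) ∈ Bc2 𝒰 loc M
  refine ⟨(fun g => E.s (y.1 g), fun v => E.s (y.2 v)), ⟨IsLev₁.comp hy1.1 E.s, trivial⟩, ?_⟩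
  refine Prod.ext ?_ ?_
  · funext ⟨g, h⟩
    show M.ρ g (E.s (y.1 h)) - E.s (y.1 (g * h)) + E.s (y.1 g)
      = E.i.hom (E.r (M.ρ g (E.s (y.1 h)) - E.s (y.1 (g * h)) + E.s (y.1 g)))
    rw [CLES_i_r E (CLES_π_d₁₂_s E hy1.2 g h)]
  · funext v g
    show E.s (y.1 (loc v g)) - (M.ρ (loc v g) (E.s (y.2 v)) - E.s (y.2 v))
      = E.i.hom (E.r (E.s (y.1 (loc v g)) - (M.ρ (loc v g) (E.s (y.2 v)) - E.s (y.2 v))))
    rw [CLES_i_r E (hπe v g)]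

/-- exact at `H²_c(M)`: `ker H²_c(π) ⊆ im H²_c(i)`. -/
theorem exact_Hc2_mid (hloc : ∀ v, IsLevelMap (𝒰v v) 𝒰 (loc v)) (hM : IsDisc 𝒰 M)
    (x : Hc2 𝒰 loc 𝒰v M) (hx : Hc2map 𝒰 loc 𝒰v E.π x = 0) :
    ∃ a : Hc2 𝒰 loc 𝒰v A, Hc2map 𝒰 loc 𝒰v E.i a = x := by
  obtain ⟨⟨y, hy⟩, rfl⟩ := Submodule.Quotient.mk_surjective _ x
  have hx' : cmapc2 E.π y ∈ Bc2 𝒰 loc B := by
    have h0 : (Submodule.Quotient.mk (⟨cmapc2 E.π y, cmapc2_mem_Zc2 𝒰 loc 𝒰v E.π hy⟩ :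
        ↥(Zc2 𝒰 loc 𝒰v B)) : Hc2 𝒰 loc 𝒰v B) = 0 := hx
    rw [Submodule.Quotient.mk_eq_zero] at h0
    exact h0
  obtain ⟨⟨c, f⟩, ⟨hc, -⟩, hcf⟩ := hx'
  have hc : c ∈ C1 𝒰 B := hc
  have k1 : ∀ g h : G, B.ρ g (c h) - c (g * h) + c g = E.π.hom (y.1 (g, h)) := fun g h =>
    congrFun (congrArg Prod.fst hcf) (g, h)
  have k2 : ∀ (v : ι) (g : Gv v), c (loc v g) - (B.ρ (loc v g) (f v) - f v)
      = E.π.hom (y.2 v g) := fun v g => congrFun (congrFun (congrArg Prod.snd hcf) v) g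
  have hsc : (fun g => E.s (c g)) ∈ C1 𝒰 M := IsLev₁.comp hc E.s
  have hbd : bdry2 loc M (fun g => E.s (c g), fun v => E.s (f v)) ∈ Zc2 𝒰 loc 𝒰v M :=
    CLES_bdry2_mem_Zc2 𝒰 loc 𝒰v hloc hM hsc _
  have hy' : y - bdry2 loc M (fun g => E.s (c g), fun v => E.s (f v)) ∈ Zc2 𝒰 loc 𝒰v M :=
    Submodule.sub_mem _ hy hbd
  -- abbreviations for the two components of `y'`
  have hπ1 : ∀ g h : G, E.π.hom (y.1 (g, h)
      - (M.ρ g (E.s (c h)) - E.s (c (g * h)) + E.s (c g))) = 0 := by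
    intro g h
    rw [map_sub, map_add, map_sub, Rep.hom_comm_apply, E.π_s, E.π_s, E.π_s, k1 g h, sub_self]
  have hπ2 : ∀ (v : ι) (g : Gv v), E.π.hom (y.2 v g
      - (E.s (c (loc v g)) - (M.ρ (loc v g) (E.s (f v)) - E.s (f v)))) = 0 := by
    intro v g
    rw [map_sub, map_sub, map_sub, Rep.hom_comm_apply, E.π_s, E.π_s, k2 v g, sub_self]
  have hz : ((fun p : G × G => E.r (y.1 p
        - (M.ρ p.1 (E.s (c p.2)) - E.s (c (p.1 * p.2)) + E.s (c p.1))),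
      fun v (g : Gv v) => E.r (y.2 v g
        - (E.s (c (loc v g)) - (M.ρ (loc v g) (E.s (f v)) - E.s (f v))))) :
      (G × G → A) × (∀ v, Gv v → A)) ∈ Zc2 𝒰 loc 𝒰v A := by
    obtain ⟨⟨hl, hcoc⟩, hlocal⟩ := hy'
    refine ⟨⟨IsLev₂.comp hl E.r, ?_⟩, fun v => ⟨IsLev₁.comp (hlocal v).1 E.r, ?_⟩⟩
    · refine (mem_cocycles₂_def _).2 fun g h j => ?_
      apply CLES_i_injective E
      have hc0 := (mem_cocycles₂_def _).1 hcoc g h j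
      rw [map_zero, map_sub, map_add, map_sub, Rep.hom_comm_apply]
      rw [CLES_i_r E (hπ1 h j), CLES_i_r E (hπ1 (g * h) j), CLES_i_r E (hπ1 g (h * j)),
        CLES_i_r E (hπ1 g h)]
      exact hc0
    · funext ⟨g, h⟩
      apply CLES_i_injective E
      have hl0 : y.1 (loc v g, loc v h)
          - (M.ρ (loc v g) (E.s (c (loc v h))) - E.s (c (loc v g * loc v h))
            + E.s (c (loc v g)))
        = M.ρ (loc v g) (y.2 v h - (E.s (c (loc v h))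
            - (M.ρ (loc v h) (E.s (f v)) - E.s (f v))))
          - (y.2 v (g * h) - (E.s (c (loc v (g * h)))
            - (M.ρ (loc v (g * h)) (E.s (f v)) - E.s (f v))))
          + (y.2 v g - (E.s (c (loc v g)) - (M.ρ (loc v g) (E.s (f v)) - E.s (f v)))) :=
        congrFun (hlocal v).2 (g, h)
      show E.i.hom (E.r (y.1 (loc v g, loc v h)
          - (M.ρ (loc v g) (E.s (c (loc v h))) - E.s (c (loc v g * loc v h))
            + E.s (c (loc v g)))))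
        = E.i.hom (A.ρ (loc v g) (E.r (y.2 v h - (E.s (c (loc v h))
            - (M.ρ (loc v h) (E.s (f v)) - E.s (f v)))))
          - E.r (y.2 v (g * h) - (E.s (c (loc v (g * h)))
            - (M.ρ (loc v (g * h)) (E.s (f v)) - E.s (f v))))
          + E.r (y.2 v g - (E.s (c (loc v g)) - (M.ρ (loc v g) (E.s (f v)) - E.s (f v)))))
      rw [CLES_i_r E (hπ1 _ _), map_add, map_sub, Rep.hom_comm_apply, CLES_i_r E (hπ2 v h),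
        CLES_i_r E (hπ2 v (g * h)), CLES_i_r E (hπ2 v g)]
      exact hl0
  refine ⟨Submodule.Quotient.mk ⟨_, hz⟩, ?_⟩
  show (Submodule.Quotient.mk (⟨cmapc2 E.i _, _⟩ : ↥(Zc2 𝒰 loc 𝒰v M)) : Hc2 𝒰 loc 𝒰v M)
    = Submodule.Quotient.mk ⟨y, hy⟩
  rw [Submodule.Quotient.eq]
  show cmapc2 E.i _ - y ∈ Bc2 𝒰 loc M
  have hneg : -(bdry2 loc M (fun g => E.s (c g), fun v => E.s (f v))) ∈ Bc2 𝒰 loc M :=
    Submodule.neg_mem _ ⟨_, ⟨hsc, trivial⟩, rfl⟩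
  convert hneg using 1
  refine Prod.ext ?_ ?_
  · funext ⟨g, h⟩
    show E.i.hom (E.r (y.1 (g, h) - (M.ρ g (E.s (c h)) - E.s (c (g * h)) + E.s (c g))))
        - y.1 (g, h)
      = -(M.ρ g (E.s (c h)) - E.s (c (g * h)) + E.s (c g))
    rw [CLES_i_r E (hπ1 g h)]
    abel
  · funext v g
    show E.i.hom (E.r (y.2 v g
        - (E.s (c (loc v g)) - (M.ρ (loc v g) (E.s (f v)) - E.s (f v))))) - y.2 v g
      = -(E.s (c (loc v g)) - (M.ρ (loc v g) (E.s (f v)) - E.s (f v)))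
    rw [CLES_i_r E (hπ2 v g)]
    abel

end Connecting

section Iota

variable (M : Rep.{0} k G)

/-- Tuples of local level 1-cocycles. -/
def ZL1 : Submodule k (∀ v, Gv v → M) :=
  Submodule.pi Set.univ fun v => Z1 (𝒰v v) (Rep.res (loc v) M)

/-- `(0, z)` is a compactly supported 2-cocycle for local 1-cocycles `z`. -/
theorem inr_mem_Zc2 {z : ∀ v, Gv v → M} (hz : z ∈ ZL1 loc 𝒰v M) :
    ((0, z) : (G × G → M) × (∀ v, Gv v → M)) ∈ Zc2 𝒰 loc 𝒰v M := by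
  refine ⟨zero_mem _, fun v => ⟨(hz v (Set.mem_univ v)).1, ?_⟩⟩
  have h : (d₁₂ (Rep.res (loc v) M)).hom (z v) = 0 := (hz v (Set.mem_univ v)).2
  show res₂ loc M v 0 = (d₁₂ (Rep.res (loc v) M)).hom (z v)
  rw [h, map_zero]

/-- The kernel of `H²_c(M) → H²(M)` consists of the classes `(0, z)`:
a compactly supported cocycle whose global component is a level coboundary is cohomologous to
some `(0, z)`. -/
theorem exists_inr_of_fst_mem_B2 (hloc : ∀ v, IsLevelMap (𝒰v v) 𝒰 (loc v)) (hM : IsDisc 𝒰 M)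
    {x : (G × G → M) × (∀ v, Gv v → M)} (hx : x ∈ Zc2 𝒰 loc 𝒰v M) (h1 : x.1 ∈ B2 𝒰 M) :
    ∃ z ∈ ZL1 loc 𝒰v M, x - (0, z) ∈ Bc2 𝒰 loc M := by
  obtain ⟨c, hc, hc'⟩ := h1
  have hc : c ∈ C1 𝒰 M := hc
  refine ⟨fun v => x.2 v - res₁ loc M v c, ?_, ?_⟩
  · intro v _
    refine ⟨Submodule.sub_mem _ (hx.2 v).1 (IsLev₁.precomp (hloc v) hc), ?_⟩
    show (d₁₂ (Rep.res (loc v) M)).hom (x.2 v - res₁ loc M v c) = 0
    rw [map_sub, ← CLES_res_d₁₂, hc', (hx.2 v).2, sub_self]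
  · refine ⟨(c, 0), ⟨hc, trivial⟩, ?_⟩
    refine Prod.ext ?_ ?_
    · show (d₁₂ M).hom c = x.1 - 0
      rw [hc', sub_zero]
    · funext v g
      show c (loc v g) - (M.ρ (loc v g) 0 - 0) = x.2 v g - (x.2 v g - c (loc v g))
      rw [map_zero, sub_zero, sub_zero, sub_sub_cancel]

end Iota

end Fermat.Agent.S55.Abs
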