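/-
S55 / PROGRAM CFT, abstract layer (helper235).

The Poitou–Tate pairings on explicit cochains.

Fix an equivariant pairing `β : A × B → C` (in the application `C = μ`, `B = A^*(1)`) and ANY
linear functional `lam` on `Qc3 C = C³_c(C)/B³_c(C)`.  Then
* `Pc2 : H²_c(A) × H¹(B) → k`, `((a, b), y) ↦ lam [(a ∪ y, (b_v ∪ res_v y)_v)]`,
* `Pc1 : H¹_c(A) × H²(B) → k`, `((a, b), y) ↦ lam [(a ∪ y, (b_v ∪ res_v y)_v)]`,
* local invariants `invOf lam v : H²(G_v, C) → k`, `z ↦ lam [(0, z at v)]`,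
  and the local cup-product pairings into `H²(G_v, C)`.
No vanishing of `H³(G, C)` is needed: all formal properties hold in `Qc3 C`.
The arithmetic side chooses `lam` extending the sum of local invariants (reciprocity).
-/
import Fermat.Agent.S55.Abs.CompactLES

set_option autoImplicit false

open CategoryTheory groupCohomology

namespace Fermat.Agent.S55.Abs

variable {k G : Type} [Field k] [Group G] (𝒰 : LevelFamily G)
  {ι : Type} {Gv : ι → Type} [∀ v, Group (Gv v)]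
  (loc : ∀ v, Gv v →* G) (𝒰v : ∀ v, LevelFamily (Gv v))

/-! ### Restriction versus cup products and differentials (private helpers, helper146) -/

section ResHelpers

variable {A B C : Rep.{0} k G} (β : EqPairing A B C)

private lemma pm_res₃_cup21 (v : ι) (a : G × G → A) (y : G → B) :
    res₃ loc C v (cup21 β a y) = cup21 (β.res (loc v)) (res₂ loc A v a) (res₁ loc B v y) := by
  ext ⟨g1, g2, g3⟩
  simp [EqPairing.res, map_mul]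

private lemma pm_res₃_cup12 (v : ι) (a : G → A) (y : G × G → B) :
    res₃ loc C v (cup12 β a y) = cup12 (β.res (loc v)) (res₁ loc A v a) (res₂ loc B v y) := by
  ext ⟨g1, g2, g3⟩
  rfl

private lemma pm_res₂_cup11 (v : ι) (a : G → A) (y : G → B) :
    res₂ loc C v (cup11 β a y) = cup11 (β.res (loc v)) (res₁ loc A v a) (res₁ loc B v y) := by
  ext ⟨g1, g2⟩
  rfl

private lemma pm_res₂_cup20 (v : ι) (a : G × G → A) (t : B) :
    res₂ loc C v (cup20 β a t) = cup20 (β.res (loc v)) (res₂ loc A v a) t := by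
  ext ⟨g1, g2⟩
  simp [EqPairing.res, map_mul]

private lemma pm_res₂_cup02 (v : ι) (m : A) (y : G × G → B) :
    res₂ loc C v (cup02 β m y) = cup02 (β.res (loc v)) m (res₂ loc B v y) := by
  ext ⟨g1, g2⟩
  rfl

private lemma pm_res₁_d₀₁ (M : Rep.{0} k G) (v : ι) (m : M) :
    res₁ loc M v ((d₀₁ M).hom m) = (d₀₁ (Rep.res (loc v) M)).hom m := by
  ext g
  simp [d₀₁_hom_apply]

private lemma pm_res₂_d₁₂ (M : Rep.{0} k G) (v : ι) (c : G → M) :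
    res₂ loc M v ((d₁₂ M).hom c) = (d₁₂ (Rep.res (loc v) M)).hom (res₁ loc M v c) := by
  ext ⟨g1, g2⟩
  simp [d₁₂_hom_apply, map_mul]

private lemma pm_res₃_d₂₃ (M : Rep.{0} k G) (v : ι) (c : G × G → M) :
    res₃ loc M v ((d₂₃ M).hom c) = (d₂₃ (Rep.res (loc v) M)).hom (res₂ loc M v c) := by
  ext ⟨g1, g2, g3⟩
  simp [d₂₃_hom_apply, map_mul]

private lemma pm_res₁_mem_C1 (hloc : ∀ v, IsLevelMap (𝒰v v) 𝒰 (loc v)) (M : Rep.{0} k G) (v : ι)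
    {y : G → M} (hy : y ∈ C1 𝒰 M) : res₁ loc M v y ∈ C1 (𝒰v v) (Rep.res (loc v) M) :=
  IsLev₁.precomp (hloc v) hy

private lemma pm_res₂_mem_C2 (hloc : ∀ v, IsLevelMap (𝒰v v) 𝒰 (loc v)) (M : Rep.{0} k G) (v : ι)
    {y : G × G → M} (hy : y ∈ C2 𝒰 M) : res₂ loc M v y ∈ C2 (𝒰v v) (Rep.res (loc v) M) :=
  IsLev₂.precomp (hloc v) hy

private lemma pm_res₁_mem_cocycles₁ (M : Rep.{0} k G) (v : ι) {y : G → M}
    (hy : y ∈ cocycles₁ M) : (d₁₂ (Rep.res (loc v) M)).hom (res₁ loc M v y) = 0 := by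
  have h : (d₁₂ M).hom y = 0 := hy
  rw [← pm_res₂_d₁₂, h, map_zero]

private lemma pm_res₂_mem_cocycles₂ (M : Rep.{0} k G) (v : ι) {y : G × G → M}
    (hy : y ∈ cocycles₂ M) : res₂ loc M v y ∈ cocycles₂ (Rep.res (loc v) M) := by
  have h : (d₂₃ M).hom y = 0 := hy
  show (d₂₃ (Rep.res (loc v) M)).hom (res₂ loc M v y) = 0
  rw [← pm_res₃_d₂₃, h, map_zero]

end ResHelpers

section Raw

variable {A B C : Rep.{0} k G} (β : EqPairing A B C)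

/-- `((a, b), y) ↦ (a ∪ y, (b_v ∪ res_v y)_v)` for `(a, b)` of cone-degree 2, `y` of degree 1. -/
def raw2 : (G × G → A) × (∀ v, Gv v → A) →ₗ[k] (G → B) →ₗ[k]
    (G × G × G → C) × (∀ v, Gv v × Gv v → C) :=
  LinearMap.mk₂ k
    (fun x y => (cup21 β x.1 y, fun v => cup11 (β.res (loc v)) (x.2 v) (res₁ loc B v y)))
    (fun _ _ _ => by ext <;> simp) (fun _ _ _ => by ext <;> simp)
    (fun _ _ _ => by ext <;> simp) (fun _ _ _ => by ext <;> simp)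

/-- `((a, b), y) ↦ (a ∪ y, (b_v ∪ res_v y)_v)` for `(a, b)` of cone-degree 1, `y` of degree 2. -/
def raw1 : (G → A) × (ι → A) →ₗ[k] (G × G → B) →ₗ[k]
    (G × G × G → C) × (∀ v, Gv v × Gv v → C) :=
  LinearMap.mk₂ k
    (fun x y => (cup12 β x.1 y, fun v => cup02 (β.res (loc v)) (x.2 v) (res₂ loc B v y)))
    (fun _ _ _ => by ext <;> simp) (fun _ _ _ => by ext <;> simp)
    (fun _ _ _ => by ext <;> simp) (fun _ _ _ => by ext <;> simp)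

variable (hloc : ∀ v, IsLevelMap (𝒰v v) 𝒰 (loc v))
  (hA : IsDisc 𝒰 A) (hB : IsDisc 𝒰 B) (hC : IsDisc 𝒰 C)

include hloc hA hB hC

theorem raw2_mem_Cc3 {x : (G × G → A) × (∀ v, Gv v → A)} (hx : x ∈ Zc2 𝒰 loc 𝒰v A)
    {y : G → B} (hy : y ∈ Z1 𝒰 B) : raw2 loc β x y ∈ Cc3 𝒰 loc 𝒰v C := by
  obtain ⟨⟨ha, hacoc⟩, hb⟩ := hx
  obtain ⟨hy1, hycoc⟩ := hy
  refine ⟨cup21_mem_C3 β 𝒰 hB ha hy1, fun v => ⟨?_, ?_⟩⟩
  · exact cup11_mem_C2 (β.res (loc v)) (𝒰v v) (isDisc_res 𝒰 (𝒰v v) (loc v) (hloc v) hB) (hb v).1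
      (pm_res₁_mem_C1 𝒰 loc 𝒰v hloc B v hy1)
  · show res₃ loc C v (cup21 β x.1 y)
      = (d₂₃ (Rep.res (loc v) C)).hom (cup11 (β.res (loc v)) (x.2 v) (res₁ loc B v y))
    rw [d₂₃_cup11, pm_res₁_mem_cocycles₁ loc B v hycoc, ← (hb v).2, pm_res₃_cup21, map_zero,
      sub_zero]

theorem raw2_mem_Bc3_left {x : (G × G → A) × (∀ v, Gv v → A)} (hx : x ∈ Zc2 𝒰 loc 𝒰v A)
    (hx' : x ∈ Bc2 𝒰 loc A) {y : G → B} (hy : y ∈ Z1 𝒰 B) :
    raw2 loc β x y ∈ Bc3 𝒰 loc 𝒰v C := by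
  obtain ⟨hy1, hycoc⟩ := hy
  obtain ⟨⟨c, f⟩, ⟨hc, -⟩, rfl⟩ := hx'
  have hc1 : c ∈ C1 𝒰 A := hc
  have hyd : (d₁₂ B).hom y = 0 := hycoc
  refine ⟨(cup11 β c y, fun v => cup01 (β.res (loc v)) (f v) (res₁ loc B v y)),
    ⟨cup11_mem_C2 β 𝒰 hB hc1 hy1, fun v _ =>
      cup01_mem_C1 (β.res (loc v)) (𝒰v v) (f v) (pm_res₁_mem_C1 𝒰 loc 𝒰v hloc B v hy1)⟩, ?_⟩
  refine Prod.ext ?_ (funext fun v => ?_)
  · show (d₂₃ C).hom (cup11 β c y) = cup21 β ((d₁₂ A).hom c) y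
    rw [d₂₃_cup11, hyd, map_zero, sub_zero]
  · show res₂ loc C v (cup11 β c y)
        - (d₁₂ (Rep.res (loc v) C)).hom (cup01 (β.res (loc v)) (f v) (res₁ loc B v y))
      = cup11 (β.res (loc v)) (res₁ loc A v c - (d₀₁ (Rep.res (loc v) A)).hom (f v))
          (res₁ loc B v y)
    rw [d₁₂_cup01, pm_res₁_mem_cocycles₁ loc B v hycoc, map_zero, add_zero, pm_res₂_cup11,
      map_sub, LinearMap.sub_apply]

theorem raw2_mem_Bc3_right {x : (G × G → A) × (∀ v, Gv v → A)} (hx : x ∈ Zc2 𝒰 loc 𝒰v A)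
    {y : G → B} (hy : y ∈ Z1 𝒰 B) (hy' : y ∈ coboundaries₁ B) :
    raw2 loc β x y ∈ Bc3 𝒰 loc 𝒰v C := by
  obtain ⟨⟨ha, hacoc⟩, hb⟩ := hx
  obtain ⟨t, rfl⟩ := hy'
  refine ⟨(cup20 β x.1 t, fun v => cup10 (β.res (loc v)) (x.2 v) t),
    ⟨cup20_mem_C2 β 𝒰 hB ha t, fun v _ =>
      cup10_mem_C1 (β.res (loc v)) (𝒰v v) (isDisc_res 𝒰 (𝒰v v) (loc v) (hloc v) hB) (hb v).1 t⟩,
    ?_⟩
  refine Prod.ext ?_ (funext fun v => ?_)
  · show (d₂₃ C).hom (cup20 β x.1 t) = cup21 β x.1 ((d₀₁ B).hom t)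
    rw [d₂₃_cup20 β x.1 hacoc t]
  · show res₂ loc C v (cup20 β x.1 t)
        - (d₁₂ (Rep.res (loc v) C)).hom (cup10 (β.res (loc v)) (x.2 v) t)
      = cup11 (β.res (loc v)) (x.2 v) (res₁ loc B v ((d₀₁ B).hom t))
    rw [d₁₂_cup10, ← (hb v).2, pm_res₂_cup20, pm_res₁_d₀₁, sub_sub_cancel]

theorem raw1_mem_Cc3 {x : (G → A) × (ι → A)} (hx : x ∈ Zc1 𝒰 loc A)
    {y : G × G → B} (hy : y ∈ Z2 𝒰 B) : raw1 loc β x y ∈ Cc3 𝒰 loc 𝒰v C := by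
  obtain ⟨⟨ha, hacoc⟩, hf⟩ := hx
  obtain ⟨hy1, hycoc⟩ := hy
  refine ⟨cup12_mem_C3 β 𝒰 hB ha hy1, fun v => ⟨?_, ?_⟩⟩
  · exact cup02_mem_C2 (β.res (loc v)) (𝒰v v) (x.2 v) (pm_res₂_mem_C2 𝒰 loc 𝒰v hloc B v hy1)
  · show res₃ loc C v (cup12 β x.1 y)
      = (d₂₃ (Rep.res (loc v) C)).hom (cup02 (β.res (loc v)) (x.2 v) (res₂ loc B v y))
    rw [d₂₃_cup02 (β.res (loc v)) (x.2 v) _ (pm_res₂_mem_cocycles₂ loc B v hycoc), ← hf v,
      pm_res₃_cup12]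

theorem raw1_mem_Bc3_left {x : (G → A) × (ι → A)} (hx : x ∈ Zc1 𝒰 loc A)
    (hx' : x ∈ Bc1 (ι := ι) A) {y : G × G → B} (hy : y ∈ Z2 𝒰 B) :
    raw1 loc β x y ∈ Bc3 𝒰 loc 𝒰v C := by
  obtain ⟨hy1, hycoc⟩ := hy
  obtain ⟨m, rfl⟩ := hx'
  refine ⟨(cup02 β m y, fun v => 0), ⟨cup02_mem_C2 β 𝒰 m hy1, fun v _ => zero_mem _⟩, ?_⟩
  refine Prod.ext ?_ (funext fun v => ?_)
  · show (d₂₃ C).hom (cup02 β m y) = cup12 β ((d₀₁ A).hom m) y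
    rw [d₂₃_cup02 β m y hycoc]
  · show res₂ loc C v (cup02 β m y) - (d₁₂ (Rep.res (loc v) C)).hom 0
      = cup02 (β.res (loc v)) m (res₂ loc B v y)
    rw [map_zero, sub_zero, pm_res₂_cup02]

theorem raw1_mem_Bc3_right {x : (G → A) × (ι → A)} (hx : x ∈ Zc1 𝒰 loc A)
    {y : G × G → B} (hy : y ∈ Z2 𝒰 B) (hy' : y ∈ B2 𝒰 B) :
    raw1 loc β x y ∈ Bc3 𝒰 loc 𝒰v C := by
  obtain ⟨⟨ha, hacoc⟩, hf⟩ := hx
  obtain ⟨c, hc, rfl⟩ := hy'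
  have hc1 : c ∈ C1 𝒰 B := hc
  have had : (d₁₂ A).hom x.1 = 0 := hacoc
  refine ⟨(-cup11 β x.1 c, fun v => -cup01 (β.res (loc v)) (x.2 v) (res₁ loc B v c)),
    ⟨neg_mem (cup11_mem_C2 β 𝒰 hB ha hc1), fun v _ => neg_mem
      (cup01_mem_C1 (β.res (loc v)) (𝒰v v) (x.2 v) (pm_res₁_mem_C1 𝒰 loc 𝒰v hloc B v hc1))⟩, ?_⟩
  refine Prod.ext ?_ (funext fun v => ?_)
  · show (d₂₃ C).hom (-cup11 β x.1 c) = cup12 β x.1 ((d₁₂ B).hom c)
    rw [map_neg, d₂₃_cup11, had, map_zero, LinearMap.zero_apply, zero_sub, neg_neg]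
  · show res₂ loc C v (-cup11 β x.1 c)
        - (d₁₂ (Rep.res (loc v) C)).hom (-cup01 (β.res (loc v)) (x.2 v) (res₁ loc B v c))
      = cup02 (β.res (loc v)) (x.2 v) (res₂ loc B v ((d₁₂ B).hom c))
    rw [map_neg, map_neg, d₁₂_cup01, ← hf v, pm_res₂_cup11, pm_res₂_d₁₂]
    abel

omit hloc hA hB hC

variable (lam : Qc3 𝒰 loc 𝒰v C →ₗ[k] k)

/-- The pairing `H²_c(A) × H¹(B) → k`. -/
noncomputable def Pc2 : Hc2 𝒰 loc 𝒰v A →ₗ[k] H1 𝒰 B →ₗ[k] k :=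
  (descend₂ (raw2 loc β) (Zc2 𝒰 loc 𝒰v A) (Bc2 𝒰 loc A) (Z1 𝒰 B) (coboundaries₁ B)
    (Cc3 𝒰 loc 𝒰v C) (Bc3 𝒰 loc 𝒰v C)
    (fun _ hx _ hy => raw2_mem_Cc3 𝒰 loc 𝒰v β hloc hA hB hC hx hy)
    (fun _ hx hx' _ hy => raw2_mem_Bc3_left 𝒰 loc 𝒰v β hloc hA hB hC hx hx' hy)
    (fun _ hx _ hy hy' => raw2_mem_Bc3_right 𝒰 loc 𝒰v β hloc hA hB hC hx hy hy')).compr₂ lam

/-- The pairing `H¹_c(A) × H²(B) → k`. -/
noncomputable def Pc1 : Hc1 𝒰 loc A →ₗ[k] H2 𝒰 B →ₗ[k] k :=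
  (descend₂ (raw1 loc β) (Zc1 𝒰 loc A) (Bc1 A) (Z2 𝒰 B) (B2 𝒰 B)
    (Cc3 𝒰 loc 𝒰v C) (Bc3 𝒰 loc 𝒰v C)
    (fun _ hx _ hy => raw1_mem_Cc3 𝒰 loc 𝒰v β hloc hA hB hC hx hy)
    (fun _ hx hx' _ hy => raw1_mem_Bc3_left 𝒰 loc 𝒰v β hloc hA hB hC hx hx' hy)
    (fun _ hx _ hy hy' => raw1_mem_Bc3_right 𝒰 loc 𝒰v β hloc hA hB hC hx hy hy')).compr₂ lam

end Raw

/-! ### Local invariants induced by `lam` -/

section Inv

variable [DecidableEq ι] (C : Rep.{0} k G)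

/-- `z ↦ (0, z at v)`. -/
def jv (v : ι) : (Gv v × Gv v → C) →ₗ[k] (G × G × G → C) × (∀ v, Gv v × Gv v → C) :=
  LinearMap.inr k _ _ ∘ₗ LinearMap.single k (fun v => Gv v × Gv v → C) v

theorem jv_mem_Cc3 (v : ι) {z : Gv v × Gv v → C} (hz : z ∈ Z2 (𝒰v v) (Rep.res (loc v) C)) :
    jv C v z ∈ Cc3 𝒰 loc 𝒰v C := by
  obtain ⟨hz1, hzcoc⟩ := hz
  have hzd : (d₂₃ (Rep.res (loc v) C)).hom z = 0 := hzcoc
  refine ⟨zero_mem _, fun w => ?_⟩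
  show (Pi.single v z : ∀ v, Gv v × Gv v → C) w ∈ C2 (𝒰v w) (Rep.res (loc w) C) ∧
    res₃ loc C w 0 = (d₂₃ (Rep.res (loc w) C)).hom ((Pi.single v z : ∀ v, Gv v × Gv v → C) w)
  by_cases hw : w = v
  · subst hw
    rw [Pi.single_eq_same, hzd, map_zero]
    exact ⟨hz1, rfl⟩
  · rw [Pi.single_eq_of_ne hw, map_zero, map_zero]
    exact ⟨zero_mem _, rfl⟩

theorem jv_mem_Bc3 (v : ι) {z : Gv v × Gv v → C} (hz : z ∈ B2 (𝒰v v) (Rep.res (loc v) C)) :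
    jv C v z ∈ Bc3 𝒰 loc 𝒰v C := by
  obtain ⟨c, hc, rfl⟩ := hz
  have hc1 : c ∈ C1 (𝒰v v) (Rep.res (loc v) C) := hc
  refine ⟨(0, (Pi.single v (-c) : ∀ v, Gv v → C)), ⟨zero_mem _, fun w _ => ?_⟩, ?_⟩
  · show (Pi.single v (-c) : ∀ v, Gv v → C) w ∈ C1 (𝒰v w) (Rep.res (loc w) C)
    by_cases hw : w = v
    · subst hw
      rw [Pi.single_eq_same]
      exact neg_mem hc1
    · rw [Pi.single_eq_of_ne hw]
      exact zero_mem _
  · refine Prod.ext ?_ (funext fun w => ?_)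
    · show (d₂₃ C).hom 0 = 0
      rw [map_zero]
    · show res₂ loc C w 0
          - (d₁₂ (Rep.res (loc w) C)).hom ((Pi.single v (-c) : ∀ v, Gv v → C) w)
        = (Pi.single v ((d₁₂ (Rep.res (loc v) C)).hom c) : ∀ v, Gv v × Gv v → C) w
      by_cases hw : w = v
      · subst hw
        rw [Pi.single_eq_same, Pi.single_eq_same, map_zero, map_neg, zero_sub, neg_neg]
      · rw [Pi.single_eq_of_ne hw, Pi.single_eq_of_ne hw, map_zero, map_zero, sub_zero]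

/-- `H²(G_v, C) → Qc3 C`. -/
def Hjv (v : ι) : H2 (𝒰v v) (Rep.res (loc v) C) →ₗ[k] Qc3 𝒰 loc 𝒰v C :=
  subquotMap (jv C v) (Z2 (𝒰v v) (Rep.res (loc v) C)) (B2 (𝒰v v) (Rep.res (loc v) C))
    (Cc3 𝒰 loc 𝒰v C) (Bc3 𝒰 loc 𝒰v C)
    (fun _ hz => jv_mem_Cc3 𝒰 loc 𝒰v C v hz) (fun _ _ hz => jv_mem_Bc3 𝒰 loc 𝒰v C v hz)

/-- The local invariant map at `v` induced by `lam`. -/
def invOf (lam : Qc3 𝒰 loc 𝒰v C →ₗ[k] k) (v : ι) : H2 (𝒰v v) (Rep.res (loc v) C) →ₗ[k] k :=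
  lam ∘ₗ Hjv 𝒰 loc 𝒰v C v

end Inv

/-! ### Cup products on the level cohomology of a single group -/

section SingleGroup

variable {A B C : Rep.{0} k G} (β : EqPairing A B C) (hB : IsDisc 𝒰 B) (hC : IsDisc 𝒰 C)

include hB hC

theorem cup11_mem_Z2 {a : G → A} (ha : a ∈ Z1 𝒰 A) {y : G → B} (hy : y ∈ Z1 𝒰 B) :
    cup11 β a y ∈ Z2 𝒰 C := by
  obtain ⟨ha1, hacoc⟩ := ha
  obtain ⟨hy1, hycoc⟩ := hy
  have had : (d₁₂ A).hom a = 0 := hacoc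
  have hyd : (d₁₂ B).hom y = 0 := hycoc
  refine ⟨cup11_mem_C2 β 𝒰 hB ha1 hy1, ?_⟩
  show (d₂₃ C).hom (cup11 β a y) = 0
  rw [d₂₃_cup11, had, hyd, map_zero, map_zero, LinearMap.zero_apply, sub_zero]

theorem cup11_mem_B2_left {a : G → A} (ha : a ∈ Z1 𝒰 A) (ha' : a ∈ coboundaries₁ A)
    {y : G → B} (hy : y ∈ Z1 𝒰 B) : cup11 β a y ∈ B2 𝒰 C := by
  obtain ⟨hy1, hycoc⟩ := hy
  obtain ⟨m, rfl⟩ := ha'
  have hyd : (d₁₂ B).hom y = 0 := hycoc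
  refine ⟨cup01 β m y, cup01_mem_C1 β 𝒰 m hy1, ?_⟩
  rw [d₁₂_cup01, hyd, map_zero, add_zero]

theorem cup11_mem_B2_right {a : G → A} (ha : a ∈ Z1 𝒰 A) {y : G → B} (hy : y ∈ Z1 𝒰 B)
    (hy' : y ∈ coboundaries₁ B) : cup11 β a y ∈ B2 𝒰 C := by
  obtain ⟨ha1, hacoc⟩ := ha
  obtain ⟨t, rfl⟩ := hy'
  have had : (d₁₂ A).hom a = 0 := hacoc
  refine ⟨-cup10 β a t, neg_mem (cup10_mem_C1 β 𝒰 hB ha1 t), ?_⟩
  rw [map_neg, d₁₂_cup10, had, map_zero, LinearMap.zero_apply, zero_sub, neg_neg]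

theorem cup20_mem_Z2 {a : G × G → A} (ha : a ∈ Z2 𝒰 A) {t : B} (ht : t ∈ B.ρ.invariants) :
    cup20 β a t ∈ Z2 𝒰 C := by
  obtain ⟨ha1, hacoc⟩ := ha
  have htd : (d₀₁ B).hom t = 0 := by
    ext g
    rw [d₀₁_hom_apply, ht g, sub_self]
    rfl
  refine ⟨cup20_mem_C2 β 𝒰 hB ha1 t, ?_⟩
  show (d₂₃ C).hom (cup20 β a t) = 0
  rw [d₂₃_cup20 β a hacoc t, htd, map_zero]

theorem cup20_mem_B2 {a : G × G → A} (ha : a ∈ Z2 𝒰 A) (ha' : a ∈ B2 𝒰 A) {t : B}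
    (ht : t ∈ B.ρ.invariants) : cup20 β a t ∈ B2 𝒰 C := by
  obtain ⟨c, hc, rfl⟩ := ha'
  have hc1 : c ∈ C1 𝒰 A := hc
  have htd : (d₀₁ B).hom t = 0 := by
    ext g
    rw [d₀₁_hom_apply, ht g, sub_self]
    rfl
  refine ⟨cup10 β c t, cup10_mem_C1 β 𝒰 hB hc1 t, ?_⟩
  rw [d₁₂_cup10, htd, map_zero, sub_zero]

omit hB hC

/-- Cup product `H¹(A) × H¹(B) → H²(C)`. -/
noncomputable def cupH11 : H1 𝒰 A →ₗ[k] H1 𝒰 B →ₗ[k] H2 𝒰 C :=
  descend₂ (cup11 β) (Z1 𝒰 A) (coboundaries₁ A) (Z1 𝒰 B) (coboundaries₁ B) (Z2 𝒰 C) (B2 𝒰 C)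
    (fun _ ha _ hy => cup11_mem_Z2 𝒰 β hB hC ha hy)
    (fun _ ha ha' _ hy => cup11_mem_B2_left 𝒰 β hB hC ha ha' hy)
    (fun _ ha _ hy hy' => cup11_mem_B2_right 𝒰 β hB hC ha hy hy')

/-- Cup product `H²(A) × H⁰(B) → H²(C)`. -/
noncomputable def cupH20 : H2 𝒰 A →ₗ[k] H0 B →ₗ[k] H2 𝒰 C :=
  (descend₂ (cup20 β) (Z2 𝒰 A) (B2 𝒰 A) (B.ρ.invariants) ⊥ (Z2 𝒰 C) (B2 𝒰 C)
    (fun _ ha _ ht => cup20_mem_Z2 𝒰 β hB hC ha ht)
    (fun _ ha ha' _ ht => cup20_mem_B2 𝒰 β hB hC ha ha' ht)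
    (fun a _ t _ ht' => by
      rw [Submodule.mem_bot] at ht'
      rw [ht', map_zero]
      exact zero_mem _)).compl₂ (Submodule.mkQ _)

end SingleGroup

/-! ### Adjointness: naturality and connecting maps (statements) -/

section Naturality

variable {A₁ A₂ B₁ B₂ C : Rep.{0} k G} (β₁ : EqPairing A₁ B₁ C) (β₂ : EqPairing A₂ B₂ C)
  (φ : A₁ ⟶ A₂) (ψ : B₂ ⟶ B₁)
  (hadj : ∀ (a : A₁) (b : B₂), β₂.toFun (φ.hom a) b = β₁.toFun a (ψ.hom b))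
  (hloc : ∀ v, IsLevelMap (𝒰v v) 𝒰 (loc v))
  (hA₁ : IsDisc 𝒰 A₁) (hA₂ : IsDisc 𝒰 A₂) (hB₁ : IsDisc 𝒰 B₁) (hB₂ : IsDisc 𝒰 B₂)
  (hC : IsDisc 𝒰 C) (lam : Qc3 𝒰 loc 𝒰v C →ₗ[k] k)

include hadj

theorem Pc2_natural (x : Hc2 𝒰 loc 𝒰v A₁) (t : H1 𝒰 B₂) :
    Pc2 𝒰 loc 𝒰v β₂ hloc hA₂ hB₂ hC lam (Hc2map 𝒰 loc 𝒰v φ x) t
      = Pc2 𝒰 loc 𝒰v β₁ hloc hA₁ hB₁ hC lam x (H1map 𝒰 ψ t) := by
  induction x using Submodule.Quotient.induction_on with | _ x => ?_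
  induction t using Submodule.Quotient.induction_on with | _ y => ?_
  have key : raw2 loc β₂ (cmapc2 φ x.1) y.1 = raw2 loc β₁ x.1 (cmap₁ ψ y.1) := by
    refine Prod.ext ?_ ?_
    · funext p
      simp [raw2, cmapc2, hadj, Rep.hom_comm_apply]
    · funext v p
      simp [raw2, cmapc2, hadj, Rep.hom_comm_apply, EqPairing.res]
  exact congrArg lam (congrArg (Submodule.Quotient.mk) (Subtype.ext key))

theorem Pc1_natural (x : Hc1 𝒰 loc A₁) (t : H2 𝒰 B₂) :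
    Pc1 𝒰 loc 𝒰v β₂ hloc hA₂ hB₂ hC lam (Hc1map 𝒰 loc φ x) t
      = Pc1 𝒰 loc 𝒰v β₁ hloc hA₁ hB₁ hC lam x (H2map 𝒰 ψ t) := by
  induction x using Submodule.Quotient.induction_on with | _ x => ?_
  induction t using Submodule.Quotient.induction_on with | _ y => ?_
  have key : raw1 loc β₂ (cmapc1 φ x.1) y.1 = raw1 loc β₁ x.1 (cmap₂ ψ y.1) := by
    refine Prod.ext ?_ ?_
    · funext p
      simp [raw1, cmapc1, hadj, Rep.hom_comm_apply]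
    · funext v p
      simp [raw1, cmapc1, hadj, EqPairing.res]
  exact congrArg lam (congrArg (Submodule.Quotient.mk) (Subtype.ext key))

theorem cupH11_natural (x : H1 𝒰 A₁) (t : H1 𝒰 B₂) :
    cupH11 𝒰 β₂ hB₂ hC (H1map 𝒰 φ x) t = cupH11 𝒰 β₁ hB₁ hC x (H1map 𝒰 ψ t) := by
  induction x using Submodule.Quotient.induction_on with | _ x => ?_
  induction t using Submodule.Quotient.induction_on with | _ y => ?_
  have key : cup11 β₂ (cmap₁ φ x.1) y.1 = cup11 β₁ x.1 (cmap₁ ψ y.1) := by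
    funext p
    simp [hadj, Rep.hom_comm_apply]
  exact congrArg (Submodule.Quotient.mk) (Subtype.ext key)

theorem cupH20_natural (x : H2 𝒰 A₁) (t : H0 B₂) :
    cupH20 𝒰 β₂ hB₂ hC (H2map 𝒰 φ x) t = cupH20 𝒰 β₁ hB₁ hC x (H0map ψ t) := by
  induction x using Submodule.Quotient.induction_on with | _ x => ?_
  have key : cup20 β₂ (cmap₂ φ x.1) t.1 = cup20 β₁ x.1 (ψ.hom t.1) := by
    funext p
    simp [hadj, Rep.hom_comm_apply]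
  exact congrArg (Submodule.Quotient.mk) (Subtype.ext key)

end Naturality

/-- Compatibility of a split sequence `E : 0 → A → M → B → 0` with a split sequence
`F : 0 → B' → M' → A' → 0` under pairings `A × A' → C`, `M × M' → C`, `B × B' → C`
(the maps and the splittings are mutually adjoint). -/
structure DualSES {A M B A' M' B' C : Rep.{0} k G} (E : SplitSES A M B) (F : SplitSES B' M' A')
    (βA : EqPairing A A' C) (βM : EqPairing M M' C) (βB : EqPairing B B' C) : Prop where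
  adj_i : ∀ (a : A) (m' : M'), βM.toFun (E.i.hom a) m' = βA.toFun a (F.π.hom m')
  adj_π : ∀ (m : M) (b' : B'), βM.toFun m (F.i.hom b') = βB.toFun (E.π.hom m) b'
  adj_r : ∀ (m : M) (a' : A'), βM.toFun m (F.s a') = βA.toFun (E.r m) a'
  adj_s : ∀ (b : B) (m' : M'), βB.toFun b (F.r m') = βM.toFun (E.s b) m'

/-- The twisted dual sequence is dual for the evaluation pairings. -/
theorem dualSES_ev (χ : G →* kˣ) {A M B : Rep.{0} k G} (E : SplitSES A M B) :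
    DualSES E (E.dual χ) (evPairing χ A) (evPairing χ M) (evPairing χ B) where
  adj_i _ _ := rfl
  adj_π _ _ := rfl
  adj_r _ _ := rfl
  adj_s _ _ := rfl

/-- Duality of split sequences is preserved by restriction. -/
theorem DualSES.res {A M B A' M' B' C : Rep.{0} k G} {E : SplitSES A M B}
    {F : SplitSES B' M' A'} {βA : EqPairing A A' C} {βM : EqPairing M M' C}
    {βB : EqPairing B B' C} (h : DualSES E F βA βM βB) {H : Type} [Group H] (r : H →* G) :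
    DualSES (E.res r) (F.res r) (βA.res r) (βM.res r) (βB.res r) where
  adj_i := h.adj_i
  adj_π := h.adj_π
  adj_r := h.adj_r
  adj_s := h.adj_s

section ConnectingAdjointAux

variable {A M B A' M' B' C : Rep.{0} k G} {E : SplitSES A M B} {F : SplitSES B' M' A'}
  {βA : EqPairing A A' C} {βM : EqPairing M M' C} {βB : EqPairing B B' C}

lemma SplitSES.i_r_of_π_eq_zero (E : SplitSES A M B) {m : M} (hm : E.π.hom m = 0) :
    E.i.hom (E.r m) = m := by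
  have := E.i_r m
  rwa [hm, map_zero, add_zero] at this

/-- `π ∘ d(s ∘ a) = d a`. -/
lemma SplitSES.π_d₁₂_s (E : SplitSES A M B) (a : G → B) (p : G × G) :
    E.π.hom ((d₁₂ M).hom (E.s.compLeft G a) p) = (d₁₂ B).hom a p := by
  obtain ⟨g, h⟩ := p
  simp [d₁₂_hom_apply, Rep.hom_comm_apply, E.π_s]

/-- `π ∘ d(s t) = d t`. -/
lemma SplitSES.π_d₀₁_s (E : SplitSES A M B) (t : B) (g : G) :
    E.π.hom ((d₀₁ M).hom (E.s t) g) = (d₀₁ B).hom t g := by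
  simp [d₀₁_hom_apply, Rep.hom_comm_apply, E.π_s]

lemma DualSES.toFun_eq_of_π_eq_zero (h : DualSES E F βA βM βB) {m : M} (hm : E.π.hom m = 0)
    (m' : M') : βM.toFun m m' = βA.toFun (E.r m) (F.π.hom m') := by
  rw [← h.adj_i, E.i_r_of_π_eq_zero hm]

lemma DualSES.toFun_ρ_eq_of_π_eq_zero (h : DualSES E F βA βM βB) (m : M) (g : G) {m' : M'}
    (hm' : F.π.hom m' = 0) :
    βM.toFun m (M'.ρ g m') = βB.toFun (E.π.hom m) (B'.ρ g (F.r m')) := by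
  rw [← h.adj_π, Rep.hom_comm_apply, F.i_r_of_π_eq_zero hm']

end ConnectingAdjointAux

section ConnectingAdjoint

variable {A M B A' M' B' C : Rep.{0} k G} {E : SplitSES A M B} {F : SplitSES B' M' A'}
  {βA : EqPairing A A' C} {βM : EqPairing M M' C} {βB : EqPairing B B' C}
  (h : DualSES E F βA βM βB)
  (hloc : ∀ v, IsLevelMap (𝒰v v) 𝒰 (loc v))
  (hA : IsDisc 𝒰 A) (hM : IsDisc 𝒰 M) (hB : IsDisc 𝒰 B)
  (hA' : IsDisc 𝒰 A') (hM' : IsDisc 𝒰 M') (hB' : IsDisc 𝒰 B') (hC : IsDisc 𝒰 C)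
  (lam : Qc3 𝒰 loc 𝒰v C →ₗ[k] k)

include h

/-- `⟨∂x, t⟩₂ = ⟨x, δt⟩₁` (sign `+1` with the conventions of these files; paper-checked). -/
theorem Pc2_Hcδ (x : Hc1 𝒰 loc B) (t : H1 𝒰 A') :
    Pc2 𝒰 loc 𝒰v βA hloc hA hA' hC lam (Hcδ 𝒰 loc 𝒰v E hloc hM x) t
      = Pc1 𝒰 loc 𝒰v βB hloc hB hB' hC lam x (Hδ₁ 𝒰 F hM' t) := by
  induction x using Submodule.Quotient.induction_on with | _ x => ?_
  induction t using Submodule.Quotient.induction_on with | _ y => ?_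
  obtain ⟨⟨a, b⟩, hx⟩ := x
  obtain ⟨y, hy⟩ := y
  have hac : (d₁₂ B).hom a = 0 := hx.1.2
  have hyc : (d₁₂ A').hom y = 0 := hy.2
  have hab : ∀ v (g : Gv v), a (loc v g) = B.ρ (loc v g) (b v) - b v := fun v g => by
    have := congrFun (hx.2 v) g
    simpa [d₀₁_hom_apply] using this
  have heC : cup11 βM (E.s.compLeft G a) (F.s.compLeft G y) ∈ C2 𝒰 C :=
    cup11_mem_C2 βM 𝒰 hM' (hx.1.1.comp E.s) (hy.1.comp F.s)
  have hfC : ∀ v, cup01 (βM.res (loc v)) (E.s (b v)) (res₁ loc M' v (F.s.compLeft G y))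
      ∈ C1 (𝒰v v) (Rep.res (loc v) C) := fun v =>
    cup01_mem_C1 (βM.res (loc v)) (𝒰v v) (E.s (b v)) (IsLev₁.precomp (hloc v) (hy.1.comp F.s))
  refine congrArg lam ((Submodule.Quotient.eq _).2 ?_)
  refine ⟨(cup11 βM (E.s.compLeft G a) (F.s.compLeft G y),
    fun v => cup01 (βM.res (loc v)) (E.s (b v)) (res₁ loc M' v (F.s.compLeft G y))),
    ⟨heC, fun v _ => hfC v⟩, ?_⟩
  refine Prod.ext ?_ ?_
  · -- global component
    show (d₂₃ C).hom (cup11 βM (E.s.compLeft G a) (F.s.compLeft G y))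
      = cup21 βA (dlt₁ E a) y - cup12 βB a (dlt₁ F y)
    rw [d₂₃_cup11]
    congr 1
    · funext p
      have hπ : E.π.hom ((d₁₂ M).hom (E.s.compLeft G a) (p.1, p.2.1)) = 0 := by
        rw [E.π_d₁₂_s, hac]; rfl
      rw [cup21_apply, cup21_apply, h.toFun_eq_of_π_eq_zero hπ, Rep.hom_comm_apply]
      simp [F.π_s, dlt₁]
    · funext p
      have hπ : F.π.hom ((d₁₂ M').hom (F.s.compLeft G y) (p.2.1, p.2.2)) = 0 := by
        rw [F.π_d₁₂_s, hyc]; rfl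
      rw [cup12_apply, cup12_apply, h.toFun_ρ_eq_of_π_eq_zero _ _ hπ]
      simp [E.π_s, dlt₁]
  · -- local components
    funext v
    show res₂ loc C v (cup11 βM (E.s.compLeft G a) (F.s.compLeft G y))
        - (d₁₂ (Rep.res (loc v) C)).hom
          (cup01 (βM.res (loc v)) (E.s (b v)) (res₁ loc M' v (F.s.compLeft G y)))
      = cup11 (βA.res (loc v)) ((dltc loc E (a, b)).2 v) (res₁ loc A' v y)
        - cup02 (βB.res (loc v)) (b v) (res₂ loc B' v (dlt₁ F y))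
    rw [d₁₂_cup01]
    funext p
    obtain ⟨g, g'⟩ := p
    have hπc : E.π.hom (E.s (a (loc v g)) - (M.ρ (loc v g) (E.s (b v)) - E.s (b v))) = 0 := by
      rw [map_sub, map_sub, Rep.hom_comm_apply, E.π_s, E.π_s, hab v g, sub_self]
    have e1 := h.toFun_eq_of_π_eq_zero hπc (M'.ρ (loc v g) (F.s (y (loc v g'))))
    rw [Rep.hom_comm_apply, F.π_s, map_sub, LinearMap.sub_apply] at e1
    have e2 : βB.toFun (b v) (F.r ((d₁₂ M').hom (F.s.compLeft G y) (loc v g, loc v g')))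
        = βM.toFun (E.s (b v)) ((d₁₂ M').hom (F.s.compLeft G y) (loc v g, loc v g')) :=
      h.adj_s _ _
    have e3 : (d₁₂ (Rep.res (loc v) M')).hom (res₁ loc M' v (F.s.compLeft G y)) (g, g')
        = (d₁₂ M').hom (F.s.compLeft G y) (loc v g, loc v g') := by
      simp [d₁₂_hom_apply]
    have e4 : (dltc loc E (a, b)).2 v g
        = E.r (E.s (a (loc v g)) - (M.ρ (loc v g) (E.s (b v)) - E.s (b v))) := by
      simp [dltc, d₀₁_hom_apply]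
    simp only [Pi.sub_apply, Pi.add_apply, res₂_apply, cup11_apply, cup02_apply, res₁_apply,
      EqPairing.res, e4, dlt₁]
    have e5 : (d₀₁ (Rep.res (loc v) M)).hom (E.s (b v)) g
        = M.ρ (loc v g) (E.s (b v)) - E.s (b v) := by
      simp [d₀₁_hom_apply]
    have e6 : (F.r.compLeft (G × G) ∘ₗ (d₁₂ M').hom ∘ₗ F.s.compLeft G) y (loc v g, loc v g')
        = F.r ((d₁₂ M').hom (F.s.compLeft G y) (loc v g, loc v g')) := rfl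
    rw [e3, e5, e6, e2]
    show βM.toFun (E.s (a (loc v g))) (M'.ρ (loc v g) (F.s (y (loc v g'))))
        - (βM.toFun (M.ρ (loc v g) (E.s (b v)) - E.s (b v))
            (M'.ρ (loc v g) (F.s (y (loc v g')))) + _)
      = βA.toFun _ (A'.ρ (loc v g) (y (loc v g'))) - _
    rw [← e1]
    abel

/-- `δz ∪ t = z ∪ δt` in `H²(C)` for `z ∈ H¹(B)`, `t ∈ H⁰(A')` (single group). -/
theorem cupH20_Hδ₁ (z : H1 𝒰 B) (t : H0 A') :
    cupH20 𝒰 βA hA' hC (Hδ₁ 𝒰 E hM z) t = cupH11 𝒰 βB hB' hC z (Hδ₀ 𝒰 F hM' t) := by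
  induction z using Submodule.Quotient.induction_on with | _ z => ?_
  obtain ⟨z, hz⟩ := z
  obtain ⟨t, ht⟩ := t
  have hzc : (d₁₂ B).hom z = 0 := hz.2
  have ht' : ∀ g, A'.ρ g t = t := ht
  -- the two cochain identities
  have h1 : cup20 βM ((d₁₂ M).hom (E.s.compLeft G z)) (F.s t) = cup20 βA (dlt₁ E z) t := by
    funext p
    have hπ : E.π.hom ((d₁₂ M).hom (E.s.compLeft G z) p) = 0 := by
      rw [E.π_d₁₂_s, hzc]; rfl
    rw [cup20_apply, cup20_apply, h.toFun_eq_of_π_eq_zero hπ, Rep.hom_comm_apply, F.π_s, ht']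
    rfl
  have h2 : cup11 βM (E.s.compLeft G z) ((d₀₁ M').hom (F.s t)) = cup11 βB z (dlt₀ F t) := by
    funext p
    have hπ : F.π.hom ((d₀₁ M').hom (F.s t) p.2) = 0 := by
      rw [F.π_d₀₁_s, d₀₁_hom_apply, ht', sub_self]
    rw [cup11_apply, cup11_apply, h.toFun_ρ_eq_of_π_eq_zero _ _ hπ]
    simp [dlt₀, E.π_s]
  have hmem : E.s.compLeft G z ∈ C1 𝒰 M := hz.1.comp E.s
  refine (Submodule.Quotient.eq _).2 ?_
  refine ⟨cup10 βM (E.s.compLeft G z) (F.s t), cup10_mem_C1 βM 𝒰 hM' hmem (F.s t), ?_⟩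
  rw [d₁₂_cup10, h1, h2]
  rfl

end ConnectingAdjoint

/-! ### The pairing on classes `(0, z)` -/

section Iota

variable [Fintype ι] [DecidableEq ι] {A B C : Rep.{0} k G} (β : EqPairing A B C)
  (hloc : ∀ v, IsLevelMap (𝒰v v) 𝒰 (loc v))
  (hA : IsDisc 𝒰 A) (hB : IsDisc 𝒰 B) (hC : IsDisc 𝒰 C)
  (lam : Qc3 𝒰 loc 𝒰v C →ₗ[k] k)

/-- `⟨(0, z), y⟩₂ = Σ_v inv_v (z_v ∪ res_v y)`. -/
theorem Pc2_inr {z : ∀ v, Gv v → A} (hz : z ∈ ZL1 loc 𝒰v A) {y : G → B} (hy : y ∈ Z1 𝒰 B)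
    (hres : ∀ v, res₁ loc B v y ∈ Z1 (𝒰v v) (Rep.res (loc v) B)) :
    Pc2 𝒰 loc 𝒰v β hloc hA hB hC lam
        (Submodule.Quotient.mk ⟨(0, z), inr_mem_Zc2 𝒰 loc 𝒰v A hz⟩)
        (Submodule.Quotient.mk ⟨y, hy⟩)
      = ∑ v, invOf 𝒰 loc 𝒰v C lam v
          (cupH11 (𝒰v v) (β.res (loc v)) (isDisc_res 𝒰 (𝒰v v) (loc v) (hloc v) hB)
            (isDisc_res 𝒰 (𝒰v v) (loc v) (hloc v) hC)
            (Submodule.Quotient.mk ⟨z v, hz v (Set.mem_univ v)⟩)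
            (Submodule.Quotient.mk ⟨res₁ loc B v y, hres v⟩)) := by
  have hmem : ∀ v, jv C v (cup11 (β.res (loc v)) (z v) (res₁ loc B v y)) ∈ Cc3 𝒰 loc 𝒰v C :=
    fun v => jv_mem_Cc3 𝒰 loc 𝒰v C v
      (cup11_mem_Z2 (𝒰v v) (β.res (loc v)) (isDisc_res 𝒰 (𝒰v v) (loc v) (hloc v) hB)
        (isDisc_res 𝒰 (𝒰v v) (loc v) (hloc v) hC) (hz v (Set.mem_univ v)) (hres v))
  have hterm : ∀ v, invOf 𝒰 loc 𝒰v C lam v
      (cupH11 (𝒰v v) (β.res (loc v)) (isDisc_res 𝒰 (𝒰v v) (loc v) (hloc v) hB)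
        (isDisc_res 𝒰 (𝒰v v) (loc v) (hloc v) hC)
        (Submodule.Quotient.mk ⟨z v, hz v (Set.mem_univ v)⟩)
        (Submodule.Quotient.mk ⟨res₁ loc B v y, hres v⟩))
      = lam (Submodule.mkQ _ ⟨jv C v (cup11 (β.res (loc v)) (z v) (res₁ loc B v y)), hmem v⟩) :=
    fun v => rfl
  rw [Finset.sum_congr rfl fun v _ => hterm v, ← map_sum, ← map_sum]
  refine congrArg lam (congrArg (Submodule.Quotient.mk) (Subtype.ext ?_))
  rw [Submodule.coe_sum]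
  refine Prod.ext ?_ ?_
  · rw [Prod.fst_sum]
    simp [raw2, jv]
  · rw [Prod.snd_sum]
    funext w
    simp [raw2, jv, Finset.sum_apply]

end Iota

end Fermat.Agent.S55.Abs
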