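/-
S55 / PROGRAM CFT, abstract layer (helper227, deputy of helper235).

Elementwise functoriality of the low-degree level cohomology spaces (`H0map`, `H1map`,
`H2map`, `Hc1map`, `Hc2map`) in the two shapes needed by the closure theorems of
`Abs/Machine.lean`:
* retracts: `r ∘ i = id` gives `H(r) ∘ H(i) = id`;
* biproducts: `iA ∘ pA + iB ∘ pB = id` gives `H(iA) ∘ H(pA) + H(iB) ∘ H(pB) = id`;
the same for twisted duals and restrictions, discreteness of retracts and biproducts, and the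
retract / biproduct closure of `PairEpi`, `PairMono` for the pairings `Pc1`, `Pc2`, `cupH11`,
`cupH20` attached to the evaluation pairing.
-/
import Fermat.Agent.S55.Abs.Pairing

set_option autoImplicit false

open CategoryTheory groupCohomology

namespace Fermat.Agent.S55.Abs

variable {k G : Type} [Field k] [Group G] (𝒰 : LevelFamily G)
  {ι : Type} {Gv : ι → Type} [∀ v, Group (Gv v)]
  (loc : ∀ v, Gv v →* G) (𝒰v : ∀ v, LevelFamily (Gv v))

/-! ### Retracts -/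

section Retract

variable {M N : Rep.{0} k G} (i : M ⟶ N) (r : N ⟶ M) (hri : ∀ m, r.hom (i.hom m) = m)

include hri

theorem H0map_retract (x : H0 M) : H0map r (H0map i x) = x :=
  Subtype.ext (hri x.1)

theorem H1map_retract (x : H1 𝒰 M) : H1map 𝒰 r (H1map 𝒰 i x) = x := by
  obtain ⟨z, rfl⟩ := Submodule.mkQ_surjective _ x
  show Submodule.Quotient.mk _ = Submodule.Quotient.mk _
  congr 1
  ext g
  exact hri _

theorem H2map_retract (x : H2 𝒰 M) : H2map 𝒰 r (H2map 𝒰 i x) = x := by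
  obtain ⟨z, rfl⟩ := Submodule.mkQ_surjective _ x
  show Submodule.Quotient.mk _ = Submodule.Quotient.mk _
  congr 1
  ext g
  exact hri _

theorem Hc1map_retract (x : Hc1 𝒰 loc M) : Hc1map 𝒰 loc r (Hc1map 𝒰 loc i x) = x := by
  obtain ⟨z, rfl⟩ := Submodule.mkQ_surjective _ x
  show Submodule.Quotient.mk _ = Submodule.Quotient.mk _
  congr 1
  apply Subtype.ext
  apply Prod.ext
  · funext g
    exact hri _
  · funext v
    exact hri _

theorem Hc2map_retract (x : Hc2 𝒰 loc 𝒰v M) :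
    Hc2map 𝒰 loc 𝒰v r (Hc2map 𝒰 loc 𝒰v i x) = x := by
  obtain ⟨z, rfl⟩ := Submodule.mkQ_surjective _ x
  show Submodule.Quotient.mk _ = Submodule.Quotient.mk _
  congr 1
  apply Subtype.ext
  apply Prod.ext
  · funext g
    exact hri _
  · funext v g
    exact hri _

end Retract

/-! ### Biproducts -/

section Biprod

variable {X A B : Rep.{0} k G} (iA : A ⟶ X) (iB : B ⟶ X) (pA : X ⟶ A) (pB : X ⟶ B)
  (hsum : ∀ x, iA.hom (pA.hom x) + iB.hom (pB.hom x) = x)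

include hsum

theorem H0map_biprod (x : H0 X) :
    H0map iA (H0map pA x) + H0map iB (H0map pB x) = x :=
  Subtype.ext (hsum x.1)

theorem H1map_biprod (x : H1 𝒰 X) :
    H1map 𝒰 iA (H1map 𝒰 pA x) + H1map 𝒰 iB (H1map 𝒰 pB x) = x := by
  obtain ⟨z, rfl⟩ := Submodule.mkQ_surjective _ x
  show Submodule.Quotient.mk _ + Submodule.Quotient.mk _ = Submodule.Quotient.mk _
  rw [← Submodule.Quotient.mk_add]
  congr 1
  ext g
  exact hsum _

theorem H2map_biprod (x : H2 𝒰 X) :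
    H2map 𝒰 iA (H2map 𝒰 pA x) + H2map 𝒰 iB (H2map 𝒰 pB x) = x := by
  obtain ⟨z, rfl⟩ := Submodule.mkQ_surjective _ x
  show Submodule.Quotient.mk _ + Submodule.Quotient.mk _ = Submodule.Quotient.mk _
  rw [← Submodule.Quotient.mk_add]
  congr 1
  ext g
  exact hsum _

end Biprod

/-! ### Twisted duals and restrictions of retracts and biproducts -/

section Dual

variable (χ : G →* kˣ)

theorem dualTwistMap_retract {M N : Rep.{0} k G} (i : M ⟶ N) (r : N ⟶ M)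
    (hri : ∀ m, r.hom (i.hom m) = m) (f : M.dualTwist χ) :
    (dualTwistMap χ i).hom ((dualTwistMap χ r).hom f) = f := by
  apply LinearMap.ext
  intro m
  show (f : Module.Dual k M) (r.hom (i.hom m)) = (f : Module.Dual k M) m
  rw [hri]

theorem dualTwistMap_biprod {X A B : Rep.{0} k G} (iA : A ⟶ X) (iB : B ⟶ X) (pA : X ⟶ A)
    (pB : X ⟶ B) (hsum : ∀ x, iA.hom (pA.hom x) + iB.hom (pB.hom x) = x) (f : X.dualTwist χ) :
    (dualTwistMap χ pA).hom ((dualTwistMap χ iA).hom f)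
      + (dualTwistMap χ pB).hom ((dualTwistMap χ iB).hom f) = f := by
  apply LinearMap.ext
  intro x
  show (f : Module.Dual k X) (iA.hom (pA.hom x)) + (f : Module.Dual k X) (iB.hom (pB.hom x))
    = (f : Module.Dual k X) x
  rw [← map_add, hsum]

/-- The evaluation pairings are adjoint for a morphism and its twisted dual. -/
theorem evPairing_adj {M N : Rep.{0} k G} (φ : M ⟶ N) (a : M) (b : N.dualTwist χ) :
    (evPairing χ N).toFun (φ.hom a) b = (evPairing χ M).toFun a ((dualTwistMap χ φ).hom b) :=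
  rfl

end Dual

section Disc

variable {𝒰}

/-- A subrepresentation of a discrete module is discrete. -/
theorem isDisc_of_injective {M N : Rep.{0} k G} (i : M ⟶ N)
    (hi : Function.Injective i.hom) (hN : IsDisc 𝒰 N) : IsDisc 𝒰 M := by
  obtain ⟨U, hU, h⟩ := hN
  refine ⟨U, hU, fun s hs m => hi ?_⟩
  rw [Rep.hom_comm_apply, h s hs]

/-- A retract of a discrete module is discrete. -/
theorem isDisc_of_retract {M N : Rep.{0} k G} (i : M ⟶ N) (r : N ⟶ M)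
    (hri : ∀ m, r.hom (i.hom m) = m) (hN : IsDisc 𝒰 N) : IsDisc 𝒰 M :=
  isDisc_of_injective i (fun a b hab => by rw [← hri a, ← hri b, hab]) hN

/-- A quotient of a discrete module is discrete. -/
theorem isDisc_of_surjective {M N : Rep.{0} k G} (π : M ⟶ N)
    (hπ : Function.Surjective π.hom) (hM : IsDisc 𝒰 M) : IsDisc 𝒰 N := by
  obtain ⟨U, hU, h⟩ := hM
  refine ⟨U, hU, fun s hs n => ?_⟩
  obtain ⟨m, rfl⟩ := hπ n
  rw [← Rep.hom_comm_apply, h s hs]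

/-- A biproduct of discrete modules is discrete. -/
theorem isDisc_of_biprod {X A B : Rep.{0} k G} (iA : A ⟶ X) (iB : B ⟶ X) (pA : X ⟶ A)
    (pB : X ⟶ B) (hsum : ∀ x, iA.hom (pA.hom x) + iB.hom (pB.hom x) = x)
    (hA : IsDisc 𝒰 A) (hB : IsDisc 𝒰 B) : IsDisc 𝒰 X := by
  obtain ⟨U, hU, h⟩ := hA
  obtain ⟨U', hU', h'⟩ := hB
  obtain ⟨W, hW, hle⟩ := 𝒰.inter U hU U' hU'
  refine ⟨W, hW, fun s hs x => ?_⟩
  have e1 : X.ρ s (iA.hom (pA.hom x)) = iA.hom (pA.hom x) := by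
    rw [← Rep.hom_comm_apply, h s (hle hs).1]
  have e2 : X.ρ s (iB.hom (pB.hom x)) = iB.hom (pB.hom x) := by
    rw [← Rep.hom_comm_apply, h' s (hle hs).2]
  conv_lhs => rw [← hsum x]
  rw [map_add, e1, e2, hsum]

end Disc

/-! ### Retract and biproduct closure for the global pairings -/

section GlobalClosure

variable (χ : G →* kˣ) (hloc : ∀ v, IsLevelMap (𝒰v v) 𝒰 (loc v)) (hμ : IsDisc 𝒰 (muRep χ))
  (lam : Qc3 𝒰 loc 𝒰v (muRep χ) →ₗ[k] k)

/-- `a₁` epi passes to retracts. -/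
theorem pairEpi_Pc1_retract {M N : Rep.{0} k G} (i : M ⟶ N) (r : N ⟶ M)
    (hri : ∀ m, r.hom (i.hom m) = m)
    (hM : IsDisc 𝒰 M) (hM' : IsDisc 𝒰 (M.dualTwist χ))
    (hN : IsDisc 𝒰 N) (hN' : IsDisc 𝒰 (N.dualTwist χ))
    (e : PairEpi (Pc1 𝒰 loc 𝒰v (evPairing χ N) hloc hN hN' hμ lam)) :
    PairEpi (Pc1 𝒰 loc 𝒰v (evPairing χ M) hloc hM hM' hμ lam) :=
  pairEpi_retract (Hc1map 𝒰 loc r) (H2map 𝒰 (dualTwistMap χ r)) (H2map 𝒰 (dualTwistMap χ i))
    _ _ (H2map_retract 𝒰 (dualTwistMap χ r) (dualTwistMap χ i) (dualTwistMap_retract χ i r hri))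
    (fun y t => Pc1_natural 𝒰 loc 𝒰v (evPairing χ N) (evPairing χ M) r (dualTwistMap χ r)
      (evPairing_adj χ r) hloc hN hM hN' hM' hμ lam y t) e

/-- `a₂` mono passes to retracts. -/
theorem pairMono_Pc2_retract {M N : Rep.{0} k G} (i : M ⟶ N) (r : N ⟶ M)
    (hri : ∀ m, r.hom (i.hom m) = m)
    (hM : IsDisc 𝒰 M) (hM' : IsDisc 𝒰 (M.dualTwist χ))
    (hN : IsDisc 𝒰 N) (hN' : IsDisc 𝒰 (N.dualTwist χ))
    (m : PairMono (Pc2 𝒰 loc 𝒰v (evPairing χ N) hloc hN hN' hμ lam)) :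
    PairMono (Pc2 𝒰 loc 𝒰v (evPairing χ M) hloc hM hM' hμ lam) :=
  pairMono_retract (Hc2map 𝒰 loc 𝒰v i) (Hc2map 𝒰 loc 𝒰v r) (H1map 𝒰 (dualTwistMap χ i))
    _ _ (Hc2map_retract 𝒰 loc 𝒰v i r hri)
    (fun x w => Pc2_natural 𝒰 loc 𝒰v (evPairing χ M) (evPairing χ N) i (dualTwistMap χ i)
      (evPairing_adj χ i) hloc hM hN hM' hN' hμ lam x w) m

/-- `a₂` epi passes to retracts. -/
theorem pairEpi_Pc2_retract {M N : Rep.{0} k G} (i : M ⟶ N) (r : N ⟶ M)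
    (hri : ∀ m, r.hom (i.hom m) = m)
    (hM : IsDisc 𝒰 M) (hM' : IsDisc 𝒰 (M.dualTwist χ))
    (hN : IsDisc 𝒰 N) (hN' : IsDisc 𝒰 (N.dualTwist χ))
    (e : PairEpi (Pc2 𝒰 loc 𝒰v (evPairing χ N) hloc hN hN' hμ lam)) :
    PairEpi (Pc2 𝒰 loc 𝒰v (evPairing χ M) hloc hM hM' hμ lam) :=
  pairEpi_retract (Hc2map 𝒰 loc 𝒰v r) (H1map 𝒰 (dualTwistMap χ r)) (H1map 𝒰 (dualTwistMap χ i))
    _ _ (H1map_retract 𝒰 (dualTwistMap χ r) (dualTwistMap χ i) (dualTwistMap_retract χ i r hri))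
    (fun y t => Pc2_natural 𝒰 loc 𝒰v (evPairing χ N) (evPairing χ M) r (dualTwistMap χ r)
      (evPairing_adj χ r) hloc hN hM hN' hM' hμ lam y t) e

/-- `a₂` epi passes to biproducts. -/
theorem pairEpi_Pc2_biprod {X A B : Rep.{0} k G} (iA : A ⟶ X) (iB : B ⟶ X) (pA : X ⟶ A)
    (pB : X ⟶ B) (hsum : ∀ x, iA.hom (pA.hom x) + iB.hom (pB.hom x) = x)
    (hX : IsDisc 𝒰 X) (hX' : IsDisc 𝒰 (X.dualTwist χ))
    (hA : IsDisc 𝒰 A) (hA' : IsDisc 𝒰 (A.dualTwist χ))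
    (hB : IsDisc 𝒰 B) (hB' : IsDisc 𝒰 (B.dualTwist χ))
    (eA : PairEpi (Pc2 𝒰 loc 𝒰v (evPairing χ A) hloc hA hA' hμ lam))
    (eB : PairEpi (Pc2 𝒰 loc 𝒰v (evPairing χ B) hloc hB hB' hμ lam)) :
    PairEpi (Pc2 𝒰 loc 𝒰v (evPairing χ X) hloc hX hX' hμ lam) :=
  pairEpi_biprod (Hc2map 𝒰 loc 𝒰v iA) (Hc2map 𝒰 loc 𝒰v iB)
    (H1map 𝒰 (dualTwistMap χ iA)) (H1map 𝒰 (dualTwistMap χ iB))
    (H1map 𝒰 (dualTwistMap χ pA)) (H1map 𝒰 (dualTwistMap χ pB)) _ _ _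
    (H1map_biprod 𝒰 (dualTwistMap χ pA) (dualTwistMap χ pB) (dualTwistMap χ iA)
      (dualTwistMap χ iB) (dualTwistMap_biprod χ iA iB pA pB hsum))
    (fun x t => Pc2_natural 𝒰 loc 𝒰v (evPairing χ A) (evPairing χ X) iA (dualTwistMap χ iA)
      (evPairing_adj χ iA) hloc hA hX hA' hX' hμ lam x t)
    (fun x t => Pc2_natural 𝒰 loc 𝒰v (evPairing χ B) (evPairing χ X) iB (dualTwistMap χ iB)
      (evPairing_adj χ iB) hloc hB hX hB' hX' hμ lam x t) eA eB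

end GlobalClosure

/-! ### Retract closure for the local pairings -/

section LocalClosure

variable {H : Type} [Group H] (𝒱 : LevelFamily H) (ρ : H →* G) (χ : G →* kˣ)
  (hC : IsDisc 𝒱 (Rep.res ρ (muRep χ)))
  (inv : H2 𝒱 (Rep.res ρ (muRep χ)) →ₗ[k] k)

/-- Local `a¹_v` epi passes to retracts. -/
theorem pairEpi_cupH11_retract {M N : Rep.{0} k G} (i : M ⟶ N) (r : N ⟶ M)
    (hri : ∀ m, r.hom (i.hom m) = m)
    (hM' : IsDisc 𝒱 (Rep.res ρ (M.dualTwist χ))) (hN' : IsDisc 𝒱 (Rep.res ρ (N.dualTwist χ)))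
    (e : PairEpi ((cupH11 𝒱 ((evPairing χ N).res ρ) hN' hC).compr₂ inv)) :
    PairEpi ((cupH11 𝒱 ((evPairing χ M).res ρ) hM' hC).compr₂ inv) :=
  pairEpi_retract (H1map 𝒱 (Rep.resMap ρ r)) (H1map 𝒱 (Rep.resMap ρ (dualTwistMap χ r)))
    (H1map 𝒱 (Rep.resMap ρ (dualTwistMap χ i)))
    ((cupH11 𝒱 ((evPairing χ M).res ρ) hM' hC).compr₂ inv)
    ((cupH11 𝒱 ((evPairing χ N).res ρ) hN' hC).compr₂ inv)
    (H1map_retract 𝒱 (Rep.resMap ρ (dualTwistMap χ r)) (Rep.resMap ρ (dualTwistMap χ i))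
      (dualTwistMap_retract χ i r hri))
    (fun y t => congrArg inv (cupH11_natural 𝒱 ((evPairing χ N).res ρ) ((evPairing χ M).res ρ)
      (Rep.resMap ρ r) (Rep.resMap ρ (dualTwistMap χ r)) (evPairing_adj χ r) hN' hM' hC y t)) e

/-- Local `a²_v` mono passes to retracts. -/
theorem pairMono_cupH20_retract {M N : Rep.{0} k G} (i : M ⟶ N) (r : N ⟶ M)
    (hri : ∀ m, r.hom (i.hom m) = m)
    (hM' : IsDisc 𝒱 (Rep.res ρ (M.dualTwist χ))) (hN' : IsDisc 𝒱 (Rep.res ρ (N.dualTwist χ)))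
    (m : PairMono ((cupH20 𝒱 ((evPairing χ N).res ρ) hN' hC).compr₂ inv)) :
    PairMono ((cupH20 𝒱 ((evPairing χ M).res ρ) hM' hC).compr₂ inv) :=
  pairMono_retract (H2map 𝒱 (Rep.resMap ρ i)) (H2map 𝒱 (Rep.resMap ρ r))
    (H0map (Rep.resMap ρ (dualTwistMap χ i)))
    ((cupH20 𝒱 ((evPairing χ M).res ρ) hM' hC).compr₂ inv)
    ((cupH20 𝒱 ((evPairing χ N).res ρ) hN' hC).compr₂ inv)
    (H2map_retract 𝒱 (Rep.resMap ρ i) (Rep.resMap ρ r) hri)
    (fun x w => congrArg inv (cupH20_natural 𝒱 ((evPairing χ M).res ρ) ((evPairing χ N).res ρ)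
      (Rep.resMap ρ i) (Rep.resMap ρ (dualTwistMap χ i)) (evPairing_adj χ i) hM' hN' hC x w)) m

end LocalClosure

end Fermat.Agent.S55.Abs
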