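/-
S55 / PROGRAM CFT, abstract layer (helper235).

The devissage machine.  A `PTContext` bundles a leveled group `G`, finitely many leveled local
groups with level-continuous maps to `G`, a character `χ` (so `μ = k(χ)`), and ANY linear
functional `lam` on `Qc3 μ`.  For a discrete `M` we get the pairings
`P1 : H¹_c(M) × H²(M') → k`, `P2 : H²_c(M) × H¹(M') → k`, `M' = M.dualTwist χ`.

* `PkgI M` := `P1` epi, `P2` mono (GLOBAL only).  Closed under extensions and retracts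
  (`pkgI_ext`, `pkgI_retract`).
* `A2epi M` := `P2` epi.  Closed under retracts and biproducts, and
  `A2epi B ⇐ PkgI N, A2epi I` for `0 → B → I → N → 0` (`a2epi_of_ses`).
All proofs are instances of `pairEpi_four` / `pairMono_four` (file `FourLemma`), fed with the
exactness and adjointness statements of `LES`, `CompactLES`, `Pairing`.

The local pairings `PL1 v`, `PL2 v` and the local package `PkgL` are NOT used by the top step
any more (symmetric form, `Abs/Symm.lean` + `TopSymm`); they are kept as vocabulary for the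
local rows of the arithmetic side.
-/
import Fermat.Agent.S55.Abs.Pairing
import Fermat.Agent.S55.Abs.Functor

set_option autoImplicit false

open CategoryTheory groupCohomology

namespace Fermat.Agent.S55.Abs

/-- The data of an abstract Poitou–Tate situation. -/
structure PTContext (k : Type) [Field k] (G : Type) [Group G] where
  𝒰 : LevelFamily G
  ι : Type
  [finι : Fintype ι]
  [decι : DecidableEq ι]
  Gv : ι → Type
  [grp : ∀ v, Group (Gv v)]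
  loc : ∀ v, Gv v →* G
  𝒰v : ∀ v, LevelFamily (Gv v)
  χ : G →* kˣ
  hloc : ∀ v, IsLevelMap (𝒰v v) 𝒰 (loc v)
  hμ : IsDisc 𝒰 (muRep χ)
  lam : Qc3 𝒰 loc 𝒰v (muRep χ) →ₗ[k] k

attribute [instance] PTContext.finι PTContext.decι PTContext.grp

namespace PTContext

variable {k G : Type} [Field k] [Group G] (D : PTContext k G)

/-- The twisted dual `M' = M^*(χ)`. -/
noncomputable abbrev dual (M : Rep.{0} k G) : Rep.{0} k G := M.dualTwist D.χ

theorem disc_dual {M : Rep.{0} k G} (hM : IsDisc D.𝒰 M) : IsDisc D.𝒰 (D.dual M) :=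
  isDisc_dualTwist D.𝒰 D.χ D.hμ hM

/-- `P1 : H¹_c(M) × H²(M') → k`. -/
noncomputable def P1 {M : Rep.{0} k G} (hM : IsDisc D.𝒰 M) :
    Hc1 D.𝒰 D.loc M →ₗ[k] H2 D.𝒰 (D.dual M) →ₗ[k] k :=
  Pc1 D.𝒰 D.loc D.𝒰v (evPairing D.χ M) D.hloc hM (D.disc_dual hM) D.hμ D.lam

/-- `P2 : H²_c(M) × H¹(M') → k`. -/
noncomputable def P2 {M : Rep.{0} k G} (hM : IsDisc D.𝒰 M) :
    Hc2 D.𝒰 D.loc D.𝒰v M →ₗ[k] H1 D.𝒰 (D.dual M) →ₗ[k] k :=
  Pc2 D.𝒰 D.loc D.𝒰v (evPairing D.χ M) D.hloc hM (D.disc_dual hM) D.hμ D.lam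

/-- The local invariant at `v`. -/
noncomputable def inv (v : D.ι) : H2 (D.𝒰v v) (Rep.res (D.loc v) (muRep D.χ)) →ₗ[k] k :=
  invOf D.𝒰 D.loc D.𝒰v (muRep D.χ) D.lam v

/-- `PL1 v : H¹(G_v, M) × H¹(G_v, M') → k`. -/
noncomputable def PL1 {M : Rep.{0} k G} (hM : IsDisc D.𝒰 M) (v : D.ι) :
    H1 (D.𝒰v v) (Rep.res (D.loc v) M) →ₗ[k] H1 (D.𝒰v v) (Rep.res (D.loc v) (D.dual M)) →ₗ[k] k :=
  (cupH11 (D.𝒰v v) ((evPairing D.χ M).res (D.loc v))
    (isDisc_res D.𝒰 (D.𝒰v v) (D.loc v) (D.hloc v) (D.disc_dual hM))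
    (isDisc_res D.𝒰 (D.𝒰v v) (D.loc v) (D.hloc v) D.hμ)).compr₂ (D.inv v)

/-- `PL2 v : H²(G_v, M) × H⁰(G_v, M') → k`. -/
noncomputable def PL2 {M : Rep.{0} k G} (hM : IsDisc D.𝒰 M) (v : D.ι) :
    H2 (D.𝒰v v) (Rep.res (D.loc v) M) →ₗ[k] H0 (Rep.res (D.loc v) (D.dual M)) →ₗ[k] k :=
  (cupH20 (D.𝒰v v) ((evPairing D.χ M).res (D.loc v))
    (isDisc_res D.𝒰 (D.𝒰v v) (D.loc v) (D.hloc v) (D.disc_dual hM))
    (isDisc_res D.𝒰 (D.𝒰v v) (D.loc v) (D.hloc v) D.hμ)).compr₂ (D.inv v)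

/-- Package I (global): `a₁` epi, `a₂` mono. -/
structure PkgI (M : Rep.{0} k G) : Prop where
  disc : IsDisc D.𝒰 M
  a1epi : PairEpi (D.P1 disc)
  a2mono : PairMono (D.P2 disc)

/-- The local package: local `a¹_v` epi, local `a²_v` mono (not used by the top step). -/
structure PkgL (M : Rep.{0} k G) : Prop where
  disc : IsDisc D.𝒰 M
  locEpi : ∀ v, PairEpi (D.PL1 disc v)
  locMono : ∀ v, PairMono (D.PL2 disc v)

/-- `a₂` epi. -/
structure A2epi (M : Rep.{0} k G) : Prop where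
  disc : IsDisc D.𝒰 M
  a2epi : PairEpi (D.P2 disc)

/-- **Extension closure of package I.**
For `a1epi`: `pairEpi_four` with rows `H¹_c(A) → H¹_c(M) → H¹_c(B) -∂-> H²_c(A)` and
`H²(A') ← H²(M') ← H²(B') <-δ- H¹(A')`.
For `a2mono`: `pairMono_four` with rows `H¹_c(B) -∂-> H²_c(A) → H²_c(M) → H²_c(B)` and
`H²(B') <-δ- H¹(A') ← H¹(M') ← H¹(B')`. -/
theorem pkgI_ext {A M B : Rep.{0} k G} (E : SplitSES A M B) (hM : IsDisc D.𝒰 M)
    (hA : D.PkgI A) (hB : D.PkgI B) : D.PkgI M := by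
  have hd := dualSES_ev D.χ E
  refine ⟨hM, ?_, ?_⟩
  · -- a1epi
    refine pairEpi_four
      (Hc1map D.𝒰 D.loc E.i) (Hc1map D.𝒰 D.loc E.π) (Hcδ D.𝒰 D.loc D.𝒰v E D.hloc hM)
      (H2map D.𝒰 (E.dual D.χ).π) (H2map D.𝒰 (E.dual D.χ).i)
      (Hδ₁ D.𝒰 (E.dual D.χ) (D.disc_dual hM))
      (D.P1 hA.disc) (D.P1 hM) (D.P1 hB.disc) (D.P2 hA.disc)
      1 1 1 one_ne_zero ?_ ?_ ?_ ?_ ?_ ?_ hA.a1epi hB.a1epi hA.a2mono
    · intro x t
      rw [one_mul]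
      exact Pc1_natural D.𝒰 D.loc D.𝒰v (evPairing D.χ A) (evPairing D.χ M) E.i (E.dual D.χ).π
        (fun _ _ => rfl) D.hloc hA.disc hM (D.disc_dual hA.disc) (D.disc_dual hM) D.hμ D.lam x t
    · intro x t
      rw [one_mul]
      exact Pc1_natural D.𝒰 D.loc D.𝒰v (evPairing D.χ M) (evPairing D.χ B) E.π (E.dual D.χ).i
        (fun _ _ => rfl) D.hloc hM hB.disc (D.disc_dual hM) (D.disc_dual hB.disc) D.hμ D.lam x t
    · intro x t
      rw [one_mul]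
      exact Pc2_Hcδ D.𝒰 D.loc D.𝒰v hd D.hloc hA.disc hM hB.disc (D.disc_dual hA.disc)
        (D.disc_dual hM) (D.disc_dual hB.disc) D.hμ D.lam x t
    · exact exact_Hc1_right D.𝒰 D.loc D.𝒰v E D.hloc hM
    · exact exact_H2_mid D.𝒰 (E.dual D.χ) (D.disc_dual hM)
    · exact H2map_Hδ₁ D.𝒰 (E.dual D.χ) (D.disc_dual hM)
  · -- a2mono
    refine pairMono_four
      (Hcδ D.𝒰 D.loc D.𝒰v E D.hloc hM) (Hc2map D.𝒰 D.loc D.𝒰v E.i)
      (Hc2map D.𝒰 D.loc D.𝒰v E.π)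
      (Hδ₁ D.𝒰 (E.dual D.χ) (D.disc_dual hM)) (H1map D.𝒰 (E.dual D.χ).π)
      (H1map D.𝒰 (E.dual D.χ).i)
      (D.P1 hB.disc) (D.P2 hA.disc) (D.P2 hM) (D.P2 hB.disc)
      1 1 1 one_ne_zero one_ne_zero ?_ ?_ ?_ ?_ ?_ ?_ hB.a1epi hA.a2mono hB.a2mono
    · intro x t
      rw [one_mul]
      exact Pc2_Hcδ D.𝒰 D.loc D.𝒰v hd D.hloc hA.disc hM hB.disc (D.disc_dual hA.disc)
        (D.disc_dual hM) (D.disc_dual hB.disc) D.hμ D.lam x t
    · intro x t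
      rw [one_mul]
      exact Pc2_natural D.𝒰 D.loc D.𝒰v (evPairing D.χ A) (evPairing D.χ M) E.i (E.dual D.χ).π
        (fun _ _ => rfl) D.hloc hA.disc hM (D.disc_dual hA.disc) (D.disc_dual hM) D.hμ D.lam x t
    · intro x t
      rw [one_mul]
      exact Pc2_natural D.𝒰 D.loc D.𝒰v (evPairing D.χ M) (evPairing D.χ B) E.π (E.dual D.χ).i
        (fun _ _ => rfl) D.hloc hM hB.disc (D.disc_dual hM) (D.disc_dual hB.disc) D.hμ D.lam x t
    · exact exact_Hc2_mid D.𝒰 D.loc D.𝒰v E D.hloc hM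
    · exact Hc2map_Hcδ D.𝒰 D.loc D.𝒰v E D.hloc hM
    · exact exact_H1_right D.𝒰 (E.dual D.χ) (D.disc_dual hM)

/-- **Retract closure of package I** (`pairEpi_retract`, `pairMono_retract`). -/
theorem pkgI_retract {M N : Rep.{0} k G} (i : M ⟶ N) (r : N ⟶ M)
    (hri : ∀ m, r.hom (i.hom m) = m) (hN : D.PkgI N) : D.PkgI M := by
  have hM : IsDisc D.𝒰 M := isDisc_of_retract i r hri hN.disc
  exact
    { disc := hM
      a1epi := pairEpi_Pc1_retract D.𝒰 D.loc D.𝒰v D.χ D.hloc D.hμ D.lam i r hri hM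
        (D.disc_dual hM) hN.disc (D.disc_dual hN.disc) hN.a1epi
      a2mono := pairMono_Pc2_retract D.𝒰 D.loc D.𝒰v D.χ D.hloc D.hμ D.lam i r hri hM
        (D.disc_dual hM) hN.disc (D.disc_dual hN.disc) hN.a2mono }

/-- **Retract closure of the local package.** -/
theorem pkgL_retract {M N : Rep.{0} k G} (i : M ⟶ N) (r : N ⟶ M)
    (hri : ∀ m, r.hom (i.hom m) = m) (hN : D.PkgL N) : D.PkgL M := by
  have hM : IsDisc D.𝒰 M := isDisc_of_retract i r hri hN.disc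
  exact
    { disc := hM
      locEpi := fun v => pairEpi_cupH11_retract (D.𝒰v v) (D.loc v) D.χ _ (D.inv v) i r hri _ _
        (hN.locEpi v)
      locMono := fun v => pairMono_cupH20_retract (D.𝒰v v) (D.loc v) D.χ _ (D.inv v) i r hri _ _
        (hN.locMono v) }

/-- **Retract closure of `A2epi`.** -/
theorem a2epi_retract {M N : Rep.{0} k G} (i : M ⟶ N) (r : N ⟶ M)
    (hri : ∀ m, r.hom (i.hom m) = m) (hN : D.A2epi N) : D.A2epi M := by
  have hM : IsDisc D.𝒰 M := isDisc_of_retract i r hri hN.disc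
  exact ⟨hM, pairEpi_Pc2_retract D.𝒰 D.loc D.𝒰v D.χ D.hloc D.hμ D.lam i r hri hM
    (D.disc_dual hM) hN.disc (D.disc_dual hN.disc) hN.a2epi⟩

/-- **Biproduct closure of `A2epi`** (`pairEpi_biprod`). -/
theorem a2epi_biprod {X A B : Rep.{0} k G} (iA : A ⟶ X) (iB : B ⟶ X) (pA : X ⟶ A) (pB : X ⟶ B)
    (hA : ∀ a, pA.hom (iA.hom a) = a) (hB : ∀ b, pB.hom (iB.hom b) = b)
    (hsum : ∀ x, iA.hom (pA.hom x) + iB.hom (pB.hom x) = x)
    (hXA : D.A2epi A) (hXB : D.A2epi B) : D.A2epi X := by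
  have _ := hA
  have _ := hB
  have hX : IsDisc D.𝒰 X := isDisc_of_biprod iA iB pA pB hsum hXA.disc hXB.disc
  exact ⟨hX, pairEpi_Pc2_biprod D.𝒰 D.loc D.𝒰v D.χ D.hloc D.hμ D.lam iA iB pA pB hsum hX
    (D.disc_dual hX) hXA.disc (D.disc_dual hXA.disc) hXB.disc (D.disc_dual hXB.disc)
    hXA.a2epi hXB.a2epi⟩

/-- **`a₂` epi for a subobject**: for `0 → B → I → N → 0`,
`A2epi B ⇐ PkgI N (a₁ epi, a₂ mono), A2epi I`.
`pairEpi_four` with rows `H¹_c(N) -∂-> H²_c(B) → H²_c(I) → H²_c(N)` and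
`H²(N') <-δ- H¹(B') ← H¹(I') ← H¹(N')`. -/
theorem a2epi_of_ses {B I N : Rep.{0} k G} (E : SplitSES B I N) (hN : D.PkgI N)
    (hI : D.A2epi I) : D.A2epi B := by
  have hB : IsDisc D.𝒰 B := by
    obtain ⟨U, hU, h⟩ := hI.disc
    refine ⟨U, hU, fun s hs b => ?_⟩
    apply CLES_i_injective E
    rw [Rep.hom_comm_apply, h s hs]
  have hd := dualSES_ev D.χ E
  refine ⟨hB, ?_⟩
  refine pairEpi_four
    (Hcδ D.𝒰 D.loc D.𝒰v E D.hloc hI.disc)
    (Hc2map D.𝒰 D.loc D.𝒰v E.i)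
    (Hc2map D.𝒰 D.loc D.𝒰v E.π)
    (Hδ₁ D.𝒰 (E.dual D.χ) (D.disc_dual hI.disc))
    (H1map D.𝒰 (E.dual D.χ).π)
    (H1map D.𝒰 (E.dual D.χ).i)
    (D.P1 hN.disc) (D.P2 hB) (D.P2 hI.disc) (D.P2 hN.disc)
    1 1 1 one_ne_zero ?_ ?_ ?_ ?_ ?_ ?_ hN.a1epi hI.a2epi hN.a2mono
  · intro x t
    rw [one_mul]
    exact Pc2_Hcδ D.𝒰 D.loc D.𝒰v hd D.hloc hB hI.disc hN.disc (D.disc_dual hB)
      (D.disc_dual hI.disc) (D.disc_dual hN.disc) D.hμ D.lam x t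
  · intro x t
    rw [one_mul]
    exact Pc2_natural D.𝒰 D.loc D.𝒰v (evPairing D.χ B) (evPairing D.χ I) E.i (E.dual D.χ).π
      (fun _ _ => rfl) D.hloc hB hI.disc (D.disc_dual hB) (D.disc_dual hI.disc) D.hμ D.lam x t
  · intro x t
    rw [one_mul]
    exact Pc2_natural D.𝒰 D.loc D.𝒰v (evPairing D.χ I) (evPairing D.χ N) E.π (E.dual D.χ).i
      (fun _ _ => rfl) D.hloc hI.disc hN.disc (D.disc_dual hI.disc) (D.disc_dual hN.disc) D.hμ
      D.lam x t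
  · exact exact_Hc2_mid D.𝒰 D.loc D.𝒰v E D.hloc hI.disc
  · exact exact_H1_right D.𝒰 (E.dual D.χ) (D.disc_dual hI.disc)
  · exact H1map_π_i D.𝒰 (E.dual D.χ)

end PTContext

end Fermat.Agent.S55.Abs
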