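/-
S55 / PROGRAM CFT, abstract layer (helper235).

From package I for all discrete modules to `A2epi` for all discrete modules:
if an open subgroup `U` acts trivially on `M`, then `M` embeds into
`I = coInd_U^G (M as a trivial module) ≅ (M0 U)^{dim M}`, where `M0 U = Fun(U \ G, k)`, with
discrete finite-dimensional cokernel `N`; `A2epi I` follows from `A2epi (M0 U)` (biproducts),
and `A2epi M ⇐ PkgI N, A2epi I` (`PTContext.a2epi_of_ses`).

(The Sylow devissage for package I itself is helper107's `Abs/Devissage.lean`,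
`Abs/DevissageGQ.lean`; the base module there is literally `M0 k U` below.)
-/
import Fermat.Agent.S55.Abs.Machine

set_option autoImplicit false

open CategoryTheory groupCohomology

namespace Fermat.Agent.S55.Abs

variable {k G : Type} [Field k] [Group G]

/-- `coInd_U^G V` for a trivial `U`-module `V`: functions `f : G → V` with `f (u g) = f g`,
`G` acting by right translation. -/
noncomputable abbrev coindTriv (U : Subgroup G) (V : Type) [AddCommGroup V] [Module k V] :
    Rep.{0} k G :=
  Rep.coind U.subtype (Rep.trivial k U V)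

variable (k) in
/-- The permutation module `M0 U = Fun(U \ G, k)`. -/
noncomputable abbrev M0 (U : Subgroup G) : Rep.{0} k G := coindTriv (k := k) U k

/-- Elements of `coindTriv U V` are left-`U`-invariant functions. -/
lemma coindTriv_apply_mul {U : Subgroup G} {V : Type} [AddCommGroup V] [Module k V]
    (f : coindTriv (k := k) U V) {u : G} (hu : u ∈ U) (g : G) : f.1 (u * g) = f.1 g :=
  f.2 ⟨u, hu⟩ g

lemma coindTriv_ρ_apply {U : Subgroup G} {V : Type} [AddCommGroup V] [Module k V]
    (f : coindTriv (k := k) U V) (s g : G) : ((coindTriv (k := k) U V).ρ s f).1 g = f.1 (g * s) :=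
  rfl

theorem isDisc_coindTriv (𝒰 : LevelFamily G) (U : Subgroup G) (hU : ∃ W ∈ 𝒰.sets, W ≤ U)
    (V : Type) [AddCommGroup V] [Module k V] : IsDisc 𝒰 (coindTriv (k := k) U V) := by
  obtain ⟨W, hW, hWU⟩ := hU
  obtain ⟨W', hW', hW'W, hnormal⟩ := 𝒰.normal W hW
  refine ⟨W', hW', fun s hs f => ?_⟩
  apply Subtype.ext
  funext g
  rw [coindTriv_ρ_apply]
  have h1 : g * s * g⁻¹ ∈ U := hWU (hW'W (hnormal.conj_mem s hs g))
  have h2 := coindTriv_apply_mul f h1 g
  rwa [inv_mul_cancel_right] at h2

/-- Functoriality of `coindTriv U V` in the trivial module `V`. -/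
noncomputable def coindTrivMap (U : Subgroup G) {V V' : Type} [AddCommGroup V] [Module k V]
    [AddCommGroup V'] [Module k V'] (φ : V →ₗ[k] V') :
    coindTriv (k := k) U V ⟶ coindTriv (k := k) U V' :=
  Rep.coindMap U.subtype (A := Rep.trivial k U V) (B := Rep.trivial k U V')
    (Rep.ofHom (LinearMap.intertwiningMap_of_isIntertwiningMap _ _ φ (fun _ _ => rfl)))

@[simp] lemma coindTrivMap_apply (U : Subgroup G) {V V' : Type} [AddCommGroup V] [Module k V]
    [AddCommGroup V'] [Module k V'] (φ : V →ₗ[k] V') (f : coindTriv (k := k) U V) (g : G) :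
    ((coindTrivMap U φ).hom f).1 g = φ (f.1 g) := rfl

section Induction

variable (U : Subgroup G) (Q : Rep.{0} k G → Prop)
    (hretr : ∀ {M N : Rep.{0} k G} (i : M ⟶ N) (r : N ⟶ M),
      (∀ m, r.hom (i.hom m) = m) → Q N → Q M)
    (hbiprod : ∀ {X A B : Rep.{0} k G} (iA : A ⟶ X) (iB : B ⟶ X) (pA : X ⟶ A) (pB : X ⟶ B),
      (∀ a, pA.hom (iA.hom a) = a) → (∀ b, pB.hom (iB.hom b) = b) →
      (∀ x, iA.hom (pA.hom x) + iB.hom (pB.hom x) = x) → Q A → Q B → Q X)

include hretr in
lemma coindTriv_of_retract {V V' : Type} [AddCommGroup V] [Module k V]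
    [AddCommGroup V'] [Module k V'] (i : V →ₗ[k] V') (r : V' →ₗ[k] V) (hri : ∀ v, r (i v) = v)
    (h : Q (coindTriv (k := k) U V')) : Q (coindTriv (k := k) U V) := by
  refine hretr (coindTrivMap U i) (coindTrivMap U r) (fun f => ?_) h
  apply Subtype.ext
  funext g
  rw [coindTrivMap_apply, coindTrivMap_apply, hri]

include hbiprod in
lemma coindTriv_of_prod {A B : Type} [AddCommGroup A] [Module k A]
    [AddCommGroup B] [Module k B] (hA : Q (coindTriv (k := k) U A))
    (hB : Q (coindTriv (k := k) U B)) : Q (coindTriv (k := k) U (A × B)) := by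
  refine hbiprod (coindTrivMap U (LinearMap.inl k A B)) (coindTrivMap U (LinearMap.inr k A B))
    (coindTrivMap U (LinearMap.fst k A B)) (coindTrivMap U (LinearMap.snd k A B))
    (fun f => ?_) (fun f => ?_) (fun f => ?_) hA hB
  · apply Subtype.ext
    funext g
    rw [coindTrivMap_apply, coindTrivMap_apply]
    rfl
  · apply Subtype.ext
    funext g
    rw [coindTrivMap_apply, coindTrivMap_apply]
    rfl
  · apply Subtype.ext
    funext g
    show ((coindTrivMap U (LinearMap.inl k A B)).hom
        ((coindTrivMap U (LinearMap.fst k A B)).hom f)).1 g +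
      ((coindTrivMap U (LinearMap.inr k A B)).hom
        ((coindTrivMap U (LinearMap.snd k A B)).hom f)).1 g = f.1 g
    rw [coindTrivMap_apply, coindTrivMap_apply, coindTrivMap_apply, coindTrivMap_apply]
    simp

include hretr hbiprod in
lemma coindTriv_fin_fun (hbase : Q (M0 k U)) (n : ℕ) : Q (coindTriv (k := k) U (Fin n → k)) := by
  induction n with
  | zero =>
    exact coindTriv_of_retract U Q hretr (0 : (Fin 0 → k) →ₗ[k] k) 0
      (fun v => Subsingleton.elim _ _) hbase
  | succ n ih =>
    have h1 : Q (coindTriv (k := k) U (k × (Fin n → k))) :=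
      coindTriv_of_prod U Q hbiprod hbase ih
    let e : (k × (Fin n → k)) ≃ₗ[k] (Fin (n + 1) → k) :=
      Fin.consLinearEquiv k (fun _ : Fin (n + 1) => k)
    exact coindTriv_of_retract U Q hretr e.symm.toLinearMap e.toLinearMap
      (fun v => e.apply_symm_apply v) h1

end Induction

/-- A property closed under retracts and biproducts which holds for `M0 U` holds for
`coInd_U^G V`, `V` a finite-dimensional trivial module. -/
theorem coindTriv_induction (U : Subgroup G) (Q : Rep.{0} k G → Prop)
    (hbase : Q (M0 k U))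
    (hretr : ∀ {M N : Rep.{0} k G} (i : M ⟶ N) (r : N ⟶ M),
      (∀ m, r.hom (i.hom m) = m) → Q N → Q M)
    (hbiprod : ∀ {X A B : Rep.{0} k G} (iA : A ⟶ X) (iB : B ⟶ X) (pA : X ⟶ A) (pB : X ⟶ B),
      (∀ a, pA.hom (iA.hom a) = a) → (∀ b, pB.hom (iB.hom b) = b) →
      (∀ x, iA.hom (pA.hom x) + iB.hom (pB.hom x) = x) → Q A → Q B → Q X)
    (V : Type) [AddCommGroup V] [Module k V] [FiniteDimensional k V] :
    Q (coindTriv (k := k) U V) := by
  let e : V ≃ₗ[k] (Fin (Module.finrank k V) → k) := (Module.finBasis k V).equivFun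
  exact coindTriv_of_retract U Q hretr e.toLinearMap e.symm.toLinearMap
    (fun v => e.symm_apply_apply v) (coindTriv_fin_fun U Q hretr hbiprod hbase _)

section SES

variable (U : Subgroup G) (M : Rep.{0} k G) (hUM : ∀ u ∈ U, ∀ m : M, M.ρ u m = m)

/-- The embedding `m ↦ (g ↦ g m)` of a module with trivial `U`-action into
`coInd_U^G (M as a trivial module)`. -/
noncomputable def coindTrivEmb : M ⟶ coindTriv (k := k) U M.V :=
  ConcreteCategory.ofHom (C := Rep.{0} k G)
    (LinearMap.intertwiningMap_of_isIntertwiningMap M.ρ (coindTriv (k := k) U M.V).ρ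
    ({ toFun := fun m => ⟨fun g => M.ρ g m, fun u g => by
          show M.ρ (u.1 * g) m = M.ρ g m
          rw [map_mul]
          exact hUM u.1 u.2 _⟩
       map_add' := fun m m' => by
          apply Subtype.ext
          funext g
          exact map_add (M.ρ g) m m'
       map_smul' := fun c m => by
          apply Subtype.ext
          funext g
          exact map_smul (M.ρ g) c m } : M.V →ₗ[k] (coindTriv (k := k) U M.V).V)
    (by
      intro g m
      apply Subtype.ext
      funext h
      show M.ρ h (M.ρ g m) = M.ρ (h * g) m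
      rw [map_mul]
      rfl))

lemma coindTrivEmb_apply (m : M) (g : G) : ((coindTrivEmb U M hUM).hom m).1 g = M.ρ g m := rfl

/-- Evaluation at `1`: a linear retraction of `coindTrivEmb`. -/
noncomputable def coindTrivEval : (coindTriv (k := k) U M.V).V →ₗ[k] M.V :=
  (LinearMap.proj (1 : G)) ∘ₗ (Representation.coindV U.subtype (Rep.trivial k U M.V).ρ).subtype

lemma coindTrivEval_apply (f : coindTriv (k := k) U M.V) : coindTrivEval U M f = f.1 1 := rfl

lemma coindTrivEval_emb (m : M) : coindTrivEval U M ((coindTrivEmb U M hUM).hom m) = m := by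
  rw [coindTrivEval_apply, coindTrivEmb_apply, map_one]
  rfl

/-- The image of `coindTrivEmb`, as a submodule. -/
noncomputable def coindTrivRange : Submodule k (coindTriv (k := k) U M.V).V :=
  LinearMap.range (coindTrivEmb U M hUM).hom.toLinearMap

lemma coindTrivRange_le_comap (g : G) :
    coindTrivRange U M hUM ≤ (coindTrivRange U M hUM).comap ((coindTriv (k := k) U M.V).ρ g) := by
  rintro _ ⟨m, rfl⟩
  exact ⟨M.ρ g m, Rep.hom_comm_apply (coindTrivEmb U M hUM) g m⟩

/-- The cokernel of `coindTrivEmb`. -/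
noncomputable def coindTrivCoker : Rep.{0} k G :=
  Rep.quotient (coindTriv (k := k) U M.V) (coindTrivRange U M hUM) (coindTrivRange_le_comap U M hUM)

/-- The canonical split short exact sequence `0 → M → coInd_U^G M → coker → 0`. -/
noncomputable def coindTrivSES : SplitSES M (coindTriv (k := k) U M.V) (coindTrivCoker U M hUM) where
  i := coindTrivEmb U M hUM
  π := Rep.mkQ (coindTriv (k := k) U M.V) (coindTrivRange U M hUM) (coindTrivRange_le_comap U M hUM)
  s := Submodule.liftQ (coindTrivRange U M hUM)
    (LinearMap.id - (coindTrivEmb U M hUM).hom.toLinearMap ∘ₗ coindTrivEval U M) (by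
      rintro _ ⟨m, rfl⟩
      rw [LinearMap.mem_ker, LinearMap.sub_apply, LinearMap.comp_apply, LinearMap.id_apply]
      show (coindTrivEmb U M hUM).hom m
        - (coindTrivEmb U M hUM).hom (coindTrivEval U M ((coindTrivEmb U M hUM).hom m)) = 0
      rw [coindTrivEval_emb, sub_self])
  r := coindTrivEval U M
  r_i := coindTrivEval_emb U M hUM
  π_s := by
    intro b
    obtain ⟨f, rfl⟩ := Submodule.mkQ_surjective _ b
    show Submodule.mkQ (coindTrivRange U M hUM)
      (f - (coindTrivEmb U M hUM).hom (coindTrivEval U M f)) = Submodule.mkQ _ f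
    rw [map_sub, sub_eq_self, Submodule.mkQ_apply, Submodule.Quotient.mk_eq_zero]
    exact ⟨_, rfl⟩
  π_i := by
    intro a
    show Submodule.mkQ (coindTrivRange U M hUM) ((coindTrivEmb U M hUM).hom a) = 0
    rw [Submodule.mkQ_apply, Submodule.Quotient.mk_eq_zero]
    exact ⟨_, rfl⟩
  i_r := by
    intro f
    show (coindTrivEmb U M hUM).hom (coindTrivEval U M f)
      + (f - (coindTrivEmb U M hUM).hom (coindTrivEval U M f)) = f
    abel

end SES

/-- `coInd_U^G V` is finite-dimensional when `U` has finite index and `V` is finite-dimensional: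
a function is determined by its values on coset representatives. -/
theorem finiteDimensional_coindTriv (U : Subgroup G) [U.FiniteIndex] (V : Type) [AddCommGroup V]
    [Module k V] [FiniteDimensional k V] : FiniteDimensional k (coindTriv (k := k) U V) := by
  let ev : (coindTriv (k := k) U V).V →ₗ[k] (G ⧸ U → V) :=
    { toFun := fun f q => f.1 (q.out⁻¹)
      map_add' := fun _ _ => rfl
      map_smul' := fun _ _ => rfl }
  have hev : Function.Injective ev := by
    intro f f' h
    apply Subtype.ext
    funext g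
    obtain ⟨u, hu⟩ := QuotientGroup.mk_out_eq_mul U g⁻¹
    have key : ∀ f'' : coindTriv (k := k) U V,
        f''.1 g = f''.1 ((QuotientGroup.mk g⁻¹ : G ⧸ U).out⁻¹) := by
      intro f''
      rw [hu, mul_inv_rev, inv_inv]
      exact (coindTriv_apply_mul f'' (U.inv_mem u.2) g).symm
    rw [key f, key f']
    exact congrFun h _
  exact FiniteDimensional.of_injective ev hev

/-- If `U` (containing a member of the level family) acts trivially on the finite-dimensional
`M`, then `M` embeds into `coInd_U^G (M as a trivial module)` by `m ↦ (g ↦ g m)`, with discrete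
finite-dimensional cokernel. -/
theorem exists_ses_coindTriv (𝒰 : LevelFamily G) (U : Subgroup G) (hU : ∃ W ∈ 𝒰.sets, W ≤ U)
    (M : Rep.{0} k G) [FiniteDimensional k M] (hUM : ∀ u ∈ U, ∀ m : M, M.ρ u m = m) :
    ∃ (N : Rep.{0} k G) (_ : SplitSES M (coindTriv (k := k) U M.V) N),
      IsDisc 𝒰 N ∧ FiniteDimensional k N := by
  refine ⟨coindTrivCoker U M hUM, coindTrivSES U M hUM, ?_, ?_⟩
  · obtain ⟨W, hW, hWtriv⟩ := isDisc_coindTriv (k := k) 𝒰 U hU M.V
    refine ⟨W, hW, fun s hs b => ?_⟩
    obtain ⟨f, rfl⟩ := Submodule.mkQ_surjective _ b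
    show Submodule.mkQ (coindTrivRange U M hUM) ((coindTriv (k := k) U M.V).ρ s f) = _
    rw [hWtriv s hs f]
  · obtain ⟨W, hW, hWU⟩ := hU
    have hWfin : W.FiniteIndex := 𝒰.finiteIndex W hW
    have hUfin : U.FiniteIndex := Subgroup.finiteIndex_of_le hWU
    have hI : FiniteDimensional k (coindTriv (k := k) U M.V) := finiteDimensional_coindTriv U M.V
    exact inferInstanceAs (FiniteDimensional k
      ((coindTriv (k := k) U M.V).V ⧸ coindTrivRange U M hUM))

/-- **`A2epi` for every module on which `U` acts trivially**, from `A2epi (M0 U)` and package I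
for all discrete finite-dimensional modules. -/
theorem PTContext.a2epi_of_acts_trivially (D : PTContext k G) (U : Subgroup G)
    (hU : ∃ W ∈ D.𝒰.sets, W ≤ U) (hII : D.A2epi (M0 k U))
    (hPkg : ∀ N : Rep.{0} k G, FiniteDimensional k N → IsDisc D.𝒰 N → D.PkgI N)
    (M : Rep.{0} k G) [FiniteDimensional k M] (hUM : ∀ u ∈ U, ∀ m : M, M.ρ u m = m) :
    D.A2epi M := by
  obtain ⟨N, E, hN, hNfd⟩ := exists_ses_coindTriv D.𝒰 U hU M hUM
  have hIq : D.A2epi (coindTriv (k := k) U M.V) :=
    coindTriv_induction U D.A2epi hII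
      (fun i r hri hN' => D.a2epi_retract i r hri hN')
      (fun iA iB pA pB hA hB hsum hXA hXB => D.a2epi_biprod iA iB pA pB hA hB hsum hXA hXB) M.V
  exact D.a2epi_of_ses E (hPkg N hNfd hN) hIq

end Fermat.Agent.S55.Abs
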