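/-
S55 / PROGRAM CFT, abstract layer (helper235).

The concrete Poitou–Tate context over `ℚ`: the global level family of `S`-unramified finite
extensions, the local level families at the primes of `S`, and the dictionary with the Prelude
predicates `IsLevelConstantS₁/₂ S` and `IsLevelConstant₁/₂ r`.
-/
import Fermat.Agent.S55.Abs.Reduce
import Fermat.Agent.S55.Abs.DevissageGQ
import Fermat.Prelude.Def_GroupCohomology_ContinuousUnramified

set_option autoImplicit false

open CategoryTheory groupCohomology ExtCitation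

namespace Fermat.Agent.S55.Abs

/-- The absolute Galois group of `ℚ`. -/
abbrev GQ : Type := AlgebraicClosure ℚ ≃ₐ[ℚ] AlgebraicClosure ℚ

attribute [local instance] Glue.isAlgebraicQbar_lg Glue.isAlgClosureQbar_lg Glue.normalQbar_lg

section Global

variable (S : Finset Nat.Primes)

/-- The subgroups `Gal(ℚ̄/F)`, `F` finite and unramified outside `S`. -/
def globalSets : Set (Subgroup GQ) :=
  {U | ∃ F : IntermediateField ℚ (AlgebraicClosure ℚ), F.IsUnramifiedOutside S ∧
    U = F.fixingSubgroup}

/-- The fixing subgroup of a finite normal extension is normal of finite index. -/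
theorem fixingSubgroup_normal_finiteIndex (F : IntermediateField ℚ (AlgebraicClosure ℚ))
    [FiniteDimensional ℚ F] [Normal ℚ F] : F.fixingSubgroup.Normal ∧ F.fixingSubgroup.FiniteIndex := by
  rw [Glue.fixingSubgroup_eq_ker]
  exact ⟨MonoidHom.normal_ker _, inferInstance⟩

/-- The normal closure of a finite extension unramified outside `S` is unramified outside `S`
(helper135's `Glue.isUnramifiedOutside_normalClosure`). -/
theorem globalSets_normal : ∀ U ∈ globalSets S, ∃ W ∈ globalSets S, W ≤ U ∧ W.Normal := by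
  rintro U ⟨F, hF, rfl⟩
  have hN := Glue.isUnramifiedOutside_normalClosure hF
  haveI := hN.1
  haveI : Normal ℚ (IntermediateField.normalClosure ℚ F (AlgebraicClosure ℚ)) :=
    normalClosure.normal ℚ _ _
  exact ⟨_, ⟨_, hN, rfl⟩,
    IntermediateField.fixingSubgroup_antitone (IntermediateField.le_normalClosure F),
    (fixingSubgroup_normal_finiteIndex _).1⟩

theorem globalSets_finiteIndex : ∀ U ∈ globalSets S, U.FiniteIndex := by
  rintro U ⟨F, hF, rfl⟩
  have hN := Glue.isUnramifiedOutside_normalClosure hF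
  haveI := hN.1
  haveI : Normal ℚ (IntermediateField.normalClosure ℚ F (AlgebraicClosure ℚ)) :=
    normalClosure.normal ℚ _ _
  have hfi := (fixingSubgroup_normal_finiteIndex
    (IntermediateField.normalClosure ℚ F (AlgebraicClosure ℚ))).2
  exact @Subgroup.finiteIndex_of_le _ _ _ _ hfi
    (IntermediateField.fixingSubgroup_antitone (IntermediateField.le_normalClosure F))

/-- The global level family attached to `S`. -/
def globalLevel : LevelFamily GQ where
  sets := globalSets S
  nonempty := ⟨_, ⊥, IntermediateField.isUnramifiedOutside_bot S, rfl⟩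
  inter := by
    rintro U ⟨F, hF, rfl⟩ V ⟨F', hF', rfl⟩
    exact ⟨_, ⟨F ⊔ F', hF.sup hF', rfl⟩, by rw [IntermediateField.fixingSubgroup_sup]⟩
  normal := globalSets_normal S
  finiteIndex := globalSets_finiteIndex S

theorem isLevelConstantS₁_iff {X : Type*} (f : GQ → X) :
    IsLevelConstantS₁ S f ↔ IsLev₁ (globalLevel S) f := by
  constructor
  · rintro ⟨F, hF, h⟩
    exact ⟨_, ⟨F, hF, rfl⟩, h⟩
  · rintro ⟨_, ⟨F, hF, rfl⟩, h⟩
    exact ⟨F, hF, h⟩

theorem isLevelConstantS₂_iff {X : Type*} (f : GQ × GQ → X) :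
    IsLevelConstantS₂ S f ↔ IsLev₂ (globalLevel S) f := by
  constructor
  · rintro ⟨F, hF, h⟩
    exact ⟨_, ⟨F, hF, rfl⟩, h⟩
  · rintro ⟨_, ⟨F, hF, rfl⟩, h⟩
    exact ⟨F, hF, h⟩

end Global

section Local

variable {H : Type} [Group H] (r : H →* GQ)

/-- The subgroups `r⁻¹ Gal(ℚ̄/F)`, `F` finite. -/
def localSets : Set (Subgroup H) :=
  {U | ∃ F : IntermediateField ℚ (AlgebraicClosure ℚ), FiniteDimensional ℚ F ∧
    U = F.fixingSubgroup.comap r}

theorem localSets_normal : ∀ U ∈ localSets r, ∃ W ∈ localSets r, W ≤ U ∧ W.Normal := by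
  rintro U ⟨F, hF, rfl⟩
  haveI := hF
  haveI : Normal ℚ (IntermediateField.normalClosure ℚ F (AlgebraicClosure ℚ)) :=
    normalClosure.normal ℚ _ _
  haveI := (fixingSubgroup_normal_finiteIndex
    (IntermediateField.normalClosure ℚ F (AlgebraicClosure ℚ))).1
  exact ⟨_, ⟨IntermediateField.normalClosure ℚ F (AlgebraicClosure ℚ), inferInstance, rfl⟩,
    Subgroup.comap_mono
      (IntermediateField.fixingSubgroup_antitone (IntermediateField.le_normalClosure F)),
    Subgroup.Normal.comap inferInstance r⟩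

theorem localSets_finiteIndex : ∀ U ∈ localSets r, U.FiniteIndex := by
  rintro U ⟨F, hF, rfl⟩
  haveI := hF
  haveI : Normal ℚ (IntermediateField.normalClosure ℚ F (AlgebraicClosure ℚ)) :=
    normalClosure.normal ℚ _ _
  have hfi := (fixingSubgroup_normal_finiteIndex
    (IntermediateField.normalClosure ℚ F (AlgebraicClosure ℚ))).2
  haveI : (F.fixingSubgroup).FiniteIndex := @Subgroup.finiteIndex_of_le _ _ _ _ hfi
    (IntermediateField.fixingSubgroup_antitone (IntermediateField.le_normalClosure F))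
  refine ⟨?_⟩
  rw [Subgroup.index_comap]
  exact fun h => Subgroup.FiniteIndex.index_ne_zero (Subgroup.index_eq_zero_of_relIndex_eq_zero h)

/-- The level family on `H` pulled back from the Krull topology of `Gal(ℚ̄/ℚ)` along `r`. -/
def localLevel : LevelFamily H where
  sets := localSets r
  nonempty := ⟨_, ⊥, inferInstance, rfl⟩
  inter := by
    rintro U ⟨F, hF, rfl⟩ V ⟨F', hF', rfl⟩
    haveI := hF; haveI := hF'
    exact ⟨_, ⟨F ⊔ F', inferInstance, rfl⟩, by
      rw [IntermediateField.fixingSubgroup_sup, Subgroup.comap_inf]⟩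
  normal := localSets_normal r
  finiteIndex := localSets_finiteIndex r

theorem isLevelConstant₁_iff {X : Type*} (f : H → X) :
    IsLevelConstant₁ r f ↔ IsLev₁ (localLevel r) f := by
  constructor
  · rintro ⟨F, hF, h⟩
    exact ⟨_, ⟨F, hF, rfl⟩, fun g s hs => h g s hs⟩
  · rintro ⟨_, ⟨F, hF, rfl⟩, h⟩
    exact ⟨F, hF, fun g s hs => h g s hs⟩

theorem isLevelConstant₂_iff {X : Type*} (f : H × H → X) :
    IsLevelConstant₂ r f ↔ IsLev₂ (localLevel r) f := by
  constructor
  · rintro ⟨F, hF, h⟩
    exact ⟨_, ⟨F, hF, rfl⟩, fun g g' s s' hs hs' => h g g' s s' hs hs'⟩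
  · rintro ⟨_, ⟨F, hF, rfl⟩, h⟩
    exact ⟨F, hF, fun g g' s s' hs hs' => h g g' s s' hs hs'⟩

theorem isLevelMap_localLevel (S : Finset Nat.Primes) :
    IsLevelMap (localLevel r) (globalLevel S) r := by
  rintro U ⟨F, hF, rfl⟩
  exact ⟨_, ⟨F, hF.1, rfl⟩, le_rfl⟩

end Local

section Context

variable (p : ℕ) [Fact p.Prime] (S : Finset Nat.Primes)

/-- `μ_p` is unramified outside `S ∋ p`: the mod `p` cyclotomic character is trivial on
`Gal(ℚ̄/ℚ(μ_p))`, and `ℚ(μ_p)` is unramified outside `S` (helper135's `Glue/DualTwist`). -/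
theorem isDisc_mu (hpS : pPrime p ∈ S) : IsDisc (globalLevel S) (muRep (cycloChar p)) := by
  refine ⟨_, ⟨Glue.cycloField p, Glue.isUnramifiedOutside_cycloField p hpS, rfl⟩, fun s hs m => ?_⟩
  rw [muRep_ρ_apply, Glue.cycloChar_eq_one_of_mem_fixingSubgroup p hs, Units.val_one, one_mul]

/-- The type of admissible functionals `lam` for `S`. -/
abbrev LamS : Type :=
  Qc3 (globalLevel S) (fun q : ↥S => primeLocalToGlobal q.1)
      (fun q : ↥S => localLevel (primeLocalToGlobal q.1)) (muRep (cycloChar p)) →ₗ[ZMod p] ZMod p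

/-- The Poitou–Tate context of `(ℚ, S, μ_p)` with the finite places of `S`
(the archimedean place contributes nothing for odd `p`). -/
@[reducible] noncomputable def ctxS (hpS : pPrime p ∈ S) (lam : LamS p S) : PTContext (ZMod p) GQ where
  𝒰 := globalLevel S
  ι := ↥S
  Gv := fun q => primeLocalGaloisGroup q.1
  loc := fun q => primeLocalToGlobal q.1
  𝒰v := fun q => localLevel (primeLocalToGlobal q.1)
  χ := cycloChar p
  hloc := fun q => isLevelMap_localLevel (primeLocalToGlobal q.1) S
  hμ := isDisc_mu p S hpS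
  lam := lam

end Context

end Fermat.Agent.S55.Abs
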