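import Mathlib

/-!
# Symmetry of the low-degree cup products up to an explicit homotopy

Raw pointwise identities on inhomogeneous cochains (Mathlib's `groupCohomology.d₀₁`, `d₁₂`,
`d₂₃`), for an equivariant bilinear pairing `β : A × B → C` of `G`-representations.

* `cup21_sub_cup12_eq_d` : for a 2-cocycle `a` with values in `A` and a 1-cocycle `c` with
  values in `B`,  `a ∪ c - c ∪' a = d (homGlobal β a c)`  with
  `homGlobal β a c (g₁, g₂) = β (a (g₁, g₂)) (c (g₁ g₂))`.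
* `cup11_sub_cup02_sub_hom_eq_neg_d` : for an arbitrary 1-cochain `b` with values in `A` and
  `e : B`,  `b ∪ d e - e ∪' d b - homGlobal β (d b) (d e) = - d (homLocal β b e)`  with
  `homLocal β b e g = β (b g) (g • e)`.

Together they say: for compactly supported cocycles `(a, b_v)` (degree 2) and `(c, e_v)`
(degree 1), the two cup products `(a ∪ c, b_v ∪ res_v c)` and `(c ∪' a, e_v ∪' res_v a)` differ
by the cone coboundary of `(homGlobal β a c, homLocal β b_v e_v)`.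
-/

set_option autoImplicit false

namespace Fermat.Agent.S55.Abs.CupSymm

open groupCohomology

universe u

variable {k G : Type u} [CommRing k] [Group G] {A B C : Rep.{u} k G}

/-- A bilinear pairing of representations is equivariant. -/
def IsEquivariant (β : A →ₗ[k] B →ₗ[k] C) : Prop :=
  ∀ (g : G) (a : A) (b : B), β (A.ρ g a) (B.ρ g b) = C.ρ g (β a b)

/-- Cup product of a 2-cochain with a 1-cochain:
`(a ∪ c)(g₁, g₂, g₃) = β (a (g₁, g₂)) (g₁ g₂ • c g₃)`. -/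
def cup21 (β : A →ₗ[k] B →ₗ[k] C) (a : G × G → A) (c : G → B) : G × G × G → C :=
  fun x => β (a (x.1, x.2.1)) (B.ρ (x.1 * x.2.1) (c x.2.2))

/-- Flipped cup product of a 1-cochain with a 2-cochain:
`(c ∪' a)(g₁, g₂, g₃) = β (g₁ • a (g₂, g₃)) (c g₁)`. -/
def cup12 (β : A →ₗ[k] B →ₗ[k] C) (c : G → B) (a : G × G → A) : G × G × G → C :=
  fun x => β (A.ρ x.1 (a (x.2.1, x.2.2))) (c x.1)

/-- Cup product of two 1-cochains: `(b ∪ c)(g₁, g₂) = β (b g₁) (g₁ • c g₂)`. -/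
def cup11 (β : A →ₗ[k] B →ₗ[k] C) (b : G → A) (c : G → B) : G × G → C :=
  fun x => β (b x.1) (B.ρ x.1 (c x.2))

/-- Flipped cup product of a 0-cochain with a 2-cochain: `(e ∪' a)(g₁, g₂) = β (a (g₁, g₂)) e`. -/
def cup02 (β : A →ₗ[k] B →ₗ[k] C) (e : B) (a : G × G → A) : G × G → C :=
  fun x => β (a x) e

/-- The global homotopy: `h (g₁, g₂) = β (a (g₁, g₂)) (c (g₁ g₂))`. -/
def homGlobal (β : A →ₗ[k] B →ₗ[k] C) (a : G × G → A) (c : G → B) : G × G → C :=
  fun x => β (a x) (c (x.1 * x.2))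

/-- The local homotopy: `k g = β (b g) (g • e)`. -/
def homLocal (β : A →ₗ[k] B →ₗ[k] C) (b : G → A) (e : B) : G → C :=
  fun g => β (b g) (B.ρ g e)

@[simp] lemma cup21_apply (β : A →ₗ[k] B →ₗ[k] C) (a : G × G → A) (c : G → B) (g₁ g₂ g₃ : G) :
    cup21 β a c (g₁, g₂, g₃) = β (a (g₁, g₂)) (B.ρ (g₁ * g₂) (c g₃)) := rfl

@[simp] lemma cup12_apply (β : A →ₗ[k] B →ₗ[k] C) (c : G → B) (a : G × G → A) (g₁ g₂ g₃ : G) :
    cup12 β c a (g₁, g₂, g₃) = β (A.ρ g₁ (a (g₂, g₃))) (c g₁) := rfl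

@[simp] lemma cup11_apply (β : A →ₗ[k] B →ₗ[k] C) (b : G → A) (c : G → B) (g₁ g₂ : G) :
    cup11 β b c (g₁, g₂) = β (b g₁) (B.ρ g₁ (c g₂)) := rfl

@[simp] lemma cup02_apply (β : A →ₗ[k] B →ₗ[k] C) (e : B) (a : G × G → A) (g₁ g₂ : G) :
    cup02 β e a (g₁, g₂) = β (a (g₁, g₂)) e := rfl

@[simp] lemma homGlobal_apply (β : A →ₗ[k] B →ₗ[k] C) (a : G × G → A) (c : G → B) (g₁ g₂ : G) :
    homGlobal β a c (g₁, g₂) = β (a (g₁, g₂)) (c (g₁ * g₂)) := rfl

@[simp] lemma homLocal_apply (β : A →ₗ[k] B →ₗ[k] C) (b : G → A) (e : B) (g : G) :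
    homLocal β b e g = β (b g) (B.ρ g e) := rfl

/-- **Global identity.** For a 2-cocycle `a` and a 1-cocycle `c`:
`a ∪ c - c ∪' a = d (homGlobal β a c)`. -/
theorem cup21_sub_cup12_eq_d (β : A →ₗ[k] B →ₗ[k] C) (hβ : IsEquivariant β)
    (a : G × G → A) (ha : a ∈ cocycles₂ A) (c : G → B) (hc : c ∈ cocycles₁ B) :
    cup21 β a c - cup12 β c a = (d₂₃ C).hom (homGlobal β a c) := by
  funext ⟨g₁, g₂, g₃⟩
  have ha' := (mem_cocycles₂_iff a).1 ha g₁ g₂ g₃
  have hc' := (mem_cocycles₁_iff c).1 hc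
  have e1 : a (g₁, g₂ * g₃) = a (g₁ * g₂, g₃) + a (g₁, g₂) - A.ρ g₁ (a (g₂, g₃)) := by
    rw [ha']; abel
  simp only [Pi.sub_apply, cup21_apply, cup12_apply, d₂₃_hom_apply, homGlobal_apply]
  rw [← hβ g₁ (a (g₂, g₃)) (c (g₂ * g₃)), e1,
    hc' (g₁ * g₂) g₃, hc' g₁ (g₂ * g₃), hc' g₂ g₃, hc' g₁ g₂]
  simp only [map_add, map_sub, LinearMap.add_apply, LinearMap.sub_apply, map_mul,
    Module.End.mul_apply]
  abel

/-- **Local identity.** For an arbitrary 1-cochain `b` and a 0-cochain `e`: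
`b ∪ d e - e ∪' d b - homGlobal β (d b) (d e) = - d (homLocal β b e)`. -/
theorem cup11_sub_cup02_sub_hom_eq_neg_d (β : A →ₗ[k] B →ₗ[k] C) (hβ : IsEquivariant β)
    (b : G → A) (e : B) :
    cup11 β b ((d₀₁ B).hom e) - cup02 β e ((d₁₂ A).hom b)
        - homGlobal β ((d₁₂ A).hom b) ((d₀₁ B).hom e)
      = - (d₁₂ C).hom (homLocal β b e) := by
  funext ⟨g₁, g₂⟩
  simp only [Pi.sub_apply, Pi.neg_apply, cup11_apply, cup02_apply, homGlobal_apply,
    d₀₁_hom_apply, d₁₂_hom_apply, homLocal_apply]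
  rw [← hβ g₁ (b g₂) (B.ρ g₂ e)]
  simp only [map_add, map_sub, LinearMap.add_apply, LinearMap.sub_apply, map_mul,
    Module.End.mul_apply]
  abel

/-- Corollary of the local identity: for a 1-cocycle `l`, the cup product `l ∪ d e` is the
coboundary of `- homLocal β l e`. (Well-definedness of the pairing on locally trivial classes.) -/
theorem cup11_d₀₁_eq_neg_d (β : A →ₗ[k] B →ₗ[k] C) (hβ : IsEquivariant β)
    (l : G → A) (hl : l ∈ cocycles₁ A) (e : B) :
    cup11 β l ((d₀₁ B).hom e) = - (d₁₂ C).hom (homLocal β l e) := by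
  have h := cup11_sub_cup02_sub_hom_eq_neg_d β hβ l e
  have hl0 : (d₁₂ A).hom l = 0 := hl
  rw [hl0] at h
  have h1 : cup02 β e (0 : G × G → A) = 0 := by
    funext x; simp [cup02]
  have h2 : homGlobal β (0 : G × G → A) ((d₀₁ B).hom e) = 0 := by
    funext x; simp [homGlobal]
  rw [h1, h2, sub_zero, sub_zero] at h
  exact h

section Restriction

variable {H : Type u} [Group H] (r : H →* G)

/-- Restriction of cochains along a group homomorphism commutes with the global homotopy. -/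
lemma homGlobal_comp (β : A →ₗ[k] B →ₗ[k] C) (a : G × G → A) (c : G → B) :
    (fun x : H × H => homGlobal β a c (r x.1, r x.2))
      = fun x : H × H => β (a (r x.1, r x.2)) (c (r (x.1 * x.2))) := by
  funext x
  simp [homGlobal]

/-- Restriction of cochains along a group homomorphism commutes with `cup21`. -/
lemma cup21_comp (β : A →ₗ[k] B →ₗ[k] C) (a : G × G → A) (c : G → B) (h₁ h₂ h₃ : H) :
    cup21 β a c (r h₁, r h₂, r h₃) = β (a (r h₁, r h₂)) (B.ρ (r (h₁ * h₂)) (c (r h₃))) := by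
  simp [cup21]

end Restriction

end Fermat.Agent.S55.Abs.CupSymm
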