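/-
S55 / PROGRAM CFT, abstract layer: SYMMETRY of the two Poitou–Tate pairings (helper225).

For an equivariant pairing `β : A × B → C` the pairings
  `Pc2 β      : H²_c(A) × H¹(B) → k`   and   `Pc1 β.flip : H¹_c(B) × H²(A) → k`
agree on compactly supported classes:
  `Pc2 β x (fgt1 z) = Pc1 β.flip z (fgt2 x)`      (`x ∈ H²_c(A)`, `z ∈ H¹_c(B)`),
where `fgt1 : H¹_c → H¹`, `fgt2 : H²_c → H²` forget the local components.
This is an exact cochain identity (`CupSymm`): the two raw cup products differ by the cone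
coboundary of `(homGlobal β a c, (homLocal β b_v e_v)_v)`.

Consequence (see `TopSymm.exists_sha_pairing`): the top step of S55 needs `a₂(M)` epi,
`a₁(M')` epi and NO local duality.
-/
import Fermat.Agent.S55.Abs.Pairing
import Fermat.Agent.S55.Abs.CupSymm

set_option autoImplicit false

open CategoryTheory groupCohomology

namespace Fermat.Agent.S55.Abs

variable {k G : Type} [Field k] [Group G] (𝒰 : LevelFamily G)
  {ι : Type} {Gv : ι → Type} [∀ v, Group (Gv v)]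
  (loc : ∀ v, Gv v →* G) (𝒰v : ∀ v, LevelFamily (Gv v))

/-- The flipped pairing `B × A → C`. -/
def EqPairing.flip {A B C : Rep.{0} k G} (β : EqPairing A B C) : EqPairing B A C where
  toFun := β.toFun.flip
  equivariant g b a := β.equivariant g a b

@[simp] lemma EqPairing.flip_toFun_apply {A B C : Rep.{0} k G} (β : EqPairing A B C) (b : B)
    (a : A) : β.flip.toFun b a = β.toFun a b := rfl

lemma EqPairing.isEquivariant {A B C : Rep.{0} k G} (β : EqPairing A B C) :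
    CupSymm.IsEquivariant β.toFun := β.equivariant

/-! ### The forgetful maps `H^i_c → H^i` -/

section Forget

variable (M : Rep.{0} k G)

/-- `H¹_c(M) → H¹(M)`, `[(c, e)] ↦ [c]`. -/
def fgt1 : Hc1 𝒰 loc M →ₗ[k] H1 𝒰 M :=
  subquotMap (LinearMap.fst k (G → M) (ι → M)) (Zc1 𝒰 loc M) (Bc1 M) (Z1 𝒰 M) (coboundaries₁ M)
    (fun _ hx => hx.1)
    (fun _ _ hx' => by
      obtain ⟨m, rfl⟩ := hx'
      exact ⟨m, rfl⟩)

/-- `H²_c(M) → H²(M)`, `[(a, b)] ↦ [a]`. -/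
def fgt2 : Hc2 𝒰 loc 𝒰v M →ₗ[k] H2 𝒰 M :=
  subquotMap (LinearMap.fst k (G × G → M) (∀ v, Gv v → M)) (Zc2 𝒰 loc 𝒰v M) (Bc2 𝒰 loc M)
    (Z2 𝒰 M) (B2 𝒰 M)
    (fun _ hx => hx.1)
    (fun _ _ hx' => by
      obtain ⟨y, hy, rfl⟩ := hx'
      exact ⟨y.1, hy.1, rfl⟩)

@[simp] lemma fgt1_mk (x : ↥(Zc1 𝒰 loc M)) :
    fgt1 𝒰 loc M (Submodule.Quotient.mk x) = Submodule.Quotient.mk ⟨x.1.1, x.2.1⟩ := rfl

@[simp] lemma fgt2_mk (x : ↥(Zc2 𝒰 loc 𝒰v M)) :
    fgt2 𝒰 loc 𝒰v M (Submodule.Quotient.mk x) = Submodule.Quotient.mk ⟨x.1.1, x.2.1⟩ := rfl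

end Forget

/-! ### The homotopies are level cochains -/

section Level

variable {A B C : Rep.{0} k G} (β : EqPairing A B C)

/-- `h (g₁, g₂) = β (a (g₁, g₂)) (c (g₁ g₂))` is a level cochain. -/
theorem homGlobal_mem_C2 {a : G × G → A} (ha : a ∈ C2 𝒰 A) {c : G → B} (hc : c ∈ C1 𝒰 B) :
    CupSymm.homGlobal β.toFun a c ∈ C2 𝒰 C := by
  obtain ⟨U, hU, h⟩ := ha
  obtain ⟨U', hU', h'⟩ := hc
  obtain ⟨W₀, hW₀, hle₀⟩ := 𝒰.inter U hU U' hU'
  obtain ⟨W, hW, hle, hnor⟩ := 𝒰.normal W₀ hW₀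
  refine ⟨W, hW, fun g g' s s' hs hs' => ?_⟩
  have e1 : g * s * (g' * s') = g * g' * (g'⁻¹ * s * g' * s') := by group
  have hmem : g'⁻¹ * s * g' * s' ∈ U' := by
    refine (hle₀ (hle (W.mul_mem ?_ hs'))).2
    have := hnor.conj_mem s hs g'⁻¹
    simpa using this
  show β.toFun (a (g * s, g' * s')) (c (g * s * (g' * s'))) = β.toFun (a (g, g')) (c (g * g'))
  rw [h g g' s s' (hle₀ (hle hs)).1 (hle₀ (hle hs')).1, e1, h' (g * g') _ hmem]

/-- `k g = β (b g) (g • e)` is a level cochain if `B` is discrete. -/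
theorem homLocal_mem_C1 (hB : IsDisc 𝒰 B) {b : G → A} (hb : b ∈ C1 𝒰 A) (e : B) :
    CupSymm.homLocal β.toFun b e ∈ C1 𝒰 C := by
  obtain ⟨U, hU, h⟩ := hb
  obtain ⟨U', hU', h'⟩ := hB
  obtain ⟨W, hW, hle⟩ := 𝒰.inter U hU U' hU'
  refine ⟨W, hW, fun g s hs => ?_⟩
  show β.toFun (b (g * s)) (B.ρ (g * s) e) = β.toFun (b g) (B.ρ g e)
  rw [h g s (hle hs).1, map_mul, Module.End.mul_apply, h' s (hle hs).2 e]

end Level

/-! ### The symmetry -/

section Symmetry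

variable {A B C : Rep.{0} k G} (β : EqPairing A B C)

/-- Cochain level: for a compactly supported 2-cocycle `x = (a, b)` with values in `A` and a
compactly supported 1-cocycle `z = (c, e)` with values in `B`, the two raw cup products differ by
a cone coboundary. -/
theorem raw2_sub_raw1_flip_mem_Bc3 (hloc : ∀ v, IsLevelMap (𝒰v v) 𝒰 (loc v)) (hB : IsDisc 𝒰 B)
    {x : (G × G → A) × (∀ v, Gv v → A)} (hx : x ∈ Zc2 𝒰 loc 𝒰v A)
    {z : (G → B) × (ι → B)} (hz : z ∈ Zc1 𝒰 loc B) :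
    raw2 loc β x z.1 - raw1 loc β.flip z x.1 ∈ Bc3 𝒰 loc 𝒰v C := by
  refine ⟨(CupSymm.homGlobal β.toFun x.1 z.1,
      fun v => CupSymm.homLocal (A := Rep.res (loc v) A) (B := Rep.res (loc v) B)
        (C := Rep.res (loc v) C) β.toFun (x.2 v) (z.2 v)), ⟨?_, ?_⟩, ?_⟩
  · exact homGlobal_mem_C2 𝒰 β hx.1.1 hz.1.1
  · rw [SetLike.mem_coe, Submodule.mem_pi]
    intro v _
    exact homLocal_mem_C1 (𝒰v v) (β.res (loc v)) (isDisc_res 𝒰 (𝒰v v) (loc v) (hloc v) hB)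
      (hx.2 v).1 (z.2 v)
  · refine Prod.ext ?_ (funext fun v => ?_)
    · -- global component
      have h := CupSymm.cup21_sub_cup12_eq_d β.toFun β.isEquivariant x.1 hx.1.2 z.1 hz.1.2
      show (d₂₃ C).hom (CupSymm.homGlobal β.toFun x.1 z.1)
        = cup21 β x.1 z.1 - cup12 β.flip z.1 x.1
      rw [← h]
      rfl
    · -- local component at `v`
      have h := CupSymm.cup11_sub_cup02_sub_hom_eq_neg_d (A := Rep.res (loc v) A)
        (B := Rep.res (loc v) B) (C := Rep.res (loc v) C) β.toFun (β.res (loc v)).isEquivariant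
        (x.2 v) (z.2 v)
      rw [← (hx.2 v).2, ← hz.2 v] at h
      have hres : res₂ loc C v (CupSymm.homGlobal β.toFun x.1 z.1)
          = CupSymm.homGlobal (A := Rep.res (loc v) A) (B := Rep.res (loc v) B)
              (C := Rep.res (loc v) C) β.toFun (res₂ loc A v x.1) (res₁ loc B v z.1) := by
        funext p
        simp [CupSymm.homGlobal]
      show res₂ loc C v (CupSymm.homGlobal β.toFun x.1 z.1)
          - (d₁₂ (Rep.res (loc v) C)).hom (CupSymm.homLocal (A := Rep.res (loc v) A)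
              (B := Rep.res (loc v) B) (C := Rep.res (loc v) C) β.toFun (x.2 v) (z.2 v))
        = cup11 (β.res (loc v)) (x.2 v) (res₁ loc B v z.1)
          - cup02 (β.flip.res (loc v)) (z.2 v) (res₂ loc A v x.1)
      rw [hres]
      have h' : CupSymm.cup11 (A := Rep.res (loc v) A) (B := Rep.res (loc v) B)
            (C := Rep.res (loc v) C) β.toFun (x.2 v) (res₁ loc B v z.1)
          - CupSymm.cup02 (A := Rep.res (loc v) A) (B := Rep.res (loc v) B)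
            (C := Rep.res (loc v) C) β.toFun (z.2 v) (res₂ loc A v x.1)
          = cup11 (β.res (loc v)) (x.2 v) (res₁ loc B v z.1)
            - cup02 (β.flip.res (loc v)) (z.2 v) (res₂ loc A v x.1) := rfl
      rw [← h', sub_eq_iff_eq_add.mp h]
      abel

variable (hloc : ∀ v, IsLevelMap (𝒰v v) 𝒰 (loc v))
  (hA : IsDisc 𝒰 A) (hB : IsDisc 𝒰 B) (hC : IsDisc 𝒰 C) (lam : Qc3 𝒰 loc 𝒰v C →ₗ[k] k)

/-- **Symmetry of the Poitou–Tate pairings**: `⟨x, j z⟩₂ = ⟨z, j x⟩₁` for `x ∈ H²_c(A)`,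
`z ∈ H¹_c(B)`; the pairing on the right is taken with respect to the flipped pairing. -/
theorem Pc2_fgt1_eq_Pc1_fgt2 (x : Hc2 𝒰 loc 𝒰v A) (z : Hc1 𝒰 loc B) :
    Pc2 𝒰 loc 𝒰v β hloc hA hB hC lam x (fgt1 𝒰 loc B z)
      = Pc1 𝒰 loc 𝒰v β.flip hloc hB hA hC lam z (fgt2 𝒰 loc 𝒰v A x) := by
  obtain ⟨x, rfl⟩ := Submodule.Quotient.mk_surjective _ x
  obtain ⟨z, rfl⟩ := Submodule.Quotient.mk_surjective _ z
  rw [fgt1_mk, fgt2_mk]
  unfold Pc2 Pc1
  rw [LinearMap.compr₂_apply, LinearMap.compr₂_apply, descend₂_mk, descend₂_mk]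
  congr 1
  rw [Submodule.Quotient.eq]
  exact raw2_sub_raw1_flip_mem_Bc3 𝒰 loc 𝒰v β hloc hB x.2 z.2

end Symmetry

end Fermat.Agent.S55.Abs
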