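import Mathlib

/-!
# S55 / abstract layer: the top step without local duality

Variant of `TopLA.exists_sha_pairing` using the symmetry of the two Tate–Shafarevich pairings
(report #2298) instead of `a₂` mono and local duality.  Pure linear algebra over a field, no
finiteness.  Dictionary for S55:

* `H2c = H²_c(M)`, `H2 = H²(G_S, M)`, `j : H2c → H2`, `loc2 : H2 → P2`, `Ш²(M) = ker loc2 = range j`;
* `H1c' = H¹_c(M')`, `H1' = H¹(G_S, M')`, `j1 : H1c' → H1'`, `loc1 : H1' → P1'`,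
  `Ш¹(M') = ker loc1 = range j1`;
* `A  : H²_c(M) × H¹(G_S, M') → k` (the pairing `a₂(M)`),
  `A1 : H¹_c(M') × H²(G_S, M) → k` (the pairing `a₁(M')`, with `M'' = M`);
* symmetry `A x (j1 z) = A1 z (j x)` (one cochain identity);
* `a₂(M)` epi gives `hA`, `a₁(M')` epi gives `hA1` (trivial right kernels).
-/

set_option autoImplicit false

namespace Fermat.Agent.S55.Abs.TopSymm

open Function

variable {k : Type*} [Field k]
  {H2c H2 P2 H1c' H1' P1' V1 V2 : Type*}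
  [AddCommGroup H2c] [Module k H2c] [AddCommGroup H2] [Module k H2]
  [AddCommGroup P2] [Module k P2] [AddCommGroup H1c'] [Module k H1c']
  [AddCommGroup H1'] [Module k H1'] [AddCommGroup P1'] [Module k P1']
  [AddCommGroup V1] [Module k V1] [AddCommGroup V2] [Module k V2]

/-- **Top step, symmetric form.**  `V1 ≅ ker loc1 = Ш¹(M')` via `i1`, `V2 ≅ ker loc2 = Ш²(M)`
via `i2`. -/
theorem exists_sha_pairing
    (j : H2c →ₗ[k] H2) (loc2 : H2 →ₗ[k] P2) (j1 : H1c' →ₗ[k] H1') (loc1 : H1' →ₗ[k] P1')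
    (A : H2c →ₗ[k] H1' →ₗ[k] k) (A1 : H1c' →ₗ[k] H2 →ₗ[k] k)
    -- the two cone sequences
    (hrange_j : ∀ z, loc2 z = 0 → ∃ x, j x = z) (hloc_j : ∀ x, loc2 (j x) = 0)
    (hrange_j1 : ∀ y, loc1 y = 0 → ∃ z, j1 z = y) (hloc_j1 : ∀ z, loc1 (j1 z) = 0)
    -- the two Tate–Shafarevich pairings agree
    (hsymm : ∀ x z, A x (j1 z) = A1 z (j x))
    -- `a₂(M)` has trivial right kernel on `Ш¹(M')` (e.g. `a₂(M)` epi)
    (hA : ∀ y, loc1 y = 0 → (∀ x, A x y = 0) → y = 0)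
    -- `a₁(M')` has trivial right kernel on `Ш²(M)` (e.g. `a₁(M')` epi)
    (hA1 : ∀ x, loc2 x = 0 → (∀ z, A1 z x = 0) → x = 0)
    -- the two Tate–Shafarevich groups
    (i1 : V1 →ₗ[k] H1') (hi1 : Injective i1) (hr1 : ∀ y, loc1 y = 0 ↔ ∃ v, i1 v = y)
    (i2 : V2 →ₗ[k] H2) (hi2 : Injective i2) (hr2 : ∀ z, loc2 z = 0 ↔ ∃ v, i2 v = z) :
    ∃ B : V1 →ₗ[k] V2 →ₗ[k] k,
      (∀ y, (∀ x, B y x = 0) → y = 0) ∧ (∀ x, (∀ y, B y x = 0) → x = 0) ∧
      (∀ (y : V1) (x : V2) (x₀ : H2c), j x₀ = i2 x → B y x = A x₀ (i1 y)) ∧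
      (∀ (y : V1) (x : V2) (z₀ : H1c'), j1 z₀ = i1 y → B y x = A1 z₀ (i2 x)) := by
  classical
  have hloc1_i1 : ∀ v, loc1 (i1 v) = 0 := fun v => (hr1 _).mpr ⟨v, rfl⟩
  have hloc2_i2 : ∀ v, loc2 (i2 v) = 0 := fun v => (hr2 _).mpr ⟨v, rfl⟩
  have hlift2 : ∀ x : V2, ∃ x₀ : H2c, j x₀ = i2 x := fun x => hrange_j _ (hloc2_i2 x)
  have hlift1 : ∀ y : V1, ∃ z₀ : H1c', j1 z₀ = i1 y := fun y => hrange_j1 _ (hloc1_i1 y)
  choose s hs using hlift2
  choose t ht using hlift1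
  -- the value `A x₀ (i1 y)` equals `A1 (t y) (j x₀)`
  have hval : ∀ (y : V1) (x₀ : H2c), A x₀ (i1 y) = A1 (t y) (j x₀) := by
    intro y x₀
    rw [← ht y, hsymm]
  let B : V1 →ₗ[k] V2 →ₗ[k] k :=
    LinearMap.mk₂ k (fun y x => A (s x) (i1 y))
      (fun y y' x => by simp only [map_add])
      (fun c y x => by simp only [map_smul, smul_eq_mul])
      (fun y x x' => by
        rw [hval, hval, hval, hs, hs, hs, map_add, map_add])
      (fun c y x => by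
        rw [hval, hval, hs, hs, map_smul, map_smul, smul_eq_mul])
  have hB : ∀ y x, B y x = A (s x) (i1 y) := fun y x => rfl
  have hB1 : ∀ (y : V1) (x : V2) (x₀ : H2c), j x₀ = i2 x → B y x = A x₀ (i1 y) := by
    intro y x x₀ h
    rw [hB, hval, hval, hs, h]
  have hB2 : ∀ (y : V1) (x : V2) (z₀ : H1c'), j1 z₀ = i1 y → B y x = A1 z₀ (i2 x) := by
    intro y x z₀ h
    rw [hB, ← h, hsymm, hs]
  refine ⟨B, ?_, ?_, hB1, hB2⟩
  · intro y hy
    apply hi1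
    rw [map_zero]
    refine hA _ (hloc1_i1 y) (fun x₀ => ?_)
    obtain ⟨x, hx⟩ := (hr2 (j x₀)).mp (hloc_j x₀)
    rw [← hB1 y x x₀ hx.symm]
    exact hy x
  · intro x hx
    apply hi2
    rw [map_zero]
    refine hA1 _ (hloc2_i2 x) (fun z₀ => ?_)
    obtain ⟨y, hy⟩ := (hr1 (j1 z₀)).mp (hloc_j1 z₀)
    rw [← hB2 y x z₀ hy.symm]
    exact hx y

end Fermat.Agent.S55.Abs.TopSymm
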