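/-
S55 / PROGRAM CFT, abstract layer (helper235).

The SYMMETRIC form of the top step (helper225 #2298 / helper227 `TopSymm`): no local duality.
On top of helper225's `Abs/Symm.lean` (`fgt1`, `fgt2`, `Pc2_fgt1_eq_Pc1_fgt2`):

* the ranges of `fgt1`, `fgt2` are the classes which are locally trivial at every `v`
  (`exists_fgt1_eq`, `exists_fgt2_eq`, `res₁_mem_of_mem_range_fgt1`, `res₂_mem_of_mem_range_fgt2`);
* `bidual χ M : M ⟶ M''` and `PTContext.right_kernel_flip` : `a₁` epi for `M' = M^*(χ)` kills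
  the right kernel of the flipped pairing `H¹_c(M') × H²(M) → k`;
* `PTContext.exists_sha_pairing` : the abstract top step.
-/
import Fermat.Agent.S55.Abs.Machine
import Fermat.Agent.S55.Abs.Symm
import Fermat.Agent.S55.Abs.TopSymm

set_option autoImplicit false

open CategoryTheory groupCohomology

namespace Fermat.Agent.S55.Abs

variable {k G : Type} [Field k] [Group G] (𝒰 : LevelFamily G)
  {ι : Type} {Gv : ι → Type} [∀ v, Group (Gv v)]
  (loc : ∀ v, Gv v →* G) (𝒰v : ∀ v, LevelFamily (Gv v))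

/-- A pairing in which every functional is represented has trivial right kernel. -/
theorem PairEpi.right_kernel {X T : Type*} [AddCommGroup X] [Module k X] [AddCommGroup T]
    [Module k T] {P : X →ₗ[k] T →ₗ[k] k} (h : PairEpi P) (t : T) (ht : ∀ x, P x t = 0) :
    t = 0 := by
  by_contra hne
  obtain ⟨φ, hφ⟩ : ∃ φ : Module.Dual k T, φ t ≠ 0 := by
    by_contra hcon
    push Not at hcon
    exact hne ((Module.forall_dual_apply_eq_zero_iff k t).1 hcon)
  obtain ⟨x, hx⟩ := h φ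
  exact hφ (by rw [hx, ht])

section Forget

variable (M : Rep.{0} k G)

/-- A level 1-cocycle which is a coboundary on every `G_v` lifts to `H¹_c`. -/
theorem exists_fgt1_eq {a : G → M} (ha : a ∈ Z1 𝒰 M)
    (hres : ∀ v, res₁ loc M v a ∈ coboundaries₁ (Rep.res (loc v) M)) :
    ∃ x : Hc1 𝒰 loc M, fgt1 𝒰 loc M x = Submodule.Quotient.mk ⟨a, ha⟩ := by
  choose b hb using hres
  exact ⟨Submodule.Quotient.mk ⟨(a, b), ha, fun v => (hb v).symm⟩, rfl⟩

/-- A level 2-cocycle which is a level coboundary on every `G_v` lifts to `H²_c`. -/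
theorem exists_fgt2_eq {a : G × G → M} (ha : a ∈ Z2 𝒰 M)
    (hres : ∀ v, res₂ loc M v a ∈ B2 (𝒰v v) (Rep.res (loc v) M)) :
    ∃ x : Hc2 𝒰 loc 𝒰v M, fgt2 𝒰 loc 𝒰v M x = Submodule.Quotient.mk ⟨a, ha⟩ := by
  choose b hb hb' using hres
  exact ⟨Submodule.Quotient.mk ⟨(a, b), ha, fun v => ⟨hb v, (hb' v).symm⟩⟩, rfl⟩

/-- Classes in the range of `fgt1` are locally trivial. -/
theorem res₁_mem_of_mem_range_fgt1 {a : G → M} (ha : a ∈ Z1 𝒰 M)
    (h : (Submodule.Quotient.mk ⟨a, ha⟩ : H1 𝒰 M) ∈ LinearMap.range (fgt1 𝒰 loc M)) (v : ι) :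
    res₁ loc M v a ∈ coboundaries₁ (Rep.res (loc v) M) := by
  obtain ⟨x, hx⟩ := h
  obtain ⟨x, rfl⟩ := Submodule.Quotient.mk_surjective _ x
  rw [fgt1_mk, Submodule.Quotient.eq] at hx
  obtain ⟨m, hm⟩ := hx
  have hm' : (d₀₁ M).hom m = x.1.1 - a := hm
  have hx2 : res₁ loc M v x.1.1 = (d₀₁ (Rep.res (loc v) M)).hom (x.1.2 v) := x.2.2 v
  refine ⟨x.1.2 v - m, ?_⟩
  funext g
  have e1 := congrFun hx2 g
  have e2 := congrFun hm' (loc v g)
  simp only [res₁_apply, Pi.sub_apply] at e1 e2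
  show (d₀₁ (Rep.res (loc v) M)).hom (x.1.2 v - m) g = a (loc v g)
  rw [map_sub, Pi.sub_apply, ← e1]
  show x.1.1 (loc v g) - (d₀₁ M).hom m (loc v g) = a (loc v g)
  rw [e2]
  abel

/-- Classes in the range of `fgt2` are locally trivial. -/
theorem res₂_mem_of_mem_range_fgt2 (hloc : ∀ v, IsLevelMap (𝒰v v) 𝒰 (loc v))
    {a : G × G → M} (ha : a ∈ Z2 𝒰 M)
    (h : (Submodule.Quotient.mk ⟨a, ha⟩ : H2 𝒰 M) ∈ LinearMap.range (fgt2 𝒰 loc 𝒰v M)) (v : ι) :
    res₂ loc M v a ∈ B2 (𝒰v v) (Rep.res (loc v) M) := by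
  obtain ⟨x, hx⟩ := h
  obtain ⟨x, rfl⟩ := Submodule.Quotient.mk_surjective _ x
  rw [fgt2_mk, Submodule.Quotient.eq] at hx
  obtain ⟨c, hc, hcd⟩ := hx
  have hcd' : (d₁₂ M).hom c = x.1.1 - a := hcd
  have hx2 : res₂ loc M v x.1.1 = (d₁₂ (Rep.res (loc v) M)).hom (x.1.2 v) := (x.2.2 v).2
  have hxl : x.1.2 v ∈ C1 (𝒰v v) (Rep.res (loc v) M) := (x.2.2 v).1
  have hcl : res₁ loc M v c ∈ C1 (𝒰v v) (Rep.res (loc v) M) :=
    IsLev₁.precomp (hloc v) (show IsLev₁ 𝒰 c from hc)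
  refine ⟨x.1.2 v - res₁ loc M v c, Submodule.sub_mem _ hxl hcl, ?_⟩
  rw [map_sub, ← hx2, ← CLES_res_d₁₂, hcd', map_sub]
  abel

end Forget

/-! ### Biduality -/

section Bidual

variable (χ : G →* kˣ) (M : Rep.{0} k G)

/-- The canonical map `M → M'' = (M^*(χ))^*(χ)`, `m ↦ (f ↦ f m)`. -/
noncomputable def bidual : M ⟶ (M.dualTwist χ).dualTwist χ :=
  Rep.ofHom (LinearMap.intertwiningMap_of_isIntertwiningMap _ _
    (Module.Dual.eval k M : M →ₗ[k] Module.Dual k (Module.Dual k M)) (by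
      intro g m
      show Module.Dual.eval k M (M.ρ g m)
        = ((M.dualTwist χ).dualTwist χ).ρ g (Module.Dual.eval k M m)
      rw [Rep.dualTwist_ρ_apply]
      apply LinearMap.ext
      intro f
      show f (M.ρ g m) = (χ g : k) * ((M.dualTwist χ).ρ g⁻¹ f) m
      rw [Rep.dualTwist_ρ_apply]
      show f (M.ρ g m) = (χ g : k) * ((χ g⁻¹ : k) * f (M.ρ g⁻¹⁻¹ m))
      rw [inv_inv, ← mul_assoc, ← Units.val_mul, ← map_mul, mul_inv_cancel, map_one,
        Units.val_one, one_mul]))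

@[simp] lemma bidual_apply (m : M) (f : Module.Dual k M) :
    ((bidual χ M).hom m : Module.Dual k (Module.Dual k M)) f = f m := rfl

/-- The inverse of `bidual` for finite-dimensional `M`. -/
noncomputable def bidualInv [FiniteDimensional k M] : (M.dualTwist χ).dualTwist χ ⟶ M :=
  Rep.ofHom (LinearMap.intertwiningMap_of_isIntertwiningMap _ _
    ((Module.evalEquiv k M).symm.toLinearMap : Module.Dual k (Module.Dual k M) →ₗ[k] M) (by
      intro g φ
      apply (Module.evalEquiv k M).injective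
      have h1 : Module.evalEquiv k M ((Module.evalEquiv k M).symm
          (((M.dualTwist χ).dualTwist χ).ρ g φ)) = ((M.dualTwist χ).dualTwist χ).ρ g φ :=
        (Module.evalEquiv k M).apply_symm_apply _
      have h2 : Module.evalEquiv k M (M.ρ g ((Module.evalEquiv k M).symm φ))
          = ((M.dualTwist χ).dualTwist χ).ρ g φ := by
        have h3 := Rep.hom_comm_apply (bidual χ M) g ((Module.evalEquiv k M).symm φ)
        have h4 : (bidual χ M).hom ((Module.evalEquiv k M).symm φ) = φ :=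
          (Module.evalEquiv k M).apply_symm_apply φ
        rw [h4] at h3
        exact h3
      exact h1.trans h2.symm))

lemma bidualInv_bidual [FiniteDimensional k M] (m : M) :
    (bidualInv χ M).hom ((bidual χ M).hom m) = m :=
  (Module.evalEquiv k M).symm_apply_apply m

lemma bidual_bidualInv [FiniteDimensional k M] (φ : (M.dualTwist χ).dualTwist χ) :
    (bidual χ M).hom ((bidualInv χ M).hom φ) = φ :=
  (Module.evalEquiv k M).apply_symm_apply φ

/-- For finite-dimensional `M` the canonical map `M → M''` induces an injection on `H²`. -/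
theorem H2map_bidual_injective [FiniteDimensional k M] :
    Function.Injective (H2map 𝒰 (bidual χ M)) :=
  Function.LeftInverse.injective (g := H2map 𝒰 (bidualInv χ M))
    (H2map_retract 𝒰 (bidual χ M) (bidualInv χ M) (bidualInv_bidual χ M))

end Bidual

/-- **`a₁` epi for `M'` kills the right kernel of the flipped pairing
`H¹_c(M') × H²(M) → k`** (`Pc1_natural` along `bidual`, `H2map_bidual_injective`,
`PairEpi.right_kernel`). -/
theorem PTContext.right_kernel_flip (D : PTContext k G) {M : Rep.{0} k G} [FiniteDimensional k M]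
    (hM : IsDisc D.𝒰 M) (h : PairEpi (D.P1 (D.disc_dual hM))) (x : H2 D.𝒰 M)
    (hx : ∀ z, Pc1 D.𝒰 D.loc D.𝒰v (evPairing D.χ M).flip D.hloc (D.disc_dual hM) hM D.hμ D.lam
      z x = 0) : x = 0 := by
  apply H2map_bidual_injective D.𝒰 D.χ M
  rw [map_zero]
  refine h.right_kernel _ (fun z => ?_)
  have hid : Hc1map D.𝒰 D.loc (𝟙 (D.dual M)) z = z := by
    obtain ⟨w, rfl⟩ := Submodule.Quotient.mk_surjective _ z
    rfl
  have hnat := Pc1_natural D.𝒰 D.loc D.𝒰v (evPairing D.χ (D.dual M)) (evPairing D.χ M).flip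
    (𝟙 (D.dual M)) (bidual D.χ M) (fun _ _ => rfl) D.hloc (D.disc_dual hM) (D.disc_dual hM)
    (D.disc_dual (D.disc_dual hM)) hM D.hμ D.lam z x
  rw [hid] at hnat
  exact hnat.symm.trans (hx z)

/-- **The top step (symmetric form), abstractly.**  If `a₂(M)` and `a₁(M')` are epi, then for
any realisations `V1 ≅ range fgt1 ⊆ H¹(M')`, `V2 ≅ range fgt2 ⊆ H²(M)` of the two
Tate–Shafarevich groups there is a perfect pairing `V1 × V2 → k`. -/
theorem PTContext.exists_sha_pairing (D : PTContext k G) {M : Rep.{0} k G} [FiniteDimensional k M]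
    (h2 : D.A2epi M) (h1 : D.PkgI (D.dual M))
    {V1 V2 : Type} [AddCommGroup V1] [Module k V1] [AddCommGroup V2] [Module k V2]
    (i1 : V1 →ₗ[k] H1 D.𝒰 (D.dual M)) (hi1 : Function.Injective i1)
    (hr1 : ∀ y, y ∈ LinearMap.range (fgt1 D.𝒰 D.loc (D.dual M)) ↔ ∃ v, i1 v = y)
    (i2 : V2 →ₗ[k] H2 D.𝒰 M) (hi2 : Function.Injective i2)
    (hr2 : ∀ z, z ∈ LinearMap.range (fgt2 D.𝒰 D.loc D.𝒰v M) ↔ ∃ v, i2 v = z) :
    ∃ B : V1 →ₗ[k] V2 →ₗ[k] k,
      (∀ y, (∀ x, B y x = 0) → y = 0) ∧ (∀ x, (∀ y, B y x = 0) → x = 0) := by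
  have hM : IsDisc D.𝒰 M := h2.disc
  have h2e : PairEpi (D.P2 hM) := h2.a2epi
  have h1e : PairEpi (D.P1 (D.disc_dual hM)) := h1.a1epi
  obtain ⟨B, hB1, hB2, -, -⟩ := TopSymm.exists_sha_pairing
    (fgt2 D.𝒰 D.loc D.𝒰v M) (LinearMap.range (fgt2 D.𝒰 D.loc D.𝒰v M)).mkQ
    (fgt1 D.𝒰 D.loc (D.dual M)) (LinearMap.range (fgt1 D.𝒰 D.loc (D.dual M))).mkQ
    (D.P2 hM)
    (Pc1 D.𝒰 D.loc D.𝒰v (evPairing D.χ M).flip D.hloc (D.disc_dual hM) hM D.hμ D.lam)
    (fun z hz => (Submodule.Quotient.mk_eq_zero _).1 hz)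
    (fun x => (Submodule.Quotient.mk_eq_zero _).2 ⟨x, rfl⟩)
    (fun y hy => (Submodule.Quotient.mk_eq_zero _).1 hy)
    (fun z => (Submodule.Quotient.mk_eq_zero _).2 ⟨z, rfl⟩)
    (fun x z => Pc2_fgt1_eq_Pc1_fgt2 D.𝒰 D.loc D.𝒰v (evPairing D.χ M) D.hloc hM (D.disc_dual hM) D.hμ D.lam
      x z)
    (fun y _ hy => h2e.right_kernel y hy)
    (fun x _ hx => D.right_kernel_flip hM h1e x hx)
    i1 hi1 (fun y => (Submodule.Quotient.mk_eq_zero _).trans (hr1 y))
    i2 hi2 (fun z => (Submodule.Quotient.mk_eq_zero _).trans (hr2 z))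
  exact ⟨B, hB1, hB2⟩

end Fermat.Agent.S55.Abs
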