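import Mathlib

/-!
# S55 / abstract layer: the linear algebra of the top step

Pure linear algebra over a field `k` (no cohomology).  Dictionary for S55:

* `H2c`  : compactly supported `H²_c(M)`;  `H2` : `H²(G_S, M)`;  `j : H2c → H2` (forget);
* `P1`   : `⊕_{v ∈ S} H¹(G_v, M)`;  `bd : P1 → H2c` (boundary of the cone sequence);
* `P2`   : `∏_v H²(G_v, M)`;  `loc2 : H2 → P2`;  so `Ш²(M) = ker loc2 = range j`, `ker j = range bd`;
* `H1'`  : `H¹(G_S, M')`;  `P1'` : `⊕_v H¹(G_v, M')`;  `loc1 : H1' → P1'`;  `Ш¹(M') = ker loc1`;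
* `A`    : the global pairing `H²_c(M) × H¹(G_S, M') → k`;  `L` : the sum of the local pairings
  `P1 × P1' → k`;  adjunction `A (bd ξ) y = L ξ (loc1 y)`.

`exists_sha_pairing` : if `A` has trivial left kernel (`a₂` mono), trivial right kernel on
`ker loc1` (implied by `a₂` epi) and every functional on `P1'` is represented by `L`
(local duality, one direction), then there is a pairing `Ш¹(M') × Ш²(M) → k`, nondegenerate on both
sides, which is induced by `A`.  No finiteness assumption.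
-/

set_option autoImplicit false

namespace Fermat.Agent.S55.Abs.TopLA

open Function

variable {k : Type*} [Field k]

/-- Over a field, a functional on `W` that vanishes on `ker π` is of the form `Λ ∘ π`. -/
theorem exists_factor {W V : Type*} [AddCommGroup W] [Module k W] [AddCommGroup V] [Module k V]
    (π : W →ₗ[k] V) (f : W →ₗ[k] k) (h : ∀ w, π w = 0 → f w = 0) :
    ∃ Λ : V →ₗ[k] k, ∀ w, Λ (π w) = f w := by
  have hker : LinearMap.ker π ≤ LinearMap.ker f := fun w hw =>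
    LinearMap.mem_ker.mpr (h w (LinearMap.mem_ker.mp hw))
  -- `f` descends to `W ⧸ ker π ≃ range π`, then extend from the range
  let f' : (W ⧸ LinearMap.ker π) →ₗ[k] k := (LinearMap.ker π).liftQ f hker
  let e : (W ⧸ LinearMap.ker π) ≃ₗ[k] LinearMap.range π := π.quotKerEquivRange
  obtain ⟨Λ, hΛ⟩ := LinearMap.exists_extend (f'.comp e.symm.toLinearMap)
  refine ⟨Λ, fun w => ?_⟩
  have h1 := congrArg (fun φ => φ ⟨π w, LinearMap.mem_range_self π w⟩) hΛ
  simp only [LinearMap.comp_apply, Submodule.subtype_apply] at h1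
  rw [h1]
  have h2 : e.symm ⟨π w, LinearMap.mem_range_self π w⟩ = Submodule.Quotient.mk w := by
    rw [LinearEquiv.symm_apply_eq]
    rfl
  simp only [LinearEquiv.coe_coe, h2]
  rfl

variable {H2c H2 P1 P2 H1' P1' V1 V2 : Type*}
  [AddCommGroup H2c] [Module k H2c] [AddCommGroup H2] [Module k H2]
  [AddCommGroup P1] [Module k P1] [AddCommGroup P2] [Module k P2]
  [AddCommGroup H1'] [Module k H1'] [AddCommGroup P1'] [Module k P1']
  [AddCommGroup V1] [Module k V1] [AddCommGroup V2] [Module k V2]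

/-- **Top step, linear algebra.**  `V1 ≅ ker loc1 = Ш¹(M')` via `i1`, `V2 ≅ ker loc2 = Ш²(M)`
via `i2`. -/
theorem exists_sha_pairing
    (j : H2c →ₗ[k] H2) (bd : P1 →ₗ[k] H2c) (loc2 : H2 →ₗ[k] P2) (loc1 : H1' →ₗ[k] P1')
    (A : H2c →ₗ[k] H1' →ₗ[k] k) (L : P1 →ₗ[k] P1' →ₗ[k] k)
    -- the cone sequence `P1 → H2c → H2 → P2`
    (hj_bd : ∀ ξ, j (bd ξ) = 0)
    (hker_j : ∀ x, j x = 0 → ∃ ξ, bd ξ = x)
    (hrange_j : ∀ z, loc2 z = 0 → ∃ x, j x = z)
    (hloc_j : ∀ x, loc2 (j x) = 0)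
    -- adjunction between the global and the local pairing
    (hadj : ∀ ξ y, A (bd ξ) y = L ξ (loc1 y))
    -- `a₂` mono
    (hmono : ∀ x, (∀ y, A x y = 0) → x = 0)
    -- `a₂` has trivial right kernel on `Ш¹` (e.g. `a₂` epi)
    (hright : ∀ y, loc1 y = 0 → (∀ x, A x y = 0) → y = 0)
    -- local duality: every functional on `P1'` is represented
    (hloc : ∀ φ : P1' →ₗ[k] k, ∃ ξ, ∀ η, L ξ η = φ η)
    -- the two Tate–Shafarevich groups
    (i1 : V1 →ₗ[k] H1') (hi1 : Injective i1) (hr1 : ∀ y, loc1 y = 0 ↔ ∃ v, i1 v = y)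
    (i2 : V2 →ₗ[k] H2) (hi2 : Injective i2) (hr2 : ∀ z, loc2 z = 0 ↔ ∃ v, i2 v = z) :
    ∃ B : V1 →ₗ[k] V2 →ₗ[k] k,
      (∀ y, (∀ x, B y x = 0) → y = 0) ∧ (∀ x, (∀ y, B y x = 0) → x = 0) ∧
      (∀ (y : V1) (x : V2) (x₀ : H2c), j x₀ = i2 x → B y x = A x₀ (i1 y)) := by
  classical
  have hloc1_i1 : ∀ v, loc1 (i1 v) = 0 := fun v => (hr1 _).mpr ⟨v, rfl⟩
  have hloc2_i2 : ∀ v, loc2 (i2 v) = 0 := fun v => (hr2 _).mpr ⟨v, rfl⟩
  -- lift of `Ш²` to `H2c`
  have hlift : ∀ x : V2, ∃ x₀ : H2c, j x₀ = i2 x := fun x => hrange_j _ (hloc2_i2 x)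
  choose s hs using hlift
  -- the value `A x₀ (i1 y)` only depends on `j x₀`
  have hwd : ∀ (x₀ x₁ : H2c) (y : V1), j x₀ = j x₁ → A x₀ (i1 y) = A x₁ (i1 y) := by
    intro x₀ x₁ y h
    have h0 : j (x₀ - x₁) = 0 := by rw [map_sub, h, sub_self]
    obtain ⟨ξ, hξ⟩ := hker_j _ h0
    have h1 : A (x₀ - x₁) (i1 y) = 0 := by
      rw [← hξ, hadj, hloc1_i1, map_zero]
    rw [map_sub, LinearMap.sub_apply, sub_eq_zero] at h1
    exact h1
  have hval : ∀ (y : V1) (x : V2) (x₀ : H2c), j x₀ = i2 x → A (s x) (i1 y) = A x₀ (i1 y) :=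
    fun y x x₀ h => hwd _ _ y ((hs x).trans h.symm)
  let B : V1 →ₗ[k] V2 →ₗ[k] k :=
    LinearMap.mk₂ k (fun y x => A (s x) (i1 y))
      (fun y y' x => by simp only [map_add])
      (fun c y x => by simp only [map_smul, smul_eq_mul])
      (fun y x x' => by
        have h : j (s x + s x') = i2 (x + x') := by rw [map_add, hs, hs, map_add]
        rw [hval y (x + x') (s x + s x') h, map_add, LinearMap.add_apply])
      (fun c y x => by
        have h : j (c • s x) = i2 (c • x) := by rw [map_smul, hs, map_smul]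
        rw [hval y (c • x) (c • s x) h, map_smul, LinearMap.smul_apply, smul_eq_mul])
  have hB : ∀ y x, B y x = A (s x) (i1 y) := fun y x => rfl
  refine ⟨B, ?_, ?_, fun y x x₀ h => by rw [hB]; exact hval y x x₀ h⟩
  · -- right kernel (in `Ш¹`)
    intro y hy
    apply hi1
    rw [map_zero]
    refine hright _ (hloc1_i1 y) (fun x₀ => ?_)
    obtain ⟨x, hx⟩ := (hr2 (j x₀)).mp (hloc_j x₀)
    have := hy x
    rw [hB, hval y x x₀ hx.symm] at this
    exact this
  · -- left kernel (in `Ш²`)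
    intro x hx
    apply hi2
    rw [map_zero, ← hs x]
    -- the functional `A (s x)` vanishes on `ker loc1`
    have hvan : ∀ y, loc1 y = 0 → A (s x) y = 0 := by
      intro y hy
      obtain ⟨v, rfl⟩ := (hr1 y).mp hy
      have := hx v
      rwa [hB] at this
    obtain ⟨φ, hφ⟩ := exists_factor loc1 (A (s x)) hvan
    obtain ⟨ξ, hξ⟩ := hloc φ
    have hzero : s x - bd ξ = 0 := by
      apply hmono
      intro y
      rw [map_sub, LinearMap.sub_apply, hadj, hξ, hφ, sub_self]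
    have : s x = bd ξ := sub_eq_zero.mp hzero
    rw [this, hj_bd]

end Fermat.Agent.S55.Abs.TopLA
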