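/-
S55 / PROGRAM CFT, abstract layer: the glue `S55_of_pkg` (helper186, second hands for row ABS-TOP).

Part A (generic): for any Poitou–Tate context `D` and discrete `M`, the maps
`forget : H²_c(M) → H²(M)`, `bd : ZL¹(M) → H²_c(M)`, the localisation maps `H1res`, `H2res`,
and the resulting nondegenerate pairing `ker(loc¹ on H¹(M')) × ker(loc² on H²(M)) → k`
from `a₂` epi + `a₂` mono + local `a¹_v` epi (via helper227's `TopLA.exists_sha_pairing`).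

Part B (concrete): identification of the Prelude's `sha₁ S (M^*(1))`, `sha₂ S M` with those
kernels for the context `ctxS p S hpS lam` (archimedean place: helper135's `Glue/ArchInert`).
-/
import Fermat.Agent.S55.Abs.Bridge
import Fermat.Agent.S55.Abs.TopLA
import Fermat.Agent.S55.Glue.ArchInert
import Fermat.Agent.S55.Glue.LocalRange

set_option autoImplicit false

open CategoryTheory groupCohomology ExtCitation

namespace Fermat.Agent.S55.Abs.TopGlue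

open Fermat.Agent.S55.Abs

/-! ## Part A: generic glue -/

section Generic

variable {k G : Type} [Field k] [Group G] (𝒰 : LevelFamily G)
  {ι : Type} {Gv : ι → Type} [∀ v, Group (Gv v)]
  (loc : ∀ v, Gv v →* G) (𝒰v : ∀ v, LevelFamily (Gv v))
  (hloc : ∀ v, IsLevelMap (𝒰v v) 𝒰 (loc v))
  (M : Rep.{0} k G)

include hloc in
theorem res₁_mem_Z1 (v : ι) {y : G → M} (hy : y ∈ Z1 𝒰 M) :
    res₁ loc M v y ∈ Z1 (𝒰v v) (Rep.res (loc v) M) := by
  refine ⟨hy.1.precomp (hloc v), ?_⟩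
  have h2 := (mem_cocycles₁_iff y).1 hy.2
  refine (mem_cocycles₁_iff _).2 fun g h => ?_
  simp only [res₁_apply, map_mul]
  exact h2 _ _

theorem res₁_d₀₁ (v : ι) (m : M) :
    res₁ loc M v ((d₀₁ M).hom m) = (d₀₁ (Rep.res (loc v) M)).hom m := by
  funext g
  simp [d₀₁_hom_apply]

theorem res₁_mem_coboundaries₁ (v : ι) {y : G → M} (hy : y ∈ coboundaries₁ M) :
    res₁ loc M v y ∈ coboundaries₁ (Rep.res (loc v) M) := by
  obtain ⟨m, rfl⟩ := hy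
  exact ⟨m, (res₁_d₀₁ loc M v m).symm⟩

theorem res₂_d₁₂ (v : ι) (c : G → M) :
    res₂ loc M v ((d₁₂ M).hom c) = (d₁₂ (Rep.res (loc v) M)).hom (res₁ loc M v c) := by
  funext ⟨g, h⟩
  simp [d₁₂_hom_apply]

include hloc in
theorem res₂_mem_Z2 (v : ι) {a : G × G → M} (ha : a ∈ Z2 𝒰 M) :
    res₂ loc M v a ∈ Z2 (𝒰v v) (Rep.res (loc v) M) := by
  refine ⟨ha.1.precomp (hloc v), ?_⟩
  have h2 := (mem_cocycles₂_iff a).1 ha.2
  refine (mem_cocycles₂_iff _).2 fun g h j => ?_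
  simp only [res₂_apply, map_mul]
  exact h2 _ _ _

include hloc in
theorem res₂_mem_B2 (v : ι) {a : G × G → M} (ha : a ∈ B2 𝒰 M) :
    res₂ loc M v a ∈ B2 (𝒰v v) (Rep.res (loc v) M) := by
  obtain ⟨c, hc, rfl⟩ := ha
  exact ⟨res₁ loc M v c, IsLev₁.precomp (hloc v) hc, (res₂_d₁₂ loc M v c).symm⟩

/-- Localisation `H¹(G, M) → H¹(G_v, M)`. -/
def H1res (v : ι) : H1 𝒰 M →ₗ[k] H1 (𝒰v v) (Rep.res (loc v) M) :=
  subquotMap (res₁ loc M v) (Z1 𝒰 M) (coboundaries₁ M) (Z1 (𝒰v v) (Rep.res (loc v) M))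
    (coboundaries₁ (Rep.res (loc v) M))
    (fun _ hy => res₁_mem_Z1 𝒰 loc 𝒰v hloc M v hy)
    (fun _ _ hy => res₁_mem_coboundaries₁ loc M v hy)

/-- Localisation `H²(G, M) → H²(G_v, M)`. -/
def H2res (v : ι) : H2 𝒰 M →ₗ[k] H2 (𝒰v v) (Rep.res (loc v) M) :=
  subquotMap (res₂ loc M v) (Z2 𝒰 M) (B2 𝒰 M) (Z2 (𝒰v v) (Rep.res (loc v) M))
    (B2 (𝒰v v) (Rep.res (loc v) M))
    (fun _ ha => res₂_mem_Z2 𝒰 loc 𝒰v hloc M v ha)
    (fun _ _ ha => res₂_mem_B2 𝒰 loc 𝒰v hloc M v ha)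

theorem fst_mem_B2_of_mem_Bc2 {x : (G × G → M) × (∀ v, Gv v → M)} (hx : x ∈ Bc2 𝒰 loc M) :
    x.1 ∈ B2 𝒰 M := by
  obtain ⟨⟨c, f⟩, hcf, rfl⟩ := hx
  exact ⟨c, hcf.1, rfl⟩

/-- The forgetful map `H²_c(M) → H²(M)`. -/
def forget : Hc2 𝒰 loc 𝒰v M →ₗ[k] H2 𝒰 M :=
  subquotMap (LinearMap.fst k (G × G → M) (∀ v, Gv v → M)) (Zc2 𝒰 loc 𝒰v M) (Bc2 𝒰 loc M)
    (Z2 𝒰 M) (B2 𝒰 M) (fun _ hx => hx.1) (fun _ _ hx => fst_mem_B2_of_mem_Bc2 𝒰 loc M hx)

/-- The boundary map on tuples of local cocycles, `z ↦ [(0, z)]`. -/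
def bd : ↥(ZL1 loc 𝒰v M) →ₗ[k] Hc2 𝒰 loc 𝒰v M :=
  (Submodule.mkQ _) ∘ₗ
    LinearMap.codRestrict (Zc2 𝒰 loc 𝒰v M)
      (LinearMap.inr k (G × G → M) (∀ v, Gv v → M) ∘ₗ (ZL1 loc 𝒰v M).subtype)
      (fun z => inr_mem_Zc2 𝒰 loc 𝒰v M z.2)

/-- The class of the `v`-component of a tuple of local cocycles. -/
def zcls (v : ι) : ↥(ZL1 loc 𝒰v M) →ₗ[k] H1 (𝒰v v) (Rep.res (loc v) M) :=
  (Submodule.mkQ _) ∘ₗ
    LinearMap.codRestrict (Z1 (𝒰v v) (Rep.res (loc v) M))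
      (LinearMap.proj (R := k) (φ := fun v => Gv v → M) v ∘ₗ (ZL1 loc 𝒰v M).subtype)
      (fun z => z.2 v (Set.mem_univ v))

end Generic

section Main

variable {k G : Type} [Field k] [Group G] (D : PTContext k G) {M : Rep.{0} k G}

/-- The local `H¹` of the twisted dual at `v` (a `def` with explicit instances: instance search
under binders does not see through the twisted dual). -/
def HL1 (D : PTContext k G) (M : Rep.{0} k G) (v : D.ι) : Type :=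
  Abs.H1 (D.𝒰v v) (Rep.res (D.loc v) (D.dual M))

noncomputable instance instAddCommGroupHL1 (M : Rep.{0} k G) (v : D.ι) :
    AddCommGroup (HL1 D M v) :=
  inferInstanceAs (AddCommGroup (Abs.H1 (D.𝒰v v) (Rep.res (D.loc v) (D.dual M))))

noncomputable instance instModuleHL1 (M : Rep.{0} k G) (v : D.ι) : Module k (HL1 D M v) :=
  inferInstanceAs (Module k (Abs.H1 (D.𝒰v v) (Rep.res (D.loc v) (D.dual M))))

/-- The local `H²` at `v` (a `def` with explicit instances, as `HL1`). -/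
def HL2 (D : PTContext k G) (M : Rep.{0} k G) (v : D.ι) : Type :=
  Abs.H2 (D.𝒰v v) (Rep.res (D.loc v) M)

noncomputable instance instAddCommGroupHL2 (M : Rep.{0} k G) (v : D.ι) :
    AddCommGroup (HL2 D M v) :=
  inferInstanceAs (AddCommGroup (Abs.H2 (D.𝒰v v) (Rep.res (D.loc v) M)))

noncomputable instance instModuleHL2 (M : Rep.{0} k G) (v : D.ι) : Module k (HL2 D M v) :=
  inferInstanceAs (Module k (Abs.H2 (D.𝒰v v) (Rep.res (D.loc v) M)))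

/-- Total localisation `H¹(G, M') → ∏_v H¹(G_v, M')`. -/
noncomputable def loc1 (M : Rep.{0} k G) : Abs.H1 D.𝒰 (D.dual M) →ₗ[k] ∀ v, HL1 D M v :=
  LinearMap.pi fun v => (H1res D.𝒰 D.loc D.𝒰v D.hloc (D.dual M) v :
    Abs.H1 D.𝒰 (D.dual M) →ₗ[k] HL1 D M v)

/-- Total localisation `H²(G, M) → ∏_v H²(G_v, M)`. -/
noncomputable def loc2 (M : Rep.{0} k G) : Abs.H2 D.𝒰 M →ₗ[k] ∀ v, HL2 D M v :=
  LinearMap.pi fun v => (H2res D.𝒰 D.loc D.𝒰v D.hloc M v : Abs.H2 D.𝒰 M →ₗ[k] HL2 D M v)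

variable (hM : IsDisc D.𝒰 M)

/-- The local pairing at `v` with the second variable in `HL1`. -/
noncomputable def PLv (v : D.ι) :
    Abs.H1 (D.𝒰v v) (Rep.res (D.loc v) M) →ₗ[k] HL1 D M v →ₗ[k] k :=
  D.PL1 hM v

/-- The sum of the local pairings, on tuples of local cocycles. -/
noncomputable def Lsum : ↥(ZL1 D.loc D.𝒰v M) →ₗ[k] (∀ v, HL1 D M v) →ₗ[k] k :=
  ∑ v : D.ι, ((PLv D hM v).comp (zcls D.loc D.𝒰v M v)).compl₂
    (LinearMap.proj (R := k) (φ := fun v => HL1 D M v) v)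

theorem Lsum_apply (z : ↥(ZL1 D.loc D.𝒰v M)) (η : ∀ v, HL1 D M v) :
    Lsum D hM z η = ∑ v, PLv D hM v (zcls D.loc D.𝒰v M v z) (η v) := by
  simp [Lsum, LinearMap.sum_apply]

theorem P2_bd (z : ↥(ZL1 D.loc D.𝒰v M)) (y : Abs.H1 D.𝒰 (D.dual M)) :
    D.P2 hM (bd D.𝒰 D.loc D.𝒰v M z) y = Lsum D hM z (loc1 D M y) := by
  obtain ⟨⟨y, hy⟩, rfl⟩ := Submodule.mkQ_surjective _ y
  rw [Lsum_apply]
  exact Pc2_inr D.𝒰 D.loc D.𝒰v (evPairing D.χ M) D.hloc hM (D.disc_dual hM) D.hμ D.lam z.2 hy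
    (fun v => res₁_mem_Z1 D.𝒰 D.loc D.𝒰v D.hloc (D.dual M) v hy)

theorem forget_bd (z : ↥(ZL1 D.loc D.𝒰v M)) :
    forget D.𝒰 D.loc D.𝒰v M (bd D.𝒰 D.loc D.𝒰v M z) = 0 := by
  show (Submodule.Quotient.mk (⟨(0 : G × G → M), _⟩ : ↥(Z2 D.𝒰 M)) : Abs.H2 D.𝒰 M) = 0
  rw [Submodule.Quotient.mk_eq_zero]
  exact zero_mem _

include hM in
theorem exists_bd_of_forget (x : Hc2 D.𝒰 D.loc D.𝒰v M) (hx : forget D.𝒰 D.loc D.𝒰v M x = 0) :
    ∃ ξ, bd D.𝒰 D.loc D.𝒰v M ξ = x := by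
  obtain ⟨⟨x, hxZ⟩, rfl⟩ := Submodule.mkQ_surjective _ x
  have h1 : x.1 ∈ B2 D.𝒰 M := by
    have : (Submodule.Quotient.mk (⟨x.1, hxZ.1⟩ : ↥(Z2 D.𝒰 M)) : Abs.H2 D.𝒰 M) = 0 := hx
    rw [Submodule.Quotient.mk_eq_zero] at this
    exact this
  obtain ⟨z, hz, hzx⟩ := exists_inr_of_fst_mem_B2 D.𝒰 D.loc D.𝒰v M D.hloc hM hxZ h1
  refine ⟨⟨z, hz⟩, ?_⟩
  symm
  show (Submodule.Quotient.mk (⟨x, hxZ⟩ : ↥(Zc2 D.𝒰 D.loc D.𝒰v M)) : Hc2 D.𝒰 D.loc D.𝒰v M)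
    = Submodule.Quotient.mk ⟨(0, z), inr_mem_Zc2 D.𝒰 D.loc D.𝒰v M hz⟩
  rw [Submodule.Quotient.eq]
  exact hzx

theorem exists_forget_of_loc2 (z : Abs.H2 D.𝒰 M) (hz : loc2 D M z = 0) :
    ∃ x, forget D.𝒰 D.loc D.𝒰v M x = z := by
  obtain ⟨⟨a, ha⟩, rfl⟩ := Submodule.mkQ_surjective _ z
  have hv : ∀ v, ∃ b : D.Gv v → M, b ∈ C1 (D.𝒰v v) (Rep.res (D.loc v) M) ∧
      (d₁₂ (Rep.res (D.loc v) M)).hom b = res₂ D.loc M v a := by
    intro v
    have h := congrFun hz v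
    have h' : (Submodule.Quotient.mk (⟨res₂ D.loc M v a,
        res₂_mem_Z2 D.𝒰 D.loc D.𝒰v D.hloc M v ha⟩ : ↥(Z2 (D.𝒰v v) (Rep.res (D.loc v) M))) :
        Abs.H2 (D.𝒰v v) (Rep.res (D.loc v) M)) = 0 := h
    rw [Submodule.Quotient.mk_eq_zero] at h'
    exact h'
  choose b hb hb' using hv
  exact ⟨Submodule.Quotient.mk ⟨(a, b), ha, fun v => ⟨hb v, (hb' v).symm⟩⟩, rfl⟩

theorem loc2_forget (x : Hc2 D.𝒰 D.loc D.𝒰v M) : loc2 D M (forget D.𝒰 D.loc D.𝒰v M x) = 0 := by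
  obtain ⟨⟨x, hxZ⟩, rfl⟩ := Submodule.mkQ_surjective _ x
  funext v
  show (Submodule.Quotient.mk (⟨res₂ D.loc M v x.1,
      res₂_mem_Z2 D.𝒰 D.loc D.𝒰v D.hloc M v hxZ.1⟩ : ↥(Z2 (D.𝒰v v) (Rep.res (D.loc v) M))) :
      Abs.H2 (D.𝒰v v) (Rep.res (D.loc v) M)) = 0
  rw [Submodule.Quotient.mk_eq_zero]
  exact ⟨x.2 v, (hxZ.2 v).1, (hxZ.2 v).2.symm⟩

include hM in
theorem exists_Lsum_eq (hL : ∀ v, PairEpi (D.PL1 hM v)) (φ : (∀ v, HL1 D M v) →ₗ[k] k) :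
    ∃ ξ, ∀ η, Lsum D hM ξ η = φ η := by
  have hv : ∀ v, ∃ z : ↥(Z1 (D.𝒰v v) (Rep.res (D.loc v) M)),
      ∀ t : HL1 D M v, φ (Pi.single v t) = PLv D hM v (Submodule.Quotient.mk z) t := by
    intro v
    obtain ⟨x, hx⟩ := hL v (φ ∘ₗ LinearMap.single k (fun v => HL1 D M v) v)
    obtain ⟨z, rfl⟩ := Submodule.mkQ_surjective _ x
    exact ⟨z, fun t => hx t⟩
  choose z hz using hv
  refine ⟨⟨fun v => (z v : D.Gv v → M), fun v _ => (z v).2⟩, fun η => ?_⟩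
  rw [Lsum_apply]
  have h1 : ∀ v, PLv D hM v (zcls D.loc D.𝒰v M v
      ⟨fun v => (z v : D.Gv v → M), fun v _ => (z v).2⟩) (η v) = φ (Pi.single v (η v)) :=
    fun v => (hz v (η v)).symm
  rw [Finset.sum_congr rfl (fun v _ => h1 v), ← map_sum, Finset.univ_sum_single]

/-- **Generic top step**: `a₂` epi, `a₂` mono and local `a¹_v` epi give a nondegenerate pairing
between `ker loc¹ ⊆ H¹(M')` and `ker loc² ⊆ H²(M)`. -/
theorem exists_pairing (h2e : PairEpi (D.P2 hM)) (h2m : PairMono (D.P2 hM))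
    (hL : ∀ v, PairEpi (D.PL1 hM v))
    {V1 V2 : Type*} [AddCommGroup V1] [Module k V1] [AddCommGroup V2] [Module k V2]
    (i1 : V1 →ₗ[k] Abs.H1 D.𝒰 (D.dual M)) (hi1 : Function.Injective i1)
    (hr1 : ∀ y, loc1 D M y = 0 ↔ ∃ v, i1 v = y)
    (i2 : V2 →ₗ[k] Abs.H2 D.𝒰 M) (hi2 : Function.Injective i2)
    (hr2 : ∀ z, loc2 D M z = 0 ↔ ∃ v, i2 v = z) :
    ∃ B : V1 →ₗ[k] V2 →ₗ[k] k,
      (∀ y, (∀ x, B y x = 0) → y = 0) ∧ (∀ x, (∀ y, B y x = 0) → x = 0) := by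
  have hright : ∀ y : Abs.H1 D.𝒰 (D.dual M), loc1 D M y = 0 → (∀ x, D.P2 hM x y = 0) → y = 0 :=
    fun y _ hy => (Module.forall_dual_apply_eq_zero_iff k y).1 (fun φ => by
      obtain ⟨x, hx⟩ := h2e φ
      rw [hx]
      exact hy x)
  have key := TopLA.exists_sha_pairing (k := k) (H2c := Hc2 D.𝒰 D.loc D.𝒰v M) (H2 := Abs.H2 D.𝒰 M)
    (P1 := ↥(ZL1 D.loc D.𝒰v M)) (P2 := ∀ v, HL2 D M v)
    (H1' := Abs.H1 D.𝒰 (D.dual M)) (P1' := ∀ v, HL1 D M v) (V1 := V1) (V2 := V2)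
    (forget D.𝒰 D.loc D.𝒰v M)
    (bd D.𝒰 D.loc D.𝒰v M) (loc2 D M) (loc1 D M) (D.P2 hM)
    (Lsum D hM)
    (forget_bd D) (exists_bd_of_forget D hM) (exists_forget_of_loc2 D) (loc2_forget D)
    (P2_bd D hM) h2m hright (exists_Lsum_eq D hM hL) i1 hi1 hr1 i2 hi2 hr2
  obtain ⟨B, h1, h2, -⟩ := key
  exact ⟨B, h1, h2⟩

end Main

/-! ## Part B: the Prelude's `sha₁`, `sha₂` -/

section Concrete

variable (S : Finset Nat.Primes)

section DegreeOne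

variable {K : Type} [Field K] (A : Rep.{0} K GQ)

/-- The comparison map from level cohomology to Mathlib's `H¹`. -/
noncomputable def nu1 : Abs.H1 (globalLevel S) A →ₗ[K] ↑(groupCohomology.H1 A) :=
  Submodule.liftQ _
    ((H1π A).hom ∘ₗ Submodule.inclusion (inf_le_right : Z1 (globalLevel S) A ≤ cocycles₁ A))
    (fun c hc => by
      rw [LinearMap.mem_ker, LinearMap.comp_apply]
      exact (H1π_eq_zero_iff _).2 hc)

theorem nu1_mk (c : ↥(Z1 (globalLevel S) A)) :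
    nu1 S A (Submodule.Quotient.mk c) = H1π A ⟨c.1, c.2.2⟩ := rfl

theorem nu1_injective : Function.Injective (nu1 S A) := by
  rw [← LinearMap.ker_eq_bot, LinearMap.ker_eq_bot']
  intro y hy
  obtain ⟨c, rfl⟩ := Submodule.mkQ_surjective _ y
  have h : H1π A ⟨c.1, c.2.2⟩ = 0 := hy
  rw [H1π_eq_zero_iff] at h
  exact (Submodule.Quotient.mk_eq_zero _).2 h

theorem nu1_mem_continuousH1S (y : Abs.H1 (globalLevel S) A) :
    nu1 S A y ∈ continuousH1S S A := by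
  obtain ⟨c, rfl⟩ := Submodule.mkQ_surjective _ y
  exact (mem_continuousH1S_iff S A _).2
    ⟨⟨c.1, c.2.2⟩, (isLevelConstantS₁_iff S _).2 c.2.1, rfl⟩

theorem exists_nu1_eq {x : groupCohomology.H1 A} (hx : x ∈ continuousH1S S A) :
    ∃ y, nu1 S A y = x := by
  obtain ⟨c, hc, rfl⟩ := (mem_continuousH1S_iff S A x).1 hx
  exact ⟨Submodule.Quotient.mk ⟨c.1, (isLevelConstantS₁_iff S _).1 hc, c.2⟩, rfl⟩

theorem sha₁_le_range_nu1 : sha₁ S A ≤ LinearMap.range (nu1 S A) := by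
  intro x hx
  have hx' : x ∈ continuousH1S S A ⊓ LinearMap.ker (locTotal (extArithLoc S) A) := hx
  obtain ⟨y, rfl⟩ := exists_nu1_eq S A hx'.1
  exact ⟨y, rfl⟩

/-- `Ш¹` inside the level cohomology. -/
noncomputable def i1 : ↥(sha₁ S A) →ₗ[K] Abs.H1 (globalLevel S) A :=
  (LinearEquiv.ofInjective (nu1 S A) (nu1_injective S A)).symm.toLinearMap ∘ₗ
    Submodule.inclusion (sha₁_le_range_nu1 S A)

theorem nu1_i1 (x : ↥(sha₁ S A)) : nu1 S A (i1 S A x) = x.1 := by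
  have h := (LinearEquiv.ofInjective (nu1 S A) (nu1_injective S A)).apply_symm_apply
    (Submodule.inclusion (sha₁_le_range_nu1 S A) x)
  exact congrArg Subtype.val h

theorem i1_injective : Function.Injective (i1 S A) := by
  intro x x' h
  apply Subtype.ext
  rw [← nu1_i1 S A x, ← nu1_i1 S A x', h]

/-- Local triviality of a class in Mathlib's `H¹` along `r`, on cocycles. -/
theorem map_H1π_eq_zero_iff_mem {H : Type} [Group H] (r : H →* GQ) (c : cocycles₁ A) :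
    (groupCohomology.map r (𝟙 (Rep.res r A)) 1).hom (H1π A c) = 0 ↔
      (fun h => (c : GQ → A) (r h)) ∈ coboundaries₁ (Rep.res r A) := by
  rw [Glue.LocalRange.map_H1π_eq_zero_iff r A c]
  constructor
  · rintro ⟨m, hm⟩
    refine ⟨m, ?_⟩
    funext h
    rw [d₀₁_hom_apply]
    exact (hm (r h) ⟨h, rfl⟩).symm
  · rintro ⟨m, hm⟩
    refine ⟨m, ?_⟩
    rintro _ ⟨h, rfl⟩
    have := congrFun hm h
    rw [d₀₁_hom_apply] at this
    exact this.symm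

end DegreeOne

section DegreeTwo

variable {k : Type} [Field k] (M : Rep.{0} k GQ)

theorem levelCocyclesS₂_le_Z2 : levelCocyclesS₂ S M ≤ Z2 (globalLevel S) M :=
  fun f hf => ⟨(isLevelConstantS₂_iff S f).1 hf.2, hf.1⟩

/-- The comparison map from the Prelude's level-`S` continuous `H²` to the level cohomology. -/
noncomputable def e2 : continuousH2S S M →ₗ[k] Abs.H2 (globalLevel S) M :=
  Submodule.mapQ _ _ (Submodule.inclusion (levelCocyclesS₂_le_Z2 S M)) (fun c hc => by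
    obtain ⟨x, hx, hxc⟩ := (mem_levelCoboundariesS₂_iff S M _).1 hc
    exact ⟨x, (isLevelConstantS₁_iff S x).1 hx, hxc⟩)

theorem e2_mk (c : ↥(levelCocyclesS₂ S M)) :
    e2 S M (Submodule.Quotient.mk c)
      = Submodule.Quotient.mk ⟨c.1, levelCocyclesS₂_le_Z2 S M c.2⟩ := rfl

theorem e2_injective : Function.Injective (e2 S M) := by
  rw [← LinearMap.ker_eq_bot, LinearMap.ker_eq_bot']
  intro y hy
  obtain ⟨c, rfl⟩ := Submodule.mkQ_surjective _ y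
  have h : (Submodule.Quotient.mk (⟨c.1, levelCocyclesS₂_le_Z2 S M c.2⟩ :
      ↥(Z2 (globalLevel S) M)) : Abs.H2 (globalLevel S) M) = 0 := hy
  rw [Submodule.Quotient.mk_eq_zero] at h
  obtain ⟨x, hx, hxc⟩ := h
  exact (Submodule.Quotient.mk_eq_zero _).2
    ((mem_levelCoboundariesS₂_iff S M _).2 ⟨x, (isLevelConstantS₁_iff S x).2 hx, hxc⟩)

theorem e2_surjective : Function.Surjective (e2 S M) := by
  intro z
  obtain ⟨⟨f, hf⟩, rfl⟩ := Submodule.mkQ_surjective _ z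
  exact ⟨Submodule.Quotient.mk ⟨f, hf.2, (isLevelConstantS₂_iff S f).2 hf.1⟩, rfl⟩

/-- `Ш²` inside the level cohomology. -/
noncomputable def i2 : ↥(sha₂ S M) →ₗ[k] Abs.H2 (globalLevel S) M :=
  e2 S M ∘ₗ (sha₂ S M).subtype

theorem i2_injective : Function.Injective (i2 S M) :=
  (e2_injective S M).comp Subtype.val_injective

end DegreeTwo

end Concrete

/-! ## The glue theorem -/

section Final

variable {p : ℕ} [Fact p.Prime] (S : Finset Nat.Primes) (hpS : pPrime p ∈ S) (lam : LamS p S)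
  (M : Rep.{0} (ZMod p) GQ)

theorem loc1_eq_zero_iff (h2 : IsUnit (2 : ZMod p))
    (y : Abs.H1 (globalLevel S) (M.dualTwist (cycloChar p))) :
    loc1 (ctxS p S hpS lam) M y = 0 ↔
      nu1 S (M.dualTwist (cycloChar p)) y ∈ sha₁ S (M.dualTwist (cycloChar p)) := by
  obtain ⟨c, rfl⟩ := Submodule.mkQ_surjective _ y
  rw [Glue.mem_sha₁_iff_of_isUnit_two S h2]
  have key : ∀ q : ↥S, (loc1 (ctxS p S hpS lam) M (Submodule.Quotient.mk c)) q = 0 ↔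
      (locRes (extArithLoc S) (M.dualTwist (cycloChar p)) (Sum.inr q)).hom
        (H1π (M.dualTwist (cycloChar p)) ⟨c.1, c.2.2⟩) = 0 := by
    intro q
    have h1 := map_H1π_eq_zero_iff_mem (M.dualTwist (cycloChar p)) (primeLocalToGlobal q.1)
      ⟨c.1, c.2.2⟩
    refine Iff.trans ?_ h1.symm
    exact Submodule.Quotient.mk_eq_zero _
  constructor
  · intro h
    exact ⟨nu1_mem_continuousH1S S _ _, fun q => (key q).1 (congrFun h q)⟩
  · rintro ⟨-, h⟩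
    funext q
    exact (key q).2 (h q)

theorem hr1 (h2 : IsUnit (2 : ZMod p)) (y : Abs.H1 (globalLevel S) (M.dualTwist (cycloChar p))) :
    loc1 (ctxS p S hpS lam) M y = 0 ↔ ∃ v, i1 S (M.dualTwist (cycloChar p)) v = y := by
  rw [loc1_eq_zero_iff S hpS lam M h2]
  constructor
  · intro h
    exact ⟨⟨_, h⟩, nu1_injective S _ (nu1_i1 S _ _)⟩
  · rintro ⟨v, rfl⟩
    rw [nu1_i1]
    exact v.2

theorem loc2_e2_eq_zero_iff (h2 : IsUnit (2 : ZMod p)) (x : continuousH2S S M) :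
    loc2 (ctxS p S hpS lam) M (e2 S M x) = 0 ↔ x ∈ sha₂ S M := by
  obtain ⟨c, rfl⟩ := Submodule.mkQ_surjective _ x
  rw [Glue.mem_sha₂_iff_of_isUnit_two S h2]
  have key : ∀ q : ↥S, (loc2 (ctxS p S hpS lam) M (e2 S M (Submodule.Quotient.mk c))) q = 0 ↔
      locRes₂S S M (primeLocalToGlobal q.1) (Submodule.Quotient.mk c) = 0 := by
    intro q
    have h1 := Glue.LocalRange.locRes₂S_mk_eq_zero_iff (primeLocalToGlobal q.1) M S c
    refine Iff.trans ?_ h1.symm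
    refine Iff.trans (Submodule.Quotient.mk_eq_zero _) ?_
    constructor
    · rintro ⟨y, hy, hd⟩
      refine ⟨y, (isLevelConstant₁_iff _ y).2 hy, fun g h => ?_⟩
      have := congrFun hd (g, h)
      rw [d₁₂_hom_apply] at this
      exact this.symm
    · rintro ⟨y, hy, hd⟩
      refine ⟨y, (isLevelConstant₁_iff _ y).1 hy, ?_⟩
      funext ⟨g, h⟩
      rw [d₁₂_hom_apply]
      exact (hd g h).symm
  exact ⟨fun h q => (key q).1 (congrFun h q), fun h => funext fun q => (key q).2 (h q)⟩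

theorem hr2 (h2 : IsUnit (2 : ZMod p)) (z : Abs.H2 (globalLevel S) M) :
    loc2 (ctxS p S hpS lam) M z = 0 ↔ ∃ v, i2 S M v = z := by
  constructor
  · intro h
    obtain ⟨x, rfl⟩ := e2_surjective S M z
    exact ⟨⟨x, (loc2_e2_eq_zero_iff S hpS lam M h2 x).1 h⟩, rfl⟩
  · rintro ⟨v, rfl⟩
    exact (loc2_e2_eq_zero_iff S hpS lam M h2 v.1).2 v.2

/-- **Glue with the Prelude** (= the statement of `Abs.S55_of_pkg`): `a₂` epi, `a₂` mono and
local `a¹_v` epi for the context `ctxS p S hpS lam` give a nondegenerate pairing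
`Ш¹_S(M^*(1)) × Ш²_S(M) → 𝔽_p`. -/
theorem S55_of_pkg_glue (hp2 : p ≠ 2) (S : Finset Nat.Primes) (hpS : pPrime p ∈ S)
    (lam : LamS p S) (M : Rep.{0} (ZMod p) GQ) [FiniteDimensional (ZMod p) M]
    (hM : IsDisc (globalLevel S) M)
    (h2e : PairEpi ((ctxS p S hpS lam).P2 hM)) (h2m : PairMono ((ctxS p S hpS lam).P2 hM))
    (hL : ∀ v, PairEpi ((ctxS p S hpS lam).PL1 hM v)) :
    ∃ B : sha₁ S (M.dualTwist (cycloChar p)) →ₗ[ZMod p] sha₂ S M →ₗ[ZMod p] ZMod p,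
      (∀ y, (∀ x, B y x = 0) → y = 0) ∧ (∀ x, (∀ y, B y x = 0) → x = 0) :=
  exists_pairing (ctxS p S hpS lam) hM h2e h2m hL
    (i1 S (M.dualTwist (cycloChar p))) (i1_injective S _)
    (hr1 S hpS lam M (Glue.isUnit_two_zmod hp2))
    (i2 S M) (i2_injective S M) (hr2 S hpS lam M (Glue.isUnit_two_zmod hp2))

end Final

end Fermat.Agent.S55.Abs.TopGlue
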