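/-
S55 / PROGRAM CFT, abstract layer: the two Prelude-glue statements of `Abs/Top.lean`
(`exists_sha₁_embedding`, `exists_sha₂_embedding`), VERBATIM (helper186, second hands ABS-TOP).

`Ш¹(N)`, `Ш²(M)` of the Prelude embed into the level cohomology `H¹(G_S, N)`, `H²(G_S, M)` of the
`Abs` package, with image the range of the forgetful maps `fgt1`, `fgt2` of `Abs/Symm.lean`.
Ingredients: `TopGlue.i1`, `TopGlue.i2` (+ `nu1`, `e2`), `SymmTop.exists_fgt*_eq`,
`SymmTop.res*_mem_of_mem_range_fgt*`, `Glue.mem_sha₁_iff_of_isUnit_two`,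
`Glue.mem_sha₂_iff_of_isUnit_two` (the archimedean place is inert for odd `p`).
-/
import Fermat.Agent.S55.Abs.SymmTop
import Fermat.Agent.S55.Abs.TopGlue

set_option autoImplicit false

open CategoryTheory groupCohomology ExtCitation

namespace Fermat.Agent.S55.Abs.ShaEmb

open Fermat.Agent.S55.Abs Fermat.Agent.S55.Abs.TopGlue

variable {p : ℕ} [Fact p.Prime]

/-- A class of `H¹(G_S, N)` is in the range of `fgt1` iff it is a coboundary on every `G_q`,
`q ∈ S`. -/
theorem mk_mem_range_fgt1_iff (S : Finset Nat.Primes) {K : Type} [Field K] (N : Rep.{0} K GQ)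
    (c : ↥(Z1 (globalLevel S) N)) :
    (Submodule.Quotient.mk c : H1 (globalLevel S) N) ∈ LinearMap.range
        (fgt1 (globalLevel S) (fun q : ↥S => primeLocalToGlobal q.1) N) ↔
      ∀ q : ↥S, (fun h => (c : GQ → N) (primeLocalToGlobal q.1 h))
        ∈ coboundaries₁ (Rep.res (primeLocalToGlobal q.1) N) := by
  constructor
  · intro h q
    exact res₁_mem_of_mem_range_fgt1 (globalLevel S) (fun q : ↥S => primeLocalToGlobal q.1) N
      c.2 h q
  · intro h
    obtain ⟨x, hx⟩ := exists_fgt1_eq (globalLevel S) (fun q : ↥S => primeLocalToGlobal q.1) N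
      c.2 h
    exact ⟨x, hx⟩

/-- A class of `H²(G_S, M)` is in the range of `fgt2` iff it is a level coboundary on every
`G_q`, `q ∈ S`. -/
theorem mk_mem_range_fgt2_iff (S : Finset Nat.Primes) {K : Type} [Field K] (M : Rep.{0} K GQ)
    (c : ↥(Z2 (globalLevel S) M)) :
    (Submodule.Quotient.mk c : H2 (globalLevel S) M) ∈ LinearMap.range
        (fgt2 (globalLevel S) (fun q : ↥S => primeLocalToGlobal q.1)
          (fun q : ↥S => localLevel (primeLocalToGlobal q.1)) M) ↔
      ∀ q : ↥S, res₂ (fun q : ↥S => primeLocalToGlobal q.1) M q (c : GQ × GQ → M)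
        ∈ B2 (localLevel (primeLocalToGlobal q.1)) (Rep.res (primeLocalToGlobal q.1) M) := by
  constructor
  · intro h q
    exact res₂_mem_of_mem_range_fgt2 (globalLevel S) (fun q : ↥S => primeLocalToGlobal q.1)
      (fun q : ↥S => localLevel (primeLocalToGlobal q.1)) M
      (fun q => isLevelMap_localLevel (primeLocalToGlobal q.1) S) c.2 h q
  · intro h
    obtain ⟨x, hx⟩ := exists_fgt2_eq (globalLevel S) (fun q : ↥S => primeLocalToGlobal q.1)
      (fun q : ↥S => localLevel (primeLocalToGlobal q.1)) M c.2 h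
    exact ⟨x, hx⟩

/-- The range of `fgt1` is exactly (the preimage of) the Prelude's `Ш¹`. -/
theorem mem_range_fgt1_iff_nu1_mem_sha₁ (h2 : IsUnit (2 : ZMod p)) (S : Finset Nat.Primes)
    (N : Rep.{0} (ZMod p) GQ) (y : H1 (globalLevel S) N) :
    y ∈ LinearMap.range (fgt1 (globalLevel S) (fun q : ↥S => primeLocalToGlobal q.1) N) ↔
      nu1 S N y ∈ sha₁ S N := by
  obtain ⟨c, rfl⟩ := Submodule.mkQ_surjective _ y
  rw [Glue.mem_sha₁_iff_of_isUnit_two S h2]
  refine Iff.trans (mk_mem_range_fgt1_iff S N c) ?_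
  have key : ∀ q : ↥S, (fun h => (c : GQ → N) (primeLocalToGlobal q.1 h))
        ∈ coboundaries₁ (Rep.res (primeLocalToGlobal q.1) N) ↔
      (locRes (extArithLoc S) N (Sum.inr q)).hom (H1π N ⟨c.1, c.2.2⟩) = 0 := fun q =>
    (map_H1π_eq_zero_iff_mem N (primeLocalToGlobal q.1) ⟨c.1, c.2.2⟩).symm
  constructor
  · intro h
    exact ⟨nu1_mem_continuousH1S S N _, fun q => (key q).1 (h q)⟩
  · rintro ⟨-, h⟩ q
    exact (key q).2 (h q)

/-- **Glue with the Prelude, degree 1** (= `Abs.exists_sha₁_embedding`, verbatim). -/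
theorem sha₁_embedding (hp2 : p ≠ 2) (S : Finset Nat.Primes) (N : Rep.{0} (ZMod p) GQ) :
    ∃ i1 : ↥(sha₁ S N) →ₗ[ZMod p] H1 (globalLevel S) N, Function.Injective i1 ∧
      ∀ y, y ∈ LinearMap.range
          (fgt1 (globalLevel S) (fun q : ↥S => primeLocalToGlobal q.1) N) ↔ ∃ v, i1 v = y := by
  refine ⟨i1 S N, i1_injective S N, fun y => ?_⟩
  rw [mem_range_fgt1_iff_nu1_mem_sha₁ (Glue.isUnit_two_zmod hp2) S N y]
  constructor
  · intro h
    exact ⟨⟨_, h⟩, nu1_injective S _ (nu1_i1 S _ _)⟩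
  · rintro ⟨v, rfl⟩
    rw [nu1_i1]
    exact v.2

/-- The range of `fgt2` is exactly the image of the Prelude's `Ш²` under `e2`. -/
theorem e2_mem_range_fgt2_iff (h2 : IsUnit (2 : ZMod p)) (S : Finset Nat.Primes)
    (M : Rep.{0} (ZMod p) GQ) (x : continuousH2S S M) :
    e2 S M x ∈ LinearMap.range (fgt2 (globalLevel S) (fun q : ↥S => primeLocalToGlobal q.1)
        (fun q : ↥S => localLevel (primeLocalToGlobal q.1)) M) ↔ x ∈ sha₂ S M := by
  obtain ⟨c, rfl⟩ := Submodule.mkQ_surjective _ x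
  rw [Glue.mem_sha₂_iff_of_isUnit_two S h2]
  have h0 : e2 S M (Submodule.mkQ _ c)
      = Submodule.Quotient.mk ⟨c.1, levelCocyclesS₂_le_Z2 S M c.2⟩ := rfl
  rw [h0]
  refine Iff.trans (mk_mem_range_fgt2_iff S M ⟨c.1, levelCocyclesS₂_le_Z2 S M c.2⟩) ?_
  have key : ∀ q : ↥S, res₂ (fun q : ↥S => primeLocalToGlobal q.1) M q (c : GQ × GQ → M)
        ∈ B2 (localLevel (primeLocalToGlobal q.1)) (Rep.res (primeLocalToGlobal q.1) M) ↔
      locRes₂S S M (primeLocalToGlobal q.1) (Submodule.Quotient.mk c) = 0 := by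
    intro q
    have h1 := Glue.LocalRange.locRes₂S_mk_eq_zero_iff (primeLocalToGlobal q.1) M S c
    refine Iff.trans ?_ h1.symm
    constructor
    · rintro ⟨y, hy, hd⟩
      refine ⟨y, (isLevelConstant₁_iff _ y).2 hy, fun g h => ?_⟩
      have := congrFun hd (g, h)
      rw [d₁₂_hom_apply] at this
      exact this.symm
    · rintro ⟨y, hy, hd⟩
      refine ⟨y, (isLevelConstant₁_iff _ y).1 hy, ?_⟩
      funext ⟨g, h⟩
      rw [d₁₂_hom_apply]
      exact (hd g h).symm
  exact ⟨fun h q => (key q).1 (h q), fun h q => (key q).2 (h q)⟩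

/-- **Glue with the Prelude, degree 2** (= `Abs.exists_sha₂_embedding`, verbatim). -/
theorem sha₂_embedding (hp2 : p ≠ 2) (S : Finset Nat.Primes) (M : Rep.{0} (ZMod p) GQ) :
    ∃ i2 : ↥(sha₂ S M) →ₗ[ZMod p] H2 (globalLevel S) M, Function.Injective i2 ∧
      ∀ z, z ∈ LinearMap.range
          (fgt2 (globalLevel S) (fun q : ↥S => primeLocalToGlobal q.1)
            (fun q : ↥S => localLevel (primeLocalToGlobal q.1)) M) ↔ ∃ v, i2 v = z := by
  refine ⟨i2 S M, i2_injective S M, fun z => ?_⟩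
  obtain ⟨x, rfl⟩ := e2_surjective S M z
  rw [e2_mem_range_fgt2_iff (Glue.isUnit_two_zmod hp2) S M x]
  constructor
  · intro h
    exact ⟨⟨x, h⟩, rfl⟩
  · rintro ⟨v, hv⟩
    have : v.1 = x := e2_injective S M hv
    rw [← this]
    exact v.2

end Fermat.Agent.S55.Abs.ShaEmb
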