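/-
S55 / PROGRAM CFT, abstract layer (helper235).

* `CFTBase p S hpS` : THE INTERFACE with the arithmetic side (class field theory):
  there is a functional `lam` on `Qc3 μ_p` such that package I (`a₁` epi, `a₂` mono: GLOBAL
  only) and `A2epi` hold for every permutation module
  `M0 (Gal(ℚ̄/K)) = coind_{Fix K}^{G_ℚ} 𝔽_p`, `K` finite, unramified outside `S`, containing
  `μ_p` (`Glue.cycloField p ≤ K`).  NO local duality is required.
* `exists_sha₁_embedding`, `exists_sha₂_embedding` : the glue with the Prelude definitions of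
  `sha₁`, `sha₂` (finite places only; the archimedean place is inert for odd `p`).
* `S55_of_pkg`  : the top step in SYMMETRIC form (`TopSymm.exists_sha_pairing` + `Abs/Symm`, `Abs/SymmTop`):
  needs only `a₂(M)` epi and `a₁(M')` epi.
* `S55_of_base` : `CFTBase → ` the statement of S55 (uses helper107's `devissage_GQ`).
-/
import Fermat.Agent.S55.Abs.Bridge
import Fermat.Agent.S55.Abs.SymmTop
import Fermat.Agent.S55.Abs.ShaEmb

set_option autoImplicit false

open CategoryTheory groupCohomology ExtCitation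

namespace Fermat.Agent.S55.Abs

variable {p : ℕ} [Fact p.Prime]

/-- A module which is trivial on `Gal(ℚ̄/F)`, `F` finite unramified outside `S`, is discrete for
the global level family. -/
theorem isDisc_of_fixingSubgroup {S : Finset Nat.Primes} {k : Type} [Field k] {M : Rep.{0} k GQ}
    {F : IntermediateField ℚ (AlgebraicClosure ℚ)} (hF : F.IsUnramifiedOutside S)
    (hM : ∀ s ∈ F.fixingSubgroup, M.ρ s = LinearMap.id) : IsDisc (globalLevel S) M :=
  ⟨_, ⟨F, hF, rfl⟩, fun s hs m => by rw [hM s hs]; rfl⟩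

/-- A discrete module satisfies the hypothesis `hsm` of S55. -/
theorem hsm_of_isDisc {S : Finset Nat.Primes} {k : Type} [Field k] {M : Rep.{0} k GQ}
    (hM : IsDisc (globalLevel S) M) :
    ∀ m : M, ∃ F : IntermediateField ℚ (AlgebraicClosure ℚ), FiniteDimensional ℚ F ∧
      ∀ s ∈ F.fixingSubgroup, M.ρ s m = m := by
  obtain ⟨_, ⟨F, hF, rfl⟩, h⟩ := hM
  exact fun m => ⟨F, hF.1, fun s hs => h s hs m⟩

/-- A discrete module satisfies the hypothesis `hMur` of S55. -/
theorem hMur_of_isDisc {S : Finset Nat.Primes} {k : Type} [Field k] {M : Rep.{0} k GQ}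
    (hM : IsDisc (globalLevel S) M) :
    ∀ q : Nat.Primes, q ∉ S → ∀ A : ValuationSubring (AlgebraicClosure ℚ),
      A.LiesOverPrime (q : ℕ) → ∀ g ∈ A.inertiaSubgroupIn ℚ, M.ρ g = 1 := by
  obtain ⟨_, ⟨F, hF, rfl⟩, h⟩ := hM
  intro q hq A hA g hg
  ext m
  exact h g (hF.2 q hq A hA hg) m

/-- **Glue with the Prelude, degree 1.**  `Ш¹(N)` (Prelude) embeds into the level cohomology
`H¹(G_S, N)` of this package, with image the range of `fgt1` (= the classes which are locally
trivial at the finite places of `S`; the archimedean condition is empty for odd `p`: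
`Glue.mem_sha₁_iff_of_isUnit_two`). -/
theorem exists_sha₁_embedding (hp2 : p ≠ 2) (S : Finset Nat.Primes) (N : Rep.{0} (ZMod p) GQ) :
    ∃ i1 : ↥(sha₁ S N) →ₗ[ZMod p] H1 (globalLevel S) N, Function.Injective i1 ∧
      ∀ y, y ∈ LinearMap.range
          (fgt1 (globalLevel S) (fun q : ↥S => primeLocalToGlobal q.1) N) ↔ ∃ v, i1 v = y :=
  ShaEmb.sha₁_embedding hp2 S N

/-- **Glue with the Prelude, degree 2.**  `Ш²(M)` (Prelude) embeds into the level cohomology
`H²(G_S, M)` of this package, with image the range of `fgt2`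
(`Glue.mem_sha₂_iff_of_isUnit_two`). -/
theorem exists_sha₂_embedding (hp2 : p ≠ 2) (S : Finset Nat.Primes) (M : Rep.{0} (ZMod p) GQ) :
    ∃ i2 : ↥(sha₂ S M) →ₗ[ZMod p] H2 (globalLevel S) M, Function.Injective i2 ∧
      ∀ z, z ∈ LinearMap.range
          (fgt2 (globalLevel S) (fun q : ↥S => primeLocalToGlobal q.1)
            (fun q : ↥S => localLevel (primeLocalToGlobal q.1)) M) ↔ ∃ v, i2 v = z :=
  ShaEmb.sha₂_embedding hp2 S M

set_option maxHeartbeats 4000000 in
/-- **The top step (symmetric form).**  `B(y, x̄) := P2 x y` for any lift `x ∈ H²_c(M)` of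
`x̄ ∈ Ш²(M)`; well defined and right-nondegenerate by the symmetry `Pc2_fgt1_eq_Pc1_fgt2` and `a₁(M')` epi,
left-nondegenerate by `a₂(M)` epi. -/
theorem S55_of_pkg (hp2 : p ≠ 2) (S : Finset Nat.Primes) (hpS : pPrime p ∈ S) (lam : LamS p S)
    (M : Rep.{0} (ZMod p) GQ) [FiniteDimensional (ZMod p) M]
    (h2 : (ctxS p S hpS lam).A2epi M)
    (h1 : (ctxS p S hpS lam).PkgI (M.dualTwist (cycloChar p))) :
    ∃ B : sha₁ S (M.dualTwist (cycloChar p)) →ₗ[ZMod p] sha₂ S M →ₗ[ZMod p] ZMod p,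
      (∀ y, (∀ x, B y x = 0) → y = 0) ∧ (∀ x, (∀ y, B y x = 0) → x = 0) := by
  obtain ⟨i1, hi1, hr1⟩ := exists_sha₁_embedding hp2 S (M.dualTwist (cycloChar p))
  obtain ⟨i2, hi2, hr2⟩ := exists_sha₂_embedding hp2 S M
  exact (ctxS p S hpS lam).exists_sha_pairing h2 h1 i1 hi1 hr1 i2 hi2 hr2

/-- **The interface with the arithmetic side.** -/
structure CFTBase (p : ℕ) [Fact p.Prime] (S : Finset Nat.Primes) (hpS : pPrime p ∈ S) : Prop where
  exists_lam : ∃ lam : LamS p S, ∀ K : IntermediateField ℚ (AlgebraicClosure ℚ),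
    K.IsUnramifiedOutside S → Glue.cycloField p ≤ K →
    (ctxS p S hpS lam).PkgI (M0 (ZMod p) K.fixingSubgroup) ∧
      (ctxS p S hpS lam).A2epi (M0 (ZMod p) K.fixingSubgroup)

/-- Package I for every module satisfying the literal hypotheses of S55, from the base case
(helper107's Sylow devissage `devissage_GQ` + `pkgI_ext` + `pkgI_retract`). -/
theorem pkgI_of_base (S : Finset Nat.Primes) (hpS : pPrime p ∈ S) (lam : LamS p S)
    (hbase : ∀ K : IntermediateField ℚ (AlgebraicClosure ℚ), K.IsUnramifiedOutside S →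
      Glue.cycloField p ≤ K → (ctxS p S hpS lam).PkgI (M0 (ZMod p) K.fixingSubgroup))
    (M : Rep.{0} (ZMod p) GQ) [FiniteDimensional (ZMod p) M]
    (hsm : ∀ m : M, ∃ F : IntermediateField ℚ (AlgebraicClosure ℚ), FiniteDimensional ℚ F ∧
      ∀ s ∈ F.fixingSubgroup, M.ρ s m = m)
    (hMur : ∀ q : Nat.Primes, q ∉ S → ∀ A : ValuationSubring (AlgebraicClosure ℚ),
      A.LiesOverPrime (q : ℕ) → ∀ g ∈ A.inertiaSubgroupIn ℚ, M.ρ g = 1) :
    (ctxS p S hpS lam).PkgI M := by
  refine Devissage.devissage_GQ p hpS (ctxS p S hpS lam).PkgI ?_ ?_ hbase M hsm hMur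
  · intro F _ _ _ A B i r hir _ _ hB
    refine (ctxS p S hpS lam).pkgI_retract i r (fun m => ?_) hB
    have h := congrArg (fun φ : A ⟶ A => φ.hom m) hir
    simpa using h
  · intro F hF _ _ A B C f g hf hg hex _ hB _ hPA hPC
    obtain ⟨E, rfl, rfl⟩ := SplitSES.exists_of_exact f g hf hg hex
    exact (ctxS p S hpS lam).pkgI_ext E (isDisc_of_fixingSubgroup hF hB.2) hPA hPC

/-- **S55 from the arithmetic base case.** -/
theorem S55_of_base (hp2 : p ≠ 2) (S : Finset Nat.Primes) (hpS : pPrime p ∈ S)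
    (hbase : CFTBase p S hpS)
    (M : Rep.{0} (ZMod p) GQ) [FiniteDimensional (ZMod p) M]
    (hsm : ∀ m : M, ∃ F : IntermediateField ℚ (AlgebraicClosure ℚ), FiniteDimensional ℚ F ∧
      ∀ s ∈ F.fixingSubgroup, M.ρ s m = m)
    (hMur : ∀ q : Nat.Primes, q ∉ S → ∀ A : ValuationSubring (AlgebraicClosure ℚ),
      A.LiesOverPrime (q : ℕ) → ∀ g ∈ A.inertiaSubgroupIn ℚ, M.ρ g = 1) :
    ∃ B : sha₁ S (M.dualTwist (cycloChar p)) →ₗ[ZMod p] sha₂ S M →ₗ[ZMod p] ZMod p,
      (∀ y, (∀ x, B y x = 0) → y = 0) ∧ (∀ x, (∀ y, B y x = 0) → x = 0) := by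
  obtain ⟨lam, hlam⟩ := hbase.exists_lam
  obtain ⟨F₁, hF₁, -, hc, hMtriv, -, -⟩ := Glue.exists_common_level p hpS M hsm hMur
  have hMid : ∀ s ∈ F₁.fixingSubgroup, M.ρ s = LinearMap.id := hMtriv
  have hM : IsDisc (globalLevel S) M := isDisc_of_fixingSubgroup hF₁ hMid
  have hPkg : ∀ N : Rep.{0} (ZMod p) GQ, FiniteDimensional (ZMod p) N →
      IsDisc (globalLevel S) N → (ctxS p S hpS lam).PkgI N := fun N _ hN =>
    pkgI_of_base S hpS lam (fun K hK hcK => (hlam K hK hcK).1) N (hsm_of_isDisc hN)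
      (hMur_of_isDisc hN)
  have hII : (ctxS p S hpS lam).A2epi M :=
    (ctxS p S hpS lam).a2epi_of_acts_trivially F₁.fixingSubgroup
      ⟨_, ⟨F₁, hF₁, rfl⟩, le_rfl⟩ (hlam F₁ hF₁ hc).2 hPkg M
      (fun u hu m => by rw [hMid u hu]; rfl)
  exact S55_of_pkg hp2 S hpS lam M hII
    (hPkg (M.dualTwist (cycloChar p)) inferInstance ((ctxS p S hpS lam).disc_dual hM))

end Fermat.Agent.S55.Abs
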