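import Mathlib
import Fermat.Agent.S55.Glue.LocalLevel
import Fermat.Agent.S55.Abs.Bridge
import Fermat.Agent.CFT.LocalBr.Defs

/-!
# S55 / abstract layer: the dévissage principle for the local Galois group `Gal(ℚ̄_q/ℚ_q)`

Local twin of `devissage_GQ` (helper107).  `Gq q = Gal(ℚ̄_q/ℚ_q)` with the level family
`localLevel (localGaloisToGlobal q)` (preimages of `Fix F`, `F/ℚ` finite).

`devissage_Gq`: let `P` be a property of `𝔽_p`-representations of `Gq q` which is closed under
retracts and under extensions among finite discrete modules, and which holds for the base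
modules `coind_U^{Gq q} 𝔽_p` for every open `U` (`IsOpenSub q U`) of index prime to `p` on which
the mod `p` cyclotomic character is trivial (`μ_p ⊂` the fixed field of `U`).  Then `P M` for
every finite discrete `M`.
-/

set_option autoImplicit false

open CategoryTheory groupCohomology IntermediateField ExtCitation

namespace Fermat.Agent.S55.Abs.Devissage

local notation "Qb" => AlgebraicClosure ℚ

open Fermat.Agent.S55.Glue Fermat.Agent.CFT.LocalBr

variable (q : ℕ) [Fact q.Prime]

theorem isGalois_padicAlgCl : IsGalois ℚ_[q] (PadicAlgCl q) :=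
  haveI : IsAlgClosure ℚ_[q] (PadicAlgCl q) := AlgebraicClosure.instIsAlgClosure ℚ_[q]
  IsAlgClosure.isGalois ℚ_[q] (PadicAlgCl q)

attribute [local instance] isGalois_padicAlgCl isGalois_Qb'

/-- The local level family of `Gq q`. -/
noncomputable abbrev locLevel : LevelFamily (Gq q) := localLevel (localGaloisToGlobal q)

variable {q}

/-- A subgroup of `Gq q` containing the preimage of `Fix F`, `F/ℚ` finite, is the fixing
subgroup of a finite extension of `ℚ_q` (local infinite Galois correspondence). -/
theorem isOpenSub_of_comap_le {F : IntermediateField ℚ Qb} [FiniteDimensional ℚ F]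
    {U : Subgroup (Gq q)} (hFU : F.fixingSubgroup.comap (localGaloisToGlobal q) ≤ U) :
    IsOpenSub q U := by
  have := finiteDimensional_localLevelField q F
  rw [comap_fixingSubgroup_eq] at hFU
  have hopen : IsOpen (U : Set (Gq q)) :=
    Subgroup.isOpen_mono hFU (IntermediateField.fixingSubgroup_isOpen (localLevelField q F))
  have hclosed : IsClosed (U : Set (Gq q)) := Subgroup.isClosed_of_isOpen U hopen
  have hfix : (IntermediateField.fixedField U).fixingSubgroup = U :=
    InfiniteGalois.fixingSubgroup_fixedField ⟨U, hclosed⟩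
  have hfd : FiniteDimensional ℚ_[q] (IntermediateField.fixedField U) := by
    rw [← InfiniteGalois.isOpen_iff_finite, hfix]
    exact hopen
  exact ⟨IntermediateField.fixedField U, hfd, hfix.symm⟩

/-- The preimage of `Fix F`, `F/ℚ` finite Galois, is a normal subgroup of finite index. -/
theorem comap_fixingSubgroup_normal_finiteIndex (F : IntermediateField ℚ Qb)
    [FiniteDimensional ℚ F] [Normal ℚ F] :
    (F.fixingSubgroup.comap (localGaloisToGlobal q)).Normal ∧
      (F.fixingSubgroup.comap (localGaloisToGlobal q)).FiniteIndex := by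
  have := (fixingSubgroup_normal_finiteIndex F).1
  exact ⟨Subgroup.Normal.comap inferInstance _,
    (locLevel q).finiteIndex _ ⟨F, inferInstance, rfl⟩⟩

/-- A module trivial on the preimage of `Fix F`, `F/ℚ` finite, is discrete. -/
theorem isDisc_of_comap {k : Type} [Field k] {M : Rep.{0} k (Gq q)}
    {F : IntermediateField ℚ Qb} [FiniteDimensional ℚ F]
    (hM : ∀ s ∈ F.fixingSubgroup.comap (localGaloisToGlobal q), M.ρ s = LinearMap.id) :
    IsDisc (locLevel q) M :=
  ⟨_, ⟨F, inferInstance, rfl⟩, fun s hs m => by rw [hM s hs]; rfl⟩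

/-- A common Galois level: a discrete module is trivial on the preimage of `Fix F` for some
finite Galois `F/ℚ` containing `ℚ(μ_p)`. -/
theorem exists_common_local_level (p : ℕ) [Fact p.Prime] {k : Type} [Field k]
    {M : Rep.{0} k (Gq q)} (hM : IsDisc (locLevel q) M) :
    ∃ F : IntermediateField ℚ Qb, FiniteDimensional ℚ F ∧ Normal ℚ F ∧ cycloField p ≤ F ∧
      (∀ s ∈ F.fixingSubgroup.comap (localGaloisToGlobal q), M.ρ s = LinearMap.id) ∧
      (∀ s ∈ F.fixingSubgroup.comap (localGaloisToGlobal q),
        cycloChar p (localGaloisToGlobal q s) = 1) := by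
  obtain ⟨_, ⟨F₀, hF₀, rfl⟩, hM₀⟩ := hM
  have := hF₀
  have : FiniteDimensional ℚ (cycloField p) :=
    finiteDimensional_cycloField p (Fact.out : p.Prime).ne_zero
  let F₁ : IntermediateField ℚ Qb := IntermediateField.normalClosure ℚ ↥(F₀ ⊔ cycloField p) Qb
  have hle : F₀ ⊔ cycloField p ≤ F₁ := IntermediateField.le_normalClosure _
  refine ⟨F₁, inferInstance, normalClosure.normal ℚ _ _, le_sup_right.trans hle, ?_, ?_⟩
  · intro s hs
    apply LinearMap.ext
    intro m
    exact hM₀ s (IntermediateField.fixingSubgroup_antitone (le_sup_left.trans hle) hs) m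
  · intro s hs
    exact cycloChar_eq_one_of_mem_fixingSubgroup p
      (IntermediateField.fixingSubgroup_antitone (le_sup_right.trans hle) hs)

/-- **Dévissage principle for the local Galois group `Gal(ℚ̄_q/ℚ_q)`.** -/
theorem devissage_Gq (p : ℕ) [Fact p.Prime]
    (P : Rep.{0} (ZMod p) (Gq q) → Prop)
    (h_ret : ∀ (A B : Rep.{0} (ZMod p) (Gq q)) (i : A ⟶ B) (r : B ⟶ A), i ≫ r = 𝟙 A →
      Module.Finite (ZMod p) A → Module.Finite (ZMod p) B →
      IsDisc (locLevel q) A → IsDisc (locLevel q) B → P B → P A)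
    (h_ext : ∀ (A B C : Rep.{0} (ZMod p) (Gq q)) (f : A ⟶ B) (g : B ⟶ C),
      Function.Injective f.hom → Function.Surjective g.hom →
      (∀ b, g.hom b = 0 ↔ ∃ a, f.hom a = b) →
      Module.Finite (ZMod p) A → Module.Finite (ZMod p) B → Module.Finite (ZMod p) C →
      IsDisc (locLevel q) A → IsDisc (locLevel q) B → IsDisc (locLevel q) C →
      P A → P C → P B)
    (h_base : ∀ U : Subgroup (Gq q), IsOpenSub q U →
      (∀ u ∈ U, cycloChar p (localGaloisToGlobal q u) = 1) → U.FiniteIndex → ¬ p ∣ U.index →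
      (∃ F : IntermediateField ℚ Qb, FiniteDimensional ℚ F ∧
        F.fixingSubgroup.comap (localGaloisToGlobal q) ≤ U) →
      P (Rep.coind U.subtype (Rep.trivial (ZMod p) U (ZMod p))))
    (M : Rep.{0} (ZMod p) (Gq q)) [Module.Finite (ZMod p) M] (hM : IsDisc (locLevel q) M) :
    P M := by
  obtain ⟨F, hF, hn, -, hMF, hχ⟩ := exists_common_local_level p hM
  have := hF
  have := hn
  have := (comap_fixingSubgroup_normal_finiteIndex (q := q) F).1
  have := (comap_fixingSubgroup_normal_finiteIndex (q := q) F).2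
  refine devissage_sylow (p := p) (F.fixingSubgroup.comap (localGaloisToGlobal q)) P
    (fun A B i r hir hA hB hPB =>
      h_ret A B i r hir hA.1 hB.1 (isDisc_of_comap hA.2) (isDisc_of_comap hB.2) hPB)
    (fun A B C f g hf hg hex hA hB hC hPA hPC =>
      h_ext A B C f g hf hg hex hA.1 hB.1 hC.1 (isDisc_of_comap hA.2) (isDisc_of_comap hB.2)
        (isDisc_of_comap hC.2) hPA hPC)
    (fun U hNU hUfin hU hpU => ?_) M hMF
  refine h_base U (isOpenSub_of_comap_le hNU) (fun u hu => ?_) hUfin hpU ⟨F, hF, hNU⟩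
  obtain ⟨r, hr⟩ := hU u hu
  have h2 : cycloChar p (localGaloisToGlobal q u) ^ p ^ r = 1 := by
    rw [← map_pow, ← map_pow]; exact hχ _ hr
  have h3 : (cycloChar p (localGaloisToGlobal q u) : ZMod p) ^ p ^ r =
      (cycloChar p (localGaloisToGlobal q u) : ZMod p) := ZMod.pow_card_pow _
  apply Units.ext
  rw [← h3, ← Units.val_pow_eq_pow_val, h2]

/-- The same statement for the Prelude's `primeLocalGaloisGroup q`, `primeLocalToGlobal q`
(`q : Nat.Primes`), the local groups of the Poitou–Tate context `ctxS`. -/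
theorem devissage_primeLocal (q : Nat.Primes) (p : ℕ) [Fact p.Prime]
    (P : Rep.{0} (ZMod p) (primeLocalGaloisGroup q) → Prop)
    (h_ret : ∀ (A B : Rep.{0} (ZMod p) (primeLocalGaloisGroup q)) (i : A ⟶ B) (r : B ⟶ A),
      i ≫ r = 𝟙 A → Module.Finite (ZMod p) A → Module.Finite (ZMod p) B →
      IsDisc (localLevel (primeLocalToGlobal q)) A →
      IsDisc (localLevel (primeLocalToGlobal q)) B → P B → P A)
    (h_ext : ∀ (A B C : Rep.{0} (ZMod p) (primeLocalGaloisGroup q)) (f : A ⟶ B) (g : B ⟶ C),
      Function.Injective f.hom → Function.Surjective g.hom →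
      (∀ b, g.hom b = 0 ↔ ∃ a, f.hom a = b) →
      Module.Finite (ZMod p) A → Module.Finite (ZMod p) B → Module.Finite (ZMod p) C →
      IsDisc (localLevel (primeLocalToGlobal q)) A →
      IsDisc (localLevel (primeLocalToGlobal q)) B →
      IsDisc (localLevel (primeLocalToGlobal q)) C → P A → P C → P B)
    (h_base : ∀ U : Subgroup (primeLocalGaloisGroup q),
      @IsOpenSub (q : ℕ) ⟨q.2⟩ U →
      (∀ u ∈ U, cycloChar p (primeLocalToGlobal q u) = 1) → U.FiniteIndex → ¬ p ∣ U.index →
      (∃ F : IntermediateField ℚ Qb, FiniteDimensional ℚ F ∧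
        F.fixingSubgroup.comap (primeLocalToGlobal q) ≤ U) →
      P (Rep.coind U.subtype (Rep.trivial (ZMod p) U (ZMod p))))
    (M : Rep.{0} (ZMod p) (primeLocalGaloisGroup q)) [Module.Finite (ZMod p) M]
    (hM : IsDisc (localLevel (primeLocalToGlobal q)) M) : P M :=
  haveI : Fact (q : ℕ).Prime := ⟨q.2⟩
  devissage_Gq (q := (q : ℕ)) p P h_ret h_ext h_base M hM

end Fermat.Agent.S55.Abs.Devissage
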