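/-
S55 / PROGRAM CFT, abstract layer.

The LOCAL half of the devissage machine, for a single leveled group `H` (no cone, no `lam`):
for an equivariant pairing `β : X × X' → C` and a functional `inv` on `H²(H, C)` we have the
pairings
* `LPL1 β : H¹(X) × H¹(X') → k`,  `(x, y) ↦ inv (x ∪ y)`,
* `LPL2 β : H²(X) × H⁰(X') → k`,  `(x, t) ↦ inv (x ∪ t)`.
The package `{LPL1 epi, LPL2 mono}` is closed under extensions (`locEpi_ext`, `locMono_ext`)
and retracts (`locEpi_retract`, `locMono_retract`).  `LocPkg` is the specialisation to the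
evaluation pairings `N × N^*(χ) → μ`, with `locPkg_ext`, `locPkg_retract`.

The statements are instances of `pairEpi_four` / `pairMono_four` (`FourLemma`) fed with the
exactness statements of `LES` and the adjunction statements of `Pairing`.
`Machine.PTContext.PL1 / PL2` are definitionally `LPL1 / LPL2` for
`β := (evPairing χ M).res (loc v)`, `inv := D.inv v`.

The functoriality lemmas `H1map_retract`, `H2map_retract`, `isDisc_of_injective` are those of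
`Abs/Functor.lean` (this file declares no copy of them).
-/
import Fermat.Agent.S55.Abs.Functor

set_option autoImplicit false

open CategoryTheory groupCohomology

namespace Fermat.Agent.S55.Abs

variable {k H : Type} [Field k] [Group H] (𝒱 : LevelFamily H)

section General

variable {C : Rep.{0} k H} (inv : H2 𝒱 C →ₗ[k] k)

/-- The local pairing `H¹(X) × H¹(X') → k`, `(x, y) ↦ inv (x ∪ y)`. -/
noncomputable def LPL1 {X X' : Rep.{0} k H} (β : EqPairing X X' C) (hX' : IsDisc 𝒱 X')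
    (hC : IsDisc 𝒱 C) : H1 𝒱 X →ₗ[k] H1 𝒱 X' →ₗ[k] k :=
  (cupH11 𝒱 β hX' hC).compr₂ inv

/-- The local pairing `H²(X) × H⁰(X') → k`, `(x, t) ↦ inv (x ∪ t)`. -/
noncomputable def LPL2 {X X' : Rep.{0} k H} (β : EqPairing X X' C) (hX' : IsDisc 𝒱 X')
    (hC : IsDisc 𝒱 C) : H2 𝒱 X →ₗ[k] H0 X' →ₗ[k] k :=
  (cupH20 𝒱 β hX' hC).compr₂ inv

lemma LPL1_apply {X X' : Rep.{0} k H} (β : EqPairing X X' C) (hX' : IsDisc 𝒱 X')
    (hC : IsDisc 𝒱 C) (x : H1 𝒱 X) (y : H1 𝒱 X') :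
    LPL1 𝒱 inv β hX' hC x y = inv (cupH11 𝒱 β hX' hC x y) := rfl

lemma LPL2_apply {X X' : Rep.{0} k H} (β : EqPairing X X' C) (hX' : IsDisc 𝒱 X')
    (hC : IsDisc 𝒱 C) (x : H2 𝒱 X) (t : H0 X') :
    LPL2 𝒱 inv β hX' hC x t = inv (cupH20 𝒱 β hX' hC x t) := rfl

/-! ### Extensions -/

section Ext

variable {A M B A' M' B' : Rep.{0} k H} {E : SplitSES A M B} {F : SplitSES B' M' A'}
  {βA : EqPairing A A' C} {βM : EqPairing M M' C} {βB : EqPairing B B' C}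
  (h : DualSES E F βA βM βB)
  (hM : IsDisc 𝒱 M) (hA' : IsDisc 𝒱 A') (hM' : IsDisc 𝒱 M') (hB' : IsDisc 𝒱 B')
  (hC : IsDisc 𝒱 C)

include h hM

/-- **Extension closure, `H¹ × H¹` epi.**  `pairEpi_four` with rows
`H¹(A) → H¹(M) → H¹(B) -δ-> H²(A)` and `H¹(A') ← H¹(M') ← H¹(B') <-δ- H⁰(A')`. -/
theorem locEpi_ext (eA : PairEpi (LPL1 𝒱 inv βA hA' hC)) (eB : PairEpi (LPL1 𝒱 inv βB hB' hC))
    (mA : PairMono (LPL2 𝒱 inv βA hA' hC)) : PairEpi (LPL1 𝒱 inv βM hM' hC) := by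
  refine pairEpi_four (H1map 𝒱 E.i) (H1map 𝒱 E.π) (Hδ₁ 𝒱 E hM)
    (H1map 𝒱 F.π) (H1map 𝒱 F.i) (Hδ₀ 𝒱 F hM')
    (LPL1 𝒱 inv βA hA' hC) (LPL1 𝒱 inv βM hM' hC) (LPL1 𝒱 inv βB hB' hC)
    (LPL2 𝒱 inv βA hA' hC) 1 1 1 one_ne_zero ?_ ?_ ?_ ?_ ?_ ?_ eA eB mA
  · intro x t
    rw [one_mul, LPL1_apply, LPL1_apply,
      cupH11_natural 𝒱 βA βM E.i F.π (fun a m' => h.adj_i a m') hA' hM' hC x t]
  · intro x t
    rw [one_mul, LPL1_apply, LPL1_apply,
      cupH11_natural 𝒱 βM βB E.π F.i (fun m b' => (h.adj_π m b').symm) hM' hB' hC x t]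
  · intro x t
    rw [one_mul, LPL2_apply, LPL1_apply, cupH20_Hδ₁ 𝒱 h hM hA' hM' hB' hC x t]
  · exact fun x hx => exact_H1_right 𝒱 E hM x hx
  · exact fun t ht => exact_H1_mid 𝒱 F hM' t ht
  · exact fun t => H1map_Hδ₀ 𝒱 F hM' t

/-- **Extension closure, `H² × H⁰` mono.**  `pairMono_four` with rows
`H¹(B) -δ-> H²(A) → H²(M) → H²(B)` and `H¹(B') <-δ- H⁰(A') ← H⁰(M') ← H⁰(B')`. -/
theorem locMono_ext (eB : PairEpi (LPL1 𝒱 inv βB hB' hC))
    (mA : PairMono (LPL2 𝒱 inv βA hA' hC)) (mB : PairMono (LPL2 𝒱 inv βB hB' hC)) :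
    PairMono (LPL2 𝒱 inv βM hM' hC) := by
  refine pairMono_four (Hδ₁ 𝒱 E hM) (H2map 𝒱 E.i) (H2map 𝒱 E.π)
    (Hδ₀ 𝒱 F hM') (H0map F.π) (H0map F.i)
    (LPL1 𝒱 inv βB hB' hC) (LPL2 𝒱 inv βA hA' hC) (LPL2 𝒱 inv βM hM' hC)
    (LPL2 𝒱 inv βB hB' hC) 1 1 1 one_ne_zero one_ne_zero ?_ ?_ ?_ ?_ ?_ ?_ eB mA mB
  · intro x t
    rw [one_mul, LPL2_apply, LPL1_apply, cupH20_Hδ₁ 𝒱 h hM hA' hM' hB' hC x t]
  · intro x t
    rw [one_mul, LPL2_apply, LPL2_apply,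
      cupH20_natural 𝒱 βA βM E.i F.π (fun a m' => h.adj_i a m') hA' hM' hC x t]
  · intro x t
    rw [one_mul, LPL2_apply, LPL2_apply,
      cupH20_natural 𝒱 βM βB E.π F.i (fun m b' => (h.adj_π m b').symm) hM' hB' hC x t]
  · exact fun x hx => exact_H2_mid 𝒱 E hM x hx
  · exact fun x => H2map_Hδ₁ 𝒱 E hM x
  · exact fun t ht => exact_H0_right 𝒱 F hM' t ht

end Ext

/-! ### Retracts -/

section Retract

variable {M N M' N' : Rep.{0} k H} (βM : EqPairing M M' C) (βN : EqPairing N N' C)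
  (i : M ⟶ N) (r : N ⟶ M) (i' : N' ⟶ M') (r' : M' ⟶ N')
  (hM' : IsDisc 𝒱 M') (hN' : IsDisc 𝒱 N') (hC : IsDisc 𝒱 C)

/-- **Retract closure, `H¹ × H¹` epi**: `M` a retract of `N` (`r ∘ i = id` is only used through
its dual `i' ∘ r' = id`). -/
theorem locEpi_retract (hir' : ∀ m', i'.hom (r'.hom m') = m')
    (adj_r : ∀ (n : N) (m' : M'), βM.toFun (r.hom n) m' = βN.toFun n (r'.hom m'))
    (eN : PairEpi (LPL1 𝒱 inv βN hN' hC)) : PairEpi (LPL1 𝒱 inv βM hM' hC) := by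
  refine pairEpi_retract (H1map 𝒱 r) (H1map 𝒱 r') (H1map 𝒱 i')
    (LPL1 𝒱 inv βM hM' hC) (LPL1 𝒱 inv βN hN' hC) ?_ ?_ eN
  · exact fun t => H1map_retract 𝒱 r' i' hir' t
  · intro y t
    rw [LPL1_apply, LPL1_apply, cupH11_natural 𝒱 βN βM r r' adj_r hN' hM' hC y t]

/-- **Retract closure, `H² × H⁰` mono.** -/
theorem locMono_retract (hri : ∀ m, r.hom (i.hom m) = m)
    (adj_i : ∀ (m : M) (n' : N'), βN.toFun (i.hom m) n' = βM.toFun m (i'.hom n'))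
    (mN : PairMono (LPL2 𝒱 inv βN hN' hC)) : PairMono (LPL2 𝒱 inv βM hM' hC) := by
  refine pairMono_retract (H2map 𝒱 i) (H2map 𝒱 r) (H0map i')
    (LPL2 𝒱 inv βM hM' hC) (LPL2 𝒱 inv βN hN' hC) ?_ ?_ mN
  · exact fun x => H2map_retract 𝒱 i r hri x
  · intro x w
    rw [LPL2_apply, LPL2_apply, cupH20_natural 𝒱 βM βN i i' adj_i hM' hN' hC x w]

end Retract

end General

/-! ### The local package for the evaluation pairings `N × N^*(χ) → μ` -/

section Chi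

variable (χ : H →* kˣ) (hμ : IsDisc 𝒱 (muRep χ)) (inv : H2 𝒱 (muRep χ) →ₗ[k] k)

/-- The local package of a discrete module `N` of the leveled group `H`:
`H¹(N) × H¹(N^*(χ)) → k` is epi and `H²(N) × H⁰(N^*(χ)) → k` is mono. -/
structure LocPkg (N : Rep.{0} k H) : Prop where
  disc : IsDisc 𝒱 N
  locEpi : PairEpi (LPL1 𝒱 inv (evPairing χ N) (isDisc_dualTwist 𝒱 χ hμ disc) hμ)
  locMono : PairMono (LPL2 𝒱 inv (evPairing χ N) (isDisc_dualTwist 𝒱 χ hμ disc) hμ)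

/-- **Extension closure of the local package.** -/
theorem locPkg_ext {A M B : Rep.{0} k H} (E : SplitSES A M B) (hM : IsDisc 𝒱 M)
    (hA : LocPkg 𝒱 χ hμ inv A) (hB : LocPkg 𝒱 χ hμ inv B) : LocPkg 𝒱 χ hμ inv M where
  disc := hM
  locEpi := locEpi_ext 𝒱 inv (dualSES_ev χ E) hM (isDisc_dualTwist 𝒱 χ hμ hA.disc)
    (isDisc_dualTwist 𝒱 χ hμ hM) (isDisc_dualTwist 𝒱 χ hμ hB.disc) hμ hA.locEpi hB.locEpi
    hA.locMono
  locMono := locMono_ext 𝒱 inv (dualSES_ev χ E) hM (isDisc_dualTwist 𝒱 χ hμ hA.disc)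
    (isDisc_dualTwist 𝒱 χ hμ hM) (isDisc_dualTwist 𝒱 χ hμ hB.disc) hμ hB.locEpi hA.locMono
    hB.locMono

/-- **Retract closure of the local package.** -/
theorem locPkg_retract {M N : Rep.{0} k H} (i : M ⟶ N) (r : N ⟶ M)
    (hri : ∀ m, r.hom (i.hom m) = m) (hN : LocPkg 𝒱 χ hμ inv N) : LocPkg 𝒱 χ hμ inv M := by
  have hi : Function.Injective i.hom := fun a b hab => by
    rw [← hri a, ← hri b, hab]
  have hM : IsDisc 𝒱 M := isDisc_of_injective i hi hN.disc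
  refine ⟨hM, ?_, ?_⟩
  · refine locEpi_retract 𝒱 inv (evPairing χ M) (evPairing χ N) r
      (dualTwistMap χ i) (dualTwistMap χ r) _ (isDisc_dualTwist 𝒱 χ hμ hN.disc) hμ ?_ ?_
      hN.locEpi
    · intro f
      apply LinearMap.ext
      intro m
      show f (r.hom (i.hom m)) = f m
      rw [hri]
    · intro n f
      rfl
  · refine locMono_retract 𝒱 inv (evPairing χ M) (evPairing χ N) i r
      (dualTwistMap χ i) _ (isDisc_dualTwist 𝒱 χ hμ hN.disc) hμ hri ?_ hN.locMono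
    intro m f
    rfl

end Chi

end Fermat.Agent.S55.Abs
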