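/-
S55 / PROGRAM CFT, abstract layer.

The local halves of `PTContext.pkgI_ext` and `PTContext.pkgI_retract` (fields `locEpi`, `locMono`
of `PkgI`), deduced from the standalone local machine `Abs/LocPkg.lean` applied to the local
groups `Gv v` with the restricted modules and pairings.
-/
import Fermat.Agent.S55.Abs.Machine
import Fermat.Agent.S55.Abs.LocPkg

set_option autoImplicit false

open CategoryTheory groupCohomology

namespace Fermat.Agent.S55.Abs

namespace PTContext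

variable {k G : Type} [Field k] [Group G] (D : PTContext k G)

/-- Discreteness of the restriction to the local group at `v`. -/
theorem disc_res {M : Rep.{0} k G} (hM : IsDisc D.𝒰 M) (v : D.ι) :
    IsDisc (D.𝒰v v) (Rep.res (D.loc v) M) :=
  isDisc_res D.𝒰 (D.𝒰v v) (D.loc v) (D.hloc v) hM

/-- `PL1` is the local pairing `LPL1` of the restricted evaluation pairing. -/
theorem PL1_eq_LPL1 {M : Rep.{0} k G} (hM : IsDisc D.𝒰 M) (v : D.ι) :
    D.PL1 hM v = LPL1 (D.𝒰v v) (D.inv v) ((evPairing D.χ M).res (D.loc v))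
      (D.disc_res (D.disc_dual hM) v) (D.disc_res D.hμ v) := rfl

/-- `PL2` is the local pairing `LPL2` of the restricted evaluation pairing. -/
theorem PL2_eq_LPL2 {M : Rep.{0} k G} (hM : IsDisc D.𝒰 M) (v : D.ι) :
    D.PL2 hM v = LPL2 (D.𝒰v v) (D.inv v) ((evPairing D.χ M).res (D.loc v))
      (D.disc_res (D.disc_dual hM) v) (D.disc_res D.hμ v) := rfl

/-- Local half of `pkgI_ext`: `PL1` epi for the middle term. -/
theorem locEpi_of_ses {A M B : Rep.{0} k G} (E : SplitSES A M B) (hM : IsDisc D.𝒰 M)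
    (hA : IsDisc D.𝒰 A) (hB : IsDisc D.𝒰 B) (v : D.ι)
    (eA : PairEpi (D.PL1 hA v)) (eB : PairEpi (D.PL1 hB v)) (mA : PairMono (D.PL2 hA v)) :
    PairEpi (D.PL1 hM v) :=
  locEpi_ext (D.𝒰v v) (D.inv v) ((dualSES_ev D.χ E).res (D.loc v)) (D.disc_res hM v)
    (D.disc_res (D.disc_dual hA) v) (D.disc_res (D.disc_dual hM) v)
    (D.disc_res (D.disc_dual hB) v) (D.disc_res D.hμ v) eA eB mA

/-- Local half of `pkgI_ext`: `PL2` mono for the middle term. -/
theorem locMono_of_ses {A M B : Rep.{0} k G} (E : SplitSES A M B) (hM : IsDisc D.𝒰 M)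
    (hA : IsDisc D.𝒰 A) (hB : IsDisc D.𝒰 B) (v : D.ι)
    (eB : PairEpi (D.PL1 hB v)) (mA : PairMono (D.PL2 hA v)) (mB : PairMono (D.PL2 hB v)) :
    PairMono (D.PL2 hM v) :=
  locMono_ext (D.𝒰v v) (D.inv v) ((dualSES_ev D.χ E).res (D.loc v)) (D.disc_res hM v)
    (D.disc_res (D.disc_dual hA) v) (D.disc_res (D.disc_dual hM) v)
    (D.disc_res (D.disc_dual hB) v) (D.disc_res D.hμ v) eB mA mB

/-- Local half of `pkgI_retract`: `PL1` epi for a retract. -/
theorem locEpi_of_retract {M N : Rep.{0} k G} (i : M ⟶ N) (r : N ⟶ M)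
    (hri : ∀ m, r.hom (i.hom m) = m) (hM : IsDisc D.𝒰 M) (hN : IsDisc D.𝒰 N) (v : D.ι)
    (eN : PairEpi (D.PL1 hN v)) : PairEpi (D.PL1 hM v) := by
  refine locEpi_retract (D.𝒰v v) (D.inv v) ((evPairing D.χ M).res (D.loc v))
    ((evPairing D.χ N).res (D.loc v)) (Rep.resMap (D.loc v) r)
    (Rep.resMap (D.loc v) (dualTwistMap D.χ i)) (Rep.resMap (D.loc v) (dualTwistMap D.χ r))
    (D.disc_res (D.disc_dual hM) v) (D.disc_res (D.disc_dual hN) v) (D.disc_res D.hμ v)
    ?_ ?_ eN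
  · intro f
    apply LinearMap.ext
    intro m
    show f (r.hom (i.hom m)) = f m
    rw [hri]
  · intro n f
    rfl

/-- Local half of `pkgI_retract`: `PL2` mono for a retract. -/
theorem locMono_of_retract {M N : Rep.{0} k G} (i : M ⟶ N) (r : N ⟶ M)
    (hri : ∀ m, r.hom (i.hom m) = m) (hM : IsDisc D.𝒰 M) (hN : IsDisc D.𝒰 N) (v : D.ι)
    (mN : PairMono (D.PL2 hN v)) : PairMono (D.PL2 hM v) := by
  refine locMono_retract (D.𝒰v v) (D.inv v) ((evPairing D.χ M).res (D.loc v))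
    ((evPairing D.χ N).res (D.loc v)) (Rep.resMap (D.loc v) i) (Rep.resMap (D.loc v) r)
    (Rep.resMap (D.loc v) (dualTwistMap D.χ i))
    (D.disc_res (D.disc_dual hM) v) (D.disc_res (D.disc_dual hN) v) (D.disc_res D.hμ v)
    hri ?_ mN
  intro m f
  rfl

end PTContext

end Fermat.Agent.S55.Abs
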