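/-
S55 / PROGRAM CFT, abstract layer (helper195).  Complements `Abs/LocPkg.lean` and
`Abs/LocPkgMachine.lean` (helper165) with the two remaining formal steps of the LOCAL dévissage:

* `locPkg_devissage` : the local package `LocPkg 𝒱 χ hμ inv` holds for EVERY finite
  `𝔽_p[H]`-module on which a normal level `N` acts trivially, as soon as it holds for the single
  base module `coind_U^H 𝔽_p` (`N ≤ U`, `U/N` a `p`-group, `p ∤ [H:U]`).  This is
  `Devissage.devissage` fed with `locPkg_ext` / `locPkg_retract`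
  (dévissage-shaped variants `locPkg_ext_of_exact`, `locPkg_retract_of_comp`).
* the bridge to `Machine.PTContext`: the local package of the `G_v`-module `Res_v M`
  (character `χ ∘ loc v`, functional `D.inv v`) gives the fields `locEpi v`, `locMono v` of
  `PkgI M` (`PTContext.locEpi_of_locPkg`, `PTContext.locMono_of_locPkg`), and conversely
  (`PTContext.locPkg_res`).  The only content: `Res_v (M^*(χ))` and `(Res_v M)^*(χ ∘ loc v)`
  are the same module with propositionally (not definitionally) equal actions, related by the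
  identity morphisms `resDualTwistHom` / `resDualTwistInv`.
Nothing here uses the closure theorems of `Machine.lean`, only its definitions.
-/
import Fermat.Agent.S55.Abs.LocPkgMachine
import Fermat.Agent.S55.Abs.Devissage

set_option autoImplicit false

open CategoryTheory groupCohomology

namespace Fermat.Agent.S55.Abs

/-! ### Dévissage-shaped closure properties and the local dévissage -/

section Shapes

variable {k H : Type} [Field k] [Group H] (𝒱 : LevelFamily H)
  (χ : H →* kˣ) (hμ : IsDisc 𝒱 (muRep χ)) (inv : H2 𝒱 (muRep χ) →ₗ[k] k)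

/-- Extension closure, dévissage shape: `f` injective, `g` surjective, exact in the middle. -/
theorem locPkg_ext_of_exact {A M B : Rep.{0} k H} (f : A ⟶ M) (g : M ⟶ B)
    (hf : Function.Injective f.hom) (hg : Function.Surjective g.hom)
    (hex : ∀ m, g.hom m = 0 ↔ ∃ a, f.hom a = m) (hM : IsDisc 𝒱 M)
    (hA : LocPkg 𝒱 χ hμ inv A) (hB : LocPkg 𝒱 χ hμ inv B) : LocPkg 𝒱 χ hμ inv M := by
  obtain ⟨E, -, -⟩ := SplitSES.exists_of_exact f g hf hg hex
  exact locPkg_ext 𝒱 χ hμ inv E hM hA hB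

/-- Retract closure, dévissage shape: `i ≫ r = 𝟙`. -/
theorem locPkg_retract_of_comp {M N : Rep.{0} k H} (i : M ⟶ N) (r : N ⟶ M)
    (hri : i ≫ r = 𝟙 M) (hN : LocPkg 𝒱 χ hμ inv N) : LocPkg 𝒱 χ hμ inv M :=
  locPkg_retract 𝒱 χ hμ inv i r (fun m => by
    have h1 := congrArg (fun φ : M ⟶ M => φ.hom m) hri
    simpa using h1) hN

end Shapes

section LocalDevissage

variable {p : ℕ} [Fact p.Prime] {H : Type} [Group H] (𝒱 : LevelFamily H)
  (χ : H →* (ZMod p)ˣ) (hμ : IsDisc 𝒱 (muRep χ)) (inv : H2 𝒱 (muRep χ) →ₗ[ZMod p] ZMod p)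

/-- **Local dévissage.**  Let `N ≤ U ≤ H` with `N` normal containing a member of the level
family, `U/N` a `p`-group and `p ∤ [H:U]`.  If the local package holds for the single module
`coind_U^H 𝔽_p`, it holds for every finite `𝔽_p[H]`-module on which `N` acts trivially. -/
theorem locPkg_devissage (N U : Subgroup H) [N.Normal] [U.FiniteIndex]
    (hNU : N ≤ U) (hU : ∀ u ∈ U, ∃ r : ℕ, u ^ p ^ r ∈ N) (hHU : ¬ p ∣ U.index)
    (hN : ∃ V ∈ 𝒱.sets, V ≤ N)
    (h_base : LocPkg 𝒱 χ hμ inv (Rep.coind U.subtype (Rep.trivial (ZMod p) U (ZMod p))))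
    (M : Rep.{0} (ZMod p) H) [Module.Finite (ZMod p) M]
    (hM : ∀ n ∈ N, M.ρ n = LinearMap.id) : LocPkg 𝒱 χ hμ inv M := by
  have hdisc : ∀ A : Rep.{0} (ZMod p) H, Devissage.Level p N A → IsDisc 𝒱 A := by
    intro A hA
    obtain ⟨V, hV, hVN⟩ := hN
    exact ⟨V, hV, fun s hs m => by rw [hA.2 s (hVN hs)]; rfl⟩
  exact Devissage.devissage N U hNU hU hHU (fun A => LocPkg 𝒱 χ hμ inv A)
    (fun A B i r hir _ _ hB => locPkg_retract_of_comp 𝒱 χ hμ inv i r hir hB)
    (fun A B C f g hf hg hex _ hB _ hA hC =>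
      locPkg_ext_of_exact 𝒱 χ hμ inv f g hf hg hex (hdisc B hB) hA hC)
    h_base M hM

/-- Variant quantifying over all Sylow levels `U` of `N` (as `Devissage.devissage_sylow`). -/
theorem locPkg_devissage_sylow (N : Subgroup H) [N.Normal] [N.FiniteIndex]
    (hN : ∃ V ∈ 𝒱.sets, V ≤ N)
    (h_base : ∀ U : Subgroup H, N ≤ U → U.FiniteIndex → (∀ u ∈ U, ∃ r : ℕ, u ^ p ^ r ∈ N) →
      ¬ p ∣ U.index →
      LocPkg 𝒱 χ hμ inv (Rep.coind U.subtype (Rep.trivial (ZMod p) U (ZMod p))))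
    (M : Rep.{0} (ZMod p) H) [Module.Finite (ZMod p) M]
    (hM : ∀ n ∈ N, M.ρ n = LinearMap.id) : LocPkg 𝒱 χ hμ inv M := by
  obtain ⟨U, hNU, hfin, hU, hHU⟩ := Devissage.exists_sylow_level (p := p) N
  exact locPkg_devissage 𝒱 χ hμ inv N U hNU hU hHU hN (h_base U hNU hfin hU hHU) M hM

end LocalDevissage

/-! ### `Res (M^*(χ))` versus `(Res M)^*(χ ∘ r)` -/

section ResDual

variable {k G : Type} [Field k] [Group G]

/-- The identity of `Module.Dual k M`, as a morphism `Res (M^*(χ)) ⟶ (Res M)^*(χ ∘ r)`. -/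
noncomputable def resDualTwistHom {H : Type} [Group H] (r : H →* G) (χ : G →* kˣ)
    (M : Rep.{0} k G) : Rep.res r (M.dualTwist χ) ⟶ (Rep.res r M).dualTwist (χ.comp r) :=
  Rep.ofHom (LinearMap.intertwiningMap_of_isIntertwiningMap _ _
    (LinearMap.id : Module.Dual k M →ₗ[k] Module.Dual k M) (by
      intro g f
      show (M.dualTwist χ).ρ (r g) f = ((Rep.res r M).dualTwist (χ.comp r)).ρ g f
      rw [Rep.dualTwist_ρ_apply, Rep.dualTwist_ρ_apply]
      show _ = (χ (r g) : k) • (f ∘ₗ M.ρ (r g⁻¹))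
      rw [map_inv r g]))

/-- The identity of `Module.Dual k M`, as a morphism `(Res M)^*(χ ∘ r) ⟶ Res (M^*(χ))`. -/
noncomputable def resDualTwistInv {H : Type} [Group H] (r : H →* G) (χ : G →* kˣ)
    (M : Rep.{0} k G) : (Rep.res r M).dualTwist (χ.comp r) ⟶ Rep.res r (M.dualTwist χ) :=
  Rep.ofHom (LinearMap.intertwiningMap_of_isIntertwiningMap _ _
    (LinearMap.id : Module.Dual k M →ₗ[k] Module.Dual k M) (by
      intro g f
      show ((Rep.res r M).dualTwist (χ.comp r)).ρ g f = (M.dualTwist χ).ρ (r g) f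
      rw [Rep.dualTwist_ρ_apply, Rep.dualTwist_ρ_apply]
      show (χ (r g) : k) • (f ∘ₗ M.ρ (r g⁻¹)) = _
      rw [map_inv r g]))

@[simp] theorem resDualTwistHom_apply {H : Type} [Group H] (r : H →* G) (χ : G →* kˣ)
    (M : Rep.{0} k G) (f : Module.Dual k M) : (resDualTwistHom r χ M).hom f = f := rfl

@[simp] theorem resDualTwistInv_apply {H : Type} [Group H] (r : H →* G) (χ : G →* kˣ)
    (M : Rep.{0} k G) (f : Module.Dual k M) : (resDualTwistInv r χ M).hom f = f := rfl

end ResDual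

/-! ### Bridge: local package of `Res_v M`  ⟷  fields `locEpi v`, `locMono v` of `PkgI M` -/

namespace PTContext

variable {k G : Type} [Field k] [Group G] (D : PTContext k G)

/-- The character of the local group at `v`. -/
noncomputable abbrev χv (v : D.ι) : D.Gv v →* kˣ := D.χ.comp (D.loc v)

/-- `μ` restricted to `G_v` is discrete (stated for `muRep (χ ∘ loc v)`). -/
theorem disc_μv (v : D.ι) : IsDisc (D.𝒰v v) (muRep (D.χv v)) :=
  isDisc_res D.𝒰 (D.𝒰v v) (D.loc v) (D.hloc v) D.hμ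

/-- The local package of the `G_v`-module `Res_v M`, in the context `(𝒰v v, χ ∘ loc v, inv v)`. -/
abbrev LocPkgAt (v : D.ι) (N : Rep.{0} k (D.Gv v)) : Prop :=
  LocPkg (D.𝒰v v) (D.χv v) (D.disc_μv v) (D.inv v) N

/-- The local package of `Res_v M` gives the field `locEpi v` of `PkgI M`. -/
theorem locEpi_of_locPkg {M : Rep.{0} k G} (hM : IsDisc D.𝒰 M) (v : D.ι)
    (h : D.LocPkgAt v (Rep.res (D.loc v) M)) : PairEpi (D.PL1 hM v) :=
  locEpi_retract (D.𝒰v v) (D.inv v) ((evPairing D.χ M).res (D.loc v))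
    (evPairing (D.χv v) (Rep.res (D.loc v) M)) (𝟙 _)
    (resDualTwistInv (D.loc v) D.χ M) (resDualTwistHom (D.loc v) D.χ M)
    (D.disc_res (D.disc_dual hM) v) (isDisc_dualTwist (D.𝒰v v) (D.χv v) (D.disc_μv v) h.disc)
    (D.disc_μv v) (fun _ => rfl) (fun _ _ => rfl) h.locEpi

/-- The local package of `Res_v M` gives the field `locMono v` of `PkgI M`. -/
theorem locMono_of_locPkg {M : Rep.{0} k G} (hM : IsDisc D.𝒰 M) (v : D.ι)
    (h : D.LocPkgAt v (Rep.res (D.loc v) M)) : PairMono (D.PL2 hM v) :=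
  locMono_retract (D.𝒰v v) (D.inv v) ((evPairing D.χ M).res (D.loc v))
    (evPairing (D.χv v) (Rep.res (D.loc v) M)) (𝟙 _) (𝟙 _)
    (resDualTwistInv (D.loc v) D.χ M)
    (D.disc_res (D.disc_dual hM) v) (isDisc_dualTwist (D.𝒰v v) (D.χv v) (D.disc_μv v) h.disc)
    (D.disc_μv v) (fun _ => rfl) (fun _ _ => rfl) h.locMono

/-- Conversely, the fields `locEpi v`, `locMono v` give the local package of `Res_v M`. -/
theorem locPkg_res {M : Rep.{0} k G} (hM : IsDisc D.𝒰 M) (v : D.ι)
    (he : PairEpi (D.PL1 hM v)) (hm : PairMono (D.PL2 hM v)) :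
    D.LocPkgAt v (Rep.res (D.loc v) M) where
  disc := D.disc_res hM v
  locEpi := locEpi_retract (D.𝒰v v) (D.inv v) (evPairing (D.χv v) (Rep.res (D.loc v) M))
    ((evPairing D.χ M).res (D.loc v)) (𝟙 _)
    (resDualTwistHom (D.loc v) D.χ M) (resDualTwistInv (D.loc v) D.χ M)
    (isDisc_dualTwist (D.𝒰v v) (D.χv v) (D.disc_μv v) (D.disc_res hM v))
    (D.disc_res (D.disc_dual hM) v) (D.disc_μv v) (fun _ => rfl) (fun _ _ => rfl) he
  locMono := locMono_retract (D.𝒰v v) (D.inv v) (evPairing (D.χv v) (Rep.res (D.loc v) M))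
    ((evPairing D.χ M).res (D.loc v)) (𝟙 _) (𝟙 _)
    (resDualTwistHom (D.loc v) D.χ M)
    (isDisc_dualTwist (D.𝒰v v) (D.χv v) (D.disc_μv v) (D.disc_res hM v))
    (D.disc_res (D.disc_dual hM) v) (D.disc_μv v) (fun _ => rfl) (fun _ _ => rfl) hm

end PTContext

end Fermat.Agent.S55.Abs
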