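/-
S55 / PROGRAM CFT, abstract layer (helper195).  The formal END of the local dévissage route
(ruling #4 (3), "LD-Q"), on top of `Abs/LocPkg` (helper165), `Abs/LocDev`, `Abs/SymmTop`.

One leveled group `(H, 𝒱)`, a character `χ`, a functional `inv` on `H²(H, μ)`.

* `locPkg_of_base` (`k = 𝔽_p`) : if the local package holds for the permutation modules
  `M0 U = coind_U^H 𝔽_p` for all `U` of finite index prime to `p`, containing a level, on which
  `χ` is trivial, then it holds for EVERY finite discrete `𝔽_p[H]`-module.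
* local duality in the shapes used by the base case, for a finite-dimensional discrete `X`,
  `X' = X^*(χ)` (no bidual in the statements):
  - `LocPkg.right_kernel_H1`       : right kernel of `H¹(X) × H¹(X') → k` is `0`           [LocPkg X]
  - `LocPkg.flip_locEpi`, `LocPkg.flip_right_kernel_H1` : the same for `H¹(X') × H¹(X) → k` [LocPkg X']
  - `LocPkg.flip_locMono`, `LocPkg.mem_B2_of_flip`      : `z ∈ Z²(X')` with
    `inv (z ∪ m) = 0` for all invariant `m ∈ X` is a level coboundary                      [LocPkg X']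
* the restricted forms `res_locEpi`, `res_locMono`, `res_flip_locEpi`, `res_flip_locMono` for
  `X = Res_r N`, `N` a module of a bigger group `G`, with the RESTRICTED pairings
  `(evPairing χ N).res r` and its flip (this is the literal shape of `PTContext.PL1 / PL2`),
  and `ld_res_of_base` : all four from the base case.
-/
import Fermat.Agent.S55.Abs.LocDev
import Fermat.Agent.S55.Abs.SymmTop
import Fermat.Agent.S55.Abs.Reduce

set_option autoImplicit false

open CategoryTheory groupCohomology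

namespace Fermat.Agent.S55.Abs

/-! ### From the base modules `M0 U` to all finite discrete modules -/

section Base

variable {p : ℕ} [Fact p.Prime] {H : Type} [Group H] (𝒱 : LevelFamily H)
  (χ : H →* (ZMod p)ˣ) (hμ : IsDisc 𝒱 (muRep χ)) (inv : H2 𝒱 (muRep χ) →ₗ[ZMod p] ZMod p)

/-- **Local dévissage, final form.**  The local package for the permutation modules
`M0 U = coind_U^H 𝔽_p` (`U` of finite index prime to `p`, containing a level, `χ|_U = 1`)
implies the local package for every finite discrete `𝔽_p[H]`-module. -/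
theorem locPkg_of_base
    (h_base : ∀ U : Subgroup H, U.FiniteIndex → (∃ W ∈ 𝒱.sets, W ≤ U) → (∀ u ∈ U, χ u = 1) →
      ¬ p ∣ U.index → LocPkg 𝒱 χ hμ inv (M0 (ZMod p) U))
    (X : Rep.{0} (ZMod p) H) [Module.Finite (ZMod p) X] (hX : IsDisc 𝒱 X) :
    LocPkg 𝒱 χ hμ inv X := by
  obtain ⟨W₁, hW₁, h₁⟩ := hX
  obtain ⟨W₂, hW₂, h₂⟩ := id hμ
  obtain ⟨W, hW, hle⟩ := 𝒱.inter W₁ hW₁ W₂ hW₂
  obtain ⟨N, hN, hNW, hnormal⟩ := 𝒱.normal W hW
  have := hnormal
  have : N.FiniteIndex := 𝒱.finiteIndex N hN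
  refine locPkg_devissage_sylow 𝒱 χ hμ inv N ⟨N, hN, le_rfl⟩
    (fun U hNU hfin hU hHU => ?_) X (fun n hn => ?_)
  · refine h_base U hfin ⟨N, hN, hNU⟩ (fun u hu => ?_) hHU
    obtain ⟨r, hr⟩ := hU u hu
    have h1 : χ (u ^ p ^ r) = 1 := by
      have h := h₂ _ (hle (hNW hr)).2 (1 : ZMod p)
      rw [muRep_ρ_apply, mul_one] at h
      exact Units.ext h
    have h2 : χ u ^ p ^ r = 1 := by rw [← map_pow]; exact h1
    have h3 : (χ u : ZMod p) ^ p ^ r = (χ u : ZMod p) := ZMod.pow_card_pow _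
    apply Units.ext
    rw [← h3, ← Units.val_pow_eq_pow_val, h2]
  · apply LinearMap.ext
    intro m
    exact h₁ n (hle (hNW hn)).1 m

end Base

/-! ### Local duality statements for `X` and `X' = X^*(χ)` -/

section LD

variable {k H : Type} [Field k] [Group H] (𝒱 : LevelFamily H)
  (χ : H →* kˣ) (hμ : IsDisc 𝒱 (muRep χ)) (inv : H2 𝒱 (muRep χ) →ₗ[k] k)

/-- **(L-a)** The right kernel of `H¹(X) × H¹(X') → k` is trivial. -/
theorem LocPkg.right_kernel_H1 {X : Rep.{0} k H} (h : LocPkg 𝒱 χ hμ inv X)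
    (y : H1 𝒱 (X.dualTwist χ))
    (hy : ∀ x : H1 𝒱 X,
      inv (cupH11 𝒱 (evPairing χ X) (isDisc_dualTwist 𝒱 χ hμ h.disc) hμ x y) = 0) : y = 0 :=
  PairEpi.right_kernel h.locEpi y hy

/-- The flipped pairing `H¹(X') × H¹(X) → k` is epi, from the local package of `X'`. -/
theorem LocPkg.flip_locEpi {X : Rep.{0} k H} [FiniteDimensional k X] (hX : IsDisc 𝒱 X)
    (h' : LocPkg 𝒱 χ hμ inv (X.dualTwist χ)) :
    PairEpi (LPL1 𝒱 inv (evPairing χ X).flip hX hμ) :=
  locEpi_retract 𝒱 inv (evPairing χ X).flip (evPairing χ (X.dualTwist χ)) (𝟙 _)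
    (bidualInv χ X) (bidual χ X) hX (isDisc_dualTwist 𝒱 χ hμ h'.disc) hμ
    (bidualInv_bidual χ X) (fun _ _ => rfl) h'.locEpi

/-- **(L-a), other orientation.** The right kernel of `H¹(X') × H¹(X) → k` is trivial. -/
theorem LocPkg.flip_right_kernel_H1 {X : Rep.{0} k H} [FiniteDimensional k X] (hX : IsDisc 𝒱 X)
    (h' : LocPkg 𝒱 χ hμ inv (X.dualTwist χ)) (x : H1 𝒱 X)
    (hx : ∀ y : H1 𝒱 (X.dualTwist χ),
      inv (cupH11 𝒱 (evPairing χ X).flip hX hμ y x) = 0) : x = 0 :=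
  PairEpi.right_kernel (LocPkg.flip_locEpi 𝒱 χ hμ inv hX h') x hx

/-- **(L-b)** The flipped pairing `H²(X') × H⁰(X) → k` has trivial left kernel. -/
theorem LocPkg.flip_locMono {X : Rep.{0} k H} [FiniteDimensional k X] (hX : IsDisc 𝒱 X)
    (h' : LocPkg 𝒱 χ hμ inv (X.dualTwist χ)) :
    PairMono (LPL2 𝒱 inv (evPairing χ X).flip hX hμ) :=
  locMono_retract 𝒱 inv (evPairing χ X).flip (evPairing χ (X.dualTwist χ)) (𝟙 _) (𝟙 _)
    (bidualInv χ X) hX (isDisc_dualTwist 𝒱 χ hμ h'.disc) hμ (fun _ => rfl)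
    (fun m n' => by
      have h := bidual_bidualInv χ X n'
      exact (LinearMap.congr_fun h m).symm) h'.locMono

/-- **(L-b), cochain form.**  A level 2-cocycle `z` with values in `X'` such that
`inv (z ∪ m) = 0` for every invariant `m ∈ X` is a level coboundary. -/
theorem LocPkg.mem_B2_of_flip {X : Rep.{0} k H} [FiniteDimensional k X] (hX : IsDisc 𝒱 X)
    (h' : LocPkg 𝒱 χ hμ inv (X.dualTwist χ)) {z : H × H → X.dualTwist χ}
    (hz : z ∈ Z2 𝒱 (X.dualTwist χ))
    (h0 : ∀ t : H0 X, inv (cupH20 𝒱 (evPairing χ X).flip hX hμ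
      (Submodule.Quotient.mk ⟨z, hz⟩) t) = 0) : z ∈ B2 𝒱 (X.dualTwist χ) := by
  have h1 := LocPkg.flip_locMono 𝒱 χ hμ inv hX h' (Submodule.Quotient.mk ⟨z, hz⟩) h0
  rw [Submodule.Quotient.mk_eq_zero] at h1
  exact h1

/-- **(L-b) for `X` itself, cochain form.**  A level 2-cocycle `z` with values in `X` such that
`inv (z ∪ f) = 0` for every invariant `f ∈ X'` is a level coboundary. -/
theorem LocPkg.mem_B2 {X : Rep.{0} k H} (h : LocPkg 𝒱 χ hμ inv X) {z : H × H → X}
    (hz : z ∈ Z2 𝒱 X)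
    (h0 : ∀ t : H0 (X.dualTwist χ), inv (cupH20 𝒱 (evPairing χ X)
      (isDisc_dualTwist 𝒱 χ hμ h.disc) hμ (Submodule.Quotient.mk ⟨z, hz⟩) t) = 0) :
    z ∈ B2 𝒱 X := by
  have h1 := h.locMono (Submodule.Quotient.mk ⟨z, hz⟩) h0
  rw [Submodule.Quotient.mk_eq_zero] at h1
  exact h1

end LD

/-! ### Restricted forms: `X = Res_r N` with the restricted pairings -/

section Res

variable {k G H : Type} [Field k] [Group G] [Group H] (r : H →* G) (𝒱 : LevelFamily H)
  (χ : G →* kˣ) (hμ : IsDisc 𝒱 (muRep (χ.comp r)))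
  (inv : H2 𝒱 (muRep (χ.comp r)) →ₗ[k] k) (N : Rep.{0} k G)

/-- `H¹(Res N) × H¹(Res N') → k` (restricted evaluation pairing) is epi. -/
theorem res_locEpi (hN' : IsDisc 𝒱 (Rep.res r (N.dualTwist χ)))
    (h : LocPkg 𝒱 (χ.comp r) hμ inv (Rep.res r N)) :
    PairEpi (LPL1 𝒱 inv ((evPairing χ N).res r) hN' hμ) :=
  locEpi_retract 𝒱 inv ((evPairing χ N).res r) (evPairing (χ.comp r) (Rep.res r N)) (𝟙 _)
    (resDualTwistInv r χ N) (resDualTwistHom r χ N) hN'
    (isDisc_dualTwist 𝒱 (χ.comp r) hμ h.disc) hμ (fun _ => rfl) (fun _ _ => rfl) h.locEpi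

/-- `H²(Res N) × H⁰(Res N') → k` (restricted evaluation pairing) is mono. -/
theorem res_locMono (hN' : IsDisc 𝒱 (Rep.res r (N.dualTwist χ)))
    (h : LocPkg 𝒱 (χ.comp r) hμ inv (Rep.res r N)) :
    PairMono (LPL2 𝒱 inv ((evPairing χ N).res r) hN' hμ) :=
  locMono_retract 𝒱 inv ((evPairing χ N).res r) (evPairing (χ.comp r) (Rep.res r N)) (𝟙 _)
    (𝟙 _) (resDualTwistInv r χ N) hN'
    (isDisc_dualTwist 𝒱 (χ.comp r) hμ h.disc) hμ (fun _ => rfl) (fun _ _ => rfl) h.locMono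

variable [FiniteDimensional k N]

instance finiteDimensional_res_locFinal : FiniteDimensional k (Rep.res r N) :=
  inferInstanceAs (FiniteDimensional k N)

/-- `H¹(Res N') × H¹(Res N) → k` (flipped restricted pairing) is epi, from the local package
of the `H`-module `(Res N)^*(χ ∘ r)`. -/
theorem res_flip_locEpi (hN : IsDisc 𝒱 (Rep.res r N))
    (h' : LocPkg 𝒱 (χ.comp r) hμ inv ((Rep.res r N).dualTwist (χ.comp r))) :
    PairEpi (LPL1 𝒱 inv ((evPairing χ N).res r).flip hN hμ) :=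
  locEpi_retract 𝒱 inv ((evPairing χ N).res r).flip
    (evPairing (χ.comp r) ((Rep.res r N).dualTwist (χ.comp r))) (resDualTwistInv r χ N)
    (bidualInv (χ.comp r) (Rep.res r N)) (bidual (χ.comp r) (Rep.res r N)) hN
    (isDisc_dualTwist 𝒱 (χ.comp r) hμ h'.disc) hμ
    (bidualInv_bidual (χ.comp r) (Rep.res r N)) (fun _ _ => rfl) h'.locEpi

/-- `H²(Res N') × H⁰(Res N) → k` (flipped restricted pairing) is mono, from the local package
of the `H`-module `(Res N)^*(χ ∘ r)`. -/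
theorem res_flip_locMono (hN : IsDisc 𝒱 (Rep.res r N))
    (h' : LocPkg 𝒱 (χ.comp r) hμ inv ((Rep.res r N).dualTwist (χ.comp r))) :
    PairMono (LPL2 𝒱 inv ((evPairing χ N).res r).flip hN hμ) :=
  locMono_retract 𝒱 inv ((evPairing χ N).res r).flip
    (evPairing (χ.comp r) ((Rep.res r N).dualTwist (χ.comp r))) (resDualTwistHom r χ N)
    (resDualTwistInv r χ N) (bidualInv (χ.comp r) (Rep.res r N)) hN
    (isDisc_dualTwist 𝒱 (χ.comp r) hμ h'.disc) hμ (fun _ => rfl)
    (fun m n' => by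
      have h := bidual_bidualInv (χ.comp r) (Rep.res r N) n'
      exact (LinearMap.congr_fun h m).symm) h'.locMono

end Res

/-! ### Everything from the base case -/

section Final

variable {p : ℕ} [Fact p.Prime] {G H : Type} [Group G] [Group H] (r : H →* G)
  (𝒱 : LevelFamily H) (χ : G →* (ZMod p)ˣ) (hμ : IsDisc 𝒱 (muRep (χ.comp r)))
  (inv : H2 𝒱 (muRep (χ.comp r)) →ₗ[ZMod p] ZMod p)

/-- **Local duality for restricted modules from the base case** (LD-Q): for a finite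
`𝔽_p[G]`-module `N` whose restriction to `H` is discrete, the four local statements for the
restricted evaluation pairing and its flip. -/
theorem ld_res_of_base
    (h_base : ∀ U : Subgroup H, U.FiniteIndex → (∃ W ∈ 𝒱.sets, W ≤ U) →
      (∀ u ∈ U, (χ.comp r) u = 1) → ¬ p ∣ U.index →
      LocPkg 𝒱 (χ.comp r) hμ inv (M0 (ZMod p) U))
    (N : Rep.{0} (ZMod p) G) [FiniteDimensional (ZMod p) N] (hN : IsDisc 𝒱 (Rep.res r N))
    (hN' : IsDisc 𝒱 (Rep.res r (N.dualTwist χ))) :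
    PairEpi (LPL1 𝒱 inv ((evPairing χ N).res r) hN' hμ) ∧
    PairMono (LPL2 𝒱 inv ((evPairing χ N).res r) hN' hμ) ∧
    PairEpi (LPL1 𝒱 inv ((evPairing χ N).res r).flip hN hμ) ∧
    PairMono (LPL2 𝒱 inv ((evPairing χ N).res r).flip hN hμ) := by
  have h1 : LocPkg 𝒱 (χ.comp r) hμ inv (Rep.res r N) :=
    locPkg_of_base 𝒱 (χ.comp r) hμ inv h_base (Rep.res r N) hN
  have : Module.Finite (ZMod p) ((Rep.res r N).dualTwist (χ.comp r)) :=
    inferInstanceAs (Module.Finite (ZMod p) (Module.Dual (ZMod p) N))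
  have h2 : LocPkg 𝒱 (χ.comp r) hμ inv ((Rep.res r N).dualTwist (χ.comp r)) :=
    locPkg_of_base 𝒱 (χ.comp r) hμ inv h_base _ (isDisc_dualTwist 𝒱 (χ.comp r) hμ hN)
  exact ⟨res_locEpi r 𝒱 χ hμ inv N hN' h1, res_locMono r 𝒱 χ hμ inv N hN' h1,
    res_flip_locEpi r 𝒱 χ hμ inv N hN h2, res_flip_locMono r 𝒱 χ hμ inv N hN h2⟩

end Final

end Fermat.Agent.S55.Abs
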