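import Mathlib

/-!
# Low-degree cup products on inhomogeneous cochains

Mathlib has no cup product on group cohomology.  This file provides the cup product on
inhomogeneous cochains in the low-degree shapes of
`Mathlib.RepresentationTheory.Homological.GroupCohomology.LowDegree`
(`A`, `G → A`, `G × G → A`, `G × G × G → A`) for an equivariant bilinear pairing
`φ : A →ₗ[k] B →ₗ[k] C`, together with the Leibniz rule

  `d (x ∪ y) = dx ∪ y + (-1)^(deg x) • x ∪ dy`

in every bidegree of total degree at most `2` (so that the result has degree at most `3`).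
The "degree 3" factors `cup₀₃`, `cup₃₀` are plain value-level pairings, so no degree-4
differential is ever needed.
-/

set_option autoImplicit false

universe u

namespace Fermat.Agent.S55.Abs.CupLow

open groupCohomology

variable {k G : Type u} [CommRing k] [Group G] {A B C : Rep k G}

/-- Equivariance of a bilinear pairing of representations. -/
def Equivariant (φ : A →ₗ[k] B →ₗ[k] C) : Prop :=
  ∀ (g : G) (a : A) (b : B), φ (A.ρ g a) (B.ρ g b) = C.ρ g (φ a b)

variable (φ : A →ₗ[k] B →ₗ[k] C)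

/-- Cup product of a `0`-cochain and a `1`-cochain. -/
def cup₀₁ : A →ₗ[k] (G → B) →ₗ[k] (G → C) :=
  LinearMap.mk₂ k (fun a y g => φ a (y g))
    (fun a a' y => by funext g; simp)
    (fun c a y => by funext g; simp)
    (fun a y y' => by funext g; simp)
    (fun c a y => by funext g; simp)

/-- Cup product of a `1`-cochain and a `0`-cochain. -/
def cup₁₀ : (G → A) →ₗ[k] B →ₗ[k] (G → C) :=
  LinearMap.mk₂ k (fun x b g => φ (x g) (B.ρ g b))
    (fun x x' b => by funext g; simp)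
    (fun c x b => by funext g; simp)
    (fun x b b' => by funext g; simp)
    (fun c x b => by funext g; simp)

/-- Cup product of two `1`-cochains. -/
def cup₁₁ : (G → A) →ₗ[k] (G → B) →ₗ[k] (G × G → C) :=
  LinearMap.mk₂ k (fun x y p => φ (x p.1) (B.ρ p.1 (y p.2)))
    (fun x x' y => by funext p; simp)
    (fun c x y => by funext p; simp)
    (fun x y y' => by funext p; simp)
    (fun c x y => by funext p; simp)

/-- Cup product of a `0`-cochain and a `2`-cochain. -/
def cup₀₂ : A →ₗ[k] (G × G → B) →ₗ[k] (G × G → C) :=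
  LinearMap.mk₂ k (fun a y p => φ a (y p))
    (fun a a' y => by funext p; simp)
    (fun c a y => by funext p; simp)
    (fun a y y' => by funext p; simp)
    (fun c a y => by funext p; simp)

/-- Cup product of a `2`-cochain and a `0`-cochain. -/
def cup₂₀ : (G × G → A) →ₗ[k] B →ₗ[k] (G × G → C) :=
  LinearMap.mk₂ k (fun x b p => φ (x p) (B.ρ (p.1 * p.2) b))
    (fun x x' b => by funext p; simp)
    (fun c x b => by funext p; simp)
    (fun x b b' => by funext p; simp)
    (fun c x b => by funext p; simp)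

/-- Cup product of a `1`-cochain and a `2`-cochain. -/
def cup₁₂ : (G → A) →ₗ[k] (G × G → B) →ₗ[k] (G × G × G → C) :=
  LinearMap.mk₂ k (fun x y p => φ (x p.1) (B.ρ p.1 (y p.2)))
    (fun x x' y => by funext p; simp)
    (fun c x y => by funext p; simp)
    (fun x y y' => by funext p; simp)
    (fun c x y => by funext p; simp)

/-- Cup product of a `2`-cochain and a `1`-cochain. -/
def cup₂₁ : (G × G → A) →ₗ[k] (G → B) →ₗ[k] (G × G × G → C) :=
  LinearMap.mk₂ k (fun x y p => φ (x (p.1, p.2.1)) (B.ρ (p.1 * p.2.1) (y p.2.2)))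
    (fun x x' y => by funext p; simp)
    (fun c x y => by funext p; simp)
    (fun x y y' => by funext p; simp)
    (fun c x y => by funext p; simp)

/-- Cup product of a `0`-cochain and a `3`-cochain. -/
def cup₀₃ : A →ₗ[k] (G × G × G → B) →ₗ[k] (G × G × G → C) :=
  LinearMap.mk₂ k (fun a y p => φ a (y p))
    (fun a a' y => by funext p; simp)
    (fun c a y => by funext p; simp)
    (fun a y y' => by funext p; simp)
    (fun c a y => by funext p; simp)

/-- Cup product of a `3`-cochain and a `0`-cochain. -/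
def cup₃₀ : (G × G × G → A) →ₗ[k] B →ₗ[k] (G × G × G → C) :=
  LinearMap.mk₂ k (fun x b p => φ (x p) (B.ρ (p.1 * p.2.1 * p.2.2) b))
    (fun x x' b => by funext p; simp)
    (fun c x b => by funext p; simp)
    (fun x b b' => by funext p; simp)
    (fun c x b => by funext p; simp)

@[simp] theorem cup₀₁_apply (a : A) (y : G → B) (g : G) : cup₀₁ φ a y g = φ a (y g) := rfl

@[simp] theorem cup₁₀_apply (x : G → A) (b : B) (g : G) :
    cup₁₀ φ x b g = φ (x g) (B.ρ g b) := rfl

@[simp] theorem cup₁₁_apply (x : G → A) (y : G → B) (p : G × G) :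
    cup₁₁ φ x y p = φ (x p.1) (B.ρ p.1 (y p.2)) := rfl

@[simp] theorem cup₀₂_apply (a : A) (y : G × G → B) (p : G × G) :
    cup₀₂ φ a y p = φ a (y p) := rfl

@[simp] theorem cup₂₀_apply (x : G × G → A) (b : B) (p : G × G) :
    cup₂₀ φ x b p = φ (x p) (B.ρ (p.1 * p.2) b) := rfl

@[simp] theorem cup₁₂_apply (x : G → A) (y : G × G → B) (p : G × G × G) :
    cup₁₂ φ x y p = φ (x p.1) (B.ρ p.1 (y p.2)) := rfl

@[simp] theorem cup₂₁_apply (x : G × G → A) (y : G → B) (p : G × G × G) :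
    cup₂₁ φ x y p = φ (x (p.1, p.2.1)) (B.ρ (p.1 * p.2.1) (y p.2.2)) := rfl

@[simp] theorem cup₀₃_apply (a : A) (y : G × G × G → B) (p : G × G × G) :
    cup₀₃ φ a y p = φ a (y p) := rfl

@[simp] theorem cup₃₀_apply (x : G × G × G → A) (b : B) (p : G × G × G) :
    cup₃₀ φ x b p = φ (x p) (B.ρ (p.1 * p.2.1 * p.2.2) b) := rfl

variable {φ}

theorem Equivariant.apply_ρ (hφ : Equivariant φ) (g : G) (a : A) (b : B) :
    C.ρ g (φ a b) = φ (A.ρ g a) (B.ρ g b) := (hφ g a b).symm

/-! ### Leibniz rules -/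

/-- Leibniz rule in bidegree `(0, 0)`. -/
theorem d₀₁_pairing (hφ : Equivariant φ) (a : A) (b : B) :
    (d₀₁ C).hom (φ a b) = cup₁₀ φ ((d₀₁ A).hom a) b + cup₀₁ φ a ((d₀₁ B).hom b) := by
  funext g
  simp only [d₀₁_hom_apply, Pi.add_apply, cup₁₀_apply, cup₀₁_apply, map_sub, LinearMap.sub_apply,
    hφ.apply_ρ]
  abel

/-- Leibniz rule in bidegree `(1, 0)`. -/
theorem d₁₂_cup₁₀ (hφ : Equivariant φ) (x : G → A) (b : B) :
    (d₁₂ C).hom (cup₁₀ φ x b) =
      cup₂₀ φ ((d₁₂ A).hom x) b - cup₁₁ φ x ((d₀₁ B).hom b) := by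
  funext ⟨g, h⟩
  simp only [d₁₂_hom_apply, d₀₁_hom_apply, Pi.sub_apply, cup₁₀_apply, cup₂₀_apply, cup₁₁_apply,
    map_sub, map_add, LinearMap.sub_apply, LinearMap.add_apply, hφ.apply_ρ, map_mul, Module.End.mul_apply]
  abel

/-- Leibniz rule in bidegree `(0, 1)`. -/
theorem d₁₂_cup₀₁ (hφ : Equivariant φ) (a : A) (y : G → B) :
    (d₁₂ C).hom (cup₀₁ φ a y) =
      cup₁₁ φ ((d₀₁ A).hom a) y + cup₀₂ φ a ((d₁₂ B).hom y) := by
  funext ⟨g, h⟩
  simp only [d₁₂_hom_apply, d₀₁_hom_apply, Pi.add_apply, cup₀₁_apply, cup₀₂_apply, cup₁₁_apply,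
    map_sub, map_add, LinearMap.sub_apply, hφ.apply_ρ]
  abel

/-- Leibniz rule in bidegree `(1, 1)`. -/
theorem d₂₃_cup₁₁ (hφ : Equivariant φ) (x : G → A) (y : G → B) :
    (d₂₃ C).hom (cup₁₁ φ x y) =
      cup₂₁ φ ((d₁₂ A).hom x) y - cup₁₂ φ x ((d₁₂ B).hom y) := by
  funext ⟨g, h, j⟩
  simp only [d₂₃_hom_apply, d₁₂_hom_apply, Pi.sub_apply, cup₁₁_apply, cup₂₁_apply, cup₁₂_apply,
    map_sub, map_add, LinearMap.sub_apply, LinearMap.add_apply, hφ.apply_ρ, map_mul, Module.End.mul_apply]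
  abel

/-- Leibniz rule in bidegree `(0, 2)`. -/
theorem d₂₃_cup₀₂ (hφ : Equivariant φ) (a : A) (y : G × G → B) :
    (d₂₃ C).hom (cup₀₂ φ a y) =
      cup₁₂ φ ((d₀₁ A).hom a) y + cup₀₃ φ a ((d₂₃ B).hom y) := by
  funext ⟨g, h, j⟩
  simp only [d₂₃_hom_apply, d₀₁_hom_apply, Pi.add_apply, cup₀₂_apply, cup₁₂_apply, cup₀₃_apply,
    map_sub, map_add, LinearMap.sub_apply, hφ.apply_ρ]
  abel

/-- Leibniz rule in bidegree `(2, 0)`. -/
theorem d₂₃_cup₂₀ (hφ : Equivariant φ) (x : G × G → A) (b : B) :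
    (d₂₃ C).hom (cup₂₀ φ x b) =
      cup₃₀ φ ((d₂₃ A).hom x) b + cup₂₁ φ x ((d₀₁ B).hom b) := by
  funext ⟨g, h, j⟩
  simp only [d₂₃_hom_apply, d₀₁_hom_apply, Pi.add_apply, cup₂₀_apply, cup₃₀_apply, cup₂₁_apply,
    map_sub, map_add, LinearMap.sub_apply, LinearMap.add_apply, hφ.apply_ρ, map_mul, Module.End.mul_apply,
    mul_assoc]
  abel

end Fermat.Agent.S55.Abs.CupLow
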