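import Fermat.Agent.S55.Abs.CupLow

/-!
# Cup products on the mapping cone of localisation (low degrees)

Generic datum: a "global" group `Γ`, a family of "local" groups `Γv v` with homomorphisms
`loc v : Γv v →* Γ`.  For `A : Rep k Γ` the cone cochains are

* degree `0`: `A`;
* degree `1`: `(Γ → A) × (ι → A)`;
* degree `2`: `(Γ × Γ → A) × (∀ v, Γv v → A)`;
* degree `3`: `(Γ × Γ × Γ → A) × (∀ v, Γv v × Γv v → A)`;

with differential `dc (a, b) = (d a, res a - d b)`.  For an equivariant pairing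
`φ : A × B → C` the cup product of a cone cochain `(a, b)` of `A` with a global cochain `y` of `B`
is `(a ∪ y, b ∪ res y)`; it satisfies the Leibniz rule
`dc (x ∪ y) = dc x ∪ y + (-1)^(deg x) • x ∪ d y`.

Everything is stated on raw cochains (no continuity / level conditions): these are the identities
from which pairings `H¹_c × H² → H³_c`, `H²_c × H¹ → H³_c` and their compatibility with connecting
homomorphisms follow.
-/

set_option autoImplicit false

universe u

namespace Fermat.Agent.S55.Abs.ConeCup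

open groupCohomology CupLow

variable {k : Type u} [CommRing k]

/-! ### Restriction of cochains along a group homomorphism -/

section Res

variable {G H : Type u} [Group G] [Group H] (f : H →* G) (A : Rep k G)

/-- Restriction of `1`-cochains. -/
def res₁ : (G → A) →ₗ[k] (H → Rep.res f A) where
  toFun x h := x (f h)
  map_add' _ _ := rfl
  map_smul' _ _ := rfl

/-- Restriction of `2`-cochains. -/
def res₂ : (G × G → A) →ₗ[k] (H × H → Rep.res f A) where
  toFun x p := x (f p.1, f p.2)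
  map_add' _ _ := rfl
  map_smul' _ _ := rfl

/-- Restriction of `3`-cochains. -/
def res₃ : (G × G × G → A) →ₗ[k] (H × H × H → Rep.res f A) where
  toFun x p := x (f p.1, f p.2.1, f p.2.2)
  map_add' _ _ := rfl
  map_smul' _ _ := rfl

@[simp] theorem res₁_apply (x : G → A) (h : H) : res₁ f A x h = x (f h) := rfl

@[simp] theorem res₂_apply (x : G × G → A) (p : H × H) : res₂ f A x p = x (f p.1, f p.2) := rfl

@[simp] theorem res₃_apply (x : G × G × G → A) (p : H × H × H) :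
    res₃ f A x p = x (f p.1, f p.2.1, f p.2.2) := rfl

theorem d₀₁_res (a : A) : (d₀₁ (Rep.res f A)).hom a = res₁ f A ((d₀₁ A).hom a) := rfl

theorem d₁₂_res (x : G → A) :
    (d₁₂ (Rep.res f A)).hom (res₁ f A x) = res₂ f A ((d₁₂ A).hom x) := by
  funext ⟨g, h⟩
  simp only [d₁₂_hom_apply, res₁_apply, res₂_apply, map_mul]
  rfl

theorem d₂₃_res (x : G × G → A) :
    (d₂₃ (Rep.res f A)).hom (res₂ f A x) = res₃ f A ((d₂₃ A).hom x) := by
  funext ⟨g, h, j⟩
  simp only [d₂₃_hom_apply, res₂_apply, res₃_apply, map_mul]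
  rfl

variable {A} {B C : Rep k G}

/-- A pairing of representations of `G`, viewed as a pairing of the restricted
representations. -/
def resPairing (φ : A →ₗ[k] B →ₗ[k] C) : Rep.res f A →ₗ[k] Rep.res f B →ₗ[k] Rep.res f C := φ

@[simp] theorem resPairing_apply (φ : A →ₗ[k] B →ₗ[k] C) (a : A) (b : B) :
    resPairing f φ a b = φ a b := rfl

theorem equivariant_resPairing {φ : A →ₗ[k] B →ₗ[k] C} (hφ : Equivariant φ) :
    Equivariant (resPairing f φ) := fun h a b => hφ (f h) a b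

variable (φ : A →ₗ[k] B →ₗ[k] C)

theorem cup₀₁_res (a : A) (y : G → B) :
    cup₀₁ (resPairing f φ) a (res₁ f B y) = res₁ f C (cup₀₁ φ a y) := rfl

theorem cup₁₀_res (x : G → A) (b : B) :
    cup₁₀ (resPairing f φ) (res₁ f A x) b = res₁ f C (cup₁₀ φ x b) := rfl

theorem cup₁₁_res (x : G → A) (y : G → B) :
    cup₁₁ (resPairing f φ) (res₁ f A x) (res₁ f B y) = res₂ f C (cup₁₁ φ x y) := rfl

theorem cup₀₂_res (a : A) (y : G × G → B) :
    cup₀₂ (resPairing f φ) a (res₂ f B y) = res₂ f C (cup₀₂ φ a y) := rfl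

theorem cup₂₀_res (x : G × G → A) (b : B) :
    cup₂₀ (resPairing f φ) (res₂ f A x) b = res₂ f C (cup₂₀ φ x b) := by
  funext p
  show φ (x (f p.1, f p.2)) (B.ρ (f (p.1 * p.2)) b) =
    φ (x (f p.1, f p.2)) (B.ρ (f p.1 * f p.2) b)
  rw [map_mul]

end Res

/-! ### The cone -/

section Cone

variable {Γ : Type u} [Group Γ] {ι : Type*} {Γv : ι → Type u} [∀ v, Group (Γv v)]
  (loc : ∀ v, Γv v →* Γ)

/-- Cone cochains of degree `1`. -/
abbrev Cone₁ (ι : Type*) (A : Rep k Γ) : Type _ := (Γ → A) × (ι → A)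

/-- Cone cochains of degree `2`. -/
abbrev Cone₂ (Γv : ι → Type u) (A : Rep k Γ) : Type _ := (Γ × Γ → A) × (∀ v, Γv v → A)

/-- Cone cochains of degree `3`. -/
abbrev Cone₃ (Γv : ι → Type u) (A : Rep k Γ) : Type _ :=
  (Γ × Γ × Γ → A) × (∀ v, Γv v × Γv v → A)

variable (A : Rep k Γ)

/-- The cone differential in degree `0`. -/
def dc₀ : A →ₗ[k] Cone₁ ι A where
  toFun m := ((d₀₁ A).hom m, fun _ => m)
  map_add' x y := Prod.ext (map_add (d₀₁ A).hom x y) rfl
  map_smul' c x := Prod.ext (map_smul (d₀₁ A).hom c x) rfl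

/-- The cone differential in degree `1`. -/
def dc₁ : Cone₁ ι A →ₗ[k] Cone₂ Γv A where
  toFun x := ((d₁₂ A).hom x.1,
    fun v => res₁ (loc v) A x.1 - (d₀₁ (Rep.res (loc v) A)).hom (x.2 v))
  map_add' x y := by
    refine Prod.ext ?_ ?_
    · simp
    · funext v
      simp only [Prod.fst_add, Prod.snd_add, Pi.add_apply, map_add]
      abel
  map_smul' c x := by
    refine Prod.ext ?_ ?_
    · simp
    · funext v
      simp only [Prod.smul_fst, Prod.smul_snd, Pi.smul_apply, map_smul, RingHom.id_apply, smul_sub]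

/-- The cone differential in degree `2`. -/
def dc₂ : Cone₂ Γv A →ₗ[k] Cone₃ Γv A where
  toFun x := ((d₂₃ A).hom x.1,
    fun v => res₂ (loc v) A x.1 - (d₁₂ (Rep.res (loc v) A)).hom (x.2 v))
  map_add' x y := by
    refine Prod.ext ?_ ?_
    · simp
    · funext v
      simp only [Prod.fst_add, Prod.snd_add, Pi.add_apply, map_add]
      abel
  map_smul' c x := by
    refine Prod.ext ?_ ?_
    · simp
    · funext v
      simp only [Prod.smul_fst, Prod.smul_snd, Pi.smul_apply, map_smul, RingHom.id_apply, smul_sub]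

@[simp] theorem dc₀_fst (m : A) : (dc₀ (ι := ι) A m).1 = (d₀₁ A).hom m := rfl

@[simp] theorem dc₀_snd (m : A) (v : ι) : (dc₀ (ι := ι) A m).2 v = m := rfl

@[simp] theorem dc₁_fst (x : Cone₁ ι A) : (dc₁ loc A x).1 = (d₁₂ A).hom x.1 := rfl

@[simp] theorem dc₁_snd (x : Cone₁ ι A) (v : ι) :
    (dc₁ loc A x).2 v = res₁ (loc v) A x.1 - (d₀₁ (Rep.res (loc v) A)).hom (x.2 v) := rfl

@[simp] theorem dc₂_fst (x : Cone₂ Γv A) : (dc₂ loc A x).1 = (d₂₃ A).hom x.1 := rfl

@[simp] theorem dc₂_snd (x : Cone₂ Γv A) (v : ι) :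
    (dc₂ loc A x).2 v = res₂ (loc v) A x.1 - (d₁₂ (Rep.res (loc v) A)).hom (x.2 v) := rfl

theorem dc₁_dc₀ (m : A) : dc₁ loc A (dc₀ A m) = 0 := by
  refine Prod.ext ?_ ?_
  · exact congrArg (fun f => f.hom m) (d₀₁_comp_d₁₂ A)
  · funext v
    exact sub_eq_zero.mpr (d₀₁_res (loc v) A m).symm

theorem dc₂_dc₁ (x : Cone₁ ι A) : dc₂ loc A (dc₁ loc A x) = 0 := by
  refine Prod.ext ?_ ?_
  · exact congrArg (fun f => f.hom x.1) (d₁₂_comp_d₂₃ A)
  · funext v
    have h := congrArg (fun f => f.hom (x.2 v)) (d₀₁_comp_d₁₂ (Rep.res (loc v) A))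
    simp only [ModuleCat.hom_comp, LinearMap.comp_apply] at h
    simp only [dc₂_snd, dc₁_fst, dc₁_snd, map_sub]
    rw [h, d₁₂_res]
    simp

/-! ### Cup products of cone cochains with global cochains -/

variable {A} {B C : Rep k Γ} (φ : A →ₗ[k] B →ₗ[k] C)

/-- Cup product of a `0`-cochain with a global `2`-cochain, as a cone `2`-cochain. -/
def cupc₀₂ : A →ₗ[k] (Γ × Γ → B) →ₗ[k] Cone₂ Γv C :=
  LinearMap.mk₂ k (fun a y => (cup₀₂ φ a y, 0))
    (fun a a' y => by simp)
    (fun c a y => by simp)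
    (fun a y y' => by simp)
    (fun c a y => by simp)

/-- Cup product of a `0`-cochain with a global `3`-cochain, as a cone `3`-cochain. -/
def cupc₀₃ : A →ₗ[k] (Γ × Γ × Γ → B) →ₗ[k] Cone₃ Γv C :=
  LinearMap.mk₂ k (fun a y => (cup₀₃ φ a y, 0))
    (fun a a' y => by simp)
    (fun c a y => by simp)
    (fun a y y' => by simp)
    (fun c a y => by simp)

/-- Cup product of a cone `1`-cochain with a global `1`-cochain. -/
def cupc₁₁ : Cone₁ ι A →ₗ[k] (Γ → B) →ₗ[k] Cone₂ Γv C :=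
  LinearMap.mk₂ k
    (fun x y => (cup₁₁ φ x.1 y,
      fun v => cup₀₁ (resPairing (loc v) φ) (x.2 v) (res₁ (loc v) B y)))
    (fun x x' y => by
      refine Prod.ext (by simp) ?_
      funext v
      simp only [Prod.snd_add, Pi.add_apply, map_add, LinearMap.add_apply])
    (fun c x y => by
      refine Prod.ext (by simp) ?_
      funext v
      simp only [Prod.smul_snd, Pi.smul_apply, map_smul, LinearMap.smul_apply])
    (fun x y y' => by
      refine Prod.ext (by simp) ?_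
      funext v
      simp only [Prod.snd_add, Pi.add_apply, map_add])
    (fun c x y => by
      refine Prod.ext (by simp) ?_
      funext v
      simp only [Prod.smul_snd, Pi.smul_apply, map_smul])

/-- Cup product of a cone `1`-cochain with a global `2`-cochain. -/
def cupc₁₂ : Cone₁ ι A →ₗ[k] (Γ × Γ → B) →ₗ[k] Cone₃ Γv C :=
  LinearMap.mk₂ k
    (fun x y => (cup₁₂ φ x.1 y,
      fun v => cup₀₂ (resPairing (loc v) φ) (x.2 v) (res₂ (loc v) B y)))
    (fun x x' y => by
      refine Prod.ext (by simp) ?_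
      funext v
      simp only [Prod.snd_add, Pi.add_apply, map_add, LinearMap.add_apply])
    (fun c x y => by
      refine Prod.ext (by simp) ?_
      funext v
      simp only [Prod.smul_snd, Pi.smul_apply, map_smul, LinearMap.smul_apply])
    (fun x y y' => by
      refine Prod.ext (by simp) ?_
      funext v
      simp only [Prod.snd_add, Pi.add_apply, map_add])
    (fun c x y => by
      refine Prod.ext (by simp) ?_
      funext v
      simp only [Prod.smul_snd, Pi.smul_apply, map_smul])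

/-- Cup product of a cone `2`-cochain with a global `0`-cochain. -/
def cupc₂₀ : Cone₂ Γv A →ₗ[k] B →ₗ[k] Cone₂ Γv C :=
  LinearMap.mk₂ k
    (fun x b => (cup₂₀ φ x.1 b,
      fun v => cup₁₀ (resPairing (loc v) φ) (x.2 v) b))
    (fun x x' b => by
      refine Prod.ext (by simp) ?_
      funext v
      simp only [Prod.snd_add, Pi.add_apply, map_add, LinearMap.add_apply])
    (fun c x b => by
      refine Prod.ext (by simp) ?_
      funext v
      simp only [Prod.smul_snd, Pi.smul_apply, map_smul, LinearMap.smul_apply])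
    (fun x b b' => by
      refine Prod.ext (by simp) ?_
      funext v
      simp only [Prod.snd_add, Pi.add_apply, map_add])
    (fun c x b => by
      refine Prod.ext (by simp) ?_
      funext v
      simp only [Prod.smul_snd, Pi.smul_apply, map_smul])

/-- Cup product of a cone `2`-cochain with a global `1`-cochain. -/
def cupc₂₁ : Cone₂ Γv A →ₗ[k] (Γ → B) →ₗ[k] Cone₃ Γv C :=
  LinearMap.mk₂ k
    (fun x y => (cup₂₁ φ x.1 y,
      fun v => cup₁₁ (resPairing (loc v) φ) (x.2 v) (res₁ (loc v) B y)))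
    (fun x x' y => by
      refine Prod.ext (by simp) ?_
      funext v
      simp only [Prod.snd_add, Pi.add_apply, map_add, LinearMap.add_apply])
    (fun c x y => by
      refine Prod.ext (by simp) ?_
      funext v
      simp only [Prod.smul_snd, Pi.smul_apply, map_smul, LinearMap.smul_apply])
    (fun x y y' => by
      refine Prod.ext (by simp) ?_
      funext v
      simp only [Prod.snd_add, Pi.add_apply, map_add])
    (fun c x y => by
      refine Prod.ext (by simp) ?_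
      funext v
      simp only [Prod.smul_snd, Pi.smul_apply, map_smul])

/-- Cup product of a cone `3`-cochain with a global `0`-cochain. -/
def cupc₃₀ : Cone₃ Γv A →ₗ[k] B →ₗ[k] Cone₃ Γv C :=
  LinearMap.mk₂ k
    (fun x b => (cup₃₀ φ x.1 b,
      fun v => cup₂₀ (resPairing (loc v) φ) (x.2 v) b))
    (fun x x' b => by
      refine Prod.ext (by simp) ?_
      funext v
      simp only [Prod.snd_add, Pi.add_apply, map_add, LinearMap.add_apply])
    (fun c x b => by
      refine Prod.ext (by simp) ?_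
      funext v
      simp only [Prod.smul_snd, Pi.smul_apply, map_smul, LinearMap.smul_apply])
    (fun x b b' => by
      refine Prod.ext (by simp) ?_
      funext v
      simp only [Prod.snd_add, Pi.add_apply, map_add])
    (fun c x b => by
      refine Prod.ext (by simp) ?_
      funext v
      simp only [Prod.smul_snd, Pi.smul_apply, map_smul])

omit [∀ v, Group (Γv v)] in
@[simp] theorem cupc₀₂_fst (a : A) (y : Γ × Γ → B) :
    (cupc₀₂ (Γv := Γv) φ a y).1 = cup₀₂ φ a y := rfl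

omit [∀ v, Group (Γv v)] in
@[simp] theorem cupc₀₂_snd (a : A) (y : Γ × Γ → B) : (cupc₀₂ (Γv := Γv) φ a y).2 = 0 := rfl

omit [∀ v, Group (Γv v)] in
@[simp] theorem cupc₀₃_fst (a : A) (y : Γ × Γ × Γ → B) :
    (cupc₀₃ (Γv := Γv) φ a y).1 = cup₀₃ φ a y := rfl

omit [∀ v, Group (Γv v)] in
@[simp] theorem cupc₀₃_snd (a : A) (y : Γ × Γ × Γ → B) : (cupc₀₃ (Γv := Γv) φ a y).2 = 0 := rfl

@[simp] theorem cupc₁₁_fst (x : Cone₁ ι A) (y : Γ → B) :
    (cupc₁₁ loc φ x y).1 = cup₁₁ φ x.1 y := rfl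

@[simp] theorem cupc₁₁_snd (x : Cone₁ ι A) (y : Γ → B) (v : ι) :
    (cupc₁₁ loc φ x y).2 v = cup₀₁ (resPairing (loc v) φ) (x.2 v) (res₁ (loc v) B y) := rfl

@[simp] theorem cupc₁₂_fst (x : Cone₁ ι A) (y : Γ × Γ → B) :
    (cupc₁₂ loc φ x y).1 = cup₁₂ φ x.1 y := rfl

@[simp] theorem cupc₁₂_snd (x : Cone₁ ι A) (y : Γ × Γ → B) (v : ι) :
    (cupc₁₂ loc φ x y).2 v = cup₀₂ (resPairing (loc v) φ) (x.2 v) (res₂ (loc v) B y) := rfl

@[simp] theorem cupc₂₀_fst (x : Cone₂ Γv A) (b : B) :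
    (cupc₂₀ loc φ x b).1 = cup₂₀ φ x.1 b := rfl

@[simp] theorem cupc₂₀_snd (x : Cone₂ Γv A) (b : B) (v : ι) :
    (cupc₂₀ loc φ x b).2 v = cup₁₀ (resPairing (loc v) φ) (x.2 v) b := rfl

@[simp] theorem cupc₂₁_fst (x : Cone₂ Γv A) (y : Γ → B) :
    (cupc₂₁ loc φ x y).1 = cup₂₁ φ x.1 y := rfl

@[simp] theorem cupc₂₁_snd (x : Cone₂ Γv A) (y : Γ → B) (v : ι) :
    (cupc₂₁ loc φ x y).2 v = cup₁₁ (resPairing (loc v) φ) (x.2 v) (res₁ (loc v) B y) := rfl

@[simp] theorem cupc₃₀_fst (x : Cone₃ Γv A) (b : B) :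
    (cupc₃₀ loc φ x b).1 = cup₃₀ φ x.1 b := rfl

@[simp] theorem cupc₃₀_snd (x : Cone₃ Γv A) (b : B) (v : ι) :
    (cupc₃₀ loc φ x b).2 v = cup₂₀ (resPairing (loc v) φ) (x.2 v) b := rfl

variable {φ}

/-! ### Leibniz rules on the cone -/

/-- Cone Leibniz rule, cone degree `0` with global degree `2`. -/
theorem dc₂_cupc₀₂ (hφ : Equivariant φ) (a : A) (y : Γ × Γ → B) :
    dc₂ loc C (cupc₀₂ φ a y) =
      cupc₁₂ loc φ (dc₀ A a) y + cupc₀₃ φ a ((d₂₃ B).hom y) := by
  refine Prod.ext ?_ ?_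
  · simp only [dc₂_fst, cupc₀₂_fst, Prod.fst_add, cupc₁₂_fst, dc₀_fst, cupc₀₃_fst]
    exact d₂₃_cup₀₂ hφ a y
  · funext v
    simp only [dc₂_snd, cupc₀₂_fst, cupc₀₂_snd, Prod.snd_add, cupc₁₂_snd, dc₀_snd, cupc₀₃_snd,
      Pi.add_apply]
    rw [Pi.zero_apply, Pi.zero_apply, map_zero, sub_zero, add_zero, cup₀₂_res]

/-- Cone Leibniz rule, cone degree `1` with global degree `1`. -/
theorem dc₂_cupc₁₁ (hφ : Equivariant φ) (x : Cone₁ ι A) (y : Γ → B) :
    dc₂ loc C (cupc₁₁ loc φ x y) =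
      cupc₂₁ loc φ (dc₁ loc A x) y - cupc₁₂ loc φ x ((d₁₂ B).hom y) := by
  refine Prod.ext ?_ ?_
  · simp only [dc₂_fst, cupc₁₁_fst, Prod.fst_sub, cupc₂₁_fst, dc₁_fst, cupc₁₂_fst]
    exact d₂₃_cup₁₁ hφ x.1 y
  · funext v
    simp only [dc₂_snd, cupc₁₁_fst, cupc₁₁_snd, Prod.snd_sub, cupc₂₁_snd, dc₁_snd, cupc₁₂_snd,
      Pi.sub_apply, map_sub, LinearMap.sub_apply]
    rw [d₁₂_cup₀₁ (equivariant_resPairing (loc v) hφ), ← cup₁₁_res, d₁₂_res]
    abel

/-- Cone Leibniz rule, cone degree `2` with global degree `0`. -/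
theorem dc₂_cupc₂₀ (hφ : Equivariant φ) (x : Cone₂ Γv A) (b : B) :
    dc₂ loc C (cupc₂₀ loc φ x b) =
      cupc₃₀ loc φ (dc₂ loc A x) b + cupc₂₁ loc φ x ((d₀₁ B).hom b) := by
  refine Prod.ext ?_ ?_
  · simp only [dc₂_fst, cupc₂₀_fst, Prod.fst_add, cupc₃₀_fst, cupc₂₁_fst]
    exact d₂₃_cup₂₀ hφ x.1 b
  · funext v
    simp only [dc₂_snd, cupc₂₀_fst, cupc₂₀_snd, Prod.snd_add, cupc₃₀_snd, cupc₂₁_snd,
      Pi.add_apply, map_sub, LinearMap.sub_apply]
    rw [d₁₂_cup₁₀ (equivariant_resPairing (loc v) hφ), ← cup₂₀_res, d₀₁_res]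
    abel

/-! ### Consequences for (co)cycles: the shapes used to define pairings on cohomology -/

/-- `H¹_c × H² → H³_c` is well defined in the first variable. -/
theorem cupc₁₂_dc₀ (hφ : Equivariant φ) (m : A) (y : Γ × Γ → B) (hy : (d₂₃ B).hom y = 0) :
    cupc₁₂ loc φ (dc₀ A m) y = dc₂ loc C (cupc₀₂ φ m y) := by
  rw [dc₂_cupc₀₂ loc hφ, hy, map_zero, add_zero]

/-- `H¹_c × H² → H³_c` is well defined in the second variable. -/
theorem cupc₁₂_d₁₂ (hφ : Equivariant φ) (x : Cone₁ ι A) (hx : dc₁ loc A x = 0) (y : Γ → B) :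
    cupc₁₂ loc φ x ((d₁₂ B).hom y) = - dc₂ loc C (cupc₁₁ loc φ x y) := by
  rw [dc₂_cupc₁₁ loc hφ, hx, map_zero, LinearMap.zero_apply, zero_sub, neg_neg]

/-- `H²_c × H¹ → H³_c` is well defined in the first variable. -/
theorem cupc₂₁_dc₁ (hφ : Equivariant φ) (x : Cone₁ ι A) (y : Γ → B) (hy : (d₁₂ B).hom y = 0) :
    cupc₂₁ loc φ (dc₁ loc A x) y = dc₂ loc C (cupc₁₁ loc φ x y) := by
  rw [dc₂_cupc₁₁ loc hφ, hy, map_zero, sub_zero]

/-- `H²_c × H¹ → H³_c` is well defined in the second variable. -/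
theorem cupc₂₁_d₀₁ (hφ : Equivariant φ) (x : Cone₂ Γv A) (hx : dc₂ loc A x = 0) (b : B) :
    cupc₂₁ loc φ x ((d₀₁ B).hom b) = dc₂ loc C (cupc₂₀ loc φ x b) := by
  rw [dc₂_cupc₂₀ loc hφ, hx, map_zero, LinearMap.zero_apply, zero_add]

/-- The identity behind `⟨δ x, y⟩ = ⟨x, δ y⟩` for connecting homomorphisms. -/
theorem cupc₂₁_dc₁_sub_cupc₁₂_d₁₂ (hφ : Equivariant φ) (x : Cone₁ ι A) (y : Γ → B) :
    cupc₂₁ loc φ (dc₁ loc A x) y - cupc₁₂ loc φ x ((d₁₂ B).hom y) =
      dc₂ loc C (cupc₁₁ loc φ x y) :=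
  (dc₂_cupc₁₁ loc hφ x y).symm

end Cone

end Fermat.Agent.S55.Abs.ConeCup
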