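import Mathlib
import Fermat.Agent.S55.Abs.Devissage

/-!
# S55 / abstract layer: the induced envelope

Second dévissage step (for the class `A2epi`): every finite `𝔽_p[G]`-module `B` trivial on the
normal finite-index subgroup `N` embeds into its *induced envelope*
`I = coind_N^G res_N B`, and `I` is an iterated **split** extension of copies of the base module
`coind_N^G 𝔽_p`.  Hence any property `Q` which holds for zero modules, for `coind_N^G 𝔽_p`, and
is closed under split extensions (among finite modules trivial on `N`) holds for `I`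
(`envelope_induction`), and `0 → B → I → I/B → 0` is an elementary short exact sequence of
finite modules trivial on `N` (`exists_envelope`).
-/

set_option autoImplicit false

open CategoryTheory

namespace Fermat.Agent.S55.Abs.Devissage

variable {p : ℕ} [Fact p.Prime]
variable {G : Type} [Group G]

section CMap

variable (N : Subgroup G) {V V' V'' : Type} [AddCommGroup V] [Module (ZMod p) V]
  [AddCommGroup V'] [Module (ZMod p) V'] [AddCommGroup V''] [Module (ZMod p) V'']

/-- `coind_N^G` of the trivial `N`-module on a vector space `V`. -/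
noncomputable abbrev coindTriv (V : Type) [AddCommGroup V] [Module (ZMod p) V] :
    Rep.{0} (ZMod p) G :=
  Rep.coind N.subtype (Rep.trivial (ZMod p) N V)

/-- The map `coind_N^G V ⟶ coind_N^G V'` induced by a linear map `V → V'`. -/
noncomputable def cmap (φ : V →ₗ[ZMod p] V') : coindTriv (p := p) N V ⟶ coindTriv (p := p) N V' :=
  Rep.coindMap N.subtype (Rep.ofHom (LinearMap.intertwiningMap_of_isIntertwiningMap
    (Representation.trivial (ZMod p) N V) (Representation.trivial (ZMod p) N V') φ
    (fun _ _ => rfl)))

lemma cmap_apply (φ : V →ₗ[ZMod p] V') (x : coindTriv (p := p) N V) (h : G) :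
    ((cmap N φ).hom x).1 h = φ (x.1 h) := rfl

lemma cmap_comp (φ : V →ₗ[ZMod p] V') (ψ : V' →ₗ[ZMod p] V'') :
    cmap N φ ≫ cmap N ψ = cmap N (ψ ∘ₗ φ) := by
  apply Rep.hom_ext
  apply Representation.IntertwiningMap.ext
  apply LinearMap.ext
  intro x
  apply Subtype.ext
  funext h
  rfl

lemma cmap_id : cmap N (LinearMap.id : V →ₗ[ZMod p] V) = 𝟙 (coindTriv (p := p) N V) := by
  apply Rep.hom_ext
  apply Representation.IntertwiningMap.ext
  apply LinearMap.ext
  intro x
  apply Subtype.ext
  funext h
  rfl

lemma cmap_zero : cmap N (0 : V →ₗ[ZMod p] V') = 0 := by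
  apply Rep.hom_ext
  apply Representation.IntertwiningMap.ext
  apply LinearMap.ext
  intro x
  apply Subtype.ext
  funext h
  rfl

lemma cmap_add (φ ψ : V →ₗ[ZMod p] V') : cmap N (φ + ψ) = cmap N φ + cmap N ψ := by
  apply Rep.hom_ext
  apply Representation.IntertwiningMap.ext
  apply LinearMap.ext
  intro x
  apply Subtype.ext
  funext h
  rfl

end CMap

section Envelope

variable (N : Subgroup G) [N.Normal] [N.FiniteIndex]

lemma coindTriv_level (V : Type) [AddCommGroup V] [Module (ZMod p) V] [Module.Finite (ZMod p) V] :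
    Level p N (coindTriv (p := p) N V) :=
  coind_level N _ N le_rfl (fun _ _ => rfl)

/-- **Induced-envelope induction**: `Q` holds for `coind_N^G V` for every finite trivial
`N`-module `V`, if it holds for zero modules and the base module and is closed under split
extensions. -/
theorem coindTriv_induction (Q : Rep.{0} (ZMod p) G → Prop)
    (h_zero : ∀ A : Rep.{0} (ZMod p) G, Subsingleton A → Q A)
    (h_split : ∀ (A B C : Rep.{0} (ZMod p) G) (f : A ⟶ B) (g : B ⟶ C) (r : B ⟶ A) (s : C ⟶ B),
      f ≫ r = 𝟙 A → s ≫ g = 𝟙 C → f ≫ g = 0 → s ≫ r = 0 → r ≫ f + g ≫ s = 𝟙 B →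
      Level p N A → Level p N B → Level p N C → Q A → Q C → Q B)
    (h_base : Q (coindTriv (p := p) N (ZMod p))) :
    ∀ (d : ℕ) (V : Type) [AddCommGroup V] [Module (ZMod p) V] [Module.Finite (ZMod p) V],
      Module.finrank (ZMod p) V = d → Q (coindTriv (p := p) N V) := by
  intro d
  induction d with
  | zero =>
    intro V _ _ _ hd
    have hsub : ∀ x : V, x = 0 := finrank_zero_iff_forall_zero.1 hd
    apply h_zero
    refine ⟨fun f f' => ?_⟩
    apply Subtype.ext
    funext g
    exact (hsub _).trans (hsub _).symm
  | succ d ih =>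
    intro V _ _ _ hd
    have hnt : Nontrivial V := by
      apply Module.nontrivial_of_finrank_pos (R := ZMod p)
      rw [hd]; exact Nat.succ_pos d
    obtain ⟨v, hv0⟩ := exists_ne (0 : V)
    have hinj : LinearMap.ker (LinearMap.toSpanSingleton (ZMod p) V v) = ⊥ := by
      rw [LinearMap.ker_eq_bot]
      exact smul_left_injective (ZMod p) hv0
    obtain ⟨r, hr⟩ := LinearMap.exists_leftInverse_of_injective _ hinj
    have hrv : r v = 1 := by
      have := congrArg (fun φ : ZMod p →ₗ[ZMod p] ZMod p => φ 1) hr
      simpa using this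
    let f : ZMod p →ₗ[ZMod p] V := LinearMap.toSpanSingleton (ZMod p) V v
    let W : Submodule (ZMod p) V := LinearMap.ker r
    let g : V →ₗ[ZMod p] W := LinearMap.codRestrict W (LinearMap.id - f ∘ₗ r) (fun a => by
      show r (a - r a • v) = 0
      rw [map_sub, map_smul, hrv, smul_eq_mul, mul_one, sub_self])
    have hg : ∀ a, (g a : V) = a - r a • v := fun a => rfl
    have hdW : Module.finrank (ZMod p) W = d := by
      have h1 := LinearMap.finrank_range_add_finrank_ker r
      have h2 : LinearMap.range r = ⊤ := by
        rw [LinearMap.range_eq_top]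
        intro c
        exact ⟨c • v, by rw [map_smul, hrv, smul_eq_mul, mul_one]⟩
      rw [h2, finrank_top, Module.finrank_self, hd] at h1
      show Module.finrank (ZMod p) (LinearMap.ker r) = d
      omega
    refine h_split _ _ _ (cmap N f) (cmap N g) (cmap N r) (cmap N W.subtype) ?_ ?_ ?_ ?_ ?_
      (coindTriv_level N _) (coindTriv_level N _) (coindTriv_level N _) h_base (ih W hdW)
    · rw [cmap_comp, ← cmap_id]
      congr 1
    · rw [cmap_comp, ← cmap_id]
      congr 1
      apply LinearMap.ext
      intro w
      apply Subtype.ext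
      show (w : V) - r (w : V) • v = w
      rw [LinearMap.mem_ker.1 w.2, zero_smul, sub_zero]
    · rw [cmap_comp, ← cmap_zero]
      congr 1
      apply LinearMap.ext
      intro c
      apply Subtype.ext
      show c • v - r (c • v) • v = 0
      rw [map_smul, hrv, smul_eq_mul, mul_one, sub_self]
    · rw [cmap_comp, ← cmap_zero]
      congr 1
      apply LinearMap.ext
      intro w
      exact LinearMap.mem_ker.1 w.2
    · rw [cmap_comp, cmap_comp, ← cmap_add, ← cmap_id]
      congr 1
      apply LinearMap.ext
      intro a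
      show r a • v + (a - r a • v) = a
      abel

/-- The induced envelope `coind_N^G res_N B`. -/
noncomputable abbrev envelope (B : Rep.{0} (ZMod p) G) : Rep.{0} (ZMod p) G :=
  Rep.coind N.subtype (Rep.res N.subtype B)

omit [N.Normal] [N.FiniteIndex] in
lemma unitHom_injective (B : Rep.{0} (ZMod p) G) : Function.Injective (unitHom N B).hom := by
  intro m m' h
  have h1 := congrArg (fun z : envelope (p := p) N B => z.1 1) h
  have h2 : ∀ x : B, ((unitHom N B).hom x).1 1 = x := fun x => by
    rw [unitHom_apply, map_one]; rfl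
  have h3 : ((unitHom N B).hom m).1 1 = ((unitHom N B).hom m').1 1 := h1
  rwa [h2, h2] at h3

lemma envelope_level (B : Rep.{0} (ZMod p) G) (hB : Level p N B) :
    Level p N (envelope (p := p) N B) :=
  haveI : Module.Finite (ZMod p) (Rep.res N.subtype B) := hB.1
  coind_level N _ N le_rfl (fun u hu => hB.2 u hu)

omit [N.Normal] [N.FiniteIndex] in
lemma res_eq_trivial (B : Rep.{0} (ZMod p) G) (hB : ∀ n ∈ N, B.ρ n = LinearMap.id) :
    Rep.res N.subtype B = Rep.trivial (ZMod p) N B := by
  have : B.ρ.comp N.subtype = Representation.trivial (ZMod p) N B := by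
    ext n x
    show B.ρ (n : G) x = x
    rw [hB n n.2]; rfl
  show Rep.of (B.ρ.comp N.subtype) = Rep.of (Representation.trivial (ZMod p) N B)
  rw [this]

/-- `Q` holds for the induced envelope of every finite module trivial on `N`. -/
theorem envelope_induction (Q : Rep.{0} (ZMod p) G → Prop)
    (h_zero : ∀ A : Rep.{0} (ZMod p) G, Subsingleton A → Q A)
    (h_split : ∀ (A B C : Rep.{0} (ZMod p) G) (f : A ⟶ B) (g : B ⟶ C) (r : B ⟶ A) (s : C ⟶ B),
      f ≫ r = 𝟙 A → s ≫ g = 𝟙 C → f ≫ g = 0 → s ≫ r = 0 → r ≫ f + g ≫ s = 𝟙 B →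
      Level p N A → Level p N B → Level p N C → Q A → Q C → Q B)
    (h_base : Q (Rep.coind N.subtype (Rep.trivial (ZMod p) N (ZMod p))))
    (B : Rep.{0} (ZMod p) G) (hB : Level p N B) : Q (envelope (p := p) N B) := by
  haveI : Module.Finite (ZMod p) B := hB.1
  have := coindTriv_induction N Q h_zero h_split h_base _ B rfl
  show Q (Rep.coind N.subtype (Rep.res N.subtype B))
  rw [res_eq_trivial N B hB.2]
  exact this

section Coker

variable (B : Rep.{0} (ZMod p) G)

/-- The image of `B` in its envelope. -/
noncomputable def envRange : Submodule (ZMod p) (envelope (p := p) N B) :=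
  LinearMap.range (unitLin N B)

omit [N.Normal] [N.FiniteIndex] in
lemma unitHom_hom_apply (m : B) : (unitHom N B).hom m = unitLin N B m := rfl

omit [N.Normal] [N.FiniteIndex] in
lemma envRange_le_comap (g : G) :
    envRange N B ≤ (envRange N B).comap ((envelope (p := p) N B).ρ g) := by
  rintro _ ⟨m, rfl⟩
  refine ⟨B.ρ g m, ?_⟩
  rw [← unitHom_hom_apply, ← unitHom_hom_apply]
  exact Rep.hom_comm_apply (unitHom N B) g m

/-- The cokernel `I / B` of the unit `B ⟶ I = coind_N^G res_N B`. -/
noncomputable def envCoker : Rep.{0} (ZMod p) G :=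
  Rep.of ((envelope (p := p) N B).ρ.quotient (envRange N B) (envRange_le_comap N B))

/-- The projection `I ⟶ I / B`. -/
noncomputable def envProj : envelope (p := p) N B ⟶ envCoker N B :=
  Rep.ofHom (LinearMap.intertwiningMap_of_isIntertwiningMap (envelope (p := p) N B).ρ
    ((envelope (p := p) N B).ρ.quotient (envRange N B) (envRange_le_comap N B))
    (Submodule.mkQ (envRange N B)) (fun _ _ => rfl))

omit [N.Normal] [N.FiniteIndex] in
lemma envProj_apply (b : envelope (p := p) N B) :
    (envProj N B).hom b = Submodule.Quotient.mk b := rfl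

omit [N.Normal] [N.FiniteIndex] in
lemma envProj_surjective : Function.Surjective (envProj N B).hom :=
  Submodule.mkQ_surjective _

omit [N.Normal] [N.FiniteIndex] in
lemma envProj_eq_zero_iff (b : envelope (p := p) N B) :
    (envProj N B).hom b = 0 ↔ ∃ a, (unitHom N B).hom a = b := by
  have h1 : (envProj N B).hom b = 0 ↔ b ∈ envRange N B :=
    Submodule.Quotient.mk_eq_zero (envRange N B)
  rw [h1]
  rfl

lemma envCoker_level (hB : Level p N B) : Level p N (envCoker N B) := by
  obtain ⟨hfin, htriv⟩ := envelope_level N B hB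
  haveI := hfin
  refine ⟨inferInstanceAs (Module.Finite (ZMod p) (envelope (p := p) N B ⧸ envRange N B)), ?_⟩
  intro n hn
  apply LinearMap.ext
  intro x
  induction x using Submodule.Quotient.induction_on with
  | H a =>
    show Submodule.Quotient.mk ((envelope (p := p) N B).ρ n a) = Submodule.Quotient.mk a
    rw [htriv n hn]; rfl

end Coker

/-- **The induced envelope, packaged.**  Every finite module `B` trivial on `N` sits in an
elementary short exact sequence `0 → B → I → C → 0` of finite modules trivial on `N`, where `I`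
satisfies every property `Q` that holds for zero modules and for the base module
`coind_N^G 𝔽_p` and is closed under split extensions. -/
theorem exists_envelope (B : Rep.{0} (ZMod p) G) (hB : Level p N B) :
    ∃ (I C : Rep.{0} (ZMod p) G) (f : B ⟶ I) (g : I ⟶ C),
      Function.Injective f.hom ∧ Function.Surjective g.hom ∧
      (∀ b, g.hom b = 0 ↔ ∃ a, f.hom a = b) ∧ Level p N I ∧ Level p N C ∧
      ∀ Q : Rep.{0} (ZMod p) G → Prop,
        (∀ A : Rep.{0} (ZMod p) G, Subsingleton A → Q A) →
        (∀ (A B C : Rep.{0} (ZMod p) G) (f : A ⟶ B) (g : B ⟶ C) (r : B ⟶ A) (s : C ⟶ B),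
          f ≫ r = 𝟙 A → s ≫ g = 𝟙 C → f ≫ g = 0 → s ≫ r = 0 → r ≫ f + g ≫ s = 𝟙 B →
          Level p N A → Level p N B → Level p N C → Q A → Q C → Q B) →
        Q (Rep.coind N.subtype (Rep.trivial (ZMod p) N (ZMod p))) → Q I :=
  ⟨envelope (p := p) N B, envCoker N B, unitHom N B, envProj N B, unitHom_injective N B,
    envProj_surjective N B, envProj_eq_zero_iff N B, envelope_level N B hB, envCoker_level N B hB,
    fun Q h_zero h_split h_base => envelope_induction N Q h_zero h_split h_base B hB⟩

end Envelope

end Fermat.Agent.S55.Abs.Devissage
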