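import Mathlib
import Fermat.Prelude.Def_GroupCohomology_ContinuousUnramified
import Fermat.Agent.S55.Glue.DualTwist
import Fermat.Agent.S55.Abs.Envelope

/-!
# S55 / abstract layer: the induced envelope for `Gal(ℚ̄/ℚ)`

`exists_envelope_GQ`: under the literal hypotheses `hsm`, `hMur` of S55 there is a finite Galois
`F/ℚ`, unramified outside `S`, containing `μ_p`, with `Fix(F)` acting trivially on `M`, and an
elementary short exact sequence `0 → M → I → C → 0` of finite modules trivial on `Fix(F)` such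
that `I` satisfies every property `Q` which holds for zero modules and for the base module
`coind_{Fix F}^{Gq} 𝔽_p` and is closed under split extensions.
-/

set_option autoImplicit false

open CategoryTheory groupCohomology IntermediateField ExtCitation

namespace Fermat.Agent.S55.Abs.Devissage

local notation "Qb" => AlgebraicClosure ℚ
local notation "Gq" => (AlgebraicClosure ℚ ≃ₐ[ℚ] AlgebraicClosure ℚ)

open Fermat.Agent.S55.Glue

variable {S : Finset Nat.Primes}

/-- **Induced envelope for `Gal(ℚ̄/ℚ)`** (literal S55 hypotheses on `M`). -/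
theorem exists_envelope_GQ (p : ℕ) [Fact p.Prime] (hpS : pPrime p ∈ S)
    (M : Rep.{0} (ZMod p) Gq) [FiniteDimensional (ZMod p) M]
    (hsm : ∀ m : M, ∃ F : IntermediateField ℚ Qb, FiniteDimensional ℚ F ∧
      ∀ s ∈ F.fixingSubgroup, M.ρ s m = m)
    (hMur : ∀ q : Nat.Primes, q ∉ S → ∀ A : ValuationSubring Qb,
      A.LiesOverPrime (q : ℕ) → ∀ g ∈ A.inertiaSubgroupIn ℚ, M.ρ g = 1) :
    ∃ F : IntermediateField ℚ Qb, F.IsUnramifiedOutside S ∧ Normal ℚ F ∧ cycloField p ≤ F ∧
      Level p F.fixingSubgroup M ∧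
      ∃ (I C : Rep.{0} (ZMod p) Gq) (f : M ⟶ I) (g : I ⟶ C),
        Function.Injective f.hom ∧ Function.Surjective g.hom ∧
        (∀ b, g.hom b = 0 ↔ ∃ a, f.hom a = b) ∧
        Level p F.fixingSubgroup I ∧ Level p F.fixingSubgroup C ∧
        ∀ Q : Rep.{0} (ZMod p) Gq → Prop,
          (∀ A : Rep.{0} (ZMod p) Gq, Subsingleton A → Q A) →
          (∀ (A B C : Rep.{0} (ZMod p) Gq) (f : A ⟶ B) (g : B ⟶ C) (r : B ⟶ A) (s : C ⟶ B),
            f ≫ r = 𝟙 A → s ≫ g = 𝟙 C → f ≫ g = 0 → s ≫ r = 0 → r ≫ f + g ≫ s = 𝟙 B →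
            Level p F.fixingSubgroup A → Level p F.fixingSubgroup B →
            Level p F.fixingSubgroup C → Q A → Q C → Q B) →
          Q (Rep.coind F.fixingSubgroup.subtype
            (Rep.trivial (ZMod p) F.fixingSubgroup (ZMod p))) → Q I := by
  obtain ⟨F₁, hF₁, hn, hc, hM, -, -⟩ := exists_common_level p hpS M hsm hMur
  haveI := hn
  haveI : FiniteDimensional ℚ F₁ := hF₁.1
  haveI hnormal : (F₁.fixingSubgroup).Normal := by
    rw [fixingSubgroup_eq_ker]
    exact MonoidHom.normal_ker _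
  haveI hfin : (F₁.fixingSubgroup).FiniteIndex := by
    rw [fixingSubgroup_eq_ker]
    infer_instance
  have hlevel : Level p F₁.fixingSubgroup M := ⟨inferInstance, fun n hn => hM n hn⟩
  exact ⟨F₁, hF₁, hn, hc, hlevel, exists_envelope F₁.fixingSubgroup M hlevel⟩

end Fermat.Agent.S55.Abs.Devissage
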