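/-
S55 / PROGRAM CFT, abstract layer (helper227): transport of the level cohomology spaces and of
the total localisation kernels along an ISOMORPHISM of representations.

For `e : M ≅ N` in `Rep k G`:
* `FunctorIso.H0equiv`, `H1equiv`, `H2equiv` : `Hⁱ(M) ≃ₗ Hⁱ(N)` (level cohomology), with the
  `finrank` / `Module.Finite` corollaries;
* `H1res_natural`, `H2res_natural` : localisation commutes with `Hⁱ(φ)` for ANY `φ : M ⟶ N`;
* for a Poitou–Tate context `D`: `loc2_H2map`, `kerLoc2Equiv : ker (loc2 D M) ≃ₗ ker (loc2 D N)`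
  and `finrank_ker_loc2_of_iso`, `finite_ker_loc2_of_iso`;  in particular for a self-dual
  module (`e : M ≅ D.dual M`) the counts on the dual side are those of `M`
  (`finrank_ker_loc2_dual`, `finrank_H1_dual`).
-/
import Fermat.Agent.S55.Abs.Functor
import Fermat.Agent.S55.Abs.TopGlue

set_option autoImplicit false

open CategoryTheory groupCohomology

namespace Fermat.Agent.S55.Abs.FunctorIso

open Fermat.Agent.S55.Abs Fermat.Agent.S55.Abs.TopGlue Module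

variable {k G : Type} [Field k] [Group G]

/-! ### Elementwise form of an isomorphism -/

theorem inv_hom_apply {M N : Rep.{0} k G} (e : M ≅ N) (m : M) : e.inv.hom (e.hom.hom m) = m :=
  congrArg (fun φ : M ⟶ M => φ.hom m) e.hom_inv_id

theorem hom_inv_apply {M N : Rep.{0} k G} (e : M ≅ N) (n : N) : e.hom.hom (e.inv.hom n) = n :=
  congrArg (fun φ : N ⟶ N => φ.hom n) e.inv_hom_id

/-! ### Level cohomology of isomorphic modules -/

section Equiv

variable (𝒰 : LevelFamily G) {M N : Rep.{0} k G}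

/-- `H⁰(M) ≃ H⁰(N)`. -/
noncomputable def H0equiv (e : M ≅ N) : H0 M ≃ₗ[k] H0 N :=
  LinearEquiv.ofLinearMap (H0map e.hom) (H0map e.inv)
    (LinearMap.ext fun x => H0map_retract e.inv e.hom (hom_inv_apply e) x)
    (LinearMap.ext fun x => H0map_retract e.hom e.inv (inv_hom_apply e) x)

/-- `H¹(M) ≃ H¹(N)`. -/
noncomputable def H1equiv (e : M ≅ N) : H1 𝒰 M ≃ₗ[k] H1 𝒰 N :=
  LinearEquiv.ofLinearMap (H1map 𝒰 e.hom) (H1map 𝒰 e.inv)
    (LinearMap.ext fun x => H1map_retract 𝒰 e.inv e.hom (hom_inv_apply e) x)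
    (LinearMap.ext fun x => H1map_retract 𝒰 e.hom e.inv (inv_hom_apply e) x)

/-- `H²(M) ≃ H²(N)`. -/
noncomputable def H2equiv (e : M ≅ N) : H2 𝒰 M ≃ₗ[k] H2 𝒰 N :=
  LinearEquiv.ofLinearMap (H2map 𝒰 e.hom) (H2map 𝒰 e.inv)
    (LinearMap.ext fun x => H2map_retract 𝒰 e.inv e.hom (hom_inv_apply e) x)
    (LinearMap.ext fun x => H2map_retract 𝒰 e.hom e.inv (inv_hom_apply e) x)

@[simp] theorem H0equiv_apply (e : M ≅ N) (x : H0 M) : H0equiv e x = H0map e.hom x := rfl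
@[simp] theorem H1equiv_apply (e : M ≅ N) (x : H1 𝒰 M) : H1equiv 𝒰 e x = H1map 𝒰 e.hom x := rfl
@[simp] theorem H2equiv_apply (e : M ≅ N) (x : H2 𝒰 M) : H2equiv 𝒰 e x = H2map 𝒰 e.hom x := rfl
@[simp] theorem H1equiv_symm_apply (e : M ≅ N) (x : H1 𝒰 N) : (H1equiv 𝒰 e).symm x = H1map 𝒰 e.inv x := rfl
@[simp] theorem H2equiv_symm_apply (e : M ≅ N) (x : H2 𝒰 N) : (H2equiv 𝒰 e).symm x = H2map 𝒰 e.inv x := rfl

theorem finrank_H0_of_iso (e : M ≅ N) : finrank k (H0 M) = finrank k (H0 N) := (H0equiv e).finrank_eq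

theorem finrank_H1_of_iso (e : M ≅ N) : finrank k (H1 𝒰 M) = finrank k (H1 𝒰 N) := (H1equiv 𝒰 e).finrank_eq

theorem finrank_H2_of_iso (e : M ≅ N) : finrank k (H2 𝒰 M) = finrank k (H2 𝒰 N) := (H2equiv 𝒰 e).finrank_eq

theorem finite_H1_of_iso (e : M ≅ N) [Module.Finite k (H1 𝒰 M)] : Module.Finite k (H1 𝒰 N) :=
  Module.Finite.equiv (H1equiv 𝒰 e)

theorem finite_H2_of_iso (e : M ≅ N) [Module.Finite k (H2 𝒰 M)] : Module.Finite k (H2 𝒰 N) :=
  Module.Finite.equiv (H2equiv 𝒰 e)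

theorem H1map_injective_of_iso (e : M ≅ N) : Function.Injective (H1map 𝒰 e.hom) := (H1equiv 𝒰 e).injective

theorem H1map_surjective_of_iso (e : M ≅ N) : Function.Surjective (H1map 𝒰 e.hom) :=
  (H1equiv 𝒰 e).surjective

theorem H2map_injective_of_iso (e : M ≅ N) : Function.Injective (H2map 𝒰 e.hom) := (H2equiv 𝒰 e).injective

theorem H2map_surjective_of_iso (e : M ≅ N) : Function.Surjective (H2map 𝒰 e.hom) :=
  (H2equiv 𝒰 e).surjective

end Equiv

/-! ### Localisation is natural -/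

section Res

variable (𝒰 : LevelFamily G) {ι : Type} {Gv : ι → Type} [∀ v, Group (Gv v)]
  (loc : ∀ v, Gv v →* G) (𝒰v : ∀ v, LevelFamily (Gv v))
  (hloc : ∀ v, IsLevelMap (𝒰v v) 𝒰 (loc v)) {M N : Rep.{0} k G} (φ : M ⟶ N)

theorem H1res_natural (v : ι) (x : H1 𝒰 M) :
    H1res 𝒰 loc 𝒰v hloc N v (H1map 𝒰 φ x) =
      H1map (𝒰v v) (Rep.resMap (loc v) φ) (H1res 𝒰 loc 𝒰v hloc M v x) := by
  obtain ⟨z, rfl⟩ := Submodule.mkQ_surjective _ x
  rfl

theorem H2res_natural (v : ι) (x : H2 𝒰 M) :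
    H2res 𝒰 loc 𝒰v hloc N v (H2map 𝒰 φ x) =
      H2map (𝒰v v) (Rep.resMap (loc v) φ) (H2res 𝒰 loc 𝒰v hloc M v x) := by
  obtain ⟨z, rfl⟩ := Submodule.mkQ_surjective _ x
  rfl

end Res

/-! ### The kernels of the total localisation in a Poitou–Tate context -/

section Context

variable (D : PTContext k G) {M N : Rep.{0} k G}

theorem loc2_H2map (φ : M ⟶ N) (x : H2 D.𝒰 M) (v : D.ι) :
    loc2 D N (H2map D.𝒰 φ x) v =
      H2map (D.𝒰v v) (Rep.resMap (D.loc v) φ) (loc2 D M x v) :=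
  H2res_natural D.𝒰 D.loc D.𝒰v D.hloc φ v x

theorem loc2_H2map_eq_zero (φ : M ⟶ N) {x : H2 D.𝒰 M} (hx : loc2 D M x = 0) :
    loc2 D N (H2map D.𝒰 φ x) = 0 := by
  funext v
  rw [loc2_H2map, hx]
  exact map_zero _

/-- `H²(φ)` restricted to the locally trivial classes. -/
noncomputable def kerLoc2Map (φ : M ⟶ N) :
    ↥(LinearMap.ker (loc2 D M)) →ₗ[k] ↥(LinearMap.ker (loc2 D N)) :=
  (H2map D.𝒰 φ).restrict fun _ hx =>
    LinearMap.mem_ker.2 (loc2_H2map_eq_zero D φ (LinearMap.mem_ker.1 hx))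

@[simp] theorem kerLoc2Map_coe (φ : M ⟶ N) (x : ↥(LinearMap.ker (loc2 D M))) :
    (kerLoc2Map D φ x : H2 D.𝒰 N) = H2map D.𝒰 φ x.1 := rfl

/-- Isomorphic modules have isomorphic `Ш²`-type kernels `ker (loc2)`. -/
noncomputable def kerLoc2Equiv (e : M ≅ N) :
    ↥(LinearMap.ker (loc2 D M)) ≃ₗ[k] ↥(LinearMap.ker (loc2 D N)) :=
  LinearEquiv.ofLinearMap (kerLoc2Map D e.hom) (kerLoc2Map D e.inv)
    (LinearMap.ext fun x => Subtype.ext
      (H2map_retract D.𝒰 e.inv e.hom (hom_inv_apply e) x.1))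
    (LinearMap.ext fun x => Subtype.ext
      (H2map_retract D.𝒰 e.hom e.inv (inv_hom_apply e) x.1))

theorem finrank_ker_loc2_of_iso (e : M ≅ N) :
    finrank k ↥(LinearMap.ker (loc2 D M)) = finrank k ↥(LinearMap.ker (loc2 D N)) :=
  (kerLoc2Equiv D e).finrank_eq

theorem finite_ker_loc2_of_iso (e : M ≅ N) [Module.Finite k ↥(LinearMap.ker (loc2 D M))] :
    Module.Finite k ↥(LinearMap.ker (loc2 D N)) :=
  Module.Finite.equiv (kerLoc2Equiv D e)

/-- A class of `H²(N)` is locally trivial iff its transport to `H²(M)` is. -/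
theorem loc2_eq_zero_iff_of_iso (e : M ≅ N) (x : H2 D.𝒰 N) :
    loc2 D N x = 0 ↔ loc2 D M (H2map D.𝒰 e.inv x) = 0 := by
  constructor
  · exact loc2_H2map_eq_zero D e.inv
  · intro h
    have h' := loc2_H2map_eq_zero D e.hom h
    rwa [H2map_retract D.𝒰 e.inv e.hom (hom_inv_apply e) x] at h'

/-! #### Self-dual modules: the dual side has the counts of `M` -/

theorem finrank_ker_loc2_dual (e : M ≅ D.dual M) :
    finrank k ↥(LinearMap.ker (loc2 D (D.dual M))) = finrank k ↥(LinearMap.ker (loc2 D M)) :=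
  (finrank_ker_loc2_of_iso D e).symm

theorem finite_ker_loc2_dual (e : M ≅ D.dual M) [Module.Finite k ↥(LinearMap.ker (loc2 D M))] :
    Module.Finite k ↥(LinearMap.ker (loc2 D (D.dual M))) :=
  finite_ker_loc2_of_iso D e

theorem finrank_H1_dual (e : M ≅ D.dual M) :
    finrank k (H1 D.𝒰 (D.dual M)) = finrank k (H1 D.𝒰 M) :=
  (finrank_H1_of_iso D.𝒰 e).symm

theorem finite_H1_dual (e : M ≅ D.dual M) [Module.Finite k (H1 D.𝒰 M)] :
    Module.Finite k (H1 D.𝒰 (D.dual M)) :=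
  finite_H1_of_iso D.𝒰 e

end Context

end Fermat.Agent.S55.Abs.FunctorIso
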