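/-
S55 / PROGRAM CFT, abstract layer (helper297): transport of level cohomology along an isomorphism
of representations (given as a pair of mutually inverse morphisms `φ : N ⟶ N'`, `ψ : N' ⟶ N`).

* `H1equivOfIso`, `H2equivOfIso` : `H¹(N) ≃ₗ H¹(N')`, `H²(N) ≃ₗ H²(N')`; finrank / finiteness.
* `isDisc_of_iso` : discreteness transports.
* `H1res_natural`, `H2res_natural` : localisation commutes with `H1map`, `H2map`.
* `loc2_natural`, `kerLoc2EquivOfIso`, `finrank_ker_loc2_of_iso`, `finite_ker_loc2_of_iso` :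
  `ker (loc² on H²(N)) ≃ₗ ker (loc² on H²(N'))` for a Poitou–Tate context.

Intended use: `N = M0(K)`, `N' = M0(K)^*(χ)`, `φ = ψ_K` the self-duality.
-/
import Fermat.Agent.S55.Abs.Functor
import Fermat.Agent.S55.Abs.TopGlue

set_option autoImplicit false

open CategoryTheory groupCohomology Module

namespace Fermat.Agent.S55.Abs.IsoTransport

open Fermat.Agent.S55.Abs Fermat.Agent.S55.Abs.TopGlue

section Equiv

variable {k G : Type} [Field k] [Group G] (𝒰 : LevelFamily G) {N N' : Rep.{0} k G}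
  (φ : N ⟶ N') (ψ : N' ⟶ N) (hψφ : ∀ n, ψ.hom (φ.hom n) = n) (hφψ : ∀ n', φ.hom (ψ.hom n') = n')

/-- `H¹(N) ≃ₗ H¹(N')` for mutually inverse morphisms. -/
noncomputable def H1equivOfIso : H1 𝒰 N ≃ₗ[k] H1 𝒰 N' where
  toLinearMap := H1map 𝒰 φ
  invFun := H1map 𝒰 ψ
  left_inv x := H1map_retract 𝒰 φ ψ hψφ x
  right_inv x := H1map_retract 𝒰 ψ φ hφψ x

/-- `H²(N) ≃ₗ H²(N')` for mutually inverse morphisms. -/
noncomputable def H2equivOfIso : H2 𝒰 N ≃ₗ[k] H2 𝒰 N' where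
  toLinearMap := H2map 𝒰 φ
  invFun := H2map 𝒰 ψ
  left_inv x := H2map_retract 𝒰 φ ψ hψφ x
  right_inv x := H2map_retract 𝒰 ψ φ hφψ x

@[simp] theorem H1equivOfIso_apply (x : H1 𝒰 N) :
    H1equivOfIso 𝒰 φ ψ hψφ hφψ x = H1map 𝒰 φ x := rfl

@[simp] theorem H1equivOfIso_symm_apply (x : H1 𝒰 N') :
    (H1equivOfIso 𝒰 φ ψ hψφ hφψ).symm x = H1map 𝒰 ψ x := rfl

@[simp] theorem H2equivOfIso_apply (x : H2 𝒰 N) :
    H2equivOfIso 𝒰 φ ψ hψφ hφψ x = H2map 𝒰 φ x := rfl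

@[simp] theorem H2equivOfIso_symm_apply (x : H2 𝒰 N') :
    (H2equivOfIso 𝒰 φ ψ hψφ hφψ).symm x = H2map 𝒰 ψ x := rfl

include hψφ hφψ in
theorem finrank_H1_of_iso : finrank k (H1 𝒰 N') = finrank k (H1 𝒰 N) :=
  (H1equivOfIso 𝒰 φ ψ hψφ hφψ).finrank_eq.symm

include hψφ hφψ in
theorem finrank_H2_of_iso : finrank k (H2 𝒰 N') = finrank k (H2 𝒰 N) :=
  (H2equivOfIso 𝒰 φ ψ hψφ hφψ).finrank_eq.symm

include hψφ hφψ in
theorem finite_H1_of_iso [Module.Finite k (H1 𝒰 N)] : Module.Finite k (H1 𝒰 N') :=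
  Module.Finite.equiv (H1equivOfIso 𝒰 φ ψ hψφ hφψ)

include hψφ hφψ in
theorem finite_H2_of_iso [Module.Finite k (H2 𝒰 N)] : Module.Finite k (H2 𝒰 N') :=
  Module.Finite.equiv (H2equivOfIso 𝒰 φ ψ hψφ hφψ)

include hφψ in
/-- An isomorphic copy of a discrete module is discrete. -/
theorem isDisc_of_iso (hN : IsDisc 𝒰 N) : IsDisc 𝒰 N' :=
  isDisc_of_injective ψ (fun a b hab => by rw [← hφψ a, ← hφψ b, hab]) hN

end Equiv

/-! ### Naturality of the localisation maps -/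

section Res

variable {k G : Type} [Field k] [Group G] (𝒰 : LevelFamily G)
  {ι : Type} {Gv : ι → Type} [∀ v, Group (Gv v)]
  (loc : ∀ v, Gv v →* G) (𝒰v : ∀ v, LevelFamily (Gv v))
  (hloc : ∀ v, IsLevelMap (𝒰v v) 𝒰 (loc v))
  {N N' : Rep.{0} k G} (φ : N ⟶ N')

theorem H1res_natural (v : ι) (x : H1 𝒰 N) :
    H1res 𝒰 loc 𝒰v hloc N' v (H1map 𝒰 φ x)
      = H1map (𝒰v v) (Rep.resMap (loc v) φ) (H1res 𝒰 loc 𝒰v hloc N v x) := by
  obtain ⟨z, rfl⟩ := Submodule.mkQ_surjective _ x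
  rfl

theorem H2res_natural (v : ι) (x : H2 𝒰 N) :
    H2res 𝒰 loc 𝒰v hloc N' v (H2map 𝒰 φ x)
      = H2map (𝒰v v) (Rep.resMap (loc v) φ) (H2res 𝒰 loc 𝒰v hloc N v x) := by
  obtain ⟨z, rfl⟩ := Submodule.mkQ_surjective _ x
  rfl

end Res

/-! ### The kernel of the total localisation in degree 2 -/

section Loc2

variable {k G : Type} [Field k] [Group G] (D : PTContext k G) {N N' : Rep.{0} k G}
  (φ : N ⟶ N') (ψ : N' ⟶ N) (hψφ : ∀ n, ψ.hom (φ.hom n) = n) (hφψ : ∀ n', φ.hom (ψ.hom n') = n')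

theorem loc2_natural (x : H2 D.𝒰 N) (v : D.ι) :
    loc2 D N' (H2map D.𝒰 φ x) v
      = H2map (D.𝒰v v) (Rep.resMap (D.loc v) φ) (loc2 D N x v) :=
  H2res_natural D.𝒰 D.loc D.𝒰v D.hloc φ v x

theorem H2map_mem_ker_loc2 {x : H2 D.𝒰 N} (hx : x ∈ LinearMap.ker (loc2 D N)) :
    H2map D.𝒰 φ x ∈ LinearMap.ker (loc2 D N') := by
  rw [LinearMap.mem_ker] at hx ⊢
  funext v
  rw [loc2_natural, hx]
  exact map_zero _

/-- `ker (loc² on H²(N)) ≃ₗ ker (loc² on H²(N'))` for mutually inverse morphisms. -/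
noncomputable def kerLoc2EquivOfIso :
    ↥(LinearMap.ker (loc2 D N)) ≃ₗ[k] ↥(LinearMap.ker (loc2 D N')) where
  toLinearMap := (H2map D.𝒰 φ).restrict fun _ hx => H2map_mem_ker_loc2 D φ hx
  invFun x := ⟨H2map D.𝒰 ψ x.1, H2map_mem_ker_loc2 D ψ x.2⟩
  left_inv x := Subtype.ext (H2map_retract D.𝒰 φ ψ hψφ x.1)
  right_inv x := Subtype.ext (H2map_retract D.𝒰 ψ φ hφψ x.1)

include hψφ hφψ in
theorem finrank_ker_loc2_of_iso :
    finrank k ↥(LinearMap.ker (loc2 D N')) = finrank k ↥(LinearMap.ker (loc2 D N)) :=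
  (kerLoc2EquivOfIso D φ ψ hψφ hφψ).finrank_eq.symm

include hψφ hφψ in
theorem finite_ker_loc2_of_iso [Module.Finite k ↥(LinearMap.ker (loc2 D N))] :
    Module.Finite k ↥(LinearMap.ker (loc2 D N')) :=
  Module.Finite.equiv (kerLoc2EquivOfIso D φ ψ hψφ hφψ)

end Loc2

end Fermat.Agent.S55.Abs.IsoTransport
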