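/-
`LamW`: the functional on the degree-3 cone cohomology used by the Poitou–Tate pairing,
pinned down on all classes whose global 3-cocycle becomes a coboundary after allowing
more ramification.

Pure linear algebra over a field `k`.  The consumer instantiates
* `C2`, `C3`  : global 2- and 3-cochains (all functions), `d : C2 → C3`;
* `lev T`     : the global 2-cochains of level `T` (unramified outside the finite set `T`);
* `L1 v, L2 v, L3 v` : local cochains at the prime `v`, with `dL1`, `dL2`, restrictions `res2`, `res3`;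
* `ur v`      : the unramified local 2-cochains at `v`;
* `lam v`     : a linear functional on local 2-cochains which kills local coboundaries
                (any linear extension of the local invariant from cocycles to cochains);
* `recip`     : reciprocity for every finite level `T ⊇ S`.

Output (`exists_functional`): a linear functional `Λ` on `C3 × (∀ v, L2 v)` such that for every
`T ⊇ S`, every `u ∈ lev T` and every family `bur` of unramified primitives of `res3 v (d u)`
at the primes `v ∈ T \ S`: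
`Λ (d u, b) = ∑ v ∈ S, lam v (b v) + ∑ v ∈ T \ S, lam v (bur v) - ∑ v ∈ T, lam v (res2 v u)`.
In particular `Λ` kills the cone coboundaries and restricts to `∑ v ∈ S, lam v` on local classes.
No vanishing of any `H^3` is used.
-/
import Mathlib

set_option autoImplicit false

namespace Fermat.Agent.S55.LamW

open Finset

universe uk ui u2 u3 v1 v2 v3

/-- Abstract linear data of a cone with auxiliary ramification. -/
structure Datum (k : Type uk) [Field k] (ι : Type ui) (C2 : Type u2) (C3 : Type u3)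
    (L1 : ι → Type v1) (L2 : ι → Type v2) (L3 : ι → Type v3)
    [AddCommGroup C2] [Module k C2] [AddCommGroup C3] [Module k C3]
    [∀ v, AddCommGroup (L1 v)] [∀ v, Module k (L1 v)]
    [∀ v, AddCommGroup (L2 v)] [∀ v, Module k (L2 v)]
    [∀ v, AddCommGroup (L3 v)] [∀ v, Module k (L3 v)] where
  /-- the base set of primes -/
  S : Finset ι
  /-- global coboundary in degree 2 -/
  d : C2 →ₗ[k] C3
  /-- global 2-cochains of level `T` -/
  lev : Finset ι → Submodule k C2
  lev_mono : ∀ {T T' : Finset ι}, T ⊆ T' → lev T ≤ lev T'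
  /-- local coboundaries -/
  dL1 : ∀ v, L1 v →ₗ[k] L2 v
  dL2 : ∀ v, L2 v →ₗ[k] L3 v
  /-- restrictions to the local groups -/
  res2 : ∀ v, C2 →ₗ[k] L2 v
  res3 : ∀ v, C3 →ₗ[k] L3 v
  res_d : ∀ v c, dL2 v (res2 v c) = res3 v (d c)
  /-- unramified local 2-cochains -/
  ur : ∀ v, Submodule k (L2 v)
  /-- local functionals (linear extensions of the local invariants to all 2-cochains) -/
  lam : ∀ v, L2 v →ₗ[k] k
  lam_dL1 : ∀ v e, lam v (dL1 v e) = 0
  /-- unramified local 2-cocycles have trivial invariant (outside `S`) -/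
  lam_ur : ∀ v, v ∉ S → ∀ z ∈ ur v, dL2 v z = 0 → lam v z = 0
  /-- a global cochain of level `T` is unramified at the primes outside `T` -/
  res_ur : ∀ T : Finset ι, ∀ z ∈ lev T, ∀ v, v ∉ T → res2 v z ∈ ur v
  /-- reciprocity at every finite level containing `S` -/
  recip : ∀ T : Finset ι, S ⊆ T → ∀ z ∈ lev T, d z = 0 → ∑ v ∈ T, lam v (res2 v z) = 0

variable {k : Type uk} [Field k] {ι : Type ui} [DecidableEq ι] {C2 : Type u2} {C3 : Type u3}
  {L1 : ι → Type v1} {L2 : ι → Type v2} {L3 : ι → Type v3}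
  [AddCommGroup C2] [Module k C2] [AddCommGroup C3] [Module k C3]
  [∀ v, AddCommGroup (L1 v)] [∀ v, Module k (L1 v)]
  [∀ v, AddCommGroup (L2 v)] [∀ v, Module k (L2 v)]
  [∀ v, AddCommGroup (L3 v)] [∀ v, Module k (L3 v)]
  (D : Datum k ι C2 C3 L1 L2 L3)

/-- The value attached to a primitive `u` of level `T` with unramified local primitives `bur`. -/
def val (T : Finset ι) (u : C2) (b bur : ∀ v, L2 v) : k :=
  ∑ v ∈ D.S, D.lam v (b v) + ∑ v ∈ T \ D.S, D.lam v (bur v) - ∑ v ∈ T, D.lam v (D.res2 v u)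

/-- `(T, u, bur)` witnesses that the 3-cochain `a` dies at level `T`. -/
structure IsWitness (a : C3) (T : Finset ι) (u : C2) (bur : ∀ v, L2 v) : Prop where
  sub : D.S ⊆ T
  mem : u ∈ D.lev T
  du : D.d u = a
  bur_ur : ∀ v ∈ T \ D.S, bur v ∈ D.ur v
  bur_d : ∀ v ∈ T \ D.S, D.dL2 v (bur v) = D.res3 v a

/-- Enlarging the level: the new unramified primitives at the new primes are `res2 v u`. -/
def extBur (T : Finset ι) (u : C2) (bur : ∀ v, L2 v) : ∀ v, L2 v :=
  fun v => if v ∈ T then bur v else D.res2 v u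

variable {D}

lemma IsWitness.enlarge {a : C3} {T T' : Finset ι} {u : C2} {bur : ∀ v, L2 v}
    (h : IsWitness D a T u bur) (hT : T ⊆ T') : IsWitness D a T' u (extBur D T u bur) := by
  refine ⟨h.sub.trans hT, D.lev_mono hT h.mem, h.du, ?_, ?_⟩
  · intro v hv
    rw [mem_sdiff] at hv
    by_cases hvT : v ∈ T
    · simp only [extBur, hvT, if_true]
      exact h.bur_ur v (mem_sdiff.2 ⟨hvT, hv.2⟩)
    · simp only [extBur, hvT, if_false]
      exact D.res_ur T u h.mem v hvT
  · intro v hv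
    rw [mem_sdiff] at hv
    by_cases hvT : v ∈ T
    · simp only [extBur, hvT, if_true]
      exact h.bur_d v (mem_sdiff.2 ⟨hvT, hv.2⟩)
    · simp only [extBur, hvT, if_false]
      rw [D.res_d, h.du]

lemma val_enlarge {a : C3} {T T' : Finset ι} {u : C2} {bur : ∀ v, L2 v}
    (h : IsWitness D a T u bur) (hT : T ⊆ T') (b : ∀ v, L2 v) :
    val D T' u b (extBur D T u bur) = val D T u b bur := by
  have h1 : T' \ D.S = (T \ D.S) ∪ (T' \ T) := by
    ext v
    simp only [mem_sdiff, mem_union]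
    constructor
    · rintro ⟨h1, h2⟩
      by_cases hvT : v ∈ T
      · exact Or.inl ⟨hvT, h2⟩
      · exact Or.inr ⟨h1, hvT⟩
    · rintro (⟨h1, h2⟩ | ⟨h1, h2⟩)
      · exact ⟨hT h1, h2⟩
      · exact ⟨h1, fun hS => h2 (h.sub hS)⟩
  have hd1 : Disjoint (T \ D.S) (T' \ T) := by
    rw [disjoint_left]
    intro v hv hv'
    exact (mem_sdiff.1 hv').2 (mem_sdiff.1 hv).1
  have h2 : T' = T ∪ (T' \ T) := by
    ext v
    simp only [mem_sdiff, mem_union]
    constructor
    · intro h1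
      by_cases hvT : v ∈ T
      · exact Or.inl hvT
      · exact Or.inr ⟨h1, hvT⟩
    · rintro (h1 | ⟨h1, _⟩)
      · exact hT h1
      · exact h1
  have hd2 : Disjoint T (T' \ T) := disjoint_sdiff
  have e1 : ∑ v ∈ T' \ D.S, D.lam v (extBur D T u bur v)
      = ∑ v ∈ T \ D.S, D.lam v (bur v) + ∑ v ∈ T' \ T, D.lam v (D.res2 v u) := by
    rw [h1, sum_union hd1]
    congr 1
    · refine sum_congr rfl fun v hv => ?_
      simp only [extBur, (mem_sdiff.1 hv).1, if_true]
    · refine sum_congr rfl fun v hv => ?_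
      simp only [extBur, (mem_sdiff.1 hv).2, if_false]
  have e2 : ∑ v ∈ T', D.lam v (D.res2 v u)
      = ∑ v ∈ T, D.lam v (D.res2 v u) + ∑ v ∈ T' \ T, D.lam v (D.res2 v u) := by
    conv_lhs => rw [h2]
    rw [sum_union hd2]
  unfold val
  rw [e1, e2]
  ring

/-- Linearity of `val` for witnesses at a common level. -/
lemma val_lin_common {a₁ a₂ a₃ : C3} {T : Finset ι} {u₁ u₂ u₃ : C2} {bur₁ bur₂ bur₃ : ∀ v, L2 v}
    (h₁ : IsWitness D a₁ T u₁ bur₁) (h₂ : IsWitness D a₂ T u₂ bur₂) (h₃ : IsWitness D a₃ T u₃ bur₃)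
    (r : k) (ha : a₃ = r • a₁ + a₂) {b₁ b₂ b₃ : ∀ v, L2 v}
    (hb : ∀ v ∈ D.S, b₃ v = r • b₁ v + b₂ v) :
    val D T u₃ b₃ bur₃ = r * val D T u₁ b₁ bur₁ + val D T u₂ b₂ bur₂ := by
  -- reciprocity for the cocycle `u₃ - r u₁ - u₂`
  have hz : u₃ - r • u₁ - u₂ ∈ D.lev T :=
    Submodule.sub_mem _ (Submodule.sub_mem _ h₃.mem (Submodule.smul_mem _ r h₁.mem)) h₂.mem
  have hdz : D.d (u₃ - r • u₁ - u₂) = 0 := by
    rw [map_sub, map_sub, map_smul, h₁.du, h₂.du, h₃.du, ha]; abel
  have hrec := D.recip T h₁.sub _ hz hdz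
  have e3 : ∑ v ∈ T, D.lam v (D.res2 v u₃)
      = r * ∑ v ∈ T, D.lam v (D.res2 v u₁) + ∑ v ∈ T, D.lam v (D.res2 v u₂) := by
    have : ∑ v ∈ T, D.lam v (D.res2 v (u₃ - r • u₁ - u₂))
        = ∑ v ∈ T, D.lam v (D.res2 v u₃) - r * ∑ v ∈ T, D.lam v (D.res2 v u₁)
          - ∑ v ∈ T, D.lam v (D.res2 v u₂) := by
      rw [mul_sum, ← sum_sub_distrib, ← sum_sub_distrib]
      refine sum_congr rfl fun v _ => ?_
      simp only [map_sub, map_smul, smul_eq_mul]
    rw [this] at hrec
    linear_combination hrec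
  -- unramified cocycles have trivial invariant
  have e2 : ∑ v ∈ T \ D.S, D.lam v (bur₃ v)
      = r * ∑ v ∈ T \ D.S, D.lam v (bur₁ v) + ∑ v ∈ T \ D.S, D.lam v (bur₂ v) := by
    rw [mul_sum, ← sum_add_distrib]
    refine sum_congr rfl fun v hv => ?_
    have hvS : v ∉ D.S := (mem_sdiff.1 hv).2
    have hur : bur₃ v - r • bur₁ v - bur₂ v ∈ D.ur v :=
      Submodule.sub_mem _ (Submodule.sub_mem _ (h₃.bur_ur v hv)
        (Submodule.smul_mem _ r (h₁.bur_ur v hv))) (h₂.bur_ur v hv)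
    have hd : D.dL2 v (bur₃ v - r • bur₁ v - bur₂ v) = 0 := by
      rw [map_sub, map_sub, map_smul, h₁.bur_d v hv, h₂.bur_d v hv, h₃.bur_d v hv, ha,
        map_add, map_smul]
      abel
    have h0 := D.lam_ur v hvS _ hur hd
    simp only [map_sub, map_smul, smul_eq_mul] at h0
    linear_combination h0
  have e1 : ∑ v ∈ D.S, D.lam v (b₃ v)
      = r * ∑ v ∈ D.S, D.lam v (b₁ v) + ∑ v ∈ D.S, D.lam v (b₂ v) := by
    rw [mul_sum, ← sum_add_distrib]
    refine sum_congr rfl fun v hv => ?_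
    rw [hb v hv, map_add, map_smul, smul_eq_mul]
  unfold val
  rw [e1, e2, e3]
  ring

/-- Linearity of `val` for arbitrary witnesses. -/
lemma val_lin {a₁ a₂ a₃ : C3} {T₁ T₂ T₃ : Finset ι} {u₁ u₂ u₃ : C2} {bur₁ bur₂ bur₃ : ∀ v, L2 v}
    (h₁ : IsWitness D a₁ T₁ u₁ bur₁) (h₂ : IsWitness D a₂ T₂ u₂ bur₂)
    (h₃ : IsWitness D a₃ T₃ u₃ bur₃)
    (r : k) (ha : a₃ = r • a₁ + a₂) {b₁ b₂ b₃ : ∀ v, L2 v}
    (hb : ∀ v ∈ D.S, b₃ v = r • b₁ v + b₂ v) :
    val D T₃ u₃ b₃ bur₃ = r * val D T₁ u₁ b₁ bur₁ + val D T₂ u₂ b₂ bur₂ := by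
  have s₁ : T₁ ⊆ T₁ ∪ T₂ ∪ T₃ := fun v hv => mem_union_left _ (mem_union_left _ hv)
  have s₂ : T₂ ⊆ T₁ ∪ T₂ ∪ T₃ := fun v hv => mem_union_left _ (mem_union_right _ hv)
  have s₃ : T₃ ⊆ T₁ ∪ T₂ ∪ T₃ := fun v hv => mem_union_right _ hv
  rw [← val_enlarge h₁ s₁ b₁, ← val_enlarge h₂ s₂ b₂, ← val_enlarge h₃ s₃ b₃]
  exact val_lin_common (h₁.enlarge s₁) (h₂.enlarge s₂) (h₃.enlarge s₃) r ha hb

variable (D)

/-- The pairs whose 3-cochain dies at some finite level (with unramified local primitives). -/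
def W : Submodule k (C3 × (∀ v, L2 v)) where
  carrier := {p | ∃ T u bur, IsWitness D p.1 T u bur}
  zero_mem' := by
    refine ⟨D.S, 0, 0, subset_rfl, Submodule.zero_mem _, ?_, ?_, ?_⟩
    · rw [map_zero]; rfl
    · intro v _; exact Submodule.zero_mem _
    · intro v _
      rw [Pi.zero_apply, map_zero]
      exact (map_zero (D.res3 v)).symm
  add_mem' := by
    rintro p q ⟨T, u, bur, h⟩ ⟨T', u', bur', h'⟩
    have s : T ⊆ T ∪ T' := subset_union_left
    have s' : T' ⊆ T ∪ T' := subset_union_right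
    have e := h.enlarge s
    have e' := h'.enlarge s'
    refine ⟨T ∪ T', u + u', extBur D T u bur + extBur D T' u' bur', e.sub,
      Submodule.add_mem _ e.mem e'.mem, ?_, ?_, ?_⟩
    · rw [map_add, e.du, e'.du]; rfl
    · intro v hv
      exact Submodule.add_mem _ (e.bur_ur v hv) (e'.bur_ur v hv)
    · intro v hv
      rw [Pi.add_apply, map_add, e.bur_d v hv, e'.bur_d v hv, Prod.fst_add, map_add]
  smul_mem' := by
    rintro r p ⟨T, u, bur, h⟩
    refine ⟨T, r • u, r • bur, h.sub, Submodule.smul_mem _ r h.mem, ?_, ?_, ?_⟩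
    · rw [map_smul, h.du]; rfl
    · intro v hv
      exact Submodule.smul_mem _ r (h.bur_ur v hv)
    · intro v hv
      rw [Pi.smul_apply, map_smul, h.bur_d v hv, Prod.smul_fst, map_smul]

/-- The functional on `W`. -/
noncomputable def lamW : W D →ₗ[k] k where
  toFun p := val D p.2.choose p.2.choose_spec.choose p.1.2 p.2.choose_spec.choose_spec.choose
  map_add' := by
    rintro p q
    have hp := p.2.choose_spec.choose_spec.choose_spec
    have hq := q.2.choose_spec.choose_spec.choose_spec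
    have hpq := (p + q).2.choose_spec.choose_spec.choose_spec
    have := val_lin hp hq hpq (1 : k) (by rw [one_smul]; rfl) (b₁ := p.1.2) (b₂ := q.1.2)
      (b₃ := (p + q).1.2) (fun v _ => by rw [one_smul]; rfl)
    rw [one_mul] at this
    exact this
  map_smul' := by
    rintro r p
    have hp := p.2.choose_spec.choose_spec.choose_spec
    have hrp := (r • p).2.choose_spec.choose_spec.choose_spec
    have h0 : IsWitness D (0 : C3) D.S 0 0 :=
      ⟨subset_rfl, Submodule.zero_mem _, map_zero _, fun v _ => Submodule.zero_mem _,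
        fun v _ => by rw [Pi.zero_apply, map_zero, map_zero]⟩
    have := val_lin hp h0 hrp r (by rw [add_zero]; rfl) (b₁ := p.1.2) (b₂ := 0)
      (b₃ := (r • p).1.2) (fun v _ => by rw [Pi.zero_apply, add_zero]; rfl)
    have hz : val D D.S (0 : C2) (0 : ∀ v, L2 v) 0 = 0 := by simp [val]
    rw [hz, add_zero] at this
    simpa using this

lemma lamW_apply (p : W D) {T : Finset ι} {u : C2} {bur : ∀ v, L2 v}
    (h : IsWitness D p.1.1 T u bur) : lamW D p = val D T u p.1.2 bur := by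
  have hp := p.2.choose_spec.choose_spec.choose_spec
  have h0 : IsWitness D (0 : C3) D.S 0 0 :=
    ⟨subset_rfl, Submodule.zero_mem _, map_zero _, fun v _ => Submodule.zero_mem _,
      fun v _ => by rw [Pi.zero_apply, map_zero, map_zero]⟩
  have := val_lin h0 h hp (0 : k) (by rw [zero_smul, zero_add]) (b₁ := 0) (b₂ := p.1.2)
    (b₃ := p.1.2) (fun v _ => by rw [zero_smul, zero_add])
  rw [zero_mul, zero_add] at this
  exact this

/-- **Main statement.** A functional on the cone 3-cochains which is given by the local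
invariants on every class whose global part dies after adding ramification. -/
theorem exists_functional :
    ∃ Λ : (C3 × (∀ v, L2 v)) →ₗ[k] k,
      ∀ (T : Finset ι) (u : C2) (b bur : ∀ v, L2 v), D.S ⊆ T → u ∈ D.lev T →
        (∀ v ∈ T \ D.S, bur v ∈ D.ur v) →
        (∀ v ∈ T \ D.S, D.dL2 v (bur v) = D.res3 v (D.d u)) →
        Λ (D.d u, b) = ∑ v ∈ D.S, D.lam v (b v) + ∑ v ∈ T \ D.S, D.lam v (bur v)
          - ∑ v ∈ T, D.lam v (D.res2 v u) := by
  obtain ⟨Λ, hΛ⟩ := LinearMap.exists_extend (lamW D)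
  refine ⟨Λ, fun T u b bur hT hu h1 h2 => ?_⟩
  have hw : IsWitness D (D.d u) T u bur := ⟨hT, hu, rfl, h1, h2⟩
  have hmem : (D.d u, b) ∈ W D := ⟨T, u, bur, hw⟩
  have h3 : Λ (D.d u, b) = lamW D ⟨(D.d u, b), hmem⟩ := by
    rw [← hΛ]; rfl
  rw [h3, lamW_apply D ⟨(D.d u, b), hmem⟩ hw]
  rfl

/-- Consequences in the shape used by the cone machine: `Λ` kills cone coboundaries and is the
sum of the local functionals on local classes. -/
theorem exists_functional' :
    ∃ Λ : (C3 × (∀ v, L2 v)) →ₗ[k] k,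
      (∀ (T : Finset ι) (u : C2) (b bur : ∀ v, L2 v), D.S ⊆ T → u ∈ D.lev T →
        (∀ v ∈ T \ D.S, bur v ∈ D.ur v) →
        (∀ v ∈ T \ D.S, D.dL2 v (bur v) = D.res3 v (D.d u)) →
        Λ (D.d u, b) = ∑ v ∈ D.S, D.lam v (b v) + ∑ v ∈ T \ D.S, D.lam v (bur v)
          - ∑ v ∈ T, D.lam v (D.res2 v u)) ∧
      (∀ (c : C2) (e : ∀ v, L1 v) (b : ∀ v, L2 v), c ∈ D.lev D.S →
        (∀ v ∈ D.S, b v = D.res2 v c - D.dL1 v (e v)) → Λ (D.d c, b) = 0) ∧
      (∀ b : ∀ v, L2 v, Λ (0, b) = ∑ v ∈ D.S, D.lam v (b v)) := by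
  obtain ⟨Λ, hΛ⟩ := exists_functional D
  refine ⟨Λ, hΛ, ?_, ?_⟩
  · intro c e b hc hb
    have := hΛ D.S c b 0 subset_rfl hc (by simp) (by simp)
    rw [this]
    simp only [sdiff_self, bot_eq_empty, sum_empty, add_zero]
    rw [← sum_sub_distrib]
    refine sum_eq_zero fun v hv => ?_
    rw [hb v hv, map_sub, D.lam_dL1, sub_zero, sub_self]
  · intro b
    have := hΛ D.S 0 b 0 subset_rfl (Submodule.zero_mem _) (by simp) (by simp)
    rw [map_zero] at this
    rw [this]
    simp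

end Fermat.Agent.S55.LamW
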