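import Fermat.Agent.S55.Abs.TopLA

/-!
# S55 / abstract layer: the two four-lemmas for pairings

Over a field `k`, a pairing `X × X' → k` is *mono* if its left kernel is trivial and *epi* if
every functional on `X'` is represented by an element of `X` (no finiteness anywhere).

Data: a sequence `A → B → C → D` (maps `f g h`), a sequence `D' → C' → B' → A'` (maps `h' g' f'`),
pairings `α β γ δ` with the adjunctions `β (f a) b' = α a (f' b')` etc.

* `mono_of_four` : `α` epi, `β` mono, `δ` mono  ⟹  `γ` mono;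
* `epi_of_four`  : `α` epi, `γ` epi, `δ` mono  ⟹  `β` epi.

These are the dévissage steps of the cone machine (`a₁` epi + `a₂` mono is closed under
extensions; `a₂` epi for a submodule of a coinduced module).
-/

set_option autoImplicit false

namespace Fermat.Agent.S55.Abs.PairingFour

open Fermat.Agent.S55.Abs.TopLA

variable {k : Type*} [Field k]
  {A B C D A' B' C' D' : Type*}
  [AddCommGroup A] [Module k A] [AddCommGroup B] [Module k B]
  [AddCommGroup C] [Module k C] [AddCommGroup D] [Module k D]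
  [AddCommGroup A'] [Module k A'] [AddCommGroup B'] [Module k B']
  [AddCommGroup C'] [Module k C'] [AddCommGroup D'] [Module k D']

/-- mono four-lemma for pairings -/
theorem mono_of_four
    (f : A →ₗ[k] B) (g : B →ₗ[k] C) (h : C →ₗ[k] D)
    (f' : B' →ₗ[k] A') (g' : C' →ₗ[k] B') (h' : D' →ₗ[k] C')
    (α : A →ₗ[k] A' →ₗ[k] k) (β : B →ₗ[k] B' →ₗ[k] k) (γ : C →ₗ[k] C' →ₗ[k] k)
    (δ : D →ₗ[k] D' →ₗ[k] k)
    (hgf : ∀ a, g (f a) = 0)
    (hC : ∀ c, h c = 0 → ∃ b, g b = c)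
    (hB' : ∀ b', f' b' = 0 → ∃ c', g' c' = b')
    (adj_f : ∀ a b', β (f a) b' = α a (f' b'))
    (adj_g : ∀ b c', γ (g b) c' = β b (g' c'))
    (adj_h : ∀ c d', δ (h c) d' = γ c (h' d'))
    (hα : ∀ φ : A' →ₗ[k] k, ∃ a, ∀ a', α a a' = φ a')
    (hβ : ∀ b, (∀ b', β b b' = 0) → b = 0)
    (hδ : ∀ d, (∀ d', δ d d' = 0) → d = 0) :
    ∀ c, (∀ c', γ c c' = 0) → c = 0 := by
  intro c hc
  have h1 : h c = 0 := hδ _ (fun d' => by rw [adj_h, hc])
  obtain ⟨b, rfl⟩ := hC c h1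
  have hvan : ∀ b', f' b' = 0 → β b b' = 0 := by
    intro b' hb'
    obtain ⟨c', rfl⟩ := hB' b' hb'
    rw [← adj_g, hc]
  obtain ⟨φ, hφ⟩ := exists_factor f' (β b) hvan
  obtain ⟨a, ha⟩ := hα φ
  have h2 : b - f a = 0 := by
    apply hβ
    intro b'
    rw [map_sub, LinearMap.sub_apply, adj_f, ha, hφ, sub_self]
  rw [sub_eq_zero.mp h2, hgf]

/-- epi four-lemma for pairings -/
theorem epi_of_four
    (f : A →ₗ[k] B) (g : B →ₗ[k] C) (h : C →ₗ[k] D)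
    (f' : B' →ₗ[k] A') (g' : C' →ₗ[k] B') (h' : D' →ₗ[k] C')
    (α : A →ₗ[k] A' →ₗ[k] k) (β : B →ₗ[k] B' →ₗ[k] k) (γ : C →ₗ[k] C' →ₗ[k] k)
    (δ : D →ₗ[k] D' →ₗ[k] k)
    (hC : ∀ c, h c = 0 → ∃ b, g b = c)
    (hg'h' : ∀ d', g' (h' d') = 0)
    (hB' : ∀ b', f' b' = 0 → ∃ c', g' c' = b')
    (adj_f : ∀ a b', β (f a) b' = α a (f' b'))
    (adj_g : ∀ b c', γ (g b) c' = β b (g' c'))
    (adj_h : ∀ c d', δ (h c) d' = γ c (h' d'))
    (hα : ∀ φ : A' →ₗ[k] k, ∃ a, ∀ a', α a a' = φ a')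
    (hγ : ∀ φ : C' →ₗ[k] k, ∃ c, ∀ c', γ c c' = φ c')
    (hδ : ∀ d, (∀ d', δ d d' = 0) → d = 0) :
    ∀ ψ : B' →ₗ[k] k, ∃ b, ∀ b', β b b' = ψ b' := by
  intro ψ
  obtain ⟨c, hc⟩ := hγ (ψ.comp g')
  have h1 : h c = 0 := hδ _ (fun d' => by
    rw [adj_h, hc, LinearMap.comp_apply, hg'h', map_zero])
  obtain ⟨b₀, rfl⟩ := hC c h1
  have hvan : ∀ b', f' b' = 0 → (ψ - β b₀) b' = 0 := by
    intro b' hb'
    obtain ⟨c', rfl⟩ := hB' b' hb'
    rw [LinearMap.sub_apply, ← adj_g, hc, LinearMap.comp_apply, sub_self]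
  obtain ⟨φ, hφ⟩ := exists_factor f' (ψ - β b₀) hvan
  obtain ⟨a, ha⟩ := hα φ
  refine ⟨b₀ + f a, fun b' => ?_⟩
  rw [map_add, LinearMap.add_apply, adj_f, ha, hφ, LinearMap.sub_apply]
  ring

/-- a pairing that is epi has trivial right kernel -/
theorem right_kernel_of_epi {X X' : Type*} [AddCommGroup X] [Module k X] [AddCommGroup X']
    [Module k X'] (β : X →ₗ[k] X' →ₗ[k] k) (hβ : ∀ φ : X' →ₗ[k] k, ∃ x, ∀ x', β x x' = φ x') :
    ∀ y, (∀ x, β x y = 0) → y = 0 := by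
  intro y hy
  rw [← Module.forall_dual_apply_eq_zero_iff k y]
  intro φ
  obtain ⟨x, hx⟩ := hβ φ
  rw [← hx, hy]

end Fermat.Agent.S55.Abs.PairingFour
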