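/-
S55 / PROGRAM CFT, abstract layer: glue of `Abs.H1`, `Abs.H2` (level cohomology of the global
level family of `S`) with the Prelude's `sha₁`, `sha₂`.

* `sha₁_embedding` : `Ш¹_S(N)` (Prelude) embeds into `H1 (globalLevel S) N` with image the range
  of `fgt1` (classes of level-`S` cocycles which are coboundaries on every local group at the
  finite places of `S`; the archimedean condition is empty for odd `p`).
* `sha₂_embedding` : the same in degree 2.

These are the statements `exists_sha₁_embedding`, `exists_sha₂_embedding` of `Abs/Top.lean`,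
verbatim.
-/
import Fermat.Agent.S55.Abs.Bridge
import Fermat.Agent.S55.Abs.SymmTop
import Fermat.Agent.S55.Glue.ArchInert
import Fermat.Agent.S55.Glue.LocalRange

set_option autoImplicit false

open CategoryTheory groupCohomology ExtCitation

namespace Fermat.Agent.S55.Abs.TopGlueSymm

open Fermat.Agent.S55.Abs

section Deg1

variable {k : Type} [Field k] {G : Type} [Group G] (𝒰 : LevelFamily G) (N : Rep.{0} k G)

/-- The inclusion of level cocycles into all cocycles. -/
def toCocycles₁ : ↥(Z1 𝒰 N) →ₗ[k] ↥(cocycles₁ N) := Submodule.inclusion inf_le_right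

@[simp] lemma toCocycles₁_coe (x : ↥(Z1 𝒰 N)) : ((toCocycles₁ 𝒰 N x : ↥(cocycles₁ N)) : G → N) = x :=
  rfl

/-- The forgetful map from level cohomology to Mathlib's `H¹`. -/
noncomputable def toH1 : Abs.H1 𝒰 N →ₗ[k] groupCohomology.H1 N :=
  Submodule.liftQ _ ((H1π N).hom ∘ₗ toCocycles₁ 𝒰 N) (by
    intro x hx
    rw [LinearMap.mem_ker, LinearMap.comp_apply]
    exact (H1π_eq_zero_iff _).2 hx)

@[simp] lemma toH1_mk (x : ↥(Z1 𝒰 N)) :
    toH1 𝒰 N (Submodule.Quotient.mk x) = (H1π N).hom (toCocycles₁ 𝒰 N x) := rfl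

lemma toH1_injective : Function.Injective (toH1 𝒰 N) := by
  rw [← LinearMap.ker_eq_bot, Submodule.eq_bot_iff]
  intro y hy
  obtain ⟨x, rfl⟩ := Submodule.Quotient.mk_surjective _ y
  rw [LinearMap.mem_ker, toH1_mk] at hy
  rw [Submodule.Quotient.mk_eq_zero, Submodule.mem_comap]
  exact (H1π_eq_zero_iff _).1 hy

end Deg1

section Sha1

variable {k : Type} [Field k] (S : Finset Nat.Primes) (N : Rep.{0} k GQ)

theorem toH1_mem_continuousH1S (y : Abs.H1 (globalLevel S) N) :
    toH1 (globalLevel S) N y ∈ continuousH1S S N := by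
  obtain ⟨x, rfl⟩ := Submodule.Quotient.mk_surjective _ y
  rw [toH1_mk]
  exact (mem_continuousH1S_iff S N _).2
    ⟨toCocycles₁ _ N x, (isLevelConstantS₁_iff S _).2 x.2.1, rfl⟩

theorem exists_toH1_eq {x : groupCohomology.H1 N} (hx : x ∈ continuousH1S S N) :
    ∃ y, toH1 (globalLevel S) N y = x := by
  obtain ⟨c, hc, rfl⟩ := (mem_continuousH1S_iff S N x).1 hx
  exact ⟨Submodule.Quotient.mk ⟨c.1, (isLevelConstantS₁_iff S _).1 hc, c.2⟩, rfl⟩

/-- The local condition of `sha₁` at a finite place, on a level cocycle. -/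
theorem locRes_toH1_mk_eq_zero_iff (q : ↥S) (x : ↥(Z1 (globalLevel S) N)) :
    (locRes (extArithLoc S) N (Sum.inr q)).hom (toH1 (globalLevel S) N (Submodule.Quotient.mk x))
        = 0 ↔
      res₁ (fun q : ↥S => primeLocalToGlobal q.1) N q x.1 ∈
        coboundaries₁ (Rep.res (primeLocalToGlobal q.1) N) := by
  rw [toH1_mk]
  have h := Glue.LocalRange.map_H1π_eq_zero_iff (primeLocalToGlobal q.1) N
    (toCocycles₁ (globalLevel S) N x)
  refine Iff.trans (by exact h) ?_
  have e : ∀ (m : N) (g : primeLocalGaloisGroup q.1),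
      (d₀₁ (Rep.res (primeLocalToGlobal q.1) N)).hom m g
        = N.ρ (primeLocalToGlobal q.1 g) m - m := fun _ _ => rfl
  constructor
  · rintro ⟨m, hm⟩
    refine ⟨m, ?_⟩
    funext g
    have := hm (primeLocalToGlobal q.1 g) ⟨g, rfl⟩
    rw [e]
    exact this.symm
  · rintro ⟨m, hm⟩
    refine ⟨m, ?_⟩
    rintro _ ⟨g, rfl⟩
    have := congrFun hm g
    rw [e] at this
    exact this.symm

end Sha1

section Main1

variable {p : ℕ} [Fact p.Prime]

/-- **Glue with the Prelude, degree 1** (statement of `Abs/Top.lean`, verbatim). -/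
theorem sha₁_embedding (hp2 : p ≠ 2) (S : Finset Nat.Primes) (N : Rep.{0} (ZMod p) GQ) :
    ∃ i1 : ↥(sha₁ S N) →ₗ[ZMod p] Abs.H1 (globalLevel S) N, Function.Injective i1 ∧
      ∀ y, y ∈ LinearMap.range
          (fgt1 (globalLevel S) (fun q : ↥S => primeLocalToGlobal q.1) N) ↔ ∃ v, i1 v = y := by
  have h2 : IsUnit (2 : ZMod p) := Glue.isUnit_two_zmod hp2
  set j := toH1 (globalLevel S) N with hj
  have hjinj : Function.Injective j := toH1_injective _ N
  let e := LinearEquiv.ofInjective j hjinj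
  have hle : sha₁ S N ≤ LinearMap.range j := by
    intro x hx
    obtain ⟨y, hy⟩ := exists_toH1_eq S N
      ((Glue.mem_sha₁_iff_of_isUnit_two S h2 N x).1 hx).1
    exact ⟨y, hy⟩
  let i1 : ↥(sha₁ S N) →ₗ[ZMod p] Abs.H1 (globalLevel S) N :=
    e.symm.toLinearMap ∘ₗ Submodule.inclusion hle
  have hi1 : ∀ v : ↥(sha₁ S N), j (i1 v) = (v : groupCohomology.H1 N) := by
    intro v
    have := e.apply_symm_apply (Submodule.inclusion hle v)
    exact congrArg Subtype.val this
  refine ⟨i1, ?_, ?_⟩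
  · intro v w hvw
    apply Subtype.ext
    rw [← hi1 v, ← hi1 w, hvw]
  · intro y
    constructor
    · rintro ⟨x, rfl⟩
      obtain ⟨x, rfl⟩ := Submodule.Quotient.mk_surjective _ x
      rw [fgt1_mk]
      have hmem : j (Submodule.Quotient.mk ⟨x.1.1, x.2.1⟩) ∈ sha₁ S N := by
        rw [Glue.mem_sha₁_iff_of_isUnit_two S h2 N]
        refine ⟨toH1_mem_continuousH1S S N _, fun q => ?_⟩
        rw [hj, locRes_toH1_mk_eq_zero_iff]
        exact ⟨x.1.2 q, (x.2.2 q).symm⟩
      refine ⟨⟨_, hmem⟩, ?_⟩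
      apply hjinj
      rw [hi1]
    · rintro ⟨v, rfl⟩
      obtain ⟨x, hx⟩ := Submodule.Quotient.mk_surjective _ (i1 v)
      have hv := (Glue.mem_sha₁_iff_of_isUnit_two S h2 N (v : groupCohomology.H1 N)).1 v.2
      have hres : ∀ q : ↥S, res₁ (fun q : ↥S => primeLocalToGlobal q.1) N q x.1 ∈
          coboundaries₁ (Rep.res (primeLocalToGlobal q.1) N) := by
        intro q
        rw [← locRes_toH1_mk_eq_zero_iff]
        have h3 := hv.2 q
        rw [← hi1 v, ← hx] at h3
        exact h3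
      obtain ⟨z, hz⟩ := exists_fgt1_eq (globalLevel S) (fun q : ↥S => primeLocalToGlobal q.1) N
        x.2 hres
      exact ⟨z, by rw [hz, ← hx]⟩

end Main1

section Sha2

variable {k : Type} [Field k] (S : Finset Nat.Primes) (M : Rep.{0} k GQ)

theorem levelCocyclesS₂_le_Z2 : levelCocyclesS₂ S M ≤ Z2 (globalLevel S) M := fun f hf =>
  ⟨(isLevelConstantS₂_iff S f).1 hf.2, hf.1⟩

theorem mem_B2_iff_mem_levelCoboundariesS₂ (f : GQ × GQ → M) :
    f ∈ B2 (globalLevel S) M ↔ f ∈ levelCoboundariesS₂ S M := by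
  rw [mem_levelCoboundariesS₂_iff]
  constructor
  · rintro ⟨x, hx, rfl⟩
    exact ⟨x, (isLevelConstantS₁_iff S x).2 hx, rfl⟩
  · rintro ⟨x, hx, rfl⟩
    exact ⟨x, (isLevelConstantS₁_iff S x).1 hx, rfl⟩

/-- The comparison map `continuousH2S S M → H2 (globalLevel S) M` (an isomorphism). -/
noncomputable def ofH2S : continuousH2S S M →ₗ[k] Abs.H2 (globalLevel S) M :=
  Submodule.mapQ _ _ (Submodule.inclusion (levelCocyclesS₂_le_Z2 S M)) (by
    intro c hc
    rw [Submodule.mem_comap] at hc ⊢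
    exact (mem_B2_iff_mem_levelCoboundariesS₂ S M _).2 hc)

@[simp] lemma ofH2S_mk (c : ↥(levelCocyclesS₂ S M)) :
    ofH2S S M (continuousH2Sπ S M c) =
      Submodule.Quotient.mk ⟨c.1, levelCocyclesS₂_le_Z2 S M c.2⟩ := rfl

lemma ofH2S_injective : Function.Injective (ofH2S S M) := by
  rw [← LinearMap.ker_eq_bot, Submodule.eq_bot_iff]
  intro x hx
  obtain ⟨c, rfl⟩ := Submodule.mkQ_surjective _ x
  rw [LinearMap.mem_ker] at hx
  change ofH2S S M (continuousH2Sπ S M c) = 0 at hx
  rw [ofH2S_mk, Submodule.Quotient.mk_eq_zero, Submodule.mem_comap] at hx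
  change continuousH2Sπ S M c = 0
  rw [continuousH2Sπ_eq_zero_iff]
  exact (mem_B2_iff_mem_levelCoboundariesS₂ S M _).1 hx

/-- The local condition of `sha₂` at a finite place, on a level cocycle. -/
theorem locRes₂S_mk_eq_zero_iff_mem_B2 (q : ↥S) (c : ↥(levelCocyclesS₂ S M)) :
    locRes₂S S M (primeLocalToGlobal q.1) (continuousH2Sπ S M c) = 0 ↔
      res₂ (fun q : ↥S => primeLocalToGlobal q.1) M q c.1 ∈
        B2 (localLevel (primeLocalToGlobal q.1)) (Rep.res (primeLocalToGlobal q.1) M) := by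
  rw [Glue.LocalRange.locRes₂S_mk_eq_zero_iff]
  have e : ∀ (y : primeLocalGaloisGroup q.1 → M) (g h : primeLocalGaloisGroup q.1),
      (d₁₂ (Rep.res (primeLocalToGlobal q.1) M)).hom y (g, h)
        = M.ρ (primeLocalToGlobal q.1 g) (y h) - y (g * h) + y g := fun _ _ _ => rfl
  constructor
  · rintro ⟨y, hy, hd⟩
    refine ⟨y, (isLevelConstant₁_iff (primeLocalToGlobal q.1) y).1 hy, ?_⟩
    funext ⟨g, h⟩
    rw [e]
    exact (hd g h).symm
  · rintro ⟨y, hy, hd⟩
    refine ⟨y, (isLevelConstant₁_iff (primeLocalToGlobal q.1) y).2 hy, fun g h => ?_⟩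
    have := congrFun hd (g, h)
    rw [e] at this
    exact this.symm

end Sha2

section Main2

variable {p : ℕ} [Fact p.Prime]

/-- **Glue with the Prelude, degree 2** (statement of `Abs/Top.lean`, verbatim). -/
theorem sha₂_embedding (hp2 : p ≠ 2) (S : Finset Nat.Primes) (M : Rep.{0} (ZMod p) GQ) :
    ∃ i2 : ↥(sha₂ S M) →ₗ[ZMod p] Abs.H2 (globalLevel S) M, Function.Injective i2 ∧
      ∀ z, z ∈ LinearMap.range
          (fgt2 (globalLevel S) (fun q : ↥S => primeLocalToGlobal q.1)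
            (fun q : ↥S => localLevel (primeLocalToGlobal q.1)) M) ↔ ∃ v, i2 v = z := by
  have h2 : IsUnit (2 : ZMod p) := Glue.isUnit_two_zmod hp2
  refine ⟨ofH2S S M ∘ₗ (sha₂ S M).subtype, ?_, ?_⟩
  · exact (ofH2S_injective S M).comp Subtype.val_injective
  · intro z
    constructor
    · rintro ⟨x, rfl⟩
      obtain ⟨x, rfl⟩ := Submodule.Quotient.mk_surjective _ x
      rw [fgt2_mk]
      let c : ↥(levelCocyclesS₂ S M) :=
        ⟨x.1.1, x.2.1.2, (isLevelConstantS₂_iff S x.1.1).2 x.2.1.1⟩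
      have hmem : continuousH2Sπ S M c ∈ sha₂ S M := by
        rw [Glue.mem_sha₂_iff_of_isUnit_two S h2 M]
        intro q
        rw [locRes₂S_mk_eq_zero_iff_mem_B2]
        exact ⟨x.1.2 q, (x.2.2 q).1, (x.2.2 q).2.symm⟩
      exact ⟨⟨_, hmem⟩, rfl⟩
    · rintro ⟨v, rfl⟩
      obtain ⟨c, hc⟩ := Submodule.mkQ_surjective _ (v : continuousH2S S M)
      have hc' : continuousH2Sπ S M c = (v : continuousH2S S M) := hc
      have hv := (Glue.mem_sha₂_iff_of_isUnit_two S h2 M (v : continuousH2S S M)).1 v.2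
      have hres : ∀ q : ↥S, res₂ (fun q : ↥S => primeLocalToGlobal q.1) M q c.1 ∈
          B2 (localLevel (primeLocalToGlobal q.1)) (Rep.res (primeLocalToGlobal q.1) M) := by
        intro q
        rw [← locRes₂S_mk_eq_zero_iff_mem_B2, hc']
        exact hv q
      obtain ⟨w, hw⟩ := exists_fgt2_eq (globalLevel S) (fun q : ↥S => primeLocalToGlobal q.1)
        (fun q : ↥S => localLevel (primeLocalToGlobal q.1)) M (levelCocyclesS₂_le_Z2 S M c.2) hres
      refine ⟨w, ?_⟩
      rw [hw, LinearMap.comp_apply, Submodule.subtype_apply, ← hc', ofH2S_mk]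

end Main2

end Fermat.Agent.S55.Abs.TopGlueSymm
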